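import Mathlib
import Fermat.Agent.BAD.NodalRiemann
import Fermat.Agent.Lib.FF.RRNonSpecial

/-!
# (RC-1c) General position on a nodal curve with two components

`F₁`, `F₂` function fields of one variable over an infinite field `K` (setting `IsFF1`), glued
along the pairs of places `(e₁ i, e₂ i)`; `G(D₁, D₂) = NodalRiemann.gluedSpace e₁ e₂ 1 D₁ D₂`.

* `finite_gluedSpace` : `G(D₁, D₂)` is finite-dimensional.
* `finrank_add_one_le_fst`, `finrank_add_one_le_snd` : a place at which a new section appears for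
  `(D₁, D₂)` still gives a new section for every bigger pair with the same multiplicity there.
* **`exists_nonspecial`** : for `n + 1 ≤ g₁ + g₂ + #nodes` and finite sets `S₁`, `S₂` of places
  there are finite sets `T₁`, `T₂` of places, off `S₁`, `S₂` and off the nodes, with
  `#T₁ + #T₂ = n` and `G(∑ T₁, ∑ T₂) = G(0, 0)`.
* **`exists_nonspecial_genus`** : the same with `#T₁ + #T₂ + 1 = g₁ + g₂ + #nodes`
  (`g₁ + g₂ + #nodes - 1` is the arithmetic genus): a non-special effective divisor of degree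
  the arithmetic genus, supported at distinct smooth points.

No duality: greedy choice, the jump places being controlled by Riemann's theorem in large degree
on the nodal curve (`NodalRiemann.exists_finrank_gluedSpace`).
-/

set_option autoImplicit false
set_option linter.style.haveILetI false

noncomputable section

namespace Fermat.Agent.Padic.S33.RC.NodalGenPos

open AlgebraicCurve WithZero Module Fermat.Agent.Lib.FF Fermat.Agent.BAD.NodalRiemann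

variable {K : Type*} [Field K]
variable {F₁ F₂ : Type*} [Field F₁] [Field F₂] [Algebra K F₁] [Algebra K F₂]
variable {ι : Type*} {x₁ : F₁} {x₂ : F₂}

/-- The glued spaces are finite-dimensional. -/
theorem finite_gluedSpace (h₁ : IsFF1 K F₁ x₁) (h₂ : IsFF1 K F₂ x₂) (e₁ : ι → Place K F₁)
    (e₂ : ι → Place K F₂) (μ : ι → K) (D₁ : Divisor K F₁) (D₂ : Divisor K F₂) :
    Module.Finite K (gluedSpace e₁ e₂ μ D₁ D₂) := by
  haveI := h₁.finite_L D₁
  haveI := h₂.finite_L D₂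
  let φ : gluedSpace e₁ e₂ μ D₁ D₂ →ₗ[K] (riemannRochSpace D₁ × riemannRochSpace D₂) :=
    { toFun := fun p => (⟨p.1.1, p.2.1⟩, ⟨p.1.2, p.2.2.1⟩)
      map_add' := fun _ _ => rfl
      map_smul' := fun _ _ => rfl }
  have hφ : Function.Injective φ := by
    intro p q hpq
    have h1 : (p : F₁ × F₂).1 = (q : F₁ × F₂).1 := congrArg (fun z => (z.1 : F₁)) hpq
    have h2 : (p : F₁ × F₂).2 = (q : F₁ × F₂).2 := congrArg (fun z => (z.2 : F₂)) hpq
    exact Subtype.ext (Prod.ext h1 h2)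
  exact Module.Finite.of_injective φ hφ

/-- If a new section appears at `Q` (first component) for `(D₁, D₂)`, one also appears for every
bigger pair with the same multiplicity at `Q`. -/
theorem finrank_add_one_le_fst (h₁ : IsFF1 K F₁ x₁) (h₂ : IsFF1 K F₂ x₂)
    {e₁ : ι → Place K F₁} {e₂ : ι → Place K F₂} {μ : ι → K} {D₁ D₁' : Divisor K F₁}
    {D₂ D₂' : Divisor K F₂} (hle₁ : D₁ ≤ D₁') (hle₂ : D₂ ≤ D₂') {Q : Place K F₁}
    (hQ : D₁' Q = D₁ Q)
    (hj : gluedSpace e₁ e₂ μ (RR.addPl D₁ Q) D₂ ≠ gluedSpace e₁ e₂ μ D₁ D₂) :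
    finrank K (gluedSpace e₁ e₂ μ D₁' D₂') + 1
      ≤ finrank K (gluedSpace e₁ e₂ μ (RR.addPl D₁' Q) D₂') := by
  haveI := finite_gluedSpace h₁ h₂ e₁ e₂ μ (RR.addPl D₁' Q) D₂'
  have hex : ∃ g ∈ gluedSpace e₁ e₂ μ (RR.addPl D₁ Q) D₂, g ∉ gluedSpace e₁ e₂ μ D₁ D₂ := by
    by_contra hcon
    push Not at hcon
    exact hj (le_antisymm hcon (gluedSpace_mono (RR.le_addPl D₁ Q) le_rfl))
  obtain ⟨g, hg, hg'⟩ := hex
  have hg1 : g.1 ∉ riemannRochSpace D₁ := fun h => hg' ⟨h, hg.2.1, hg.2.2⟩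
  have hval := RR.val_eq_of_mem_of_notMem D₁ hg.1 hg1
  have hgmem : g ∈ gluedSpace e₁ e₂ μ (RR.addPl D₁' Q) D₂' :=
    gluedSpace_mono (add_le_add_left hle₁ _) hle₂ hg
  have hgnot : g ∉ gluedSpace e₁ e₂ μ D₁' D₂' := by
    intro h
    have h1 := h.1 Q
    rw [hval, hQ, exp_le_exp] at h1
    omega
  have hlt : gluedSpace e₁ e₂ μ D₁' D₂' < gluedSpace e₁ e₂ μ (RR.addPl D₁' Q) D₂' :=
    lt_of_le_of_ne (gluedSpace_mono (RR.le_addPl D₁' Q) le_rfl) (fun heq => hgnot (heq ▸ hgmem))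
  exact Nat.succ_le_of_lt (Submodule.finrank_lt_finrank_of_lt hlt)

/-- The same on the second component. -/
theorem finrank_add_one_le_snd (h₁ : IsFF1 K F₁ x₁) (h₂ : IsFF1 K F₂ x₂)
    {e₁ : ι → Place K F₁} {e₂ : ι → Place K F₂} {μ : ι → K} {D₁ D₁' : Divisor K F₁}
    {D₂ D₂' : Divisor K F₂} (hle₁ : D₁ ≤ D₁') (hle₂ : D₂ ≤ D₂') {Q : Place K F₂}
    (hQ : D₂' Q = D₂ Q)
    (hj : gluedSpace e₁ e₂ μ D₁ (RR.addPl D₂ Q) ≠ gluedSpace e₁ e₂ μ D₁ D₂) :
    finrank K (gluedSpace e₁ e₂ μ D₁' D₂') + 1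
      ≤ finrank K (gluedSpace e₁ e₂ μ D₁' (RR.addPl D₂' Q)) := by
  haveI := finite_gluedSpace h₁ h₂ e₁ e₂ μ D₁' (RR.addPl D₂' Q)
  have hex : ∃ g ∈ gluedSpace e₁ e₂ μ D₁ (RR.addPl D₂ Q), g ∉ gluedSpace e₁ e₂ μ D₁ D₂ := by
    by_contra hcon
    push Not at hcon
    exact hj (le_antisymm hcon (gluedSpace_mono le_rfl (RR.le_addPl D₂ Q)))
  obtain ⟨g, hg, hg'⟩ := hex
  have hg1 : g.2 ∉ riemannRochSpace D₂ := fun h => hg' ⟨hg.1, h, hg.2.2⟩
  have hval := RR.val_eq_of_mem_of_notMem D₂ hg.2.1 hg1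
  have hgmem : g ∈ gluedSpace e₁ e₂ μ D₁' (RR.addPl D₂' Q) :=
    gluedSpace_mono hle₁ (add_le_add_left hle₂ _) hg
  have hgnot : g ∉ gluedSpace e₁ e₂ μ D₁' D₂' := by
    intro h
    have h1 := h.2.1 Q
    rw [hval, hQ, exp_le_exp] at h1
    omega
  have hlt : gluedSpace e₁ e₂ μ D₁' D₂' < gluedSpace e₁ e₂ μ D₁' (RR.addPl D₂' Q) :=
    lt_of_le_of_ne (gluedSpace_mono le_rfl (RR.le_addPl D₂' Q)) (fun heq => hgnot (heq ▸ hgmem))
  exact Nat.succ_le_of_lt (Submodule.finrank_lt_finrank_of_lt hlt)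

/-- Adding finitely many jump places of the first component. -/
theorem finrank_add_card_le_fst (h₁ : IsFF1 K F₁ x₁) (h₂ : IsFF1 K F₂ x₂)
    {e₁ : ι → Place K F₁} {e₂ : ι → Place K F₂} {μ : ι → K} (D₁ : Divisor K F₁)
    (D₂ : Divisor K F₂) (U : Finset (Place K F₁))
    (hU : ∀ Q ∈ U, gluedSpace e₁ e₂ μ (RR.addPl D₁ Q) D₂ ≠ gluedSpace e₁ e₂ μ D₁ D₂) :
    finrank K (gluedSpace e₁ e₂ μ D₁ D₂) + U.card
      ≤ finrank K (gluedSpace e₁ e₂ μ (D₁ + RR.sumPl U) D₂) := by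
  classical
  induction U using Finset.induction_on with
  | empty =>
    have e : RR.sumPl (∅ : Finset (Place K F₁)) = 0 := RR.sumPl_empty
    rw [e, add_zero, Finset.card_empty, Nat.add_zero]
  | insert Q U' hQ ih =>
    have ih' := ih (fun w hw => hU w (Finset.mem_insert_of_mem hw))
    have hQ' : (D₁ + RR.sumPl U') Q = D₁ Q := by
      rw [Finsupp.add_apply, RR.sumPl_apply_of_notMem hQ, add_zero]
    have hstep := finrank_add_one_le_fst h₁ h₂ (e₁ := e₁) (e₂ := e₂) (μ := μ) (D₁ := D₁)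
      (D₁' := D₁ + RR.sumPl U') (D₂ := D₂) (D₂' := D₂)
      (le_add_of_nonneg_right (RR.sumPl_nonneg U')) le_rfl hQ'
      (hU Q (Finset.mem_insert_self Q U'))
    have heq : D₁ + RR.sumPl (insert Q U') = RR.addPl (D₁ + RR.sumPl U') Q := by
      rw [RR.sumPl_insert hQ, RR.addPl, RR.addPl, add_assoc]
    rw [heq, Finset.card_insert_of_notMem hQ]
    omega

/-- Adding finitely many jump places of the second component (relative to a smaller pair). -/
theorem finrank_add_card_le_snd (h₁ : IsFF1 K F₁ x₁) (h₂ : IsFF1 K F₂ x₂)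
    {e₁ : ι → Place K F₁} {e₂ : ι → Place K F₂} {μ : ι → K} {D₁ D₁' : Divisor K F₁}
    (hle₁ : D₁ ≤ D₁') (D₂ : Divisor K F₂) (V : Finset (Place K F₂))
    (hV : ∀ Q ∈ V, gluedSpace e₁ e₂ μ D₁ (RR.addPl D₂ Q) ≠ gluedSpace e₁ e₂ μ D₁ D₂) :
    finrank K (gluedSpace e₁ e₂ μ D₁' D₂) + V.card
      ≤ finrank K (gluedSpace e₁ e₂ μ D₁' (D₂ + RR.sumPl V)) := by
  classical
  induction V using Finset.induction_on with
  | empty =>
    have e : RR.sumPl (∅ : Finset (Place K F₂)) = 0 := RR.sumPl_empty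
    rw [e, add_zero, Finset.card_empty, Nat.add_zero]
  | insert Q V' hQ ih =>
    have ih' := ih (fun w hw => hV w (Finset.mem_insert_of_mem hw))
    have hQ' : (D₂ + RR.sumPl V') Q = D₂ Q := by
      rw [Finsupp.add_apply, RR.sumPl_apply_of_notMem hQ, add_zero]
    have hstep := finrank_add_one_le_snd h₁ h₂ (e₁ := e₁) (e₂ := e₂) (μ := μ) (D₁ := D₁)
      (D₁' := D₁') (D₂ := D₂) (D₂' := D₂ + RR.sumPl V') hle₁
      (le_add_of_nonneg_right (RR.sumPl_nonneg V')) hQ'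
      (hV Q (Finset.mem_insert_self Q V'))
    have heq : D₂ + RR.sumPl (insert Q V') = RR.addPl (D₂ + RR.sumPl V') Q := by
      rw [RR.sumPl_insert hQ, RR.addPl, RR.addPl, add_assoc]
    rw [heq, Finset.card_insert_of_notMem hQ]
    omega

/-- `dim G(0, 0) ≥ 1`. -/
theorem one_le_finrank_gluedSpace_zero [Nonempty ι] (h₁ : IsFF1 K F₁ x₁) (h₂ : IsFF1 K F₂ x₂)
    (e₁ : ι → Place K F₁) (e₂ : ι → Place K F₂) :
    1 ≤ finrank K (gluedSpace e₁ e₂ (fun _ => (1 : K)) (0 : Divisor K F₁) (0 : Divisor K F₂)) := by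
  haveI := finite_gluedSpace h₁ h₂ e₁ e₂ (fun _ => (1 : K)) (0 : Divisor K F₁)
    (0 : Divisor K F₂)
  have hmem : ((algebraMap K F₁ 1, algebraMap K F₂ 1) : F₁ × F₂)
      ∈ gluedSpace e₁ e₂ (fun _ => (1 : K)) (0 : Divisor K F₁) (0 : Divisor K F₂) :=
    (gluedSpace_zero_one h₁ h₂ e₁ e₂).mpr ⟨1, rfl⟩
  refine Nat.succ_le_of_lt (Module.finrank_pos_iff_exists_ne_zero.mpr ⟨⟨_, hmem⟩, ?_⟩)
  intro h0
  have h1 : ((algebraMap K F₁ 1, algebraMap K F₂ 1) : F₁ × F₂) = 0 := congrArg Subtype.val h0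
  have h2 : algebraMap K F₁ 1 = 0 := congrArg Prod.fst h1
  rw [map_one] at h2
  exact one_ne_zero h2

variable [Fintype ι]

/-- **General position on the nodal curve.**  For `n + 1 ≤ g₁ + g₂ + #nodes` there are finite
sets `T₁`, `T₂` of places, off the given finite sets `S₁`, `S₂` and off the nodes, with
`#T₁ + #T₂ = n`, such that `G(∑ T₁, ∑ T₂) = G(0, 0)`. -/
theorem exists_nonspecial [Infinite K] [Nonempty ι] (h₁ : IsFF1 K F₁ x₁) (h₂ : IsFF1 K F₂ x₂)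
    (e₁ : ι → Place K F₁) (e₂ : ι → Place K F₂) (he₂ : Function.Injective e₂)
    (S₁ : Finset (Place K F₁)) (S₂ : Finset (Place K F₂)) (n : ℕ)
    (hn : n + 1 ≤ genusFF K F₁ + genusFF K F₂ + Fintype.card ι) :
    ∃ (T₁ : Finset (Place K F₁)) (T₂ : Finset (Place K F₂)),
      Disjoint T₁ S₁ ∧ Disjoint T₂ S₂ ∧ (∀ i, e₁ i ∉ T₁) ∧ (∀ i, e₂ i ∉ T₂) ∧
      T₁.card + T₂.card = n ∧
      gluedSpace e₁ e₂ (fun _ => (1 : K)) (RR.sumPl T₁) (RR.sumPl T₂)
        = gluedSpace e₁ e₂ (fun _ => (1 : K)) 0 0 := by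
  classical
  haveI := h₁.infinite_place
  haveI := h₂.infinite_place
  induction n with
  | zero =>
    refine ⟨∅, ∅, Finset.disjoint_empty_left _, Finset.disjoint_empty_left _,
      fun i => Finset.notMem_empty _, fun i => Finset.notMem_empty _, rfl, ?_⟩
    rw [RR.sumPl_empty, RR.sumPl_empty]
  | succ n ih =>
    obtain ⟨T₁, T₂, hT₁S, hT₂S, hT₁e, hT₂e, hcard, hG⟩ := ih (by omega)
    by_cases hex₁ : ∃ Q : Place K F₁, Q ∉ S₁ ∧ Q ∉ T₁ ∧ (∀ i, e₁ i ≠ Q) ∧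
        gluedSpace e₁ e₂ (fun _ => (1 : K)) (RR.addPl (RR.sumPl T₁) Q) (RR.sumPl T₂)
          = gluedSpace e₁ e₂ (fun _ => (1 : K)) (RR.sumPl T₁) (RR.sumPl T₂)
    · obtain ⟨Q, hQS, hQT, hQe, hQG⟩ := hex₁
      refine ⟨insert Q T₁, T₂, ?_, hT₂S, fun i hi => ?_, hT₂e, ?_, ?_⟩
      · rw [Finset.disjoint_insert_left]
        exact ⟨hQS, hT₁S⟩
      · rcases Finset.mem_insert.mp hi with h | h
        · exact hQe i h
        · exact hT₁e i h
      · rw [Finset.card_insert_of_notMem hQT]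
        omega
      · rw [RR.sumPl_insert hQT, hQG, hG]
    by_cases hex₂ : ∃ Q : Place K F₂, Q ∉ S₂ ∧ Q ∉ T₂ ∧ (∀ i, e₂ i ≠ Q) ∧
        gluedSpace e₁ e₂ (fun _ => (1 : K)) (RR.sumPl T₁) (RR.addPl (RR.sumPl T₂) Q)
          = gluedSpace e₁ e₂ (fun _ => (1 : K)) (RR.sumPl T₁) (RR.sumPl T₂)
    · obtain ⟨Q, hQS, hQT, hQe, hQG⟩ := hex₂
      refine ⟨T₁, insert Q T₂, hT₁S, ?_, hT₁e, fun i hi => ?_, ?_, ?_⟩
      · rw [Finset.disjoint_insert_left]
        exact ⟨hQS, hT₂S⟩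
      · rcases Finset.mem_insert.mp hi with h | h
        · exact hQe i h
        · exact hT₂e i h
      · rw [Finset.card_insert_of_notMem hQT]
        omega
      · rw [RR.sumPl_insert hQT, hQG, hG]
    -- otherwise every admissible place is a jump place on both components: count
    exfalso
    push Not at hex₁ hex₂
    obtain ⟨c₀, hc₀⟩ := exists_finrank_gluedSpace h₁ h₂ e₁ e₂ he₂ (K := K)
    set N : ℕ := c₀.toNat with hN
    have hNc : c₀ ≤ (N : ℤ) := Int.self_le_toNat c₀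
    -- `N` admissible places on each component
    have hinf₁ : (((S₁ ∪ T₁ ∪ Finset.univ.image e₁ : Finset (Place K F₁)) :
        Set (Place K F₁))ᶜ).Infinite := (Finset.finite_toSet _).infinite_compl
    have hinf₂ : (((S₂ ∪ T₂ ∪ Finset.univ.image e₂ : Finset (Place K F₂)) :
        Set (Place K F₂))ᶜ).Infinite := (Finset.finite_toSet _).infinite_compl
    obtain ⟨U₁, hU₁sub, hU₁card⟩ := hinf₁.exists_subset_card_eq N
    obtain ⟨U₂, hU₂sub, hU₂card⟩ := hinf₂.exists_subset_card_eq N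
    have hU₁ : ∀ Q ∈ U₁, Q ∉ S₁ ∧ Q ∉ T₁ ∧ ∀ i, e₁ i ≠ Q := by
      intro Q hQ
      have h := hU₁sub hQ
      rw [Set.mem_compl_iff, Finset.mem_coe, Finset.mem_union, Finset.mem_union] at h
      push Not at h
      refine ⟨h.1.1, h.1.2, fun i hi => h.2 ?_⟩
      rw [← hi]
      exact Finset.mem_image_of_mem e₁ (Finset.mem_univ i)
    have hU₂ : ∀ Q ∈ U₂, Q ∉ S₂ ∧ Q ∉ T₂ ∧ ∀ i, e₂ i ≠ Q := by
      intro Q hQ
      have h := hU₂sub hQ
      rw [Set.mem_compl_iff, Finset.mem_coe, Finset.mem_union, Finset.mem_union] at h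
      push Not at h
      refine ⟨h.1.1, h.1.2, fun i hi => h.2 ?_⟩
      rw [← hi]
      exact Finset.mem_image_of_mem e₂ (Finset.mem_univ i)
    have hA := finrank_add_card_le_fst h₁ h₂ (e₁ := e₁) (e₂ := e₂) (μ := fun _ => (1 : K))
      (RR.sumPl T₁) (RR.sumPl T₂) U₁
      (fun Q hQ => hex₁ Q (hU₁ Q hQ).1 (hU₁ Q hQ).2.1 (hU₁ Q hQ).2.2)
    have hB := finrank_add_card_le_snd h₁ h₂ (e₁ := e₁) (e₂ := e₂) (μ := fun _ => (1 : K))
      (D₁ := RR.sumPl T₁) (D₁' := RR.sumPl T₁ + RR.sumPl U₁)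
      (le_add_of_nonneg_right (RR.sumPl_nonneg U₁)) (RR.sumPl T₂) U₂
      (fun Q hQ => hex₂ Q (hU₂ Q hQ).1 (hU₂ Q hQ).2.1 (hU₂ Q hQ).2.2)
    have h0 := one_le_finrank_gluedSpace_zero h₁ h₂ e₁ e₂ (K := K)
    rw [← hG] at h0
    -- Riemann's theorem for the big pair
    have hnode₁ : ∀ i, (RR.sumPl T₁ + RR.sumPl U₁) (e₁ i) ≤ 0 := by
      intro i
      have hiU : e₁ i ∉ U₁ := fun hi => (hU₁ _ hi).2.2 i rfl
      rw [Finsupp.add_apply, RR.sumPl_apply_of_notMem (hT₁e i), RR.sumPl_apply_of_notMem hiU,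
        add_zero]
    have hnode₂ : ∀ i, (RR.sumPl T₂ + RR.sumPl U₂) (e₂ i) = 0 := by
      intro i
      have hiU : e₂ i ∉ U₂ := fun hi => (hU₂ _ hi).2.2 i rfl
      rw [Finsupp.add_apply, RR.sumPl_apply_of_notMem (hT₂e i), RR.sumPl_apply_of_notMem hiU,
        add_zero]
    have hdeg₁ : Divisor.degree (RR.sumPl T₁ + RR.sumPl U₁) = (T₁.card : ℤ) + N := by
      rw [map_add, RR.degree_sumPl h₁.resK, RR.degree_sumPl h₁.resK, hU₁card]
    have hdeg₂ : Divisor.degree (RR.sumPl T₂ + RR.sumPl U₂) = (T₂.card : ℤ) + N := by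
      rw [map_add, RR.degree_sumPl h₂.resK, RR.degree_sumPl h₂.resK, hU₂card]
    have hR := hc₀ (fun _ => (1 : K)) (RR.sumPl T₁ + RR.sumPl U₁) (RR.sumPl T₂ + RR.sumPl U₂)
      (by rw [hdeg₁]; have := Int.natCast_nonneg T₁.card; linarith)
      (by rw [hdeg₂]; have := Int.natCast_nonneg T₂.card; linarith) hnode₁ hnode₂
    rw [hdeg₁, hdeg₂] at hR
    rw [hU₁card] at hA
    rw [hU₂card] at hB
    have hcount : (1 : ℤ) + N + N
        ≤ (finrank K (gluedSpace e₁ e₂ (fun _ => (1 : K)) (RR.sumPl T₁ + RR.sumPl U₁)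
          (RR.sumPl T₂ + RR.sumPl U₂)) : ℤ) := by
      have : 1 + N + N ≤ finrank K (gluedSpace e₁ e₂ (fun _ => (1 : K))
          (RR.sumPl T₁ + RR.sumPl U₁) (RR.sumPl T₂ + RR.sumPl U₂)) := by omega
      exact_mod_cast this
    have hcard' : (T₁.card : ℤ) + T₂.card = n := by exact_mod_cast hcard
    have hn' : ((n : ℤ) + 1) + 1 ≤ (genusFF K F₁ : ℤ) + genusFF K F₂ + Fintype.card ι := by
      exact_mod_cast hn
    linarith

/-- **A non-special effective divisor of degree the arithmetic genus** on the nodal curve,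
supported at distinct smooth points off given finite sets. -/
theorem exists_nonspecial_genus [Infinite K] [Nonempty ι] (h₁ : IsFF1 K F₁ x₁)
    (h₂ : IsFF1 K F₂ x₂) (e₁ : ι → Place K F₁) (e₂ : ι → Place K F₂)
    (he₂ : Function.Injective e₂) (S₁ : Finset (Place K F₁)) (S₂ : Finset (Place K F₂)) :
    ∃ (T₁ : Finset (Place K F₁)) (T₂ : Finset (Place K F₂)),
      Disjoint T₁ S₁ ∧ Disjoint T₂ S₂ ∧ (∀ i, e₁ i ∉ T₁) ∧ (∀ i, e₂ i ∉ T₂) ∧
      T₁.card + T₂.card + 1 = genusFF K F₁ + genusFF K F₂ + Fintype.card ι ∧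
      gluedSpace e₁ e₂ (fun _ => (1 : K)) (RR.sumPl T₁) (RR.sumPl T₂)
        = gluedSpace e₁ e₂ (fun _ => (1 : K)) 0 0 := by
  have hpos : 0 < Fintype.card ι := Fintype.card_pos
  obtain ⟨T₁, T₂, h1, h2, h3, h4, h5, h6⟩ := exists_nonspecial h₁ h₂ e₁ e₂ he₂ S₁ S₂
    (genusFF K F₁ + genusFF K F₂ + Fintype.card ι - 1) (by omega)
  exact ⟨T₁, T₂, h1, h2, h3, h4, by omega, h6⟩

end Fermat.Agent.Padic.S33.RC.NodalGenPos
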