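import Mathlib
import Fermat.Agent.BAD.NodalRiemann
import Fermat.Agent.Lib.FF.MultMap

/-!
# (RC-1) Multiplication and colon lemmas on a nodal curve with two components

`F₁`, `F₂` function fields of one variable over `K` (setting `IsFF1`), glued along finitely many
pairs of places `(e₁ i, e₂ i)` with the trivial gluing datum; the sections with pole bound
`(D₁, D₂)` are `NodalRiemann.gluedSpace e₁ e₂ (fun _ => 1) D₁ D₂ ⊆ F₁ × F₂`.  All divisors are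
assumed to vanish at the nodes.

* `mul_mem_gluedSpace` : `G(D) · G(D') ⊆ G(D + D')` (no degree condition).
* `exists_snd_mem_gluedSpace`, `exists_fst_mem_gluedSpace` : every section on one component
  extends to a section on the nodal curve (`H¹(D₂ - nodes) = 0`).
* `exists_mem_gluedSpace_cong` : sections with prescribed values at the nodes.
* **(Colon)** `mem_gluedSpace_of_forall_mul_mem`, `forall_mul_mem_gluedSpace_iff`,
  `exists_colon` : `{t | t · G(D') ⊆ G(D + D')} = G(D)` for `deg D'` large (any `D`).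
* **(Mul)** `gluedSpace_mul_eq`, `exists_mul` : `G(D) * G(D') = G(D + D')` for large degrees
  (`K` infinite), the product being the product of `K`-submodules of the algebra `F₁ × F₂`.
* `exists_nodal_bound` : one bound serving (Mul), (Colon) and the dimension formula.
-/

set_option autoImplicit false
set_option linter.style.haveILetI false

noncomputable section

namespace Fermat.Agent.Padic.S33.RC.NodalMul

open AlgebraicCurve WithZero Fermat.Agent.Lib.FF Fermat.Agent.BAD.NodalRiemann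
open Fermat.Agent.Lib.FF.BasePoint

variable {K : Type*} [Field K]

section OneField

variable {F : Type*} [Field F] [Algebra K F] {x : F}

theorem cong_zero_iff {P : Place K F} {f : F} : Cong P f 0 ↔ P.adicValuation f < 1 := by
  unfold Cong
  rw [map_zero, sub_zero]

theorem val_lt_one_iff (P : Place K F) (f : F) :
    P.adicValuation f < 1 ↔ P.adicValuation f ≤ exp (-1 : ℤ) := by
  by_cases hf : f = 0
  · subst hf
    simp
  · rw [P.adicValuation_eq_exp_neg_ord hf, ← exp_zero, exp_lt_exp, exp_le_exp]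
    omega

theorem cong_sub {P : Place K F} {f g : F} {c d : K} (hf : Cong P f c) (hg : Cong P g d) :
    Cong P (f - g) (c - d) := by
  have h := hf.add (hg.smul (-1))
  have e1 : f + (-1 : K) • g = f - g := by
    rw [neg_smul, one_smul, sub_eq_add_neg]
  have e2 : c + -1 * d = c - d := by ring
  rwa [e1, e2] at h

variable {ι : Type*} [Fintype ι]

/-- The sum of the nodes, as a divisor. -/
def nodeDiv (e : ι → Place K F) : Divisor K F := ∑ i, Finsupp.single (e i) (1 : ℤ)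

theorem nodeDiv_def (e : ι → Place K F) :
    nodeDiv e = ∑ i, Finsupp.single (e i) (1 : ℤ) := rfl

theorem nodeDiv_apply_self {e : ι → Place K F} (he : Function.Injective e) (i : ι) :
    nodeDiv e (e i) = 1 := by
  classical
  rw [nodeDiv, Finsupp.finsetSum_apply]
  simp only [Finsupp.single_apply]
  rw [Finset.sum_eq_single i]
  · rw [if_pos rfl]
  · intro j _ hj
    rw [if_neg (fun h' => hj (he h'))]
  · intro hi
    exact absurd (Finset.mem_univ i) hi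

theorem nodeDiv_apply_of_ne (e : ι → Place K F) {v : Place K F} (hv : ∀ i, e i ≠ v) :
    nodeDiv e v = 0 := by
  classical
  rw [nodeDiv, Finsupp.finsetSum_apply]
  simp only [Finsupp.single_apply]
  refine Finset.sum_eq_zero fun j _ => ?_
  rw [if_neg (hv j)]

theorem nodeDiv_nonneg (e : ι → Place K F) : 0 ≤ nodeDiv e := by
  classical
  refine Finset.sum_nonneg fun i _ => ?_
  refine Finsupp.le_def.mpr fun v => ?_
  rw [Finsupp.single_apply]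
  split_ifs <;> simp

theorem degree_nodeDiv (h : IsFF1 K F x) (e : ι → Place K F) :
    Divisor.degree (nodeDiv e) = Fintype.card ι := by
  rw [nodeDiv, map_sum]
  rw [Finset.sum_congr rfl (fun i _ => by
    rw [Divisor.degree_single, h.deg_eq_one, Nat.cast_one, mul_one])]
  simp

theorem degree_sub_nodeDiv (h : IsFF1 K F x) (e : ι → Place K F) (B : Divisor K F) :
    Divisor.degree (B - nodeDiv e) = Divisor.degree B - Fintype.card ι := by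
  rw [map_sub, degree_nodeDiv h]

/-- `L(B - nodes)` consists of the functions of `L(B)` vanishing at the nodes. -/
theorem mem_L_sub_nodeDiv_iff {e : ι → Place K F} (he : Function.Injective e) {B : Divisor K F}
    (hB : ∀ i, B (e i) = 0) {f : F} :
    f ∈ riemannRochSpace (B - nodeDiv e) ↔ f ∈ riemannRochSpace B ∧ ∀ i, Cong (e i) f 0 := by
  constructor
  · intro hf
    refine ⟨RR.L_mono (sub_le_self B (nodeDiv_nonneg e)) hf, fun i => ?_⟩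
    rw [cong_zero_iff, val_lt_one_iff]
    have := hf (e i)
    rwa [Finsupp.sub_apply, hB i, nodeDiv_apply_self he i, zero_sub] at this
  · rintro ⟨hf, hf0⟩ v
    by_cases hv : ∃ i, e i = v
    · obtain ⟨i, rfl⟩ := hv
      rw [Finsupp.sub_apply, hB i, nodeDiv_apply_self he i, zero_sub]
      exact (val_lt_one_iff _ _).mp (cong_zero_iff.mp (hf0 i))
    · rw [Finsupp.sub_apply, nodeDiv_apply_of_ne e (fun i hi => hv ⟨i, hi⟩), sub_zero]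
      exact hf v

end OneField

section TwoFields

variable {F₁ F₂ : Type*} [Field F₁] [Field F₂] [Algebra K F₁] [Algebra K F₂]
variable {ι : Type*} {x₁ : F₁} {x₂ : F₂}

/-- `G(D) · G(D') ⊆ G(D + D')`. -/
theorem mul_mem_gluedSpace {e₁ : ι → Place K F₁} {e₂ : ι → Place K F₂}
    {D₁ D₁' : Divisor K F₁} {D₂ D₂' : Divisor K F₂} {p p' : F₁ × F₂}
    (hp : p ∈ gluedSpace e₁ e₂ (fun _ => (1 : K)) D₁ D₂)
    (hp' : p' ∈ gluedSpace e₁ e₂ (fun _ => (1 : K)) D₁' D₂') :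
    p * p' ∈ gluedSpace e₁ e₂ (fun _ => (1 : K)) (D₁ + D₁') (D₂ + D₂') := by
  obtain ⟨h1, h2, h3⟩ := hp
  obtain ⟨h1', h2', h3'⟩ := hp'
  refine ⟨mul_mem_L_add h1 h1', mul_mem_L_add h2 h2', fun i => ?_⟩
  obtain ⟨c, hc1, hc2⟩ := h3 i
  obtain ⟨c', hc1', hc2'⟩ := h3' i
  refine ⟨c * c', hc1.mul hc1', ?_⟩
  simp only [one_mul] at hc2 hc2' ⊢
  exact hc2.mul hc2'

/-- A pair vanishing at the nodes on the first component, zero on the second. -/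
theorem mk_zero_mem_gluedSpace {e₁ : ι → Place K F₁} {e₂ : ι → Place K F₂}
    {D₁ : Divisor K F₁} {D₂ : Divisor K F₂} {a : F₁} (ha : a ∈ riemannRochSpace D₁)
    (ha0 : ∀ i, Cong (e₁ i) a 0) :
    ((a, 0) : F₁ × F₂) ∈ gluedSpace e₁ e₂ (fun _ => (1 : K)) D₁ D₂ := by
  refine ⟨ha, zero_mem _, fun i => ⟨0, ha0 i, ?_⟩⟩
  rw [mul_zero]
  exact cong_zero _

theorem zero_mk_mem_gluedSpace {e₁ : ι → Place K F₁} {e₂ : ι → Place K F₂}
    {D₁ : Divisor K F₁} {D₂ : Divisor K F₂} {b : F₂} (hb : b ∈ riemannRochSpace D₂)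
    (hb0 : ∀ i, Cong (e₂ i) b 0) :
    ((0, b) : F₁ × F₂) ∈ gluedSpace e₁ e₂ (fun _ => (1 : K)) D₁ D₂ := by
  refine ⟨zero_mem _, hb, fun i => ⟨0, cong_zero _, ?_⟩⟩
  rw [mul_zero]
  exact hb0 i

variable [Fintype ι]

/-- Every section on the first component extends to the nodal curve. -/
theorem exists_snd_mem_gluedSpace (h₁ : IsFF1 K F₁ x₁) (e₁ : ι → Place K F₁)
    {e₂ : ι → Place K F₂} (he₂ : Function.Injective e₂) {D₁ : Divisor K F₁}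
    {D₂ : Divisor K F₂} (hD₁ : ∀ i, D₁ (e₁ i) = 0) (hD₂ : ∀ i, D₂ (e₂ i) = 0)
    (hMD : RR.MD (D₂ - nodeDiv e₂) = ⊤) {a : F₁} (ha : a ∈ riemannRochSpace D₁) :
    ∃ b : F₂, ((a, b) : F₁ × F₂) ∈ gluedSpace e₁ e₂ (fun _ => (1 : K)) D₁ D₂ := by
  have hc : ∀ i, ∃ c : K, Cong (e₁ i) a c := fun i =>
    exists_cong (h₁.resK (e₁ i)) (le_one_of_mem_L (hD₁ i).le ha)
  choose c hc using hc
  obtain ⟨b, hb, hbc⟩ := exists_mem_L_cong e₂ he₂ D₂ hD₂ hMD c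
  refine ⟨b, ha, hb, fun i => ⟨c i, hc i, ?_⟩⟩
  rw [one_mul]
  exact hbc i

/-- Every section on the second component extends to the nodal curve. -/
theorem exists_fst_mem_gluedSpace (h₂ : IsFF1 K F₂ x₂) {e₁ : ι → Place K F₁}
    (he₁ : Function.Injective e₁) (e₂ : ι → Place K F₂) {D₁ : Divisor K F₁}
    {D₂ : Divisor K F₂} (hD₁ : ∀ i, D₁ (e₁ i) = 0) (hD₂ : ∀ i, D₂ (e₂ i) = 0)
    (hMD : RR.MD (D₁ - nodeDiv e₁) = ⊤) {b : F₂} (hb : b ∈ riemannRochSpace D₂) :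
    ∃ a : F₁, ((a, b) : F₁ × F₂) ∈ gluedSpace e₁ e₂ (fun _ => (1 : K)) D₁ D₂ := by
  have hc : ∀ i, ∃ c : K, Cong (e₂ i) b c := fun i =>
    exists_cong (h₂.resK (e₂ i)) (le_one_of_mem_L (hD₂ i).le hb)
  choose c hc using hc
  obtain ⟨a, ha, hac⟩ := exists_mem_L_cong e₁ he₁ D₁ hD₁ hMD c
  refine ⟨a, ha, hb, fun i => ⟨c i, hac i, ?_⟩⟩
  rw [one_mul]
  exact hc i

/-- Sections of the nodal curve with prescribed values at the nodes. -/
theorem exists_mem_gluedSpace_cong {e₁ : ι → Place K F₁} (he₁ : Function.Injective e₁)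
    {e₂ : ι → Place K F₂} (he₂ : Function.Injective e₂) {D₁ : Divisor K F₁}
    {D₂ : Divisor K F₂} (hD₁ : ∀ i, D₁ (e₁ i) = 0) (hD₂ : ∀ i, D₂ (e₂ i) = 0)
    (hMD₁ : RR.MD (D₁ - nodeDiv e₁) = ⊤) (hMD₂ : RR.MD (D₂ - nodeDiv e₂) = ⊤) (c : ι → K) :
    ∃ w ∈ gluedSpace e₁ e₂ (fun _ => (1 : K)) D₁ D₂,
      ∀ i, Cong (e₁ i) w.1 (c i) ∧ Cong (e₂ i) w.2 (c i) := by
  obtain ⟨a, ha, hac⟩ := exists_mem_L_cong e₁ he₁ D₁ hD₁ hMD₁ c
  obtain ⟨b, hb, hbc⟩ := exists_mem_L_cong e₂ he₂ D₂ hD₂ hMD₂ c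
  refine ⟨(a, b), ⟨ha, hb, fun i => ⟨c i, hac i, ?_⟩⟩, fun i => ⟨hac i, hbc i⟩⟩
  rw [one_mul]
  exact hbc i

/-- **(Colon), hypothesis form.**  If `L(D₁')`, `L(D₂')` are base-point free and
`H¹(D_j' - nodes) = 0`, then `t · G(D') ⊆ G(D + D')` forces `t ∈ G(D)`. -/
theorem mem_gluedSpace_of_forall_mul_mem (h₁ : IsFF1 K F₁ x₁) (h₂ : IsFF1 K F₂ x₂)
    {e₁ : ι → Place K F₁} {e₂ : ι → Place K F₂} (he₁ : Function.Injective e₁)
    (he₂ : Function.Injective e₂) {D₁ D₁' : Divisor K F₁} {D₂ D₂' : Divisor K F₂}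
    (hD₁ : ∀ i, D₁ (e₁ i) = 0) (hD₂ : ∀ i, D₂ (e₂ i) = 0)
    (hD₁' : ∀ i, D₁' (e₁ i) = 0) (hD₂' : ∀ i, D₂' (e₂ i) = 0)
    (hb₁ : Bpf D₁') (hb₂ : Bpf D₂')
    (hM₁ : RR.MD (D₁' - nodeDiv e₁) = ⊤) (hM₂ : RR.MD (D₂' - nodeDiv e₂) = ⊤)
    {t : F₁ × F₂}
    (ht : ∀ p ∈ gluedSpace e₁ e₂ (fun _ => (1 : K)) D₁' D₂',
      t * p ∈ gluedSpace e₁ e₂ (fun _ => (1 : K)) (D₁ + D₁') (D₂ + D₂')) :
    t ∈ gluedSpace e₁ e₂ (fun _ => (1 : K)) D₁ D₂ := by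
  have ht1 : t.1 ∈ riemannRochSpace D₁ := by
    have h : t.1 ∈ riemannRochSpace (D₁ + D₁' - D₁') := by
      apply mem_L_sub_of_mul_mem hb₁
      intro a ha
      obtain ⟨b, hab⟩ := exists_snd_mem_gluedSpace h₁ e₁ he₂ hD₁' hD₂' hM₂ ha
      exact (ht _ hab).1
    rwa [add_sub_cancel_right] at h
  have ht2 : t.2 ∈ riemannRochSpace D₂ := by
    have h : t.2 ∈ riemannRochSpace (D₂ + D₂' - D₂') := by
      apply mem_L_sub_of_mul_mem hb₂
      intro b hb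
      obtain ⟨a, hab⟩ := exists_fst_mem_gluedSpace h₂ he₁ e₂ hD₁' hD₂' hM₁ hb
      exact (ht _ hab).2.1
    rwa [add_sub_cancel_right] at h
  obtain ⟨u, hu, hu1⟩ := exists_mem_gluedSpace_cong he₁ he₂ hD₁' hD₂' hM₁ hM₂ (fun _ => (1 : K))
  refine ⟨ht1, ht2, fun i => ?_⟩
  obtain ⟨c, hc1, hc2⟩ := (ht u hu).2.2 i
  obtain ⟨c', hc'⟩ := exists_cong (h₁.resK (e₁ i)) (le_one_of_mem_L (hD₁ i).le ht1)
  obtain ⟨c'', hc''⟩ := exists_cong (h₂.resK (e₂ i)) (le_one_of_mem_L (hD₂ i).le ht2)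
  have e1 : c' * 1 = c := (hc'.mul (hu1 i).1).unique hc1
  have e2 : c'' * 1 = 1 * c := (hc''.mul (hu1 i).2).unique hc2
  refine ⟨c', hc', ?_⟩
  have e3 : (1 : K) * c' = c'' := by
    rw [mul_one] at e1 e2
    rw [one_mul] at e2 ⊢
    rw [e1, e2]
  rw [e3]
  exact hc''

/-- **(Colon), NS form.**  `{t | t · G(D') ⊆ G(D + D')} = G(D)` as soon as
`deg D_j' ≥ c_j + #nodes + 1` for non-speciality bounds `c_j`; `D` is arbitrary. -/
theorem forall_mul_mem_gluedSpace_iff (h₁ : IsFF1 K F₁ x₁) (h₂ : IsFF1 K F₂ x₂)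
    {e₁ : ι → Place K F₁} {e₂ : ι → Place K F₂} (he₁ : Function.Injective e₁)
    (he₂ : Function.Injective e₂) {c₁ c₂ : ℤ} (hc₁ : NS K F₁ c₁) (hc₂ : NS K F₂ c₂)
    {D₁ D₁' : Divisor K F₁} {D₂ D₂' : Divisor K F₂}
    (hD₁ : ∀ i, D₁ (e₁ i) = 0) (hD₂ : ∀ i, D₂ (e₂ i) = 0)
    (hD₁' : ∀ i, D₁' (e₁ i) = 0) (hD₂' : ∀ i, D₂' (e₂ i) = 0)
    (hd₁' : c₁ + Fintype.card ι + 1 ≤ Divisor.degree D₁')
    (hd₂' : c₂ + Fintype.card ι + 1 ≤ Divisor.degree D₂') (t : F₁ × F₂) :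
    (∀ p ∈ gluedSpace e₁ e₂ (fun _ => (1 : K)) D₁' D₂',
      t * p ∈ gluedSpace e₁ e₂ (fun _ => (1 : K)) (D₁ + D₁') (D₂ + D₂'))
      ↔ t ∈ gluedSpace e₁ e₂ (fun _ => (1 : K)) D₁ D₂ := by
  have hcard : (0 : ℤ) ≤ Fintype.card ι := Int.natCast_nonneg _
  constructor
  · intro ht
    refine mem_gluedSpace_of_forall_mul_mem h₁ h₂ he₁ he₂ hD₁ hD₂ hD₁' hD₂'
      (bpf_of_degree h₁ hc₁ (by linarith)) (bpf_of_degree h₂ hc₂ (by linarith))
      (hc₁ _ ?_) (hc₂ _ ?_) ht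
    · rw [degree_sub_nodeDiv h₁]
      linarith
    · rw [degree_sub_nodeDiv h₂]
      linarith
  · intro ht p hp
    exact mul_mem_gluedSpace ht hp

/-- **(Colon), target form**: `{t | t · G(D') ⊆ G(C)} = G(C - D')`. -/
theorem forall_mul_mem_gluedSpace_iff_sub (h₁ : IsFF1 K F₁ x₁) (h₂ : IsFF1 K F₂ x₂)
    {e₁ : ι → Place K F₁} {e₂ : ι → Place K F₂} (he₁ : Function.Injective e₁)
    (he₂ : Function.Injective e₂) {c₁ c₂ : ℤ} (hc₁ : NS K F₁ c₁) (hc₂ : NS K F₂ c₂)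
    {C₁ D₁' : Divisor K F₁} {C₂ D₂' : Divisor K F₂}
    (hC₁ : ∀ i, C₁ (e₁ i) = 0) (hC₂ : ∀ i, C₂ (e₂ i) = 0)
    (hD₁' : ∀ i, D₁' (e₁ i) = 0) (hD₂' : ∀ i, D₂' (e₂ i) = 0)
    (hd₁' : c₁ + Fintype.card ι + 1 ≤ Divisor.degree D₁')
    (hd₂' : c₂ + Fintype.card ι + 1 ≤ Divisor.degree D₂') (t : F₁ × F₂) :
    (∀ p ∈ gluedSpace e₁ e₂ (fun _ => (1 : K)) D₁' D₂',
      t * p ∈ gluedSpace e₁ e₂ (fun _ => (1 : K)) C₁ C₂)
      ↔ t ∈ gluedSpace e₁ e₂ (fun _ => (1 : K)) (C₁ - D₁') (C₂ - D₂') := by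
  have h := forall_mul_mem_gluedSpace_iff h₁ h₂ he₁ he₂ hc₁ hc₂ (D₁ := C₁ - D₁')
    (D₂ := C₂ - D₂') (D₁' := D₁') (D₂' := D₂')
    (fun i => by rw [Finsupp.sub_apply, hC₁ i, hD₁' i, sub_zero])
    (fun i => by rw [Finsupp.sub_apply, hC₂ i, hD₂' i, sub_zero]) hD₁' hD₂' hd₁' hd₂' t
  rwa [sub_add_cancel, sub_add_cancel] at h

/-- **(Mul), NS form.**  For non-speciality bounds `c_j`, `deg D_j ≥ 2 c_j + 2 + #nodes` and
`deg D_j' ≥ c_j + 2 + #nodes`: `G(D) * G(D') = G(D + D')`. -/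
theorem gluedSpace_mul_eq [Infinite K] (h₁ : IsFF1 K F₁ x₁) (h₂ : IsFF1 K F₂ x₂)
    {e₁ : ι → Place K F₁} {e₂ : ι → Place K F₂} (he₁ : Function.Injective e₁)
    (he₂ : Function.Injective e₂) {c₁ c₂ : ℤ} (hc₁ : NS K F₁ c₁) (hc₂ : NS K F₂ c₂)
    {D₁ D₁' : Divisor K F₁} {D₂ D₂' : Divisor K F₂}
    (hD₁ : ∀ i, D₁ (e₁ i) = 0) (hD₂ : ∀ i, D₂ (e₂ i) = 0)
    (hD₁' : ∀ i, D₁' (e₁ i) = 0) (hD₂' : ∀ i, D₂' (e₂ i) = 0)
    (hd₁ : 2 * c₁ + 2 + Fintype.card ι ≤ Divisor.degree D₁)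
    (hd₁' : c₁ + 2 + Fintype.card ι ≤ Divisor.degree D₁')
    (hd₂ : 2 * c₂ + 2 + Fintype.card ι ≤ Divisor.degree D₂)
    (hd₂' : c₂ + 2 + Fintype.card ι ≤ Divisor.degree D₂') :
    gluedSpace e₁ e₂ (fun _ => (1 : K)) D₁ D₂ * gluedSpace e₁ e₂ (fun _ => (1 : K)) D₁' D₂'
      = gluedSpace e₁ e₂ (fun _ => (1 : K)) (D₁ + D₁') (D₂ + D₂') := by
  have hcard : (0 : ℤ) ≤ Fintype.card ι := Int.natCast_nonneg _
  have hn₁ : -1 ≤ c₁ := hc₁.neg_one_le h₁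
  have hn₂ : -1 ≤ c₂ := hc₂.neg_one_le h₂
  refine le_antisymm (Submodule.mul_le.2 fun p hp p' hp' => mul_mem_gluedSpace hp hp') ?_
  have hMD₁ : RR.MD (D₁ - nodeDiv e₁) = ⊤ := hc₁ _ (by
    rw [degree_sub_nodeDiv h₁]
    linarith)
  have hMD₂ : RR.MD (D₂ - nodeDiv e₂) = ⊤ := hc₂ _ (by
    rw [degree_sub_nodeDiv h₂]
    linarith)
  have hMD₁' : RR.MD (D₁' - nodeDiv e₁) = ⊤ := hc₁ _ (by
    rw [degree_sub_nodeDiv h₁]
    linarith)
  have hMD₂' : RR.MD (D₂' - nodeDiv e₂) = ⊤ := hc₂ _ (by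
    rw [degree_sub_nodeDiv h₂]
    linarith)
  -- the sections vanishing at the nodes, first component
  have key₁ : ∀ r ∈ riemannRochSpace (D₁ - nodeDiv e₁) * riemannRochSpace D₁',
      ((r, 0) : F₁ × F₂) ∈ gluedSpace e₁ e₂ (fun _ => (1 : K)) D₁ D₂
        * gluedSpace e₁ e₂ (fun _ => (1 : K)) D₁' D₂' := by
    intro r hr
    refine Submodule.mul_induction_on hr (fun a ha a' ha' => ?_) (fun y z hy hz => ?_)
    · obtain ⟨b', hab'⟩ := exists_snd_mem_gluedSpace h₁ e₁ he₂ hD₁' hD₂' hMD₂' ha'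
      have ha2 := (mem_L_sub_nodeDiv_iff he₁ hD₁).mp ha
      have ha0 : ((a, 0) : F₁ × F₂) ∈ gluedSpace e₁ e₂ (fun _ => (1 : K)) D₁ D₂ :=
        mk_zero_mem_gluedSpace ha2.1 ha2.2
      have h := Submodule.mul_mem_mul ha0 hab'
      have e : ((a, 0) : F₁ × F₂) * (a', b') = (a * a', 0) := by
        rw [Prod.mk_mul_mk, zero_mul]
      rwa [e] at h
    · have e : ((y + z, 0) : F₁ × F₂) = (y, 0) + (z, 0) := by
        rw [Prod.mk_add_mk, add_zero]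
      rw [e]
      exact add_mem hy hz
  -- the sections vanishing at the nodes, second component
  have key₂ : ∀ r ∈ riemannRochSpace (D₂ - nodeDiv e₂) * riemannRochSpace D₂',
      ((0, r) : F₁ × F₂) ∈ gluedSpace e₁ e₂ (fun _ => (1 : K)) D₁ D₂
        * gluedSpace e₁ e₂ (fun _ => (1 : K)) D₁' D₂' := by
    intro r hr
    refine Submodule.mul_induction_on hr (fun b hb b' hb' => ?_) (fun y z hy hz => ?_)
    · obtain ⟨a', hab'⟩ := exists_fst_mem_gluedSpace h₂ he₁ e₂ hD₁' hD₂' hMD₁' hb'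
      have hb2 := (mem_L_sub_nodeDiv_iff he₂ hD₂).mp hb
      have hb0 : ((0, b) : F₁ × F₂) ∈ gluedSpace e₁ e₂ (fun _ => (1 : K)) D₁ D₂ :=
        zero_mk_mem_gluedSpace hb2.1 hb2.2
      have h := Submodule.mul_mem_mul hb0 hab'
      have e : ((0, b) : F₁ × F₂) * (a', b') = (0, b * b') := by
        rw [Prod.mk_mul_mk, zero_mul]
      rwa [e] at h
    · have e : ((0, y + z) : F₁ × F₂) = (0, y) + (0, z) := by
        rw [Prod.mk_add_mk, add_zero]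
      rw [e]
      exact add_mem hy hz
  have hmul₁ : riemannRochSpace (D₁ - nodeDiv e₁) * riemannRochSpace D₁'
      = riemannRochSpace (D₁ - nodeDiv e₁ + D₁') :=
    MultMap.mul_eq h₁ hc₁ (D₁ - nodeDiv e₁) (by
      rw [degree_sub_nodeDiv h₁]
      linarith) D₁' (by linarith)
  have hmul₂ : riemannRochSpace (D₂ - nodeDiv e₂) * riemannRochSpace D₂'
      = riemannRochSpace (D₂ - nodeDiv e₂ + D₂') :=
    MultMap.mul_eq h₂ hc₂ (D₂ - nodeDiv e₂) (by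
      rw [degree_sub_nodeDiv h₂]
      linarith) D₂' (by linarith)
  intro q hq
  -- the values of `q` at the nodes
  have hqc : ∀ i, ∃ c : K, Cong (e₁ i) q.1 c ∧ Cong (e₂ i) q.2 c := by
    intro i
    obtain ⟨c, hc1, hc2⟩ := hq.2.2 i
    rw [one_mul] at hc2
    exact ⟨c, hc1, hc2⟩
  choose c hc using hqc
  obtain ⟨w, hw, hwc⟩ := exists_mem_gluedSpace_cong he₁ he₂ hD₁ hD₂ hMD₁ hMD₂ c
  obtain ⟨u, hu, hu1⟩ := exists_mem_gluedSpace_cong he₁ he₂ hD₁' hD₂' hMD₁' hMD₂'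
    (fun _ => (1 : K))
  have hwu := mul_mem_gluedSpace hw hu
  have hD₁s : ∀ i, (D₁ + D₁') (e₁ i) = 0 := fun i => by
    rw [Finsupp.add_apply, hD₁ i, hD₁' i, add_zero]
  have hD₂s : ∀ i, (D₂ + D₂') (e₂ i) = 0 := fun i => by
    rw [Finsupp.add_apply, hD₂ i, hD₂' i, add_zero]
  have hr₁ : q.1 - w.1 * u.1 ∈ riemannRochSpace (D₁ - nodeDiv e₁) * riemannRochSpace D₁' := by
    rw [hmul₁]
    have e : D₁ - nodeDiv e₁ + D₁' = D₁ + D₁' - nodeDiv e₁ := by abel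
    rw [e, mem_L_sub_nodeDiv_iff he₁ hD₁s]
    refine ⟨sub_mem hq.1 hwu.1, fun i => ?_⟩
    have h := cong_sub (hc i).1 ((hwc i).1.mul (hu1 i).1)
    rwa [mul_one, sub_self] at h
  have hr₂ : q.2 - w.2 * u.2 ∈ riemannRochSpace (D₂ - nodeDiv e₂) * riemannRochSpace D₂' := by
    rw [hmul₂]
    have e : D₂ - nodeDiv e₂ + D₂' = D₂ + D₂' - nodeDiv e₂ := by abel
    rw [e, mem_L_sub_nodeDiv_iff he₂ hD₂s]
    refine ⟨sub_mem hq.2.1 hwu.2.1, fun i => ?_⟩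
    have h := cong_sub (hc i).2 ((hwc i).2.mul (hu1 i).2)
    rwa [mul_one, sub_self] at h
  have hq' : q = w * u + ((q.1 - w.1 * u.1, 0) + (0, q.2 - w.2 * u.2)) := by
    refine Prod.ext ?_ ?_
    · simp
    · simp
  rw [hq']
  exact add_mem (Submodule.mul_mem_mul hw hu) (add_mem (key₁ _ hr₁) (key₂ _ hr₂))

/-- **(Colon), existential form.** -/
theorem exists_colon (h₁ : IsFF1 K F₁ x₁) (h₂ : IsFF1 K F₂ x₂) (e₁ : ι → Place K F₁)
    (e₂ : ι → Place K F₂) (he₁ : Function.Injective e₁) (he₂ : Function.Injective e₂) :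
    ∃ c : ℤ, ∀ (D₁ D₁' : Divisor K F₁) (D₂ D₂' : Divisor K F₂),
      c ≤ Divisor.degree D₁' → c ≤ Divisor.degree D₂' →
      (∀ i, D₁ (e₁ i) = 0) → (∀ i, D₂ (e₂ i) = 0) →
      (∀ i, D₁' (e₁ i) = 0) → (∀ i, D₂' (e₂ i) = 0) →
      ∀ t : F₁ × F₂,
        (∀ p ∈ gluedSpace e₁ e₂ (fun _ => (1 : K)) D₁' D₂',
          t * p ∈ gluedSpace e₁ e₂ (fun _ => (1 : K)) (D₁ + D₁') (D₂ + D₂'))
        ↔ t ∈ gluedSpace e₁ e₂ (fun _ => (1 : K)) D₁ D₂ := by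
  obtain ⟨c₁, hc₁⟩ := exists_NS h₁
  obtain ⟨c₂, hc₂⟩ := exists_NS h₂
  refine ⟨max c₁ c₂ + Fintype.card ι + 1, fun D₁ D₁' D₂ D₂' hd₁' hd₂' hD₁ hD₂ hD₁' hD₂' t => ?_⟩
  refine forall_mul_mem_gluedSpace_iff h₁ h₂ he₁ he₂ hc₁ hc₂ hD₁ hD₂ hD₁' hD₂' ?_ ?_ t
  · have := le_max_left c₁ c₂
    linarith
  · have := le_max_right c₁ c₂
    linarith

/-- **(Mul), existential form.** -/
theorem exists_mul [Infinite K] (h₁ : IsFF1 K F₁ x₁) (h₂ : IsFF1 K F₂ x₂)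
    (e₁ : ι → Place K F₁) (e₂ : ι → Place K F₂) (he₁ : Function.Injective e₁)
    (he₂ : Function.Injective e₂) :
    ∃ c : ℤ, ∀ (D₁ D₁' : Divisor K F₁) (D₂ D₂' : Divisor K F₂),
      c ≤ Divisor.degree D₁ → c ≤ Divisor.degree D₁' →
      c ≤ Divisor.degree D₂ → c ≤ Divisor.degree D₂' →
      (∀ i, D₁ (e₁ i) = 0) → (∀ i, D₂ (e₂ i) = 0) →
      (∀ i, D₁' (e₁ i) = 0) → (∀ i, D₂' (e₂ i) = 0) →
      gluedSpace e₁ e₂ (fun _ => (1 : K)) D₁ D₂ * gluedSpace e₁ e₂ (fun _ => (1 : K)) D₁' D₂'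
        = gluedSpace e₁ e₂ (fun _ => (1 : K)) (D₁ + D₁') (D₂ + D₂') := by
  obtain ⟨c₁, hc₁⟩ := exists_NS h₁
  obtain ⟨c₂, hc₂⟩ := exists_NS h₂
  have hn₁ : -1 ≤ c₁ := hc₁.neg_one_le h₁
  have hn₂ : -1 ≤ c₂ := hc₂.neg_one_le h₂
  have hcard : (0 : ℤ) ≤ Fintype.card ι := Int.natCast_nonneg _
  refine ⟨2 * max c₁ c₂ + 3 + Fintype.card ι,
    fun D₁ D₁' D₂ D₂' hd₁ hd₁' hd₂ hd₂' hD₁ hD₂ hD₁' hD₂' => ?_⟩
  have hl := le_max_left c₁ c₂
  have hr := le_max_right c₁ c₂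
  exact gluedSpace_mul_eq h₁ h₂ he₁ he₂ hc₁ hc₂ hD₁ hD₂ hD₁' hD₂' (by linarith) (by linarith)
    (by linarith) (by linarith)

end TwoFields

end Fermat.Agent.Padic.S33.RC.NodalMul
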