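import Mathlib
import Fermat.Agent.Padic.S33.RC.NodalMul
import Fermat.Agent.Padic.S33.RC.NodalGenPos

/-!
# (RC-2, nodal side) Local data at a smooth point of the nodal curve

`F₁`, `F₂` function fields of one variable over an infinite field `K`, glued along the pairs of
places `(e₁ i, e₂ i)`; `G(B₁, B₂) = NodalRiemann.gluedSpace e₁ e₂ 1 B₁ B₂`.  `D = (D₁, D₂) ≥ 0` a
pair of divisors of positive degrees vanishing at the nodes, `G_N := G(N • D₁, N • D₂)`, and `Q` a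
place of the first (resp. second) component, not a node, off the support of `D`.

`exists_point_data_fst` / `exists_point_data_snd` : there are `m > 0` and

* `u ∈ G_m` with exact pole orders on the supports of `D₁`, `D₂` and a simple zero at `Q`;
* `w ∈ G(m • D + Q)` with a simple pole at `Q`, normalised by `(u * w)(Q) = 1`;
* (LOC) `w * t ∈ G_{N + m}` for `t ∈ G_N` vanishing at `Q`;
* (FG) `G_{N + m} = u * G_N + G_{N + m - 1}` for `N` large.
-/

set_option autoImplicit false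
set_option linter.style.haveILetI false

noncomputable section

namespace Fermat.Agent.Padic.S33.RC.NodalPoint

open AlgebraicCurve WithZero Module Fermat.Agent.Lib.FF Fermat.Agent.BAD.NodalRiemann
open Fermat.Agent.Lib.FF.BasePoint Fermat.Agent.Padic.S33.RC.NodalMul
  Fermat.Agent.Padic.S33.RC.NodalGenPos

variable {K : Type*} [Field K]

section OneField

variable {F : Type*} [Field F] [Algebra K F] {x : F}

theorem single_one_nonneg (P : Place K F) : (0 : Divisor K F) ≤ Finsupp.single P (1 : ℤ) := by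
  classical
  refine Finsupp.le_def.mpr fun v => ?_
  rw [Finsupp.single_apply]
  split_ifs <;> simp

theorem nsmul_apply_eq (n : ℕ) (D : Divisor K F) (v : Place K F) :
    (n • D) v = (n : ℤ) * D v := by
  rw [Finsupp.smul_apply, nsmul_eq_mul]

theorem degree_nsmul (n : ℕ) (D : Divisor K F) :
    Divisor.degree (n • D) = (n : ℤ) * Divisor.degree D := by
  rw [map_nsmul, nsmul_eq_mul]

/-- `L(B - Q)` consists of the functions of `L(B)` vanishing at `Q` (`B Q = 0`). -/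
theorem mem_L_sub_single_iff {B : Divisor K F} {Q : Place K F} (hB : B Q = 0) {f : F} :
    f ∈ riemannRochSpace (B - Finsupp.single Q (1 : ℤ))
      ↔ f ∈ riemannRochSpace B ∧ Cong Q f 0 := by
  classical
  constructor
  · intro hf
    refine ⟨RR.L_mono (sub_le_self B (single_one_nonneg Q)) hf, ?_⟩
    rw [cong_zero_iff, val_lt_one_iff]
    have := hf Q
    rwa [Finsupp.sub_apply, hB, Finsupp.single_eq_same, zero_sub] at this
  · rintro ⟨hf, hf0⟩ v
    by_cases hv : v = Q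
    · rw [hv, Finsupp.sub_apply, hB, Finsupp.single_eq_same, zero_sub]
      exact (val_lt_one_iff _ _).mp (cong_zero_iff.mp hf0)
    · rw [Finsupp.sub_apply, Finsupp.single_apply, if_neg (fun h => hv h.symm), sub_zero]
      exact hf v

end OneField

section TwoFields

variable {F₁ F₂ : Type*} [Field F₁] [Field F₂] [Algebra K F₁] [Algebra K F₂]
variable {ι : Type*} {x₁ : F₁} {x₂ : F₂}

/-- An element of `G(B₁, B₂)` outside `G(B₁ - P, B₂)` has exact order at `P`. -/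
theorem val_fst_of_notMem_sub_single {e₁ : ι → Place K F₁} {e₂ : ι → Place K F₂}
    {B₁ : Divisor K F₁} {B₂ : Divisor K F₂} {P : Place K F₁} {g : F₁ × F₂}
    (hg : g ∈ gluedSpace e₁ e₂ (fun _ => (1 : K)) B₁ B₂)
    (hg' : g ∉ gluedSpace e₁ e₂ (fun _ => (1 : K)) (B₁ - Finsupp.single P (1 : ℤ)) B₂) :
    P.adicValuation g.1 = exp (B₁ P) := by
  have h1 : g.1 ∉ riemannRochSpace (B₁ - Finsupp.single P (1 : ℤ)) :=
    fun h => hg' ⟨h, hg.2.1, hg.2.2⟩
  have h2 := RR.val_eq_of_mem_of_notMem (B₁ - Finsupp.single P (1 : ℤ)) (v := P) (f := g.1)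
    (by rw [addPl_sub_single]; exact hg.1) h1
  rw [h2, sub_single_apply_self]

theorem val_snd_of_notMem_sub_single {e₁ : ι → Place K F₁} {e₂ : ι → Place K F₂}
    {B₁ : Divisor K F₁} {B₂ : Divisor K F₂} {P : Place K F₂} {g : F₁ × F₂}
    (hg : g ∈ gluedSpace e₁ e₂ (fun _ => (1 : K)) B₁ B₂)
    (hg' : g ∉ gluedSpace e₁ e₂ (fun _ => (1 : K)) B₁ (B₂ - Finsupp.single P (1 : ℤ))) :
    P.adicValuation g.2 = exp (B₂ P) := by
  have h1 : g.2 ∉ riemannRochSpace (B₂ - Finsupp.single P (1 : ℤ)) :=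
    fun h => hg' ⟨hg.1, h, hg.2.2⟩
  have h2 := RR.val_eq_of_mem_of_notMem (B₂ - Finsupp.single P (1 : ℤ)) (v := P) (f := g.2)
    (by rw [addPl_sub_single]; exact hg.2.1) h1
  rw [h2, sub_single_apply_self]

/-- Multiplication by a pair with nonzero components is injective. -/
theorem mulLeft_injective {u : F₁ × F₂} (hu₁ : u.1 ≠ 0) (hu₂ : u.2 ≠ 0) :
    Function.Injective (LinearMap.mulLeft K u) := by
  intro a b hab
  rw [LinearMap.mulLeft_apply, LinearMap.mulLeft_apply] at hab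
  have h1 : u.1 * a.1 = u.1 * b.1 := congrArg Prod.fst hab
  have h2 : u.2 * a.2 = u.2 * b.2 := congrArg Prod.snd hab
  exact Prod.ext (mul_left_cancel₀ hu₁ h1) (mul_left_cancel₀ hu₂ h2)

/-- **Descent of the pole order.**  If `u` has exact pole orders `m • D` on the supports and
`u * s ∈ G((M + m) • D)` with `s ∈ G((M + 1) • D)`, then `s ∈ G(M • D)`. -/
theorem mem_of_mul_mem {e₁ : ι → Place K F₁} {e₂ : ι → Place K F₂} {D₁ : Divisor K F₁}
    {D₂ : Divisor K F₂} {m M : ℕ} {u s : F₁ × F₂}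
    (hu₁ : ∀ v ∈ D₁.support, v.adicValuation u.1 = exp ((m • D₁) v))
    (hu₂ : ∀ v ∈ D₂.support, v.adicValuation u.2 = exp ((m • D₂) v))
    (hs : s ∈ gluedSpace e₁ e₂ (fun _ => (1 : K)) ((M + 1) • D₁) ((M + 1) • D₂))
    (hus : u * s ∈ gluedSpace e₁ e₂ (fun _ => (1 : K)) ((M + m) • D₁) ((M + m) • D₂)) :
    s ∈ gluedSpace e₁ e₂ (fun _ => (1 : K)) (M • D₁) (M • D₂) := by
  refine ⟨fun v => ?_, fun v => ?_, hs.2.2⟩
  · by_cases hv : v ∈ D₁.support
    · have h1 := hus.1 v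
      have e : (u * s).1 = u.1 * s.1 := rfl
      rw [e, map_mul, hu₁ v hv] at h1
      have hc : (M • D₁) v = ((M + m) • D₁) v - (m • D₁) v := by
        rw [nsmul_apply_eq, nsmul_apply_eq, nsmul_apply_eq]
        push_cast
        ring
      rw [hc, exp_sub, le_div_iff₀ (zero_lt_iff.mpr exp_ne_zero), mul_comm]
      exact h1
    · have h0 : D₁ v = 0 := Finsupp.notMem_support_iff.mp hv
      have h1 := hs.1 v
      rw [nsmul_apply_eq, h0, mul_zero] at h1 ⊢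
      exact h1
  · by_cases hv : v ∈ D₂.support
    · have h1 := hus.2.1 v
      have e : (u * s).2 = u.2 * s.2 := rfl
      rw [e, map_mul, hu₂ v hv] at h1
      have hc : (M • D₂) v = ((M + m) • D₂) v - (m • D₂) v := by
        rw [nsmul_apply_eq, nsmul_apply_eq, nsmul_apply_eq]
        push_cast
        ring
      rw [hc, exp_sub, le_div_iff₀ (zero_lt_iff.mpr exp_ne_zero), mul_comm]
      exact h1
    · have h0 : D₂ v = 0 := Finsupp.notMem_support_iff.mp hv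
      have h1 := hs.2.1 v
      rw [nsmul_apply_eq, h0, mul_zero] at h1 ⊢
      exact h1

variable [Fintype ι]

/-- Riemann's theorem on the nodal curve above the degree bound `c₀` (trivial gluing datum). -/
def RiemannBound (e₁ : ι → Place K F₁) (e₂ : ι → Place K F₂) (c₀ : ℤ) : Prop :=
  ∀ (B₁ : Divisor K F₁) (B₂ : Divisor K F₂), c₀ ≤ Divisor.degree B₁ → c₀ ≤ Divisor.degree B₂ →
    (∀ i, B₁ (e₁ i) = 0) → (∀ i, B₂ (e₂ i) = 0) →
    (finrank K (gluedSpace e₁ e₂ (fun _ => (1 : K)) B₁ B₂) : ℤ)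
      = Divisor.degree B₁ + Divisor.degree B₂ + 2 - genusFF K F₁ - genusFF K F₂
        - Fintype.card ι

theorem exists_riemannBound (h₁ : IsFF1 K F₁ x₁) (h₂ : IsFF1 K F₂ x₂) (e₁ : ι → Place K F₁)
    (e₂ : ι → Place K F₂) (he₂ : Function.Injective e₂) : ∃ c₀ : ℤ, RiemannBound e₁ e₂ c₀ := by
  obtain ⟨c₀, hc₀⟩ := exists_finrank_gluedSpace h₁ h₂ e₁ e₂ he₂ (K := K)
  exact ⟨c₀, fun B₁ B₂ hd₁ hd₂ hB₁ hB₂ => hc₀ _ B₁ B₂ hd₁ hd₂ (fun i => (hB₁ i).le) hB₂⟩

/-- Dropping a non-node point of the first component is strict in large degree. -/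
theorem exists_notMem_sub_single_fst (h₁ : IsFF1 K F₁ x₁) {e₁ : ι → Place K F₁}
    {e₂ : ι → Place K F₂} {c₀ : ℤ} (hR : RiemannBound e₁ e₂ c₀) {B₁ : Divisor K F₁}
    {B₂ : Divisor K F₂} (hB₁ : ∀ i, B₁ (e₁ i) = 0) (hB₂ : ∀ i, B₂ (e₂ i) = 0)
    (hd₁ : c₀ + 1 ≤ Divisor.degree B₁) (hd₂ : c₀ ≤ Divisor.degree B₂) {P : Place K F₁}
    (hP : ∀ i, e₁ i ≠ P) :
    ∃ g ∈ gluedSpace e₁ e₂ (fun _ => (1 : K)) B₁ B₂,
      g ∉ gluedSpace e₁ e₂ (fun _ => (1 : K)) (B₁ - Finsupp.single P (1 : ℤ)) B₂ := by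
  classical
  by_contra hcon
  push Not at hcon
  have heq : gluedSpace e₁ e₂ (fun _ => (1 : K)) (B₁ - Finsupp.single P (1 : ℤ)) B₂
      = gluedSpace e₁ e₂ (fun _ => (1 : K)) B₁ B₂ :=
    le_antisymm (gluedSpace_mono (sub_le_self B₁ (single_one_nonneg P)) le_rfl) hcon
  have r1 := hR B₁ B₂ (by linarith) hd₂ hB₁ hB₂
  have r2 := hR (B₁ - Finsupp.single P (1 : ℤ)) B₂ (by rw [degree_sub_single h₁]; linarith) hd₂
    (fun i => by
      rw [Finsupp.sub_apply, hB₁ i, Finsupp.single_apply, if_neg (fun h => hP i h.symm),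
        sub_zero]) hB₂
  rw [heq, r1, degree_sub_single h₁] at r2
  linarith

/-- Dropping a non-node point of the second component is strict in large degree. -/
theorem exists_notMem_sub_single_snd (h₂ : IsFF1 K F₂ x₂) {e₁ : ι → Place K F₁}
    {e₂ : ι → Place K F₂} {c₀ : ℤ} (hR : RiemannBound e₁ e₂ c₀) {B₁ : Divisor K F₁}
    {B₂ : Divisor K F₂} (hB₁ : ∀ i, B₁ (e₁ i) = 0) (hB₂ : ∀ i, B₂ (e₂ i) = 0)
    (hd₁ : c₀ ≤ Divisor.degree B₁) (hd₂ : c₀ + 1 ≤ Divisor.degree B₂) {P : Place K F₂}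
    (hP : ∀ i, e₂ i ≠ P) :
    ∃ g ∈ gluedSpace e₁ e₂ (fun _ => (1 : K)) B₁ B₂,
      g ∉ gluedSpace e₁ e₂ (fun _ => (1 : K)) B₁ (B₂ - Finsupp.single P (1 : ℤ)) := by
  classical
  by_contra hcon
  push Not at hcon
  have heq : gluedSpace e₁ e₂ (fun _ => (1 : K)) B₁ (B₂ - Finsupp.single P (1 : ℤ))
      = gluedSpace e₁ e₂ (fun _ => (1 : K)) B₁ B₂ :=
    le_antisymm (gluedSpace_mono le_rfl (sub_le_self B₂ (single_one_nonneg P))) hcon
  have r1 := hR B₁ B₂ hd₁ (by linarith) hB₁ hB₂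
  have r2 := hR B₁ (B₂ - Finsupp.single P (1 : ℤ)) hd₁ (by rw [degree_sub_single h₂]; linarith)
    hB₁ (fun i => by
      rw [Finsupp.sub_apply, hB₂ i, Finsupp.single_apply, if_neg (fun h => hP i h.symm),
        sub_zero])
  rw [heq, r1, degree_sub_single h₂] at r2
  linarith

/-- **(FG)**: `G_{M + 1 + m} = u * G_{M + 1} + G_{M + m}` for `M ≥ c₀`, when `u ∈ G_m` has exact
pole orders on the supports and nonzero components. -/
theorem exists_eq_mul_add (h₁ : IsFF1 K F₁ x₁) (h₂ : IsFF1 K F₂ x₂) {e₁ : ι → Place K F₁}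
    {e₂ : ι → Place K F₂} {c₀ : ℤ} (hR : RiemannBound e₁ e₂ c₀) {D₁ : Divisor K F₁}
    {D₂ : Divisor K F₂} (hD₁ : ∀ i, D₁ (e₁ i) = 0) (hD₂ : ∀ i, D₂ (e₂ i) = 0)
    (hD₁0 : 0 ≤ D₁) (hD₂0 : 0 ≤ D₂) (hd₁ : 0 < Divisor.degree D₁)
    (hd₂ : 0 < Divisor.degree D₂) {m M : ℕ} (hM : c₀ ≤ (M : ℤ)) {u : F₁ × F₂}
    (hu : u ∈ gluedSpace e₁ e₂ (fun _ => (1 : K)) (m • D₁) (m • D₂))
    (hu₁ : ∀ v ∈ D₁.support, v.adicValuation u.1 = exp ((m • D₁) v))
    (hu₂ : ∀ v ∈ D₂.support, v.adicValuation u.2 = exp ((m • D₂) v))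
    (hu1 : u.1 ≠ 0) (hu2 : u.2 ≠ 0) {t : F₁ × F₂}
    (ht : t ∈ gluedSpace e₁ e₂ (fun _ => (1 : K)) ((M + 1 + m) • D₁) ((M + 1 + m) • D₂)) :
    ∃ s ∈ gluedSpace e₁ e₂ (fun _ => (1 : K)) ((M + 1) • D₁) ((M + 1) • D₂),
      ∃ r ∈ gluedSpace e₁ e₂ (fun _ => (1 : K)) ((M + m) • D₁) ((M + m) • D₂),
        t = u * s + r := by
  have hinj := mulLeft_injective (K := K) hu1 hu2
  -- Riemann for the four spaces
  have hl : ∀ n : ℕ, M ≤ n →
      (finrank K (gluedSpace e₁ e₂ (fun _ => (1 : K)) (n • D₁) (n • D₂)) : ℤ)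
        = (n : ℤ) * Divisor.degree D₁ + (n : ℤ) * Divisor.degree D₂ + 2 - genusFF K F₁
          - genusFF K F₂ - Fintype.card ι := by
    intro n hn
    have hn' : c₀ ≤ (n : ℤ) := hM.trans (by exact_mod_cast hn)
    have hn0 : (0 : ℤ) ≤ n := Int.natCast_nonneg n
    have h := hR (n • D₁) (n • D₂)
      (by rw [degree_nsmul]; exact hn'.trans (le_mul_of_one_le_right hn0 hd₁))
      (by rw [degree_nsmul]; exact hn'.trans (le_mul_of_one_le_right hn0 hd₂))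
      (fun i => by rw [nsmul_apply_eq, hD₁ i, mul_zero])
      (fun i => by rw [nsmul_apply_eq, hD₂ i, mul_zero])
    rw [degree_nsmul, degree_nsmul] at h
    exact h
  haveI := finite_gluedSpace h₁ h₂ e₁ e₂ (fun _ => (1 : K)) (M • D₁) (M • D₂)
  haveI := finite_gluedSpace h₁ h₂ e₁ e₂ (fun _ => (1 : K)) ((M + 1) • D₁) ((M + 1) • D₂)
  haveI := finite_gluedSpace h₁ h₂ e₁ e₂ (fun _ => (1 : K)) ((M + m) • D₁) ((M + m) • D₂)
  haveI := finite_gluedSpace h₁ h₂ e₁ e₂ (fun _ => (1 : K)) ((M + 1 + m) • D₁)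
    ((M + 1 + m) • D₂)
  set S : Submodule K (F₁ × F₂) :=
    (gluedSpace e₁ e₂ (fun _ => (1 : K)) ((M + 1) • D₁) ((M + 1) • D₂)).map
      (LinearMap.mulLeft K u) with hS
  set T : Submodule K (F₁ × F₂) :=
    gluedSpace e₁ e₂ (fun _ => (1 : K)) ((M + m) • D₁) ((M + m) • D₂) with hT
  have hSle : S ≤ gluedSpace e₁ e₂ (fun _ => (1 : K)) ((M + 1 + m) • D₁) ((M + 1 + m) • D₂) := by
    rintro _ ⟨a, ha, rfl⟩
    have h := mul_mem_gluedSpace hu ha
    have e1 : m • D₁ + (M + 1) • D₁ = (M + 1 + m) • D₁ := by rw [← add_nsmul, add_comm]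
    have e2 : m • D₂ + (M + 1) • D₂ = (M + 1 + m) • D₂ := by rw [← add_nsmul, add_comm]
    rw [e1, e2] at h
    exact h
  have hTle : T ≤ gluedSpace e₁ e₂ (fun _ => (1 : K)) ((M + 1 + m) • D₁) ((M + 1 + m) • D₂) :=
    gluedSpace_mono (nsmul_le_nsmul_left hD₁0 (by omega)) (nsmul_le_nsmul_left hD₂0 (by omega))
  have hinf : S ⊓ T ≤ (gluedSpace e₁ e₂ (fun _ => (1 : K)) (M • D₁) (M • D₂)).map
      (LinearMap.mulLeft K u) := by
    rintro y ⟨⟨a, ha, rfl⟩, hy⟩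
    exact ⟨a, mem_of_mul_mem hu₁ hu₂ ha hy, rfl⟩
  have fS : finrank K S
      = finrank K (gluedSpace e₁ e₂ (fun _ => (1 : K)) ((M + 1) • D₁) ((M + 1) • D₂)) :=
    (Submodule.equivMapOfInjective _ hinj _).finrank_eq.symm
  have fI : finrank K (S ⊓ T : Submodule K (F₁ × F₂))
      ≤ finrank K (gluedSpace e₁ e₂ (fun _ => (1 : K)) (M • D₁) (M • D₂)) := by
    refine (Submodule.finrank_mono hinf).trans ?_
    exact (Submodule.equivMapOfInjective _ hinj _).finrank_eq.symm.le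
  have hsup := Submodule.finrank_sup_add_finrank_inf_eq S T
  have l0 := hl M le_rfl
  have l1 := hl (M + 1) (by omega)
  have l2 := hl (M + m) (by omega)
  have l3 := hl (M + 1 + m) (by omega)
  have hge : finrank K (gluedSpace e₁ e₂ (fun _ => (1 : K)) ((M + 1 + m) • D₁)
      ((M + 1 + m) • D₂)) ≤ finrank K (S ⊔ T : Submodule K (F₁ × F₂)) := by
    have hsup' : (finrank K (S ⊔ T : Submodule K (F₁ × F₂)) : ℤ)
        + finrank K (S ⊓ T : Submodule K (F₁ × F₂))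
        = (finrank K S : ℤ) + finrank K T := by exact_mod_cast hsup
    have fI' : (finrank K (S ⊓ T : Submodule K (F₁ × F₂)) : ℤ)
        ≤ finrank K (gluedSpace e₁ e₂ (fun _ => (1 : K)) (M • D₁) (M • D₂)) := by
      exact_mod_cast fI
    have fS' : (finrank K S : ℤ)
        = finrank K (gluedSpace e₁ e₂ (fun _ => (1 : K)) ((M + 1) • D₁) ((M + 1) • D₂)) := by
      exact_mod_cast fS
    have : (finrank K (gluedSpace e₁ e₂ (fun _ => (1 : K)) ((M + 1 + m) • D₁)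
        ((M + 1 + m) • D₂)) : ℤ) ≤ finrank K (S ⊔ T : Submodule K (F₁ × F₂)) := by
      rw [l3]
      rw [fS', l1, hT, l2] at hsup'
      rw [l0] at fI'
      push_cast at hsup' ⊢
      linarith
    exact_mod_cast this
  have htop : (S ⊔ T : Submodule K (F₁ × F₂))
      = gluedSpace e₁ e₂ (fun _ => (1 : K)) ((M + 1 + m) • D₁) ((M + 1 + m) • D₂) :=
    Submodule.eq_of_le_of_finrank_le (sup_le hSle hTle) hge
  rw [← htop] at ht
  obtain ⟨y, hy, r, hr, hyr⟩ := Submodule.mem_sup.mp ht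
  obtain ⟨s, hs, rfl⟩ := hy
  exact ⟨s, hs, r, hr, hyr.symm⟩

/-- **Local data at a smooth point of the first component.** -/
theorem exists_point_data_fst [Infinite K] (h₁ : IsFF1 K F₁ x₁) (h₂ : IsFF1 K F₂ x₂)
    {e₁ : ι → Place K F₁} {e₂ : ι → Place K F₂} (he₂ : Function.Injective e₂)
    (D₁ : Divisor K F₁) (D₂ : Divisor K F₂) (hD₁ : ∀ i, D₁ (e₁ i) = 0)
    (hD₂ : ∀ i, D₂ (e₂ i) = 0) (hD₁0 : 0 ≤ D₁) (hD₂0 : 0 ≤ D₂)
    (hd₁ : 0 < Divisor.degree D₁) (hd₂ : 0 < Divisor.degree D₂) (Q : Place K F₁)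
    (hQe : ∀ i, e₁ i ≠ Q) (hQD : D₁ Q = 0) :
    ∃ (m : ℕ) (u w : F₁ × F₂), 0 < m ∧
      u ∈ gluedSpace e₁ e₂ (fun _ => (1 : K)) (m • D₁) (m • D₂) ∧
      (∀ v ∈ D₁.support, v.adicValuation u.1 = exp ((m • D₁) v)) ∧
      (∀ v ∈ D₂.support, v.adicValuation u.2 = exp ((m • D₂) v)) ∧
      u.1 ≠ 0 ∧ u.2 ≠ 0 ∧ Q.adicValuation u.1 = exp (-1 : ℤ) ∧
      w ∈ gluedSpace e₁ e₂ (fun _ => (1 : K)) (m • D₁ + Finsupp.single Q (1 : ℤ)) (m • D₂) ∧
      Q.adicValuation w.1 = exp (1 : ℤ) ∧ Cong Q (u.1 * w.1) 1 ∧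
      (∀ (N : ℕ), ∀ t ∈ gluedSpace e₁ e₂ (fun _ => (1 : K)) (N • D₁) (N • D₂), Cong Q t.1 0 →
        w * t ∈ gluedSpace e₁ e₂ (fun _ => (1 : K)) ((N + m) • D₁) ((N + m) • D₂)) ∧
      ∃ N₀ : ℕ, ∀ N, N₀ ≤ N →
        ∀ t ∈ gluedSpace e₁ e₂ (fun _ => (1 : K)) ((N + m) • D₁) ((N + m) • D₂),
        ∃ s ∈ gluedSpace e₁ e₂ (fun _ => (1 : K)) (N • D₁) (N • D₂),
        ∃ r ∈ gluedSpace e₁ e₂ (fun _ => (1 : K)) ((N + m - 1) • D₁) ((N + m - 1) • D₂),
          t = u * s + r := by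
  classical
  obtain ⟨c₀, hR⟩ := exists_riemannBound h₁ h₂ e₁ e₂ he₂
  set m' : ℕ := c₀.toNat + 2 with hm'
  have hmc : c₀ + 3 ≤ ((m' + 1 : ℕ) : ℤ) := by
    have := Int.self_le_toNat c₀
    rw [hm']
    push_cast
    linarith
  have hm0 : (0 : ℤ) ≤ ((m' + 1 : ℕ) : ℤ) := Int.natCast_nonneg _
  have hmd₁ : c₀ + 3 ≤ Divisor.degree ((m' + 1) • D₁) := by
    rw [degree_nsmul]
    exact hmc.trans (le_mul_of_one_le_right hm0 hd₁)
  have hmd₂ : c₀ + 3 ≤ Divisor.degree ((m' + 1) • D₂) := by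
    rw [degree_nsmul]
    exact hmc.trans (le_mul_of_one_le_right hm0 hd₂)
  have hB₁ : ∀ i, ((m' + 1) • D₁) (e₁ i) = 0 := fun i => by
    rw [nsmul_apply_eq, hD₁ i, mul_zero]
  have hB₂ : ∀ i, ((m' + 1) • D₂) (e₂ i) = 0 := fun i => by
    rw [nsmul_apply_eq, hD₂ i, mul_zero]
  have hBQ : ((m' + 1) • D₁) Q = 0 := by rw [nsmul_apply_eq, hQD, mul_zero]
  set B₁' : Divisor K F₁ := (m' + 1) • D₁ - Finsupp.single Q (1 : ℤ) with hB₁'def
  have hB₁' : ∀ i, B₁' (e₁ i) = 0 := fun i => by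
    rw [hB₁'def, Finsupp.sub_apply, hB₁ i, Finsupp.single_apply,
      if_neg (fun h => hQe i h.symm), sub_zero]
  have hdB₁' : Divisor.degree B₁' = Divisor.degree ((m' + 1) • D₁) - 1 :=
    degree_sub_single h₁ _ Q
  -- the hyperplane `H` of sections vanishing at `Q` and its bad subspaces
  let H : Submodule K (F₁ × F₂) := gluedSpace e₁ e₂ (fun _ => (1 : K)) B₁' ((m' + 1) • D₂)
  let bad : Option (↥D₁.support ⊕ ↥D₂.support) → Submodule K (F₁ × F₂) := fun o =>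
    match o with
    | none => gluedSpace e₁ e₂ (fun _ => (1 : K)) (B₁' - Finsupp.single Q (1 : ℤ))
        ((m' + 1) • D₂)
    | some (Sum.inl v) => gluedSpace e₁ e₂ (fun _ => (1 : K))
        (B₁' - Finsupp.single (v : Place K F₁) (1 : ℤ)) ((m' + 1) • D₂)
    | some (Sum.inr v) => gluedSpace e₁ e₂ (fun _ => (1 : K)) B₁'
        ((m' + 1) • D₂ - Finsupp.single (v : Place K F₂) (1 : ℤ))
  have hbad : ∀ o, ∃ g ∈ H, g ∉ bad o := by
    intro o
    match o with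
    | none =>
      exact exists_notMem_sub_single_fst h₁ hR hB₁' hB₂ (by rw [hdB₁']; linarith)
        (by linarith) hQe
    | some (Sum.inl v) =>
      have hv : ∀ i, e₁ i ≠ (v : Place K F₁) := by
        intro i h
        have := Finsupp.mem_support_iff.mp v.2
        rw [← h] at this
        exact this (hD₁ i)
      exact exists_notMem_sub_single_fst h₁ hR hB₁' hB₂ (by rw [hdB₁']; linarith)
        (by linarith) hv
    | some (Sum.inr v) =>
      have hv : ∀ i, e₂ i ≠ (v : Place K F₂) := by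
        intro i h
        have := Finsupp.mem_support_iff.mp v.2
        rw [← h] at this
        exact this (hD₂ i)
      exact exists_notMem_sub_single_snd h₂ hR hB₁' hB₂ (by rw [hdB₁']; linarith)
        (by linarith) hv
  have hp : ∀ o, Submodule.comap H.subtype (bad o) ≠ ⊤ := by
    intro o htop
    obtain ⟨g, hg, hg'⟩ := hbad o
    have : (⟨g, hg⟩ : ↥H) ∈ Submodule.comap H.subtype (bad o) := by
      rw [htop]
      exact Submodule.mem_top
    exact hg' this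
  obtain ⟨uH, huH⟩ := Submodule.exists_forall_notMem_of_forall_ne_top
    (fun o => Submodule.comap H.subtype (bad o)) hp
  have huHmem : (uH : F₁ × F₂) ∈ gluedSpace e₁ e₂ (fun _ => (1 : K)) B₁' ((m' + 1) • D₂) := uH.2
  have hu : (uH : F₁ × F₂) ∈ gluedSpace e₁ e₂ (fun _ => (1 : K)) ((m' + 1) • D₁)
      ((m' + 1) • D₂) :=
    gluedSpace_mono (sub_le_self _ (single_one_nonneg Q)) le_rfl huHmem
  -- exact orders
  have hu₁ : ∀ v ∈ D₁.support, v.adicValuation (uH : F₁ × F₂).1 = exp (((m' + 1) • D₁) v) := by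
    intro v hv
    have hnot : (uH : F₁ × F₂) ∉ gluedSpace e₁ e₂ (fun _ => (1 : K))
        (B₁' - Finsupp.single v (1 : ℤ)) ((m' + 1) • D₂) :=
      fun h => huH (some (Sum.inl ⟨v, hv⟩)) h
    rw [val_fst_of_notMem_sub_single huHmem hnot, hB₁'def, Finsupp.sub_apply,
      Finsupp.single_apply, if_neg, sub_zero]
    rintro rfl
    exact (Finsupp.mem_support_iff.mp hv) hQD
  have hu₂ : ∀ v ∈ D₂.support, v.adicValuation (uH : F₁ × F₂).2 = exp (((m' + 1) • D₂) v) := by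
    intro v hv
    have hnot : (uH : F₁ × F₂) ∉ gluedSpace e₁ e₂ (fun _ => (1 : K)) B₁'
        ((m' + 1) • D₂ - Finsupp.single v (1 : ℤ)) :=
      fun h => huH (some (Sum.inr ⟨v, hv⟩)) h
    exact val_snd_of_notMem_sub_single huHmem hnot
  have huQ : Q.adicValuation (uH : F₁ × F₂).1 = exp (-1 : ℤ) := by
    have hnot : (uH : F₁ × F₂) ∉ gluedSpace e₁ e₂ (fun _ => (1 : K))
        (B₁' - Finsupp.single Q (1 : ℤ)) ((m' + 1) • D₂) := fun h => huH none h
    rw [val_fst_of_notMem_sub_single huHmem hnot, hB₁'def, Finsupp.sub_apply, hBQ,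
      Finsupp.single_eq_same, zero_sub]
  have hu1 : (uH : F₁ × F₂).1 ≠ 0 := by
    intro h0
    rw [h0, map_zero] at huQ
    exact exp_ne_zero huQ.symm
  have hu2 : (uH : F₁ × F₂).2 ≠ 0 := by
    have hne : D₂ ≠ 0 := by
      rintro rfl
      rw [map_zero] at hd₂
      exact lt_irrefl _ hd₂
    obtain ⟨v, hv⟩ := Finsupp.support_nonempty_iff.mpr hne
    intro h0
    have := hu₂ v hv
    rw [h0, map_zero] at this
    exact exp_ne_zero this.symm
  -- the simple pole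
  have hBQ₁ : ∀ i, ((m' + 1) • D₁ + Finsupp.single Q (1 : ℤ)) (e₁ i) = 0 := fun i => by
    rw [Finsupp.add_apply, hB₁ i, Finsupp.single_apply, if_neg (fun h => hQe i h.symm),
      add_zero]
  have hdQ : Divisor.degree ((m' + 1) • D₁ + Finsupp.single Q (1 : ℤ))
      = Divisor.degree ((m' + 1) • D₁) + 1 := by
    rw [map_add, Divisor.degree_single, h₁.deg_eq_one]
    simp
  obtain ⟨w₀, hw₀, hw₀'⟩ := exists_notMem_sub_single_fst h₁ hR hBQ₁ hB₂
    (by rw [hdQ]; linarith) (by linarith) hQe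
  have hw₀val : Q.adicValuation w₀.1 = exp (1 : ℤ) := by
    rw [val_fst_of_notMem_sub_single hw₀ hw₀', Finsupp.add_apply, hBQ, Finsupp.single_eq_same,
      zero_add]
  have hval1 : Q.adicValuation ((uH : F₁ × F₂).1 * w₀.1) = 1 := by
    rw [map_mul, huQ, hw₀val, ← exp_add]
    norm_num
  obtain ⟨c, hc⟩ := exists_cong (h₁.resK Q) hval1.le
  have hc0 : c ≠ 0 := by
    rintro rfl
    have := cong_zero_iff.mp hc
    rw [hval1] at this
    exact lt_irrefl _ this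
  refine ⟨m' + 1, (uH : F₁ × F₂), c⁻¹ • w₀, Nat.succ_pos _, hu, hu₁, hu₂, hu1, hu2, huQ,
    Submodule.smul_mem _ _ hw₀, ?_, ?_, ?_, ?_⟩
  · show Q.adicValuation (c⁻¹ • w₀.1) = exp (1 : ℤ)
    rw [Algebra.smul_def, map_mul, adicValuation_algebraMap_eq_one Q (inv_ne_zero hc0), one_mul,
      hw₀val]
  · show Cong Q ((uH : F₁ × F₂).1 * (c⁻¹ • w₀.1)) 1
    have h := hc.smul c⁻¹
    rw [inv_mul_cancel₀ hc0] at h
    rwa [mul_smul_comm]
  · intro N t ht ht0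
    have hNQ : (N • D₁) Q = 0 := by rw [nsmul_apply_eq, hQD, mul_zero]
    have ht' : t ∈ gluedSpace e₁ e₂ (fun _ => (1 : K)) (N • D₁ - Finsupp.single Q (1 : ℤ))
        (N • D₂) := ⟨(mem_L_sub_single_iff hNQ).mpr ⟨ht.1, ht0⟩, ht.2.1, ht.2.2⟩
    have h := mul_mem_gluedSpace (Submodule.smul_mem _ c⁻¹ hw₀) ht'
    have e1 : (m' + 1) • D₁ + Finsupp.single Q (1 : ℤ) + (N • D₁ - Finsupp.single Q (1 : ℤ))
        = (N + (m' + 1)) • D₁ := by
      rw [add_nsmul D₁ N (m' + 1)]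
      abel
    have e2 : (m' + 1) • D₂ + N • D₂ = (N + (m' + 1)) • D₂ := by
      rw [add_nsmul D₂ N (m' + 1), add_comm]
    rw [e1, e2] at h
    exact h
  · refine ⟨c₀.toNat + 1, fun N hN t ht => ?_⟩
    obtain ⟨M, rfl⟩ : ∃ M, N = M + 1 := ⟨N - 1, by omega⟩
    have hM : c₀ ≤ (M : ℤ) := by
      have h1 := Int.self_le_toNat c₀
      have h2 : (c₀.toNat : ℤ) ≤ M := by
        have : c₀.toNat ≤ M := by omega
        exact_mod_cast this
      linarith
    have e : M + 1 + (m' + 1) - 1 = M + (m' + 1) := by omega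
    rw [e]
    exact exists_eq_mul_add h₁ h₂ hR hD₁ hD₂ hD₁0 hD₂0 hd₁ hd₂ hM hu hu₁ hu₂ hu1 hu2 ht

/-- **Local data at a smooth point of the second component.** -/
theorem exists_point_data_snd [Infinite K] (h₁ : IsFF1 K F₁ x₁) (h₂ : IsFF1 K F₂ x₂)
    {e₁ : ι → Place K F₁} {e₂ : ι → Place K F₂} (he₂ : Function.Injective e₂)
    (D₁ : Divisor K F₁) (D₂ : Divisor K F₂) (hD₁ : ∀ i, D₁ (e₁ i) = 0)
    (hD₂ : ∀ i, D₂ (e₂ i) = 0) (hD₁0 : 0 ≤ D₁) (hD₂0 : 0 ≤ D₂)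
    (hd₁ : 0 < Divisor.degree D₁) (hd₂ : 0 < Divisor.degree D₂) (Q : Place K F₂)
    (hQe : ∀ i, e₂ i ≠ Q) (hQD : D₂ Q = 0) :
    ∃ (m : ℕ) (u w : F₁ × F₂), 0 < m ∧
      u ∈ gluedSpace e₁ e₂ (fun _ => (1 : K)) (m • D₁) (m • D₂) ∧
      (∀ v ∈ D₁.support, v.adicValuation u.1 = exp ((m • D₁) v)) ∧
      (∀ v ∈ D₂.support, v.adicValuation u.2 = exp ((m • D₂) v)) ∧
      u.1 ≠ 0 ∧ u.2 ≠ 0 ∧ Q.adicValuation u.2 = exp (-1 : ℤ) ∧
      w ∈ gluedSpace e₁ e₂ (fun _ => (1 : K)) (m • D₁) (m • D₂ + Finsupp.single Q (1 : ℤ)) ∧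
      Q.adicValuation w.2 = exp (1 : ℤ) ∧ Cong Q (u.2 * w.2) 1 ∧
      (∀ (N : ℕ), ∀ t ∈ gluedSpace e₁ e₂ (fun _ => (1 : K)) (N • D₁) (N • D₂), Cong Q t.2 0 →
        w * t ∈ gluedSpace e₁ e₂ (fun _ => (1 : K)) ((N + m) • D₁) ((N + m) • D₂)) ∧
      ∃ N₀ : ℕ, ∀ N, N₀ ≤ N →
        ∀ t ∈ gluedSpace e₁ e₂ (fun _ => (1 : K)) ((N + m) • D₁) ((N + m) • D₂),
        ∃ s ∈ gluedSpace e₁ e₂ (fun _ => (1 : K)) (N • D₁) (N • D₂),
        ∃ r ∈ gluedSpace e₁ e₂ (fun _ => (1 : K)) ((N + m - 1) • D₁) ((N + m - 1) • D₂),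
          t = u * s + r := by
  classical
  obtain ⟨c₀, hR⟩ := exists_riemannBound h₁ h₂ e₁ e₂ he₂
  set m' : ℕ := c₀.toNat + 2 with hm'
  have hmc : c₀ + 3 ≤ ((m' + 1 : ℕ) : ℤ) := by
    have := Int.self_le_toNat c₀
    rw [hm']
    push_cast
    linarith
  have hm0 : (0 : ℤ) ≤ ((m' + 1 : ℕ) : ℤ) := Int.natCast_nonneg _
  have hmd₁ : c₀ + 3 ≤ Divisor.degree ((m' + 1) • D₁) := by
    rw [degree_nsmul]
    exact hmc.trans (le_mul_of_one_le_right hm0 hd₁)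
  have hmd₂ : c₀ + 3 ≤ Divisor.degree ((m' + 1) • D₂) := by
    rw [degree_nsmul]
    exact hmc.trans (le_mul_of_one_le_right hm0 hd₂)
  have hB₁ : ∀ i, ((m' + 1) • D₁) (e₁ i) = 0 := fun i => by
    rw [nsmul_apply_eq, hD₁ i, mul_zero]
  have hB₂ : ∀ i, ((m' + 1) • D₂) (e₂ i) = 0 := fun i => by
    rw [nsmul_apply_eq, hD₂ i, mul_zero]
  have hBQ : ((m' + 1) • D₂) Q = 0 := by rw [nsmul_apply_eq, hQD, mul_zero]
  set B₂' : Divisor K F₂ := (m' + 1) • D₂ - Finsupp.single Q (1 : ℤ) with hB₂'def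
  have hB₂' : ∀ i, B₂' (e₂ i) = 0 := fun i => by
    rw [hB₂'def, Finsupp.sub_apply, hB₂ i, Finsupp.single_apply,
      if_neg (fun h => hQe i h.symm), sub_zero]
  have hdB₂' : Divisor.degree B₂' = Divisor.degree ((m' + 1) • D₂) - 1 :=
    degree_sub_single h₂ _ Q
  -- the hyperplane `H` of sections vanishing at `Q` and its bad subspaces
  let H : Submodule K (F₁ × F₂) := gluedSpace e₁ e₂ (fun _ => (1 : K)) ((m' + 1) • D₁) B₂'
  let bad : Option (↥D₁.support ⊕ ↥D₂.support) → Submodule K (F₁ × F₂) := fun o =>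
    match o with
    | none => gluedSpace e₁ e₂ (fun _ => (1 : K)) ((m' + 1) • D₁)
        (B₂' - Finsupp.single Q (1 : ℤ))
    | some (Sum.inl v) => gluedSpace e₁ e₂ (fun _ => (1 : K))
        ((m' + 1) • D₁ - Finsupp.single (v : Place K F₁) (1 : ℤ)) B₂'
    | some (Sum.inr v) => gluedSpace e₁ e₂ (fun _ => (1 : K)) ((m' + 1) • D₁)
        (B₂' - Finsupp.single (v : Place K F₂) (1 : ℤ))
  have hbad : ∀ o, ∃ g ∈ H, g ∉ bad o := by
    intro o
    match o with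
    | none =>
      exact exists_notMem_sub_single_snd h₂ hR hB₁ hB₂' (by linarith)
        (by rw [hdB₂']; linarith) hQe
    | some (Sum.inl v) =>
      have hv : ∀ i, e₁ i ≠ (v : Place K F₁) := by
        intro i h
        have := Finsupp.mem_support_iff.mp v.2
        rw [← h] at this
        exact this (hD₁ i)
      exact exists_notMem_sub_single_fst h₁ hR hB₁ hB₂' (by linarith)
        (by rw [hdB₂']; linarith) hv
    | some (Sum.inr v) =>
      have hv : ∀ i, e₂ i ≠ (v : Place K F₂) := by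
        intro i h
        have := Finsupp.mem_support_iff.mp v.2
        rw [← h] at this
        exact this (hD₂ i)
      exact exists_notMem_sub_single_snd h₂ hR hB₁ hB₂' (by linarith)
        (by rw [hdB₂']; linarith) hv
  have hp : ∀ o, Submodule.comap H.subtype (bad o) ≠ ⊤ := by
    intro o htop
    obtain ⟨g, hg, hg'⟩ := hbad o
    have : (⟨g, hg⟩ : ↥H) ∈ Submodule.comap H.subtype (bad o) := by
      rw [htop]
      exact Submodule.mem_top
    exact hg' this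
  obtain ⟨uH, huH⟩ := Submodule.exists_forall_notMem_of_forall_ne_top
    (fun o => Submodule.comap H.subtype (bad o)) hp
  have huHmem : (uH : F₁ × F₂) ∈ gluedSpace e₁ e₂ (fun _ => (1 : K)) ((m' + 1) • D₁) B₂' := uH.2
  have hu : (uH : F₁ × F₂) ∈ gluedSpace e₁ e₂ (fun _ => (1 : K)) ((m' + 1) • D₁)
      ((m' + 1) • D₂) :=
    gluedSpace_mono le_rfl (sub_le_self _ (single_one_nonneg Q)) huHmem
  -- exact orders
  have hu₁ : ∀ v ∈ D₁.support, v.adicValuation (uH : F₁ × F₂).1 = exp (((m' + 1) • D₁) v) := by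
    intro v hv
    have hnot : (uH : F₁ × F₂) ∉ gluedSpace e₁ e₂ (fun _ => (1 : K))
        ((m' + 1) • D₁ - Finsupp.single v (1 : ℤ)) B₂' :=
      fun h => huH (some (Sum.inl ⟨v, hv⟩)) h
    exact val_fst_of_notMem_sub_single huHmem hnot
  have hu₂ : ∀ v ∈ D₂.support, v.adicValuation (uH : F₁ × F₂).2 = exp (((m' + 1) • D₂) v) := by
    intro v hv
    have hnot : (uH : F₁ × F₂) ∉ gluedSpace e₁ e₂ (fun _ => (1 : K)) ((m' + 1) • D₁)
        (B₂' - Finsupp.single v (1 : ℤ)) :=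
      fun h => huH (some (Sum.inr ⟨v, hv⟩)) h
    rw [val_snd_of_notMem_sub_single huHmem hnot, hB₂'def, Finsupp.sub_apply,
      Finsupp.single_apply, if_neg, sub_zero]
    rintro rfl
    exact (Finsupp.mem_support_iff.mp hv) hQD
  have huQ : Q.adicValuation (uH : F₁ × F₂).2 = exp (-1 : ℤ) := by
    have hnot : (uH : F₁ × F₂) ∉ gluedSpace e₁ e₂ (fun _ => (1 : K)) ((m' + 1) • D₁)
        (B₂' - Finsupp.single Q (1 : ℤ)) := fun h => huH none h
    rw [val_snd_of_notMem_sub_single huHmem hnot, hB₂'def, Finsupp.sub_apply, hBQ,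
      Finsupp.single_eq_same, zero_sub]
  have hu2 : (uH : F₁ × F₂).2 ≠ 0 := by
    intro h0
    rw [h0, map_zero] at huQ
    exact exp_ne_zero huQ.symm
  have hu1 : (uH : F₁ × F₂).1 ≠ 0 := by
    have hne : D₁ ≠ 0 := by
      rintro rfl
      rw [map_zero] at hd₁
      exact lt_irrefl _ hd₁
    obtain ⟨v, hv⟩ := Finsupp.support_nonempty_iff.mpr hne
    intro h0
    have := hu₁ v hv
    rw [h0, map_zero] at this
    exact exp_ne_zero this.symm
  -- the simple pole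
  have hBQ₂ : ∀ i, ((m' + 1) • D₂ + Finsupp.single Q (1 : ℤ)) (e₂ i) = 0 := fun i => by
    rw [Finsupp.add_apply, hB₂ i, Finsupp.single_apply, if_neg (fun h => hQe i h.symm),
      add_zero]
  have hdQ : Divisor.degree ((m' + 1) • D₂ + Finsupp.single Q (1 : ℤ))
      = Divisor.degree ((m' + 1) • D₂) + 1 := by
    rw [map_add, Divisor.degree_single, h₂.deg_eq_one]
    simp
  obtain ⟨w₀, hw₀, hw₀'⟩ := exists_notMem_sub_single_snd h₂ hR hB₁ hBQ₂
    (by linarith) (by rw [hdQ]; linarith) hQe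
  have hw₀val : Q.adicValuation w₀.2 = exp (1 : ℤ) := by
    rw [val_snd_of_notMem_sub_single hw₀ hw₀', Finsupp.add_apply, hBQ, Finsupp.single_eq_same,
      zero_add]
  have hval1 : Q.adicValuation ((uH : F₁ × F₂).2 * w₀.2) = 1 := by
    rw [map_mul, huQ, hw₀val, ← exp_add]
    norm_num
  obtain ⟨c, hc⟩ := exists_cong (h₂.resK Q) hval1.le
  have hc0 : c ≠ 0 := by
    rintro rfl
    have := cong_zero_iff.mp hc
    rw [hval1] at this
    exact lt_irrefl _ this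
  refine ⟨m' + 1, (uH : F₁ × F₂), c⁻¹ • w₀, Nat.succ_pos _, hu, hu₁, hu₂, hu1, hu2, huQ,
    Submodule.smul_mem _ _ hw₀, ?_, ?_, ?_, ?_⟩
  · show Q.adicValuation (c⁻¹ • w₀.2) = exp (1 : ℤ)
    rw [Algebra.smul_def, map_mul, adicValuation_algebraMap_eq_one Q (inv_ne_zero hc0), one_mul,
      hw₀val]
  · show Cong Q ((uH : F₁ × F₂).2 * (c⁻¹ • w₀.2)) 1
    have h := hc.smul c⁻¹
    rw [inv_mul_cancel₀ hc0] at h
    rwa [mul_smul_comm]
  · intro N t ht ht0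
    have hNQ : (N • D₂) Q = 0 := by rw [nsmul_apply_eq, hQD, mul_zero]
    have ht' : t ∈ gluedSpace e₁ e₂ (fun _ => (1 : K)) (N • D₁)
        (N • D₂ - Finsupp.single Q (1 : ℤ)) :=
      ⟨ht.1, (mem_L_sub_single_iff hNQ).mpr ⟨ht.2.1, ht0⟩, ht.2.2⟩
    have h := mul_mem_gluedSpace (Submodule.smul_mem _ c⁻¹ hw₀) ht'
    have e2 : (m' + 1) • D₂ + Finsupp.single Q (1 : ℤ) + (N • D₂ - Finsupp.single Q (1 : ℤ))
        = (N + (m' + 1)) • D₂ := by
      rw [add_nsmul D₂ N (m' + 1)]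
      abel
    have e1 : (m' + 1) • D₁ + N • D₁ = (N + (m' + 1)) • D₁ := by
      rw [add_nsmul D₁ N (m' + 1), add_comm]
    rw [e1, e2] at h
    exact h
  · refine ⟨c₀.toNat + 1, fun N hN t ht => ?_⟩
    obtain ⟨M, rfl⟩ : ∃ M, N = M + 1 := ⟨N - 1, by omega⟩
    have hM : c₀ ≤ (M : ℤ) := by
      have h1 := Int.self_le_toNat c₀
      have h2 : (c₀.toNat : ℤ) ≤ M := by
        have : c₀.toNat ≤ M := by omega
        exact_mod_cast this
      linarith
    have e : M + 1 + (m' + 1) - 1 = M + (m' + 1) := by omega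
    rw [e]
    exact exists_eq_mul_add h₁ h₂ hR hD₁ hD₂ hD₁0 hD₂0 hd₁ hd₂ hM hu hu₁ hu₂ hu1 hu2 ht

end TwoFields

end Fermat.Agent.Padic.S33.RC.NodalPoint
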