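/-
S33, ROUTE C, brick (RC-6) (helper59): a SMALL local order gives (NC).

* `HasSmallOrder A V act` : `Padic.HasLocalOrder` at the inertia group of `A`, all of whose
  generators are congruent to their value at `0` modulo the maximal ideal ("one disc");
* `exists_isPOrder_of_small` : such a datum generates a `P`-order (`Lib.FinFlat.IsPOrder`, with
  `Γ` = the inertia group) whose connected component is everything;
* `nc_of_isPOrder`, `nc_of_small` : **(NC)** — if `V` is killed by the odd prime `p`, inertia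
  acts trivially on `V / L` and through the cyclotomic character on `L`, then `L = V`;
* `SmallOrders A N Kr`, `ncg_of_smallOrders` : the statement on `J₀(N)(ℚ̄)`, in the literal shape
  `(NCg)` consumed by the representation-theoretic glue of S33.
-/
import Mathlib
import Fermat.Agent.Lib.FinFlat.Mult
import Fermat.Agent.ESJ.Jac.Main
import Fermat.Agent.Padic.Defs

set_option autoImplicit false

namespace Fermat.Agent.Padic.S33.RC

open Fermat.Agent.Lib.FinFlat ModularCurve AlgebraicCurve

local notation "Qb" => AlgebraicClosure ℚ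
local notation "GQ" => (AlgebraicClosure ℚ ≃ₐ[ℚ] AlgebraicClosure ℚ)

/-- **A small local order** on `(V, act)` at the valuation subring `A` of `ℚ̄`: finitely many
functions `V → ℚ̄` with values in `A`, equivariant for the inertia group of `A`, separating the
points of `V`, whose comultiplications are finite sums of products of elements of the
`A`-algebra they generate, and which are congruent to their value at `0` modulo the maximal
ideal of `A`. -/
def HasSmallOrder (A : ValuationSubring Qb) (V : Type) [AddCommGroup V] (act : GQ → V → V) :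
    Prop :=
  ∃ s : Set (V → Qb), s.Finite ∧
    (∀ f ∈ s, (∀ v, f v ∈ A) ∧ ∀ σ ∈ A.inertiaSubgroupIn ℚ, ∀ v, f (act σ v) = σ (f v)) ∧
    (∀ v w : V, (∀ f ∈ s, f v = f w) → v = w) ∧
    (∀ f ∈ s, ∃ (n : ℕ) (g h : Fin n → Algebra.adjoin A s), ∀ v w : V,
      f (v + w) = ∑ i, (g i : V → Qb) v * (h i : V → Qb) w) ∧
    ∀ f ∈ s, ∀ v, A.valuation (f v - f 0) < 1

section Core

variable {A : ValuationSubring Qb} {V : Type} [AddCommGroup V]

omit [AddCommGroup V] in
/-- A `ℚ̄`-subspace of `V → ℚ̄` (`V` finite) containing `1`, closed under multiplication and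
separating the points of `V` is everything. -/
theorem span_eq_top_of_separates [Finite V] (W : Submodule Qb (V → Qb)) (h1 : (1 : V → Qb) ∈ W)
    (hmul : ∀ x ∈ W, ∀ y ∈ W, x * y ∈ W)
    (hsep : ∀ v w : V, (∀ f ∈ W, f v = f w) → v = w) : W = ⊤ := by
  classical
  cases nonempty_fintype V
  have hdelta : ∀ v : V, (fun u => if u = v then (1 : Qb) else 0) ∈ W := by
    intro v
    have hg : ∀ w : V, ∃ g ∈ W, g v = 1 ∧ (w ≠ v → g w = 0) := by
      intro w
      by_cases hwv : w = v
      · exact ⟨1, h1, rfl, fun h => absurd hwv h⟩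
      · have h2 : ∃ f ∈ W, f v ≠ f w := by
          by_contra hcon
          push Not at hcon
          exact hwv (hsep v w hcon).symm
        obtain ⟨f, hf, hfvw⟩ := h2
        have hne : f v - f w ≠ 0 := sub_ne_zero.mpr hfvw
        refine ⟨(f v - f w)⁻¹ • (f - f w • (1 : V → Qb)), ?_, ?_, fun _ => ?_⟩
        · exact W.smul_mem _ (W.sub_mem hf (W.smul_mem _ h1))
        · simp [hne]
        · simp
    choose g hgW hgv hgw using hg
    have h2 : (fun u => if u = v then (1 : Qb) else 0) = ∏ w, g w := by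
      funext u
      rw [Finset.prod_apply]
      split_ifs with huv
      · rw [huv]
        exact (Finset.prod_eq_one fun w _ => hgv w).symm
      · exact (Finset.prod_eq_zero (f := fun c => g c u) (Finset.mem_univ u) (hgw u huv)).symm
    rw [h2]
    exact Finset.prod_induction _ (fun x => x ∈ W) (fun x y hx hy => hmul x hx y hy) h1
      (fun w _ => hgW w)
  rw [eq_top_iff]
  intro F _
  have hF : F = ∑ v, F v • (fun u => if u = v then (1 : Qb) else 0) := by
    funext u
    simp [Finset.sum_apply]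
  rw [hF]
  exact W.sum_mem fun v _ => W.smul_mem _ (hdelta v)

/-- **The bridge.** A small local order generates a `P`-order for the inertia group whose
connected component is everything. -/
theorem exists_isPOrder_of_small [Finite V] {act : GQ → V → V} (h : HasSmallOrder A V act) :
    ∃ (B : Subalgebra A (V → Qb)) (hB : IsPOrder A (A.inertiaSubgroupIn ℚ) act B),
      ∀ v, v ∈ hB.conn := by
  classical
  obtain ⟨s, hsfin, hs, hsep, hcomul, hsmall⟩ := h
  set B : Subalgebra A (V → Qb) := Algebra.adjoin A s with hBdef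
  have hsB : ∀ f ∈ s, f ∈ B := fun f hf => Algebra.subset_adjoin hf
  -- integrality of the values
  have hint : ∀ f ∈ B, ∀ v, f v ∈ A := by
    intro f hf
    induction hf using Algebra.adjoin_induction with
    | mem x hx => exact (hs x hx).1
    | algebraMap r => intro v; exact r.2
    | add x y _ _ hx hy => intro v; exact A.add_mem _ _ (hx v) (hy v)
    | mul x y _ _ hx hy => intro v; exact A.mul_mem _ _ (hx v) (hy v)
  -- comultiplication
  have hcom : ∀ f ∈ B, ComulIn B f := by
    intro f hf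
    induction hf using Algebra.adjoin_induction with
    | mem x hx =>
      obtain ⟨n, g, h', e⟩ := hcomul x hx
      exact comulIn_of_fin ⟨n, fun i => g i, fun i => h' i, fun i => (g i).2, fun i => (h' i).2, e⟩
    | algebraMap r => exact comulIn_algebraMap B r
    | add x y _ _ hx hy => exact hx.add hy
    | mul x y _ _ hx hy => exact hx.mul hy
  -- smallness
  have hsm : ∀ f ∈ B, ∀ v, f v - f 0 ∈ A.nonunits := by
    intro f hf
    induction hf using Algebra.adjoin_induction with
    | mem x hx => intro v; exact A.mem_nonunits_iff.2 (hsmall x hx v)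
    | algebraMap r =>
      intro v
      have : (algebraMap A (V → Qb) r) v - (algebraMap A (V → Qb) r) 0 = 0 := sub_self _
      rw [this]
      exact nonunits_zero_mem A
    | add x y _ _ hx hy =>
      intro v
      have : (x + y) v - (x + y) 0 = (x v - x 0) + (y v - y 0) := by
        simp only [Pi.add_apply]; ring
      rw [this]
      exact nonunits_add_mem (hx v) (hy v)
    | mul x y hxB hyB hx hy =>
      intro v
      have : (x * y) v - (x * y) 0 = (x v - x 0) * y v + x 0 * (y v - y 0) := by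
        simp only [Pi.mul_apply]; ring
      rw [this]
      exact nonunits_add_mem (nonunits_mul_mem_right (hx v) (hint y hyB v))
        (nonunits_mul_mem_left (hint x hxB 0) (hy v))
  -- the equivariant elements span
  set E : Set (V → Qb) := {f | f ∈ B ∧ Equivar (A.inertiaSubgroupIn ℚ) act f} with hE
  have hEmul : ∀ x ∈ E, ∀ y ∈ E, x * y ∈ E := by
    rintro x ⟨hxB, hxe⟩ y ⟨hyB, hye⟩
    refine ⟨B.mul_mem hxB hyB, fun σ hσ v => ?_⟩
    rw [Pi.mul_apply, Pi.mul_apply, hxe σ hσ, hye σ hσ, map_mul]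
  have hEone : (1 : V → Qb) ∈ E := ⟨B.one_mem, fun σ _ v => by simp⟩
  have hspanE : Subalgebra.toSubmodule B = Submodule.span A E := by
    apply le_antisymm
    · intro f hf
      have hf' : f ∈ B := hf
      induction hf' using Algebra.adjoin_induction with
      | mem x hx => exact Submodule.subset_span ⟨hsB x hx, (hs x hx).2⟩
      | algebraMap r =>
        have : algebraMap A (V → Qb) r = r • (1 : V → Qb) := by
          rw [Algebra.algebraMap_eq_smul_one]
        rw [this]
        exact Submodule.smul_mem _ _ (Submodule.subset_span hEone)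
      | add x y hxB hyB hx hy => exact Submodule.add_mem _ (hx hxB) (hy hyB)
      | mul x y hxB hyB hx hy =>
        have h1 : x * y ∈ Submodule.span A E * Submodule.span A E :=
          Submodule.mul_mem_mul (hx hxB) (hy hyB)
        rw [Submodule.span_mul_span] at h1
        refine Submodule.span_mono ?_ h1
        rintro _ ⟨a, ha, b, hb, rfl⟩
        exact hEmul a ha b hb
    · rw [Submodule.span_le]
      exact fun f hf => hf.1
  -- a finite spanning subset
  have hfg : (Subalgebra.toSubmodule B).FG :=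
    fg_adjoin_of_finite hsfin fun x hx => isIntegral_of_forall_mem x (hs x hx).1
  rw [hspanE] at hfg
  obtain ⟨F, hFE, hFspan⟩ := (Submodule.fg_span_iff_fg_span_finset_subset E).1 hfg
  have hFB : Subalgebra.toSubmodule B = Submodule.span A (F : Set (V → Qb)) := by
    rw [hspanE, hFspan]
  have hFeq : ∀ t ∈ F, Equivar (A.inertiaSubgroupIn ℚ) act t := fun t ht => (hFE ht).2
  -- the `ℚ̄`-span is everything
  have hBW : ∀ f ∈ B, f ∈ Submodule.span Qb (F : Set (V → Qb)) := by
    intro f hf
    have hf' : f ∈ Submodule.span A (F : Set (V → Qb)) := by rw [← hFB]; exact hf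
    obtain ⟨c, -, rfl⟩ := (mem_span_finset_iff F f).1 hf'
    exact Submodule.sum_mem _ fun t ht => Submodule.smul_mem _ _ (Submodule.subset_span ht)
  have hFtop : Submodule.span Qb (F : Set (V → Qb)) = ⊤ := by
    apply span_eq_top_of_separates
    · exact hBW 1 B.one_mem
    · intro x hx y hy
      have h1 : x * y ∈ Submodule.span Qb (F : Set (V → Qb)) *
          Submodule.span Qb (F : Set (V → Qb)) := Submodule.mul_mem_mul hx hy
      rw [Submodule.span_mul_span] at h1
      refine (Submodule.span_le.2 ?_) h1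
      rintro _ ⟨a, ha, b, hb, rfl⟩
      exact hBW _ (B.mul_mem (hFE ha).1 (hFE hb).1)
    · intro v w hvw
      exact hsep v w fun f hf => hvw f (hBW f (hsB f hf))
  have hB : IsPOrder A (A.inertiaSubgroupIn ℚ) act B :=
    IsPOrder.of_span B hint hcom F hFeq hFB hFtop
  exact ⟨B, hB, fun v f hf => hsm f hf v⟩

/-- Every element of `GQ` acts on the `p`-th roots of unity by some power. -/
theorem exists_cyclo_exp (p : ℕ) (hp : p.Prime) (σ : GQ) :
    ∃ a : ℕ, ∀ μ : Qb, μ ^ p = 1 → σ μ = μ ^ a := by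
  have : NeZero (p : ℚ) := ⟨by exact_mod_cast hp.ne_zero⟩
  have : NeZero p := ⟨hp.ne_zero⟩
  obtain ⟨ζ, hζ⟩ := HasEnoughRootsOfUnity.exists_primitiveRoot Qb p
  have h1 : (σ ζ) ^ p = 1 := by rw [← map_pow, hζ.pow_eq_one, map_one]
  obtain ⟨a, -, ha⟩ := hζ.eq_pow_of_pow_eq_one h1
  refine ⟨a, fun μ hμ => ?_⟩
  obtain ⟨j, -, hj⟩ := hζ.eq_pow_of_pow_eq_one hμ
  rw [← hj, map_pow, ← ha, ← pow_mul, ← pow_mul, mul_comm]

/-- Averaging along a finite subgroup. -/
noncomputable def avgSub (L : AddSubgroup V) [Fintype L] (f : V → Qb) (w : V) : Qb :=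
  (∑ u : L, f (w + u)) / (Fintype.card L : Qb)

theorem avgSub_sum (L : AddSubgroup V) [Fintype L] {n : ℕ} (c : Fin n → Qb)
    (g : Fin n → V → Qb) (w : V) :
    avgSub L (∑ i, c i • g i) w = ∑ i, c i * avgSub L (g i) w := by
  unfold avgSub
  simp only [Finset.sum_apply, Pi.smul_apply, smul_eq_mul]
  rw [Finset.sum_comm, Finset.sum_div]
  refine Finset.sum_congr rfl fun i _ => ?_
  rw [← Finset.mul_sum, mul_div_assoc]

/-- **(NC) from a connected `P`-order.**  Let `B` be a `P`-order (for the inertia group) on the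
finite group `V` killed by the odd prime `p`, with connected component `V`.  If inertia acts
trivially on `V / L` and through the cyclotomic character on `L`, then `L = V`. -/
theorem nc_of_isPOrder [Finite V] {p : ℕ} (hp : p.Prime) (hp2 : p ≠ 2)
    (hA : A.LiesOverPrime p) {act : GQ → V → V} {B : Subalgebra A (V → Qb)}
    (hB : IsPOrder A (A.inertiaSubgroupIn ℚ) act B) (htop : ∀ v, v ∈ hB.conn)
    (hpV : ∀ v : V, p • v = 0)
    (hadd : ∀ σ ∈ A.inertiaSubgroupIn ℚ, ∀ v w, act σ (v + w) = act σ v + act σ w)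
    (hinj : ∀ σ ∈ A.inertiaSubgroupIn ℚ, Function.Injective (act σ))
    (L : AddSubgroup V)
    (hquot : ∀ σ ∈ A.inertiaSubgroupIn ℚ, ∀ v, act σ v - v ∈ L)
    (hcyc : ∀ σ ∈ A.inertiaSubgroupIn ℚ, ∀ a : ℕ, (∀ μ : Qb, μ ^ p = 1 → σ μ = μ ^ a) →
      ∀ v ∈ L, act σ v = a • v) :
    ∀ v, v ∈ L := by
  classical
  let _ : Fintype L := Fintype.ofFinite _
  have hpL : ∀ w ∈ L, p • w = 0 := fun w _ => hpV w
  have hactL : ∀ σ ∈ A.inertiaSubgroupIn ℚ, ∃ a : ℕ, (∀ w ∈ L, act σ w = a • w) ∧
      ∀ ζ : Qb, ζ ^ p = 1 → σ ζ = ζ ^ a := by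
    intro σ hσ
    obtain ⟨a, ha⟩ := exists_cyclo_exp p hp σ
    exact ⟨a, hcyc σ hσ a ha, ha⟩
  have hstabL : ∀ σ ∈ A.inertiaSubgroupIn ℚ, ∀ w ∈ L, act σ w ∈ L := by
    intro σ hσ w hw
    obtain ⟨a, ha, -⟩ := hactL σ hσ
    rw [ha w hw]
    exact L.nsmul_mem hw a
  -- the averaging operator preserves the order
  have hE : ∀ f ∈ B, avgSub L f ∈ B := by
    intro f hf
    have h1 := hB.proj_mem hp hp2 hA le_rfl L hpL hactL (1 : AddChar L Qb) hf
    have h2 : (fun w => (∑ u : L, (1 : AddChar L Qb) (-u) * f (w + u)) /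
        (Fintype.card L : Qb)) = avgSub L f := by
      funext w
      unfold avgSub
      congr 1
      refine Finset.sum_congr rfl fun u _ => ?_
      rw [AddChar.one_apply, one_mul]
    rwa [h2] at h1
  -- the averages of equivariant functions are fixed by inertia
  have hfix : ∀ f : V → Qb, Equivar (A.inertiaSubgroupIn ℚ) act f →
      ∀ σ ∈ A.inertiaSubgroupIn ℚ, ∀ w, σ (avgSub L f w) = avgSub L f w := by
    intro f hf σ hσ w
    unfold avgSub
    rw [map_div₀, map_natCast, map_sum]
    congr 1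
    let π : L → L := fun u =>
      ⟨(act σ w - w) + act σ u, L.add_mem (hquot σ hσ w) (hstabL σ hσ u u.2)⟩
    have hπinj : Function.Injective π := by
      intro u u' huu
      have h1 : act σ (u : V) = act σ (u' : V) := by
        have := congrArg Subtype.val huu
        exact add_left_cancel this
      exact Subtype.ext (hinj σ hσ h1)
    have hπ : Function.Bijective π := Finite.injective_iff_bijective.mp hπinj
    rw [← hπ.sum_comp (fun u => f (w + u))]
    refine Finset.sum_congr rfl fun u _ => ?_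
    rw [← hf σ hσ (w + u), hadd σ hσ]
    congr 1
    show act σ w + act σ u = w + ((act σ w - w) + act σ u)
    abel
  -- hence all differences of averages are divisible by `p`
  have hdiv : ∀ f ∈ B, ∀ w, ∃ t ∈ A, avgSub L f w - avgSub L f 0 = (p : Qb) * t := by
    intro f hf w
    obtain ⟨n, c, g, hg, hge, hsum⟩ := hB.exists_eq_sum hf
    have hi : ∀ i, ∃ t ∈ A, avgSub L (g i) w - avgSub L (g i) 0 = (p : Qb) * t := by
      intro i
      refine exists_eq_mul_of_inertia_fixed hp A hA (fun σ hσ => ?_) ?_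
      · rw [map_sub, hfix (g i) (hge i) σ hσ, hfix (g i) (hge i) σ hσ]
      · exact (htop w) _ (hE _ (hg i))
    choose t ht hte using hi
    refine ⟨∑ i, (c i : Qb) * t i,
      A.toSubring.sum_mem fun i _ => A.mul_mem _ _ (c i).2 (ht i), ?_⟩
    rw [hsum, avgSub_sum, avgSub_sum, ← Finset.sum_sub_distrib, Finset.mul_sum]
    refine Finset.sum_congr rfl fun i _ => ?_
    rw [← mul_sub, hte i]
    ring
  -- a character trivial on `L`
  intro w
  by_contra hw
  have hw' : (QuotientAddGroup.mk' L w) ≠ 0 := by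
    intro h0
    exact hw ((QuotientAddGroup.eq_zero_iff w).1 h0)
  obtain ⟨ψ0, hψ0⟩ := exists_addChar_ne_one hw'
  let ψ : AddChar V Qb := ψ0.compAddMonoidHom (QuotientAddGroup.mk' L)
  have hψ : ∀ v, ψ v = ψ0 (QuotientAddGroup.mk' L v) := fun v => rfl
  have hψL : ∀ u : L, ψ (u : V) = 1 := by
    intro u
    have h0 : (QuotientAddGroup.mk' L) (u : V) = 0 := (QuotientAddGroup.eq_zero_iff (u : V)).2 u.2
    rw [hψ, h0, AddChar.map_zero_eq_one]
  have havg : ∀ v, avgSub L ψ v = ψ v := by
    intro v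
    unfold avgSub
    have h1 : ∀ u : L, ψ (v + u) = ψ v := fun u => by
      rw [AddChar.map_add_eq_mul, hψL u, mul_one]
    rw [Finset.sum_congr rfl fun u _ => h1 u, Finset.sum_const, Finset.card_univ, nsmul_eq_mul,
      mul_comm, mul_div_assoc, div_self (Nat.cast_ne_zero.mpr Fintype.card_ne_zero), mul_one]
  obtain ⟨t, ht, hte⟩ := hdiv ψ (hB.addChar_mem' ψ) w
  rw [havg, havg, AddChar.map_zero_eq_one] at hte
  refine sub_one_not_mul_prime hp hp2 hA (ζ := ψ w) ?_ hψ0 ⟨t, ht, hte⟩
  rw [← AddChar.map_nsmul_eq_pow, hpV, AddChar.map_zero_eq_one]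

/-- **(NC) from a small local order.** -/
theorem nc_of_small [Finite V] {p : ℕ} (hp : p.Prime) (hp2 : p ≠ 2)
    (hA : A.LiesOverPrime p) {act : GQ → V → V} (h : HasSmallOrder A V act)
    (hpV : ∀ v : V, p • v = 0)
    (hadd : ∀ σ ∈ A.inertiaSubgroupIn ℚ, ∀ v w, act σ (v + w) = act σ v + act σ w)
    (hinj : ∀ σ ∈ A.inertiaSubgroupIn ℚ, Function.Injective (act σ))
    (L : AddSubgroup V)
    (hquot : ∀ σ ∈ A.inertiaSubgroupIn ℚ, ∀ v, act σ v - v ∈ L)
    (hcyc : ∀ σ ∈ A.inertiaSubgroupIn ℚ, ∀ a : ℕ, (∀ μ : Qb, μ ^ p = 1 → σ μ = μ ^ a) →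
      ∀ v ∈ L, act σ v = a • v) :
    ∀ v, v ∈ L := by
  obtain ⟨B, hB, htop⟩ := exists_isPOrder_of_small h
  exact nc_of_isPOrder hp hp2 hA hB htop hpV hadd hinj L hquot hcyc

end Core

/-! ## The statement on `J₀(N)(ℚ̄)` -/

section Jac

/-- **Small local orders on the kernel of reduction**: every finite inertia-stable subgroup of
`J₀(N)(ℚ̄)` contained in `Kr` carries a small local order (equivariance stated on the subtype,
so that no action of the whole Galois group on `V` is needed). -/
def SmallOrders (A : ValuationSubring Qb) (N : ℕ) (Kr : AddSubgroup (JZero N)) : Prop :=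
  ∀ V : AddSubgroup (JZero N), Finite V → V ≤ Kr →
    (∀ σ ∈ A.inertiaSubgroupIn ℚ, ∀ v ∈ V, σ • v ∈ V) →
    ∃ s : Set (V → Qb), s.Finite ∧
      (∀ f ∈ s, (∀ v, f v ∈ A) ∧ ∀ σ ∈ A.inertiaSubgroupIn ℚ, ∀ v w : V,
        (w : JZero N) = σ • (v : JZero N) → f w = σ (f v)) ∧
      (∀ v w : V, (∀ f ∈ s, f v = f w) → v = w) ∧
      (∀ f ∈ s, ∃ (n : ℕ) (g h : Fin n → Algebra.adjoin A s), ∀ v w : V,
        f (v + w) = ∑ i, (g i : V → Qb) v * (h i : V → Qb) w) ∧
      ∀ f ∈ s, ∀ v, A.valuation (f v - f 0) < 1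

open Classical in
/-- The action of the inertia group on an inertia-stable subgroup, extended by the identity. -/
noncomputable def inertiaAct {N : ℕ} (A : ValuationSubring Qb) (V : AddSubgroup (JZero N))
    (hV : ∀ σ ∈ A.inertiaSubgroupIn ℚ, ∀ v ∈ V, σ • v ∈ V) : GQ → V → V :=
  fun σ v => if hσ : σ ∈ A.inertiaSubgroupIn ℚ then ⟨σ • (v : JZero N), hV σ hσ v v.2⟩ else v

theorem coe_inertiaAct {N : ℕ} (A : ValuationSubring Qb) (V : AddSubgroup (JZero N))
    (hV : ∀ σ ∈ A.inertiaSubgroupIn ℚ, ∀ v ∈ V, σ • v ∈ V) {σ : GQ}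
    (hσ : σ ∈ A.inertiaSubgroupIn ℚ) (v : V) :
    ((inertiaAct A V hV σ v : V) : JZero N) = σ • (v : JZero N) := by
  unfold inertiaAct
  rw [dif_pos hσ]

/-- **(NCg)** in the literal shape consumed by the glue of S33: small local orders on the
subgroups of `Kr` imply that a `p`-torsion subgroup `V ≤ Kr` on which inertia acts trivially
modulo `L` and through the cyclotomic character on `L` is equal to `L`. -/
theorem ncg_of_smallOrders {p N : ℕ} [NeZero N] (hp : p.Prime) (hp2 : p ≠ 2)
    {A : ValuationSubring Qb} (hA : A.LiesOverPrime p) (Kr : AddSubgroup (JZero N))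
    (h : SmallOrders A N Kr) :
    ∀ V L : AddSubgroup (JZero N), L ≤ V → V ≤ Kr → (∀ x ∈ V, p • x = 0) →
      (∀ σ ∈ A.inertiaSubgroupIn ℚ, ∀ v ∈ V, σ • v - v ∈ L) →
      (∀ σ ∈ A.inertiaSubgroupIn ℚ, ∀ a : ℕ, (∀ μ : Qb, μ ^ p = 1 → σ μ = μ ^ a) →
        ∀ v ∈ L, σ • v = a • v) → V ≤ L := by
  intro V L hLV hVK hpV hquot hcyc
  -- `V` is finite and inertia-stable
  have hfinV : Finite V := by
    have h1 := Fermat.Agent.ESJ.torsionFinite N p hp.pos
    have h2 : (V : Set (JZero N)) ⊆
        (Pic0.torsion (AlgebraicClosure ℚ) (modularFunctionFieldBar N) p : Set (JZero N)) :=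
      fun x hx => hpV x hx
    exact (h1.subset h2).to_subtype
  have hstab : ∀ σ ∈ A.inertiaSubgroupIn ℚ, ∀ v ∈ V, σ • v ∈ V := by
    intro σ hσ v hv
    have h1 := V.add_mem (hLV (hquot σ hσ v hv)) hv
    rwa [sub_add_cancel] at h1
  obtain ⟨s, hsfin, hs, hsep, hcomul, hsmall⟩ := h V hfinV hVK hstab
  have hsm : HasSmallOrder A V (inertiaAct A V hstab) :=
    ⟨s, hsfin, fun f hf => ⟨(hs f hf).1, fun σ hσ v =>
      (hs f hf).2 σ hσ v _ (coe_inertiaAct A V hstab hσ v)⟩, hsep, hcomul, hsmall⟩
  have key := nc_of_small hp hp2 hA hsm (fun v => Subtype.ext (hpV v v.2))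
    (fun σ hσ v w => Subtype.ext (by
      rw [AddSubgroup.coe_add, coe_inertiaAct A V hstab hσ, coe_inertiaAct A V hstab hσ,
        coe_inertiaAct A V hstab hσ, AddSubgroup.coe_add, smul_add]))
    (fun σ hσ v w hvw => Subtype.ext (by
      have h1 := congrArg Subtype.val hvw
      rw [coe_inertiaAct A V hstab hσ, coe_inertiaAct A V hstab hσ] at h1
      exact MulAction.injective σ h1))
    (L.comap V.subtype)
    (fun σ hσ v => by
      rw [AddSubgroup.mem_comap]
      show ((inertiaAct A V hstab σ v - v : V) : JZero N) ∈ L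
      rw [AddSubgroup.coe_sub, coe_inertiaAct A V hstab hσ]
      exact hquot σ hσ v v.2)
    (fun σ hσ a ha v hv => Subtype.ext (by
      rw [coe_inertiaAct A V hstab hσ, AddSubgroup.coe_nsmul]
      exact hcyc σ hσ a ha v hv))
  intro x hx
  exact key ⟨x, hx⟩

end Jac

end Fermat.Agent.Padic.S33.RC
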