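/-
S33 / Route C (RC-4): Khuri-Makdisi addition in families with an ABSTRACT special fibre.

`Padic/KMAdd.exists_fam_add` needs a function field on the special fibre.  Here the special fibre
is only described by the reduced multiplication tables and ONE subspace `Wt` (the common special
fibre of all the point families, in the application the coordinates of the reduction of
`L(E - B) ∩ O` on the nodal curve), with the rank facts of the chain for `Wt + Wt = Wt` as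
hypotheses (`SpecChain`).
-/
import Mathlib
import Fermat.Agent.Padic.KMAdd

set_option autoImplicit false

noncomputable section

namespace Fermat.Agent.Padic.S33.RC

open AlgebraicCurve Module Matrix
open Fermat.Agent.Lib.LinAlg.Family Fermat.Agent.Lib.LinAlg.ConstRank
open Fermat.Agent.Lib.FF Fermat.Agent.Lib.FF.KMLemmas Fermat.Agent.Lib.FF.BasePoint
  Fermat.Agent.Lib.FF.WeilCanonical Fermat.Agent.Padic.KMAdd

/-- **The special chain** (`0 + 0 = 0` on the special fibre).  Tables `a b c` over a field `k`,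
a subspace `Wt` of `k^{I₁}`, and `m` the generic rank of `U = W₁·W₂`:

* the product `U' = Wt · Wt` has rank at least `m`;
* there is a "non-zero-divisor" `u₀ ∈ U'`: right multiplication by `u₀` is injective, the line
  `N' = {v | v·U' ⊆ (all)·u₀}` has rank one, and for every nonzero `v₀ ∈ N'`: left
  multiplication by `v₀` does not lower the rank of `U'`, `W'' = {f | f·u₀ ∈ v₀·U'}` has rank at
  most `m`, and `W₃' = {f | f·(all) ⊆ W''}` is `Wt` again. -/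
structure SpecChain {k : Type*} [Field k]
    {I₁ I₂ J₁ J₂ J₄ : Type*} [Fintype I₁] [Fintype I₂] [Fintype J₁] [Fintype J₂] [Fintype J₄]
    (a : I₂ → I₁ → I₁ → k) (b : J₂ → I₁ → J₁ → k) (c : J₄ → J₂ → I₂ → k)
    (Wt : Submodule k (I₁ → k)) (m : ℤ) : Prop where
  rank_U : m ≤ (finrank k (prodSpan a Wt Wt) : ℤ)
  exists_good : ∃ u₀ ∈ prodSpan a Wt Wt, u₀ ≠ 0 ∧
    finrank k (Qs c u₀) = Fintype.card J₂ ∧
    finrank k (Ns c (prodSpan a Wt Wt) u₀) = 1 ∧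
    ∀ v₀ ∈ Ns c (prodSpan a Wt Wt) u₀, v₀ ≠ 0 →
      finrank k (Ts c (prodSpan a Wt Wt) v₀) = finrank k (prodSpan a Wt Wt) ∧
      (finrank k (Ws c (prodSpan a Wt Wt) u₀ v₀) : ℤ) ≤ m ∧
      W3s b c (prodSpan a Wt Wt) u₀ v₀ = Wt

section Lift

variable {𝓡 : Type*} [CommRing 𝓡] [IsLocalRing 𝓡] {ι : Type*} [Fintype ι]

/-- A prescribed nonzero element of the special fibre of a family lifts to a unimodular element:
it lies in every fibre over a field `K` and is nonzero there. -/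
theorem exists_lift_unimodular (U : Fam 𝓡 ι) {k : Type*} [Field k] (ρ : 𝓡 →+* k)
    [IsLocalHom ρ] (hρs : Function.Surjective ρ) {ut : ι → k} (hut : ut ∈ U.fib ρ)
    (hut0 : ut ≠ 0) (K : Type*) [Field K] :
    ∃ u₀ : ι → 𝓡, (fun j => ρ (u₀ j)) = ut ∧
      ∀ θ : 𝓡 →+* K, (fun j => θ (u₀ j)) ∈ U.fib θ ∧ (fun j => θ (u₀ j)) ≠ 0 := by
  classical
  obtain ⟨ν, ⟨h⟩⟩ := U.exists_rankFact
  -- coordinates of `ut` in the columns of `B`
  have hrange : U.fib ρ = LinearMap.range (h.B.map ρ).mulVecLin := by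
    rw [Fam.fib_def, (h.map ρ).range_eq]
    rfl
  rw [hrange] at hut
  obtain ⟨ct, hct⟩ := hut
  rw [Matrix.mulVecLin_apply] at hct
  choose cv hcv using fun j => hρs (ct j)
  have hmap : ∀ {S : Type _} [CommRing S] (θ : 𝓡 →+* S),
      (fun i => θ ((h.B *ᵥ cv) i)) = (h.B.map θ) *ᵥ (fun j => θ (cv j)) := by
    intro S _ θ
    funext i
    simp only [Matrix.mulVec, dotProduct, map_sum, map_mul, Matrix.map_apply]
  have hmapρ : (fun i => ρ ((h.B *ᵥ cv) i)) = (h.B.map ρ) *ᵥ (fun j => ρ (cv j)) := by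
    funext i
    simp only [Matrix.mulVec, dotProduct, map_sum, map_mul, Matrix.map_apply]
  refine ⟨h.B *ᵥ cv, ?_, fun θ => ⟨?_, ?_⟩⟩
  · rw [hmapρ, ← hct]
    congr 1
    funext j
    exact hcv j
  · rw [hmap θ, Fam.fib_def, (h.map θ).range_eq]
    exact ⟨_, rfl⟩
  · intro h0
    rw [hmap θ] at h0
    -- some coordinate is a unit
    have hct0 : ct ≠ 0 := by
      rintro rfl
      rw [Matrix.mulVec_zero] at hct
      exact hut0 hct.symm
    obtain ⟨j, hj⟩ := Function.ne_iff.1 hct0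
    have hunit : IsUnit (cv j) := by
      apply IsUnit.of_map ρ
      rw [hcv j]
      exact isUnit_iff_ne_zero.2 hj
    have h2 := congrArg (fun z => (h.B'.map θ) *ᵥ z) h0
    simp only [Matrix.mulVec_zero] at h2
    rw [Matrix.mulVec_mulVec, ← Matrix.map_mul, h.hB, Matrix.map_one _ θ.map_zero θ.map_one,
      Matrix.one_mulVec] at h2
    have h3 := congrFun h2 j
    simp only [Pi.zero_apply] at h3
    exact (hunit.map θ).ne_zero h3

end Lift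

/-- **Khuri-Makdisi addition in families, abstract special fibre.**  Same chain as
`KMAdd.exists_fam_add`; on the special fibre both families have the fibre `Wt`, and the rank
facts are the hypothesis `SpecChain`.  The sum family has special fibre `Wt`. -/
theorem exists_fam_add_spec
    {𝓡 : Type*} [CommRing 𝓡] [IsLocalRing 𝓡]
    {K : Type*} [Field K] [Infinite K] {F : Type*} [Field F] [Algebra K F]
    {k : Type*} [Field k]
    {P : Type*} [Nonempty P] (χ : P → 𝓡 →+* K) (hχ : ∀ r : 𝓡, (∀ p, χ p r = 0) → r = 0)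
    (ρ : 𝓡 →+* k) (hρ : IsLocalHom ρ) (hρs : Function.Surjective ρ)
    {x : F} (hF : IsFF1 K F x)
    (E B : Divisor K F)
    (n : ℤ) (hn : 5 * (genusFF K F : ℤ) + 1 ≤ n)
    (hE : Divisor.degree E = n) (hB : Divisor.degree B = genusFF K F)
    {I₁ I₂ J₁ J₂ J₄ : Type*} [Fintype I₁] [Fintype I₂] [Fintype J₁] [Fintype J₂] [Fintype J₄]
    (a : I₂ → I₁ → I₁ → 𝓡) (b : J₂ → I₁ → J₁ → 𝓡) (c : J₄ → J₂ → I₂ → 𝓡)
    (C : ∀ p, KMCoord K F E B (Fam.mapTab (χ p) a) (Fam.mapTab (χ p) b) (Fam.mapTab (χ p) c))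
    (Wt : Submodule k (I₁ → k))
    (hsp : SpecChain (Fam.mapTab ρ a) (Fam.mapTab ρ b) (Fam.mapTab ρ c) Wt
      (2 * n - 3 * genusFF K F + 1))
    (W₁ W₂ : Fam 𝓡 I₁)
    (D₁ D₂ D₃ : P → Divisor K F)
    (h₁ : ∀ p, (W₁.fib (χ p)).map (C p).φ₁ = riemannRochSpace (E - D₁ p))
    (h₂ : ∀ p, (W₂.fib (χ p)).map (C p).φ₁ = riemannRochSpace (E - D₂ p))
    (h₁' : W₁.fib ρ = Wt) (h₂' : W₂.fib ρ = Wt)
    (hD : ∀ p, KMTriple K F B (D₁ p) (D₂ p) (D₃ p)) :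
    ∃ W₃ : Fam 𝓡 I₁,
      (∀ p, (W₃.fib (χ p)).map (C p).φ₁ = riemannRochSpace (E - D₃ p)) ∧
      W₃.fib ρ = Wt := by
  classical
  have : IsLocalHom ρ := hρ
  have S : KMSetting K F x E B n := ⟨hF, hn, hE, hB⟩
  obtain ⟨p₀⟩ := (inferInstance : Nonempty P)
  obtain ⟨ut, hut, hut0, hQt, hNt, hgood⟩ := hsp.exists_good
  -- Step 1: the product family `U = W₁ · W₂`
  have hUr : ∀ p, (finrank K (prodSpan (Fam.mapTab (χ p) a) (W₁.fib (χ p)) (W₂.fib (χ p))) : ℤ)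
      = 2 * n - 3 * genusFF K F + 1 := fun p => finrank_U S (C p) (hD p) (h₁ p) (h₂ p)
  have hUr' : (2 * n - 3 * genusFF K F + 1 : ℤ)
      ≤ (finrank k (prodSpan (Fam.mapTab ρ a) (W₁.fib ρ) (W₂.fib ρ)) : ℤ) := by
    rw [h₁', h₂']; exact hsp.rank_U
  obtain ⟨U, hU, hU'⟩ : ∃ U : Fam 𝓡 I₂,
      (∀ p, U.fib (χ p) = prodSpan (Fam.mapTab (χ p) a) (W₁.fib (χ p)) (W₂.fib (χ p))) ∧
      U.fib ρ = prodSpan (Fam.mapTab ρ a) (W₁.fib ρ) (W₂.fib ρ) := by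
    obtain ⟨hUf⟩ := exists_rankFact_mul' χ hχ ρ W₁ W₂ a _ rfl
      (fun p => by have := hUr p; omega)
    exact ⟨W₁.mul W₂ a hUf, fun p => Fam.fib_mul _ _ _ _ _, Fam.fib_mul _ _ _ _ _⟩
  have hU't : U.fib ρ = prodSpan (Fam.mapTab ρ a) Wt Wt := by rw [hU', h₁', h₂']
  -- the ranks of the fibres of `U` agree
  have hUrank : ∀ p, finrank k (U.fib ρ) = finrank K (U.fib (χ p)) := fun p => by
    rw [Fam.finrank_fib, Fam.finrank_fib]
  -- Step 2: a unimodular element `u₀` of `U` lifting the good element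
  obtain ⟨u₀, hu₀ρ, hu₀χ⟩ := exists_lift_unimodular U ρ hρs (hU't ▸ hut) hut0 K
  have hu₀ : ∀ p, (fun j => χ p (u₀ j)) ∈ U.fib (χ p) := fun p => (hu₀χ (χ p)).1
  have hu₀n : ∀ p, (fun j => χ p (u₀ j)) ≠ 0 := fun p => (hu₀χ (χ p)).2
  -- Step 3: `Q = (all of J₂) · u₀`
  obtain ⟨Q, hQ, hQ'⟩ : ∃ Q : Fam 𝓡 J₄,
      (∀ p, Q.fib (χ p) = Qs (Fam.mapTab (χ p) c) (fun j => χ p (u₀ j))) ∧
      Q.fib ρ = Qs (Fam.mapTab ρ c) (fun j => ρ (u₀ j)) := by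
    obtain ⟨hQf⟩ := exists_rankFact_image' χ hχ ρ (Fam.top 𝓡 J₂) (Fam.rightMulMatrix c u₀)
      (Fintype.card J₂) (by rw [map_top_rightMul, hu₀ρ]; exact hQt)
      (fun p => by rw [map_top_rightMul]; exact ((C p).finrank_Qs (hu₀n p)).le)
    refine ⟨(Fam.top 𝓡 J₂).image (Fam.rightMulMatrix c u₀) hQf, fun p => ?_, ?_⟩
    · rw [Fam.fib_image, map_top_rightMul]
    · rw [Fam.fib_image, map_top_rightMul]
  -- Step 4: the line `N = {v | v · U ⊆ Q}` and its generator `v₀`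
  have hu₀m : ∀ p, (fun j => χ p (u₀ j)) ∈
      prodSpan (Fam.mapTab (χ p) a) (W₁.fib (χ p)) (W₂.fib (χ p)) := fun p => hU p ▸ hu₀ p
  have hNr : ∀ p, finrank K (Ns (Fam.mapTab (χ p) c) (U.fib (χ p)) (fun j => χ p (u₀ j))) = 1 :=
    fun p => by rw [hU p]; exact finrank_Ns S (C p) (hD p) (h₁ p) (h₂ p) (hu₀m p) (hu₀n p)
  have hNr' : finrank k (Ns (Fam.mapTab ρ c) (U.fib ρ) (fun j => ρ (u₀ j))) = 1 := by
    rw [hU't, hu₀ρ]; exact hNt
  obtain ⟨N, hN, hN'⟩ : ∃ N : Fam 𝓡 J₂,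
      (∀ p, N.fib (χ p) = Ns (Fam.mapTab (χ p) c) (U.fib (χ p)) (fun j => χ p (u₀ j))) ∧
      N.fib ρ = Ns (Fam.mapTab ρ c) (U.fib ρ) (fun j => ρ (u₀ j)) := by
    obtain ⟨rN, ⟨hNf⟩⟩ := exists_rankFact_transporter' χ hχ ρ (Fam.top 𝓡 J₂) U Q c
      (fun p => by
        rw [transp_eq_Ns ρ c u₀ U Q hQ', transp_eq_Ns (χ p) c u₀ U Q (hQ p), hNr', hNr p])
    refine ⟨(Fam.top 𝓡 J₂).transporter U Q c hNf, fun p => ?_, ?_⟩
    · rw [Fam.fib_transporter, transp_eq_Ns (χ p) c u₀ U Q (hQ p)]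
    · rw [Fam.fib_transporter, transp_eq_Ns ρ c u₀ U Q hQ']
  obtain ⟨v₀, hv₀, hv₀', hv₀n, hv₀n'⟩ : ∃ v₀ : J₂ → 𝓡,
      (∀ p, (fun j => χ p (v₀ j)) ∈ N.fib (χ p)) ∧ (fun j => ρ (v₀ j)) ∈ N.fib ρ ∧
      (∀ p, (fun j => χ p (v₀ j)) ≠ 0) ∧ (fun j => ρ (v₀ j)) ≠ 0 := by
    obtain ⟨ν, ⟨hν⟩⟩ := N.exists_rankFact
    have hνeq : finrank k (N.fib ρ) = ν := hν.rank_map_eq ρ
    have hνpos : 0 < ν := by
      rw [hN', hNr'] at hνeq
      omega
    exact ⟨fun i => hν.B i ⟨0, hνpos⟩, fun p => Fam.col_B_mem_fib N hν (χ p) _,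
      Fam.col_B_mem_fib N hν ρ _, fun p => Fam.col_B_ne_zero N hν (χ p) _,
      Fam.col_B_ne_zero N hν ρ _⟩
  have hv₀m : ∀ p, (fun j => χ p (v₀ j)) ∈ Ns (Fam.mapTab (χ p) c)
      (prodSpan (Fam.mapTab (χ p) a) (W₁.fib (χ p)) (W₂.fib (χ p))) (fun j => χ p (u₀ j)) :=
    fun p => by have h := hv₀ p; rwa [hN p, hU p] at h
  have hv₀m' : (fun j => ρ (v₀ j)) ∈ Ns (Fam.mapTab ρ c)
      (prodSpan (Fam.mapTab ρ a) Wt Wt) ut := by
    have h := hv₀'; rwa [hN', hU't, hu₀ρ] at h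
  obtain ⟨hTt, hWt, hW3t⟩ := hgood _ hv₀m' hv₀n'
  -- Step 5: `T = v₀ · U`
  obtain ⟨T, hT, hT'⟩ : ∃ T : Fam 𝓡 J₄,
      (∀ p, T.fib (χ p) = Ts (Fam.mapTab (χ p) c) (U.fib (χ p)) (fun j => χ p (v₀ j))) ∧
      T.fib ρ = Ts (Fam.mapTab ρ c) (U.fib ρ) (fun j => ρ (v₀ j)) := by
    obtain ⟨hTf⟩ := exists_rankFact_image' χ hχ ρ U (Fam.leftMulMatrix c v₀)
      (finrank k (U.fib ρ)) (by rw [map_leftMul, hU't]; exact hTt)
      (fun p => by
        rw [map_leftMul, (C p).finrank_Ts (hv₀n p), hUrank p])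
    refine ⟨U.image (Fam.leftMulMatrix c v₀) hTf, fun p => ?_, ?_⟩
    · rw [Fam.fib_image, map_leftMul]
    · rw [Fam.fib_image, map_leftMul]
  -- Step 6: `W' = {f | f · u₀ ∈ T}`
  obtain ⟨W', hW, hW'⟩ : ∃ W' : Fam 𝓡 J₂,
      (∀ p, W'.fib (χ p) = Ws (Fam.mapTab (χ p) c)
        (prodSpan (Fam.mapTab (χ p) a) (W₁.fib (χ p)) (W₂.fib (χ p)))
        (fun j => χ p (u₀ j)) (fun j => χ p (v₀ j))) ∧
      W'.fib ρ = Ws (Fam.mapTab ρ c) (prodSpan (Fam.mapTab ρ a) Wt Wt)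
        ut (fun j => ρ (v₀ j)) := by
    have e : ∀ p, (Fam.top 𝓡 J₂).fib (χ p) ⊓
        (T.fib (χ p)).comap ((Fam.rightMulMatrix c u₀).map (χ p)).mulVecLin =
        Ws (Fam.mapTab (χ p) c) (prodSpan (Fam.mapTab (χ p) a) (W₁.fib (χ p)) (W₂.fib (χ p)))
          (fun j => χ p (u₀ j)) (fun j => χ p (v₀ j)) :=
      fun p => inf_comap_eq_Ws (χ p) c u₀ v₀ _ T (by rw [hT p, hU p])
    have e' : (Fam.top 𝓡 J₂).fib ρ ⊓
        (T.fib ρ).comap ((Fam.rightMulMatrix c u₀).map ρ).mulVecLin =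
        Ws (Fam.mapTab ρ c) (prodSpan (Fam.mapTab ρ a) Wt Wt)
          ut (fun j => ρ (v₀ j)) := by
      have h := inf_comap_eq_Ws ρ c u₀ v₀ (prodSpan (Fam.mapTab ρ a) Wt Wt) T
        (by rw [hT', hU't])
      rw [h, hu₀ρ]
    obtain ⟨rW, ⟨hWf⟩⟩ := exists_rankFact_preimage' χ hχ ρ (Fam.top 𝓡 J₂) T
      (Fam.rightMulMatrix c u₀) (fun p => by
        rw [e p, e']
        have h1 := finrank_Ws S (C p) (hD p) (h₁ p) (h₂ p) (hu₀n p) (hv₀m p) (hv₀n p)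
        omega)
    refine ⟨(Fam.top 𝓡 J₂).preimage T (Fam.rightMulMatrix c u₀) hWf, fun p => ?_, ?_⟩
    · rw [Fam.fib_preimage, e p]
    · rw [Fam.fib_preimage, e']
  -- Step 7: `W₃ = {f | f · (all of J₁) ⊆ W'}`
  have e₃ : ∀ p, transp (Fam.mapTab (χ p) b) ((Fam.top 𝓡 I₁).fib (χ p))
      ((Fam.top 𝓡 J₁).fib (χ p)) (W'.fib (χ p)) =
      W3s (Fam.mapTab (χ p) b) (Fam.mapTab (χ p) c)
        (prodSpan (Fam.mapTab (χ p) a) (W₁.fib (χ p)) (W₂.fib (χ p)))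
        (fun j => χ p (u₀ j)) (fun j => χ p (v₀ j)) :=
    fun p => transp_eq_W3s (χ p) b c u₀ v₀ _ W' (hW p)
  have e₃' : transp (Fam.mapTab ρ b) ((Fam.top 𝓡 I₁).fib ρ) ((Fam.top 𝓡 J₁).fib ρ) (W'.fib ρ) =
      Wt := by
    have h := transp_eq_W3s ρ b c u₀ v₀ (prodSpan (Fam.mapTab ρ a) Wt Wt) W'
      (by rw [hW', hu₀ρ])
    rw [h, hu₀ρ]
    exact hW3t
  -- the rank of `Wt` is the generic rank of `W₁`
  have hWtrank : ∀ p, finrank k Wt = finrank K (W₁.fib (χ p)) := fun p => by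
    rw [← h₁', Fam.finrank_fib, Fam.finrank_fib]
  have hW₁rank : ∀ p, (finrank K (W₁.fib (χ p)) : ℤ) = n - 2 * genusFF K F + 1 := fun p => by
    have hdeg : Divisor.degree (E - D₁ p) = n - genusFF K F := by
      rw [map_sub, hE, (hD p).deg₁]
    rw [← finrank_map_inj (C p).φ₁ (C p).inj_φ₁, h₁ p,
      finrank_L_of_degree hF (by rw [hdeg]; linarith), hdeg]
    ring
  obtain ⟨r₃, ⟨h₃f⟩⟩ := exists_rankFact_transporter' χ hχ ρ (Fam.top 𝓡 I₁) (Fam.top 𝓡 J₁) W' b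
    (fun p => by
      rw [e₃ p, e₃']
      have h1 := finrank_W3s (b := Fam.mapTab (χ p) b) S (C p) (hD p) (h₁ p) (h₂ p)
        (hu₀n p) (hv₀m p) (hv₀n p)
      have h2 := hWtrank p
      have h3 := hW₁rank p
      omega)
  refine ⟨(Fam.top 𝓡 I₁).transporter (Fam.top 𝓡 J₁) W' b h₃f, fun p => ?_, ?_⟩
  · rw [Fam.fib_transporter, e₃ p]
    exact map_W3s S (C p) (hD p) (h₁ p) (h₂ p) (hu₀n p) (hv₀m p) (hv₀n p)
  · rw [Fam.fib_transporter, e₃']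

end Fermat.Agent.Padic.S33.RC
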