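/-
S33 / Route C (RC-4b): the special chain `SpecChain` from coordinates on an abstract special fibre.

The special fibre is a commutative `k`-algebra `Ft` (in the application `F₁ × F₂`, the product of
the function fields of the two components of the nodal curve) with three subspaces

* `G₁`  (sections of `O(E)`),  `G₁B ≤ G₁` (sections of `O(E - B)`),  `G₂B` (sections of `O(2E - B)`),

coordinate maps as in `KMAdd.KMCoord`, and the three facts `SpecFacts` about them: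
the product `G₁B · G₁B` lies in `G₂B` and has the generic rank `m`; it contains a non-zero-divisor
`u` such that `{v ∈ G₂B | v · (G₁B·G₁B) ⊆ G₂B · u} = k · u` (non-speciality of `B`); and
`{f ∈ G₁ | f · G₁B ⊆ G₁B · G₁B} = G₁B`.
-/
import Mathlib
import Fermat.Agent.Padic.S33.RC.FamAdd

set_option autoImplicit false
set_option linter.unusedSectionVars false

noncomputable section

namespace Fermat.Agent.Padic.S33.RC

open Module Matrix
open Fermat.Agent.Lib.LinAlg.Family Fermat.Agent.Lib.LinAlg.ConstRank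
open Fermat.Agent.Padic.KMAdd

/-- Coordinates on the special fibre `Ft` (a commutative `k`-algebra): the analogue of
`KMAdd.KMCoord` with the Riemann–Roch spaces replaced by three given subspaces. -/
structure SpecCoord (k : Type*) [Field k] (Ft : Type*) [CommRing Ft] [Algebra k Ft]
    {I₁ I₂ J₁ J₂ J₄ : Type*} [Fintype I₁] [Fintype I₂] [Fintype J₁] [Fintype J₂] [Fintype J₄]
    (a : I₂ → I₁ → I₁ → k) (b : J₂ → I₁ → J₁ → k) (c : J₄ → J₂ → I₂ → k)
    (G₁ G₁B G₂B : Submodule k Ft) where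
  /-- coordinates of `G₁` -/
  φ₁ : (I₁ → k) →ₗ[k] Ft
  /-- coordinates of (a space containing) `G₁ · G₁` -/
  φ₂ : (I₂ → k) →ₗ[k] Ft
  /-- coordinates of `G₁B` -/
  ψ₁ : (J₁ → k) →ₗ[k] Ft
  /-- coordinates of `G₂B` -/
  ψ₂ : (J₂ → k) →ₗ[k] Ft
  /-- coordinates of (a space containing) `G₂B · G₁ · G₁` -/
  ψ₄ : (J₄ → k) →ₗ[k] Ft
  inj_φ₁ : Function.Injective φ₁
  inj_φ₂ : Function.Injective φ₂
  inj_ψ₂ : Function.Injective ψ₂
  inj_ψ₄ : Function.Injective ψ₄
  range_φ₁ : LinearMap.range φ₁ = G₁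
  range_ψ₁ : LinearMap.range ψ₁ = G₁B
  range_ψ₂ : LinearMap.range ψ₂ = G₂B
  mul_a : ∀ v w, φ₂ (mulTab a v w) = φ₁ v * φ₁ w
  mul_b : ∀ v y, ψ₂ (mulTab b v y) = φ₁ v * ψ₁ y
  mul_c : ∀ y u, ψ₄ (mulTab c y u) = ψ₂ y * φ₂ u

/-- The facts on the special fibre (for the nodal curve: multiplication, the two colon
identities and non-speciality of `B`). -/
structure SpecFacts {k : Type*} [Field k] {Ft : Type*} [CommRing Ft] [Algebra k Ft]
    (G₁ G₁B G₂B : Submodule k Ft) (m : ℤ) : Prop where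
  le : G₁B ≤ G₁
  mul_le : G₁B * G₁B ≤ G₂B
  finrank_mul : (finrank k ↥(G₁B * G₁B) : ℤ) = m
  exists_regular : ∃ u ∈ G₁B * G₁B, (∀ t : Ft, u * t = 0 → t = 0) ∧
    ∀ v ∈ G₂B, (∀ u' ∈ G₁B * G₁B, ∃ y ∈ G₂B, y * u = v * u') → ∃ cst : k, v = cst • u
  colon : ∀ f ∈ G₁, (∀ y ∈ G₁B, f * y ∈ G₁B * G₁B) → f ∈ G₁B

section Chain

variable {k : Type*} [Field k] {Ft : Type*} [CommRing Ft] [Algebra k Ft] [Nontrivial Ft]
  {I₁ I₂ J₁ J₂ J₄ : Type*} [Fintype I₁] [Fintype I₂] [Fintype J₁] [Fintype J₂] [Fintype J₄]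
  {a : I₂ → I₁ → I₁ → k} {b : J₂ → I₁ → J₁ → k} {c : J₄ → J₂ → I₂ → k}
  {G₁ G₁B G₂B : Submodule k Ft} {m : ℤ}

namespace SpecCoord

variable (C : SpecCoord k Ft a b c G₁ G₁B G₂B)

theorem map_prodSpan (W₁ W₂ : Submodule k (I₁ → k)) :
    (prodSpan a W₁ W₂).map C.φ₂ = W₁.map C.φ₁ * W₂.map C.φ₁ := by
  apply le_antisymm
  · rw [prodSpan, Submodule.map_span, Submodule.span_le]
    rintro _ ⟨_, ⟨v, hv, w, hw, rfl⟩, rfl⟩
    rw [SetLike.mem_coe, C.mul_a]
    exact Submodule.mul_mem_mul (Submodule.mem_map_of_mem hv) (Submodule.mem_map_of_mem hw)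
  · rw [Submodule.mul_le]
    rintro _ ⟨v, hv, rfl⟩ _ ⟨w, hw, rfl⟩
    rw [← C.mul_a]
    exact Submodule.mem_map_of_mem (Submodule.subset_span ⟨v, hv, w, hw, rfl⟩)

theorem φ₁_mem (f : I₁ → k) : C.φ₁ f ∈ G₁ := by
  have h := LinearMap.mem_range_self C.φ₁ f
  rwa [C.range_φ₁] at h

theorem ψ₁_mem (y : J₁ → k) : C.ψ₁ y ∈ G₁B := by
  have h := LinearMap.mem_range_self C.ψ₁ y
  rwa [C.range_ψ₁] at h

theorem ψ₂_mem (y : J₂ → k) : C.ψ₂ y ∈ G₂B := by
  have h := LinearMap.mem_range_self C.ψ₂ y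
  rwa [C.range_ψ₂] at h

theorem exists_ψ₁ {z : Ft} (hz : z ∈ G₁B) : ∃ y : J₁ → k, C.ψ₁ y = z := by
  have h : z ∈ LinearMap.range C.ψ₁ := by rw [C.range_ψ₁]; exact hz
  exact h

theorem exists_ψ₂ {z : Ft} (hz : z ∈ G₂B) : ∃ y : J₂ → k, C.ψ₂ y = z := by
  have h : z ∈ LinearMap.range C.ψ₂ := by rw [C.range_ψ₂]; exact hz
  exact h

/-- The coordinates of `G₁B` inside `G₁`. -/
def Wt : Submodule k (I₁ → k) := G₁B.comap C.φ₁

theorem map_Wt (hle : G₁B ≤ G₁) : (C.Wt).map C.φ₁ = G₁B := by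
  apply le_antisymm
  · rintro _ ⟨v, hv, rfl⟩
    exact hv
  · intro y hy
    have hy' : y ∈ LinearMap.range C.φ₁ := by rw [C.range_φ₁]; exact hle hy
    obtain ⟨v, rfl⟩ := hy'
    exact ⟨v, hy, rfl⟩

theorem map_U (hle : G₁B ≤ G₁) : (prodSpan a C.Wt C.Wt).map C.φ₂ = G₁B * G₁B := by
  rw [C.map_prodSpan, C.map_Wt hle]

end SpecCoord

/-- **The special chain from coordinates on the special fibre.** -/
theorem specChain_of_specCoord (C : SpecCoord k Ft a b c G₁ G₁B G₂B)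
    (hF : SpecFacts G₁ G₁B G₂B m) : SpecChain a b c C.Wt m := by
  classical
  have hU := C.map_U hF.le
  set U' : Submodule k (I₂ → k) := prodSpan a C.Wt C.Wt with hU'
  have hfin : finrank k U' = finrank k ↥(G₁B * G₁B) := by
    rw [← hU]
    exact (finrank_map_inj C.φ₂ C.inj_φ₂ U').symm
  obtain ⟨u, hu, hreg, hline⟩ := hF.exists_regular
  have hu0 : u ≠ 0 := by
    rintro rfl
    exact one_ne_zero (hreg 1 (zero_mul _))
  -- `u = φ₂ u₀`
  have hu' : u ∈ U'.map C.φ₂ := by rw [hU]; exact hu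
  obtain ⟨u₀, hu₀U, hu₀⟩ := hu'
  have hu₀0 : u₀ ≠ 0 := by
    rintro rfl
    rw [map_zero] at hu₀
    exact hu0 hu₀.symm
  -- `u = ψ₂ v₁`
  obtain ⟨v₁, hv₁⟩ := C.exists_ψ₂ (hF.mul_le hu)
  have hv₁0 : v₁ ≠ 0 := by
    rintro rfl
    rw [map_zero] at hv₁
    exact hu0 hv₁.symm
  -- elements of `G₁B * G₁B` in the two coordinate systems
  have hφ₂mem : ∀ u' ∈ U', C.φ₂ u' ∈ G₁B * G₁B := fun u' hu' => by
    rw [← hU]; exact Submodule.mem_map_of_mem hu'
  have hψ₂pre : ∀ z ∈ G₁B * G₁B, ∃ y : J₂ → k, C.ψ₂ y = z := fun z hz =>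
    C.exists_ψ₂ (hF.mul_le hz)
  have hφ₂pre : ∀ z ∈ G₁B * G₁B, ∃ u' ∈ U', C.φ₂ u' = z := fun z hz => by
    have : z ∈ U'.map C.φ₂ := by rw [hU]; exact hz
    exact this
  -- the line
  have hNs : Ns c U' u₀ = Submodule.span k {v₁} := by
    apply le_antisymm
    · intro v hv
      rw [mem_Ns] at hv
      have h1 : ∃ cst : k, C.ψ₂ v = cst • u := by
        refine hline (C.ψ₂ v) (C.ψ₂_mem v) fun u'' hu'' => ?_
        obtain ⟨u', hu'U, rfl⟩ := hφ₂pre u'' hu''
        obtain ⟨y, hy⟩ := hv u' hu'U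
        refine ⟨C.ψ₂ y, C.ψ₂_mem y, ?_⟩
        have h4 := congrArg C.ψ₄ hy
        rw [C.mul_c, C.mul_c, hu₀] at h4
        exact h4
      obtain ⟨cst, hcst⟩ := h1
      rw [Submodule.mem_span_singleton]
      refine ⟨cst, C.inj_ψ₂ ?_⟩
      rw [map_smul, hv₁, hcst]
    · rw [Submodule.span_le, Set.singleton_subset_iff, SetLike.mem_coe, mem_Ns]
      intro u' hu'U
      obtain ⟨y, hy⟩ := hψ₂pre _ (hφ₂mem u' hu'U)
      refine ⟨y, C.inj_ψ₄ ?_⟩
      rw [C.mul_c, C.mul_c, hy, hv₁, hu₀, mul_comm]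
  refine ⟨by rw [hfin, hF.finrank_mul], u₀, hu₀U, hu₀0, ?_, ?_, ?_⟩
  · -- `Q`
    have hinj : Function.Injective (Fam.rightMulMatrix c u₀).mulVecLin := by
      rw [injective_iff_map_eq_zero]
      intro v hv
      rw [Matrix.mulVecLin_apply, Fam.rightMulMatrix_mulVec] at hv
      have h1 := C.mul_c v u₀
      rw [hv, map_zero, hu₀] at h1
      have h2 : C.ψ₂ v = 0 := hreg _ (by rw [mul_comm]; exact h1.symm)
      exact C.inj_ψ₂ (h2.trans (map_zero _).symm)
    rw [Qs, finrank_map_inj _ hinj, finrank_top, Module.finrank_fintype_fun_eq_card]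
  · rw [hNs]
    exact finrank_span_singleton hv₁0
  · intro v₀ hv₀ hv₀0
    rw [hNs, Submodule.mem_span_singleton] at hv₀
    obtain ⟨cst, rfl⟩ := hv₀
    have hcst : cst ≠ 0 := by
      rintro rfl
      exact hv₀0 (zero_smul _ _)
    have hψv₀ : C.ψ₂ (cst • v₁) = cst • u := by rw [map_smul, hv₁]
    refine ⟨?_, ?_, ?_⟩
    · -- `T`
      have hinj : Function.Injective (Fam.leftMulMatrix c (cst • v₁)).mulVecLin := by
        rw [injective_iff_map_eq_zero]
        intro w hw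
        rw [Matrix.mulVecLin_apply, Fam.leftMulMatrix_mulVec] at hw
        have h1 := C.mul_c (cst • v₁) w
        rw [hw, map_zero, hψv₀, smul_mul_assoc] at h1
        have h2 : u * C.φ₂ w = 0 := by
          have h3 := congrArg (fun z => cst⁻¹ • z) h1
          simp only [smul_zero, smul_smul, inv_mul_cancel₀ hcst, one_smul] at h3
          exact h3.symm
        exact C.inj_φ₂ ((hreg _ h2).trans (map_zero _).symm)
      rw [Ts, finrank_map_inj _ hinj]
    · -- `W''`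
      have hWs : Ws c U' u₀ (cst • v₁) = (G₁B * G₁B).comap C.ψ₂ := by
        ext f
        rw [mem_Ws, Submodule.mem_comap]
        constructor
        · rintro ⟨w, hw, hmul⟩
          have h4 := congrArg C.ψ₄ hmul
          rw [C.mul_c, C.mul_c, hψv₀, hu₀, smul_mul_assoc] at h4
          have h5 : u * (cst • C.φ₂ w - C.ψ₂ f) = 0 := by
            rw [mul_sub, mul_smul_comm, h4, mul_comm]
            exact sub_self _
          have h6 : C.ψ₂ f = cst • C.φ₂ w := (sub_eq_zero.1 (hreg _ h5)).symm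
          rw [h6]
          exact Submodule.smul_mem _ _ (hφ₂mem w hw)
        · intro hf
          obtain ⟨w, hw, hwf⟩ := hφ₂pre _ hf
          refine ⟨cst⁻¹ • w, Submodule.smul_mem _ _ hw, C.inj_ψ₄ ?_⟩
          rw [C.mul_c, C.mul_c, hψv₀, hu₀, map_smul, hwf, smul_mul_smul_comm,
            mul_inv_cancel₀ hcst, one_smul, mul_comm]
      rw [hWs]
      have hle : G₁B * G₁B ≤ LinearMap.range C.ψ₂ := fun z hz => C.exists_ψ₂ (hF.mul_le hz)
      have hmap : ((G₁B * G₁B).comap C.ψ₂).map C.ψ₂ = G₁B * G₁B :=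
        Submodule.map_comap_eq_of_le hle
      rw [← finrank_map_inj C.ψ₂ C.inj_ψ₂, hmap, hF.finrank_mul]
    · -- `W₃`
      have hWs : ∀ f : J₂ → k, f ∈ Ws c U' u₀ (cst • v₁) ↔ C.ψ₂ f ∈ G₁B * G₁B := by
        intro f
        rw [mem_Ws]
        constructor
        · rintro ⟨w, hw, hmul⟩
          have h4 := congrArg C.ψ₄ hmul
          rw [C.mul_c, C.mul_c, hψv₀, hu₀, smul_mul_assoc] at h4
          have h5 : u * (cst • C.φ₂ w - C.ψ₂ f) = 0 := by
            rw [mul_sub, mul_smul_comm, h4, mul_comm]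
            exact sub_self _
          have h6 : C.ψ₂ f = cst • C.φ₂ w := (sub_eq_zero.1 (hreg _ h5)).symm
          rw [h6]
          exact Submodule.smul_mem _ _ (hφ₂mem w hw)
        · intro hf
          obtain ⟨w, hw, hwf⟩ := hφ₂pre _ hf
          refine ⟨cst⁻¹ • w, Submodule.smul_mem _ _ hw, C.inj_ψ₄ ?_⟩
          rw [C.mul_c, C.mul_c, hψv₀, hu₀, map_smul, hwf, smul_mul_smul_comm,
            mul_inv_cancel₀ hcst, one_smul, mul_comm]
      ext f
      have hWtmem : f ∈ C.Wt ↔ C.φ₁ f ∈ G₁B := Iff.rfl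
      rw [mem_W3s, hWtmem]
      constructor
      · intro h
        refine hF.colon (C.φ₁ f) (C.φ₁_mem f) fun y' hy' => ?_
        obtain ⟨y, rfl⟩ := C.exists_ψ₁ hy'
        have := (hWs _).1 (h y)
        rwa [C.mul_b] at this
      · intro hf y
        rw [hWs, C.mul_b]
        exact Submodule.mul_mem_mul hf (C.ψ₁_mem y)

end Chain

end Fermat.Agent.Padic.S33.RC
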