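/-
S33 / Route C (RC-5), lattice calculus for a PAIR `(A, O)`, `O` a SUBRING of `F` (in the
application `O = O_∞ ∩ O_0 = BAD.TwoVal.OPair`, `red = redPair : O →+* κ × κ`).

The analogue, for orthonormal families (`BAD.Ortho.IsOrtho`) and a reduction map to a
commutative `k`-algebra `Ft`, of `Padic/Lattice` + `Padic/KMData` + `Padic/FamOfLattice`
(valuation ring `O`, field `Ft`):

* `PRed A O red π` : the reduction data (`ker red = 𝔪_A • O`, `red` on constants);
* `PRed.redSub W` : the reduction `red (W ∩ O)` of an `L`-subspace `W` of `F` (a `k`-subspace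
  of `Ft`), `PRed.redSub_eq_span` : it is spanned by the reductions of an orthonormal basis;
* `PRed.red_li` : the reductions of an orthonormal family are `k`-linearly independent;
* `PRed.exists_mulTable`, `PRed.exists_inclTable` : multiplication / inclusion tables with
  entries in `A`, compatible with the reduction;
* `PRed.exists_kmCoord_specCoord` : the Khuri-Makdisi coordinate data `KMAdd.KMCoord` on the
  generic fibre and `RC.SpecCoord` on the special fibre from five orthonormal bases.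
-/
import Mathlib
import Fermat.Agent.BAD.Ortho
import Fermat.Agent.Padic.KMCoordOfBases
import Fermat.Agent.Padic.S33.RC.SpecChainOf

set_option autoImplicit false

noncomputable section

namespace Fermat.Agent.Padic.S33.RC.OrthoFam

open AlgebraicCurve Module
open Fermat.Agent.BAD.Ortho Fermat.Agent.Lib.Red.Deform
open Fermat.Agent.Lib.LinAlg.Family Fermat.Agent.Padic.KMAdd Fermat.Agent.Padic.S33.RC

variable {L F : Type*} [Field L] [Field F] [Algebra L F]
  {k Ft : Type*} [Field k] [CommRing Ft] [Algebra k Ft]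

/-- Reduction data for a pair `(A, O)`: `π : A → k` is the residue map of `A`, `O` a subring of
`F` with `O ∩ L = A`, and `red : O →+* Ft` a ring homomorphism with kernel `𝔪_A • O` which is
`π` on the constants. -/
structure PRed (A : ValuationSubring L) (O : Subring F) (red : O →+* Ft) (π : A →+* k) :
    Prop where
  hπsurj : Function.Surjective π
  hπ : ∀ a : A, π a = 0 ↔ A.valuation (a : L) < 1
  hOA : ∀ c : L, algebraMap L F c ∈ O ↔ c ∈ A
  hker : ∀ y : O, red y = 0 ↔ Small A O (y : F)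
  hredconst : ∀ c : A, red ⟨algebraMap L F (c : L), (hOA _).mpr c.2⟩ = algebraMap k Ft (π c)

namespace PRed

variable {A : ValuationSubring L} {O : Subring F} {red : O →+* Ft} {π : A →+* k}
  (h : PRed A O red π)

include h

/-- Constants of `A` as elements of `O`. -/
def cO (a : A) : O := ⟨algebraMap L F (a : L), (h.hOA _).mpr a.2⟩

theorem red_cO (a : A) : red (h.cO a) = algebraMap k Ft (π a) := h.hredconst a

/-- The reduction of an `A`-combination of elements of `O`. -/
theorem red_comb {ι : Type*} [Fintype ι] (c : ι → A) (b : ι → O) (y : O)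
    (hy : (y : F) = ∑ i, (c i : L) • (b i : F)) : red y = ∑ i, π (c i) • red (b i) := by
  have e : y = ∑ i, h.cO (c i) * b i := by
    apply Subtype.ext
    rw [hy, AddSubmonoidClass.coe_finsetSum]
    refine Finset.sum_congr rfl fun i _ => ?_
    rw [Algebra.smul_def]
    rfl
  rw [e, map_sum]
  refine Finset.sum_congr rfl fun i _ => ?_
  rw [map_mul, h.red_cO, Algebra.smul_def]

/-- The reduction `red (W ∩ O)` of an `L`-subspace of `F`. -/
def redSub (W : Submodule L F) : Submodule k Ft where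
  carrier := {t | ∃ y : O, (y : F) ∈ W ∧ red y = t}
  zero_mem' := ⟨0, W.zero_mem, map_zero _⟩
  add_mem' := by
    rintro _ _ ⟨y, hy, rfl⟩ ⟨y', hy', rfl⟩
    exact ⟨y + y', W.add_mem hy hy', map_add _ _ _⟩
  smul_mem' := by
    rintro g _ ⟨y, hy, rfl⟩
    obtain ⟨a, rfl⟩ := h.hπsurj g
    refine ⟨h.cO a * y, ?_, ?_⟩
    · show algebraMap L F (a : L) * (y : F) ∈ W
      rw [← Algebra.smul_def]
      exact W.smul_mem _ hy
    · rw [map_mul, h.red_cO, Algebra.smul_def]

theorem mem_redSub {W : Submodule L F} {t : Ft} :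
    t ∈ h.redSub W ↔ ∃ y : O, (y : F) ∈ W ∧ red y = t := Iff.rfl

theorem redSub_mono {W W' : Submodule L F} (hle : W ≤ W') : h.redSub W ≤ h.redSub W' := by
  rintro _ ⟨y, hy, rfl⟩
  exact ⟨y, hle hy, rfl⟩

section Ortho

variable {ι : Type*} [Fintype ι] {b : ι → F}

/-- The reduction of a combination of an orthonormal family with coefficients in `A`. -/
theorem red_sum (hb : IsOrtho A O b) (c : ι → A) (y : O)
    (hy : (y : F) = ∑ i, (c i : L) • b i) :
    red y = ∑ i, π (c i) • red ⟨b i, hb.mem i⟩ :=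
  h.red_comb c (fun i => ⟨b i, hb.mem i⟩) y hy

/-- The reductions of an orthonormal family are linearly independent. -/
theorem red_li (hb : IsOrtho A O b) :
    LinearIndependent k (fun i => red ⟨b i, hb.mem i⟩) := by
  rw [Fintype.linearIndependent_iff]
  intro g hg i
  choose c hc using fun i => h.hπsurj (g i)
  have hmem : ∑ i, (c i : L) • b i ∈ O := hb.sum_mem h.hOA fun i => (c i).2
  have h1 : red ⟨∑ i, (c i : L) • b i, hmem⟩ = 0 := by
    rw [h.red_sum hb c ⟨_, hmem⟩ rfl, ← hg]
    exact Finset.sum_congr rfl fun i _ => by rw [hc i]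
  rw [h.hker] at h1
  have h2 := (hb.small_iff h.hOA fun i => (c i : L)).1 h1 i
  rw [← hc i, h.hπ]
  exact h2

/-- The reduction of the span of an orthonormal family is spanned by the reductions. -/
theorem redSub_eq_span (hb : IsOrtho A O b) {W : Submodule L F}
    (hs : Submodule.span L (Set.range b) = W) :
    h.redSub W = Submodule.span k (Set.range fun i => red ⟨b i, hb.mem i⟩) := by
  apply le_antisymm
  · rintro _ ⟨y, hy, rfl⟩
    rw [← hs] at hy
    obtain ⟨c, hc⟩ := hb.exists_coord hy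
    have hcA : ∀ i, c i ∈ A := hb.coeff c (by rw [← hc]; exact y.2)
    rw [h.red_sum hb (fun i => ⟨c i, hcA i⟩) y hc]
    exact Submodule.sum_mem _ fun i _ =>
      Submodule.smul_mem _ _ (Submodule.subset_span ⟨i, rfl⟩)
  · rw [Submodule.span_le]
    rintro _ ⟨i, rfl⟩
    refine ⟨⟨b i, hb.mem i⟩, ?_, rfl⟩
    rw [← hs]
    exact Submodule.subset_span ⟨i, rfl⟩

/-- **Multiplication table** of three orthonormal families, with entries in `A`, compatible
with the reduction. -/
theorem exists_mulTable {ι' ι'' : Type*} [Fintype ι'] [Fintype ι''] {b' : ι' → F}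
    {b'' : ι'' → F} (hb : IsOrtho A O b) (hb' : IsOrtho A O b') (hb'' : IsOrtho A O b'')
    (hmul : ∀ i j, b i * b' j ∈ Submodule.span L (Set.range b'')) :
    ∃ a : ι → ι' → ι'' → A,
      (∀ i j, b i * b' j = ∑ l, (a i j l : L) • b'' l) ∧
      ∀ i j, red ⟨b i, hb.mem i⟩ * red ⟨b' j, hb'.mem j⟩ =
        ∑ l, π (a i j l) • red ⟨b'' l, hb''.mem l⟩ := by
  have h1 : ∀ i j, ∃ c : ι'' → A, b i * b' j = ∑ l, (c l : L) • b'' l := by
    intro i j
    obtain ⟨c, hc⟩ := hb''.exists_coord (hmul i j)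
    have hcA : ∀ l, c l ∈ A :=
      hb''.coeff c (by rw [← hc]; exact O.mul_mem (hb.mem i) (hb'.mem j))
    exact ⟨fun l => ⟨c l, hcA l⟩, hc⟩
  choose a ha using h1
  refine ⟨a, ha, fun i j => ?_⟩
  rw [← map_mul]
  exact h.red_sum hb'' (a i j) (⟨b i, hb.mem i⟩ * ⟨b' j, hb'.mem j⟩) (ha i j)

/-- **Inclusion table** of an orthonormal family in the span of another one. -/
theorem exists_inclTable {ι' : Type*} [Fintype ι'] {f : ι' → F}
    (hb : IsOrtho A O b) (hf : IsOrtho A O f)
    (hle : ∀ j, f j ∈ Submodule.span L (Set.range b)) :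
    ∃ c : ι' → ι → A,
      (∀ j, f j = ∑ i, (c j i : L) • b i) ∧
      ∀ j, red ⟨f j, hf.mem j⟩ = ∑ i, π (c j i) • red ⟨b i, hb.mem i⟩ := by
  have h1 : ∀ j, ∃ c : ι → A, f j = ∑ i, (c i : L) • b i := by
    intro j
    obtain ⟨c, hc⟩ := hb.exists_coord (hle j)
    have hcA : ∀ i, c i ∈ A := hb.coeff c (by rw [← hc]; exact hf.mem j)
    exact ⟨fun i => ⟨c i, hcA i⟩, hc⟩
  choose c hc using h1
  exact ⟨c, hc, fun j => h.red_sum hb (c j) ⟨f j, hf.mem j⟩ (hc j)⟩

end Ortho

end PRed

/-! ### Coordinates on the special fibre from bases and structure constants -/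

/-- Structure constants give multiplicativity of the coordinate maps (commutative algebra
version of `KMAdd.linearCombination_mulTab`). -/
theorem linearCombination_mulTab' {ι ι' κ : Type*} [Fintype ι] [Fintype ι'] [Fintype κ]
    (c : κ → ι → ι' → k) (e : ι → Ft) (e' : ι' → Ft) (e'' : κ → Ft)
    (hc : ∀ i j, e i * e' j = ∑ l, c l i j • e'' l) (v : ι → k) (w : ι' → k) :
    Fintype.linearCombination k e'' (mulTab c v w) =
      Fintype.linearCombination k e v * Fintype.linearCombination k e' w := by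
  simp only [Fintype.linearCombination_apply, mulTab, Finset.sum_mul, Finset.mul_sum,
    smul_mul_smul_comm, hc, Finset.smul_sum, Finset.sum_smul, smul_smul]
  rw [Finset.sum_comm]
  conv_rhs => rw [Finset.sum_comm]
  refine Finset.sum_congr rfl fun i _ => ?_
  rw [Finset.sum_comm]
  refine Finset.sum_congr rfl fun j _ => Finset.sum_congr rfl fun l _ => ?_
  congr 1
  ring

/-- **Special coordinates from bases and structure constants.** -/
def specCoordOfBases (G₁ G₁B G₂B : Submodule k Ft)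
    {I₁ I₂ J₁ J₂ J₄ : Type*} [Fintype I₁] [Fintype I₂] [Fintype J₁] [Fintype J₂] [Fintype J₄]
    (a : I₂ → I₁ → I₁ → k) (b : J₂ → I₁ → J₁ → k) (c : J₄ → J₂ → I₂ → k)
    (e₁ : I₁ → Ft) (e₂ : I₂ → Ft) (f₁ : J₁ → Ft) (f₂ : J₂ → Ft) (f₄ : J₄ → Ft)
    (he₁ : LinearIndependent k e₁) (he₂ : LinearIndependent k e₂)
    (hf₂ : LinearIndependent k f₂) (hf₄ : LinearIndependent k f₄)
    (hs₁ : Submodule.span k (Set.range e₁) = G₁)
    (ht₁ : Submodule.span k (Set.range f₁) = G₁B)
    (ht₂ : Submodule.span k (Set.range f₂) = G₂B)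
    (ha : ∀ i j, e₁ i * e₁ j = ∑ l, a l i j • e₂ l)
    (hb : ∀ i j, e₁ i * f₁ j = ∑ l, b l i j • f₂ l)
    (hc : ∀ i j, f₂ i * e₂ j = ∑ l, c l i j • f₄ l) :
    SpecCoord k Ft a b c G₁ G₁B G₂B where
  φ₁ := Fintype.linearCombination k e₁
  φ₂ := Fintype.linearCombination k e₂
  ψ₁ := Fintype.linearCombination k f₁
  ψ₂ := Fintype.linearCombination k f₂
  ψ₄ := Fintype.linearCombination k f₄
  inj_φ₁ := linearIndependent_iff_injective_fintypeLinearCombination.1 he₁
  inj_φ₂ := linearIndependent_iff_injective_fintypeLinearCombination.1 he₂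
  inj_ψ₂ := linearIndependent_iff_injective_fintypeLinearCombination.1 hf₂
  inj_ψ₄ := linearIndependent_iff_injective_fintypeLinearCombination.1 hf₄
  range_φ₁ := by rw [Fintype.range_linearCombination, hs₁]
  range_ψ₁ := by rw [Fintype.range_linearCombination, ht₁]
  range_ψ₂ := by rw [Fintype.range_linearCombination, ht₂]
  mul_a := linearCombination_mulTab' a e₁ e₁ e₂ ha
  mul_b := linearCombination_mulTab' b e₁ f₁ f₂ hb
  mul_c := linearCombination_mulTab' c f₂ e₂ f₄ hc

/-! ### The coordinate data on both fibres -/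

open Fermat.Agent.Lib.FF.KMLemmas in
/-- **The Khuri-Makdisi coordinate data on both fibres from five orthonormal bases.**  The tables
have entries in `A`; the generic table is their image in `L`, the special one their reduction.
On the special fibre the three spaces are the reductions of `L(E)`, `L(E - B)`, `L(2E - B)`. -/
theorem PRed.exists_kmCoord_specCoord {A : ValuationSubring L} {O : Subring F}
    {red : O →+* Ft} {π : A →+* k} (h : PRed A O red π) {E B : Divisor L F}
    {I₁ I₂ J₁ J₂ J₄ : Type*} [Fintype I₁] [Fintype I₂] [Fintype J₁] [Fintype J₂] [Fintype J₄]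
    {b₁ : I₁ → F} {b₂ : I₂ → F} {f₁ : J₁ → F} {f₂ : J₂ → F} {f₄ : J₄ → F}
    (hb₁ : IsOrtho A O b₁) (hs₁ : Submodule.span L (Set.range b₁) = riemannRochSpace E)
    (hb₂ : IsOrtho A O b₂) (hs₂ : Submodule.span L (Set.range b₂) = riemannRochSpace (2 • E))
    (hf₁ : IsOrtho A O f₁) (ht₁ : Submodule.span L (Set.range f₁) = riemannRochSpace (E - B))
    (hf₂ : IsOrtho A O f₂)
    (ht₂ : Submodule.span L (Set.range f₂) = riemannRochSpace (2 • E - B))
    (hf₄ : IsOrtho A O f₄)
    (ht₄ : Submodule.span L (Set.range f₄) = riemannRochSpace (4 • E - B)) :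
    ∃ (a : I₂ → I₁ → I₁ → A) (b : J₂ → I₁ → J₁ → A) (c : J₄ → J₂ → I₂ → A)
      (C : KMCoord L F E B (fun l i j => (a l i j : L)) (fun l i j => (b l i j : L))
        (fun l i j => (c l i j : L)))
      (C' : SpecCoord k Ft (fun l i j => π (a l i j)) (fun l i j => π (b l i j))
        (fun l i j => π (c l i j)) (h.redSub (riemannRochSpace E))
        (h.redSub (riemannRochSpace (E - B))) (h.redSub (riemannRochSpace (2 • E - B)))),
      (∀ v, C.φ₁ v = ∑ i, v i • b₁ i) ∧
      (∀ v, C'.φ₁ v = ∑ i, v i • red ⟨b₁ i, hb₁.mem i⟩) := by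
  have m₁ : ∀ i, b₁ i ∈ riemannRochSpace E := fun i => by
    rw [← hs₁]; exact Submodule.subset_span ⟨i, rfl⟩
  have m₂ : ∀ i, b₂ i ∈ riemannRochSpace (2 • E) := fun i => by
    rw [← hs₂]; exact Submodule.subset_span ⟨i, rfl⟩
  have n₁ : ∀ i, f₁ i ∈ riemannRochSpace (E - B) := fun i => by
    rw [← ht₁]; exact Submodule.subset_span ⟨i, rfl⟩
  have n₂ : ∀ i, f₂ i ∈ riemannRochSpace (2 • E - B) := fun i => by
    rw [← ht₂]; exact Submodule.subset_span ⟨i, rfl⟩
  obtain ⟨a, haL, hak⟩ := h.exists_mulTable hb₁ hb₁ hb₂ (fun i j => by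
    rw [hs₂]
    have := mul_mem_L (m₁ i) (m₁ j)
    rwa [← two_nsmul] at this)
  obtain ⟨b, hbL, hbk⟩ := h.exists_mulTable hb₁ hf₁ hf₂ (fun i j => by
    rw [ht₂]
    have := mul_mem_L (m₁ i) (n₁ j)
    have e : E + (E - B) = 2 • E - B := by rw [two_nsmul]; abel
    rwa [e] at this)
  obtain ⟨c, hcL, hck⟩ := h.exists_mulTable hf₂ hb₂ hf₄ (fun i j => by
    rw [ht₄]
    have := mul_mem_L (n₂ i) (m₂ j)
    have e : 2 • E - B + 2 • E = 4 • E - B := by
      rw [show (4 : ℕ) = 2 + 2 from rfl, add_nsmul]; abel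
    rwa [e] at this)
  exact ⟨fun l i j => a i j l, fun l i j => b i j l, fun l i j => c i j l,
    KMCoord.ofBases E B _ _ _ b₁ b₂ f₁ f₂ f₄ hb₁.li hb₂.li hf₂.li hf₄.li hs₁ ht₁ ht₂
      haL hbL hcL,
    specCoordOfBases _ _ _ _ _ _ (fun i => red ⟨b₁ i, hb₁.mem i⟩)
      (fun i => red ⟨b₂ i, hb₂.mem i⟩) (fun i => red ⟨f₁ i, hf₁.mem i⟩)
      (fun i => red ⟨f₂ i, hf₂.mem i⟩) (fun i => red ⟨f₄ i, hf₄.mem i⟩)
      (h.red_li hb₁) (h.red_li hb₂) (h.red_li hf₂) (h.red_li hf₄)
      (h.redSub_eq_span hb₁ hs₁).symm (h.redSub_eq_span hf₁ ht₁).symm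
      (h.redSub_eq_span hf₂ ht₂).symm hak hbk hck,
    fun v => rfl, fun v => rfl⟩

end Fermat.Agent.Padic.S33.RC.OrthoFam
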