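/-
S33 / Route C (RC-5), abstract half: the (LOC) assembly of `Padic/LocalGlue` + `Padic/LocalAsm`
re-run with the SMALLNESS of the generators exported.

`HasLocalOrderOn A V act r` : a local order (`Padic.HasLocalOrder`) whose generators are constant
modulo the maximal ideal of `A` on the fibres ("discs") of `r : V → X`.  For `r` constant this is
a *small* local order: all generators satisfy `f v ≡ f w mod 𝔪_A`, i.e. the order is connected.

* `hasLocalOrderOn_of_discs_gen`, `hasLocalOrderOn_of_discs` : the glue (`LocalGlue`);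
* `hasLocalOrderOn_of_projectors`, `hasLocalOrderOn_of_families` : the assembly (`LocalAsm`);
* `HasLocalOrderOn.hasLocalOrder`, `HasLocalOrderOn.small` : the consequences.
-/
import Mathlib
import Fermat.Agent.Padic.LocalAsm

set_option autoImplicit false

open Matrix Module

namespace Fermat.Agent.Padic.S33.RC.SmallAsm

open Fermat.Agent.Lib.LinAlg.ConstRank Fermat.Agent.Lib.LinAlg.Family
open Fermat.Agent.Padic Fermat.Agent.Padic.FunRing Fermat.Agent.Padic.LocalGlue
  Fermat.Agent.Padic.LocalAsm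

/-- A local order whose generators are constant modulo the maximal ideal on the fibres of `r`. -/
def HasLocalOrderOn (A : ValuationSubring Qb) (V : Type) [AddCommGroup V] (act : GQ → V → V)
    {X : Type*} (r : V → X) : Prop :=
  ∃ s : Set (V → Qb), s.Finite ∧
    (∀ f ∈ s, (∀ v, f v ∈ A) ∧ ∀ σ ∈ A.inertiaSubgroupIn ℚ, ∀ v, f (act σ v) = σ (f v)) ∧
    (∀ v w : V, (∀ f ∈ s, f v = f w) → v = w) ∧
    (∀ f ∈ s, ∃ (n : ℕ) (g h : Fin n → Algebra.adjoin A s), ∀ v w : V,
      f (v + w) = ∑ i, (g i : V → Qb) v * (h i : V → Qb) w) ∧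
    ∀ f ∈ s, ∀ v w : V, r v = r w → A.valuation (f v - f w) < 1

theorem HasLocalOrderOn.hasLocalOrder {A : ValuationSubring Qb} {V : Type} [AddCommGroup V]
    {act : GQ → V → V} {X : Type*} {r : V → X} (h : HasLocalOrderOn A V act r) :
    HasLocalOrder A V act := by
  obtain ⟨s, h1, h2, h3, h4, -⟩ := h
  exact ⟨s, h1, h2, h3, h4⟩

/-- With a constant `r` (one disc) the generators are small. -/
theorem HasLocalOrderOn.small {A : ValuationSubring Qb} {V : Type} [AddCommGroup V]
    {act : GQ → V → V} {X : Type*} {r : V → X} (h : HasLocalOrderOn A V act r)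
    (hr : ∀ v w, r v = r w) :
    ∃ s : Set (V → Qb), s.Finite ∧
      (∀ f ∈ s, (∀ v, f v ∈ A) ∧ ∀ σ ∈ A.inertiaSubgroupIn ℚ, ∀ v, f (act σ v) = σ (f v)) ∧
      (∀ v w : V, (∀ f ∈ s, f v = f w) → v = w) ∧
      (∀ f ∈ s, ∃ (n : ℕ) (g h : Fin n → Algebra.adjoin A s), ∀ v w : V,
        f (v + w) = ∑ i, (g i : V → Qb) v * (h i : V → Qb) w) ∧
      ∀ f ∈ s, ∀ v : V, A.valuation (f v - f 0) < 1 := by
  obtain ⟨s, h1, h2, h3, h4, h5⟩ := h
  exact ⟨s, h1, h2, h3, h4, fun f hf v => h5 f hf v 0 (hr v 0)⟩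

/-! ## The glue -/

/-- **Glue, general generators** (`LocalGlue.hasLocalOrder_of_discs_gen` with the smallness of
the generators on the discs exported). -/
theorem hasLocalOrderOn_of_discs_gen (A : ValuationSubring Qb) {V : Type} [AddCommGroup V]
    [Finite V] (act : GQ → V → V) {X : Type*} (r : V → X)
    (hadd : ∀ v v' w w' : V, r v = r v' → r w = r w' → r (v + w) = r (v' + w'))
    {ι : Type*} [Finite ι] (γ : ι → V → Qb)
    (hint : ∀ i v, γ i v ∈ A)
    (hr : ∀ σ ∈ A.inertiaSubgroupIn ℚ, ∀ v, r (act σ v) = r v)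
    (hγ : ∀ σ ∈ A.inertiaSubgroupIn ℚ, ∀ i v, γ i (act σ v) = σ (γ i v))
    (hsep : ∀ v w, r v = r w → (∀ i, γ i v = γ i w) → v = w)
    (hsmall : ∀ i v w, r v = r w → A.valuation (γ i v - γ i w) < 1)
    (Φ : ∀ x : X, Set (Disc r x → Qb))
    (hΦ : ∀ x, Φ x ⊆ Algebra.adjoin A (discCoords r γ x))
    (hcomul : ∀ (v₀ w₀ : V) (i : ι), ∃ F ∈ funRing A
        ((fun (φ : Disc r (r v₀) → Qb) (p : Disc r (r v₀) × Disc r (r w₀)) => φ p.1) ''
            Φ (r v₀) ∪
          (fun (ψ : Disc r (r w₀) → Qb) (p : Disc r (r v₀) × Disc r (r w₀)) => ψ p.2) ''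
            Φ (r w₀)),
        ∀ p : Disc r (r v₀) × Disc r (r w₀), F p = γ i (p.1.1 + p.2.1)) :
    HasLocalOrderOn A V act r := by
  classical
  have := Fintype.ofFinite V
  refine ⟨gens r γ, ((Set.finite_range r).image _).union (Set.finite_range γ), ?_, ?_, ?_, ?_⟩
  · -- integrality and equivariance
    rintro f (⟨x, ⟨u, rfl⟩, rfl⟩ | ⟨i, rfl⟩)
    · refine ⟨fun v => ?_, fun σ hσ v => ?_⟩
      · by_cases hv : r v = r u
        · rw [indic_of_eq hv]
          exact A.one_mem
        · rw [indic_of_ne hv]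
          exact A.zero_mem
      · by_cases hv : r v = r u
        · rw [indic_of_eq hv, indic_of_eq ((hr σ hσ v).trans hv), map_one]
        · rw [indic_of_ne hv, indic_of_ne (fun h => hv ((hr σ hσ v).symm.trans h)), map_zero]
    · exact ⟨hint i, fun σ hσ v => hγ σ hσ i v⟩
  · -- separation
    intro v w h
    have h1 : r w = r v := by
      by_contra hne
      have h2 := h (indic r (r v)) (indic_mem_gens r γ v)
      rw [indic_of_eq rfl, indic_of_ne hne] at h2
      exact one_ne_zero h2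
    exact hsep v w h1.symm fun i => h (γ i) (coord_mem_gens r γ i)
  · -- comultiplication
    rintro f (⟨z, ⟨u, rfl⟩, rfl⟩ | ⟨i, rfl⟩)
    · apply decomp_fin
      apply decomp_of_discs A r
      intro v₀ w₀
      by_cases hz : r (v₀ + w₀) = r u
      · have h1 : (fun v w => indic r (r v₀) v * indic r (r w₀) w * indic r (r u) (v + w)) =
            fun v w => indic r (r v₀) v * indic r (r w₀) w := by
          funext v w
          by_cases hv : r v = r v₀
          · by_cases hw : r w = r w₀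
            · rw [indic_of_eq ((hadd v v₀ w w₀ hv hw).trans hz), mul_one]
            · rw [indic_of_ne hw, mul_zero, zero_mul]
          · rw [indic_of_ne hv, zero_mul, zero_mul]
        rw [h1]
        exact decomp_single A _ (Algebra.subset_adjoin (indic_mem_gens r γ v₀))
          (Algebra.subset_adjoin (indic_mem_gens r γ w₀))
      · have h1 : (fun v w => indic r (r v₀) v * indic r (r w₀) w * indic r (r u) (v + w)) =
            fun _ _ => 0 := by
          funext v w
          by_cases hv : r v = r v₀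
          · by_cases hw : r w = r w₀
            · rw [indic_of_ne (fun h => hz ((hadd v v₀ w w₀ hv hw).symm.trans h)), mul_zero]
            · rw [indic_of_ne hw, mul_zero, zero_mul]
          · rw [indic_of_ne hv, zero_mul, zero_mul]
        rw [h1]
        exact decomp_zero A _
    · apply decomp_fin
      apply decomp_of_discs A r
      intro v₀ w₀
      obtain ⟨F, hF, hFp⟩ := hcomul v₀ w₀ i
      obtain ⟨n, G, H, hGH⟩ := exists_sum_mul hF
      refine ⟨Fin n, inferInstance,
        fun k => ⟨extZero r (r v₀) (G k).1,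
          extZero_mem A r γ v₀ (Algebra.adjoin_le (hΦ (r v₀)) (G k).2)⟩,
        fun k => ⟨extZero r (r w₀) (H k).1,
          extZero_mem A r γ w₀ (Algebra.adjoin_le (hΦ (r w₀)) (H k).2)⟩, fun v w => ?_⟩
      show indic r (r v₀) v * indic r (r w₀) w * γ i (v + w) =
        ∑ k, extZero r (r v₀) (G k).1 v * extZero r (r w₀) (H k).1 w
      by_cases hv : r v = r v₀
      · by_cases hw : r w = r w₀
        · rw [indic_of_eq hv, indic_of_eq hw, one_mul, one_mul]
          have h2 := hFp (⟨v, hv⟩, ⟨w, hw⟩)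
          rw [hGH] at h2
          rw [← h2]
          refine Finset.sum_congr rfl fun k _ => ?_
          rw [extZero_of_eq _ hv, extZero_of_eq _ hw]
        · rw [indic_of_ne hw, mul_zero, zero_mul]
          refine (Finset.sum_eq_zero fun k _ => ?_).symm
          rw [extZero_of_ne _ hw, mul_zero]
      · rw [indic_of_ne hv, zero_mul, zero_mul]
        refine (Finset.sum_eq_zero fun k _ => ?_).symm
        rw [extZero_of_ne _ hv, zero_mul]
  · -- smallness on the discs
    rintro f (⟨x, ⟨u, rfl⟩, rfl⟩ | ⟨i, rfl⟩) v w hvw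
    · by_cases hv : r v = r u
      · rw [indic_of_eq hv, indic_of_eq (hvw.symm.trans hv), sub_self, map_zero]
        exact zero_lt_one
      · rw [indic_of_ne hv, indic_of_ne (fun h => hv (hvw.trans h)), sub_self, map_zero]
        exact zero_lt_one
    · exact hsmall i v w hvw

/-- **Glue (LOC)** with the smallness exported. -/
theorem hasLocalOrderOn_of_discs (A : ValuationSubring Qb) {V : Type} [AddCommGroup V]
    [Finite V] (act : GQ → V → V) {X : Type*} (r : V → X)
    (hadd : ∀ v v' w w' : V, r v = r v' → r w = r w' → r (v + w) = r (v' + w'))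
    {ι : Type*} [Finite ι] (γ : ι → V → Qb)
    (hint : ∀ i v, γ i v ∈ A)
    (hr : ∀ σ ∈ A.inertiaSubgroupIn ℚ, ∀ v, r (act σ v) = r v)
    (hγ : ∀ σ ∈ A.inertiaSubgroupIn ℚ, ∀ i v, γ i (act σ v) = σ (γ i v))
    (hsep : ∀ v w, r v = r w → (∀ i, γ i v = γ i w) → v = w)
    (hsmall : ∀ i v w, r v = r w → A.valuation (γ i v - γ i w) < 1)
    (hcomul : ∀ (v₀ w₀ : V) (i : ι), ∃ F ∈ funRing A (discGens r γ (r v₀) (r w₀)),
        ∀ p : Disc r (r v₀) × Disc r (r w₀), F p = γ i (p.1.1 + p.2.1)) :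
    HasLocalOrderOn A V act r :=
  hasLocalOrderOn_of_discs_gen A act r hadd γ hint hr hγ hsep hsmall (discGens₁ r γ)
    (discGens₁_subset A hint) hcomul

/-! ## The assembly -/

/-- The assembly with the projectors as data (`LocalAsm.hasLocalOrder_of_projectors` with the
smallness exported). -/
theorem hasLocalOrderOn_of_projectors (A : ValuationSubring Qb) {V : Type} [AddCommGroup V]
    [Finite V] (act : GQ → V → V) {X : Type*} (r : V → X)
    (hadd : ∀ v v' w w' : V, r v = r v' → r w = r w' → r (v + w) = r (v' + w'))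
    (hr : ∀ σ ∈ A.inertiaSubgroupIn ℚ, ∀ v, r (act σ v) = r v)
    {I : Type} [Fintype I] [DecidableEq I]
    (Wgen : V → Submodule Qb (I → Qb))
    (Wsp : X → Submodule (IsLocalRing.ResidueField A) (I → IsLocalRing.ResidueField A))
    (d : X → ℕ) (p : ∀ x, Fin (d x) → I)
    (hp : ∀ x, Function.Bijective
      (fun w : Wsp x => (w : I → IsLocalRing.ResidueField A) ∘ p x))
    (P : V → Matrix I I A)
    (hPgen : ∀ v, IsProjAlong ((P v).map A.subtype) (Wgen v) (p (r v)))
    (hPsp : ∀ v, IsProjAlong ((P v).map (IsLocalRing.residue A)) (Wsp (r v)) (p (r v)))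
    (heqv : ∀ σ ∈ A.inertiaSubgroupIn ℚ, ∀ v, ∀ w ∈ Wgen v,
      (fun i => σ (w i)) ∈ Wgen (act σ v))
    (hsep : ∀ v w, r v = r w → Wgen v = Wgen w → v = w)
    (hKM : ∀ (𝓡 : Type) [CommRing 𝓡] [IsLocalRing 𝓡] (j : A →+* 𝓡) (Pt : Type)
        (χ : Pt → 𝓡 →+* Qb) (ρ : 𝓡 →+* IsLocalRing.ResidueField A) [IsLocalHom ρ],
        (∀ f : 𝓡, (∀ q, χ q f = 0) → f = 0) → (∀ q a, χ q (j a) = a) →
        (∀ a, ρ (j a) = IsLocalRing.residue A a) →
        ∀ (vv ww : Pt → V) (v₀ w₀ : V), (∀ q, r (vv q) = r v₀) → (∀ q, r (ww q) = r w₀) →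
        ∀ W₁ W₂ : Fam 𝓡 I,
        (∀ q, W₁.fib (χ q) = Wgen (vv q)) → (∀ q, W₂.fib (χ q) = Wgen (ww q)) →
        W₁.fib ρ = Wsp (r v₀) → W₂.fib ρ = Wsp (r w₀) →
        ∃ W₃ : Fam 𝓡 I, (∀ q, W₃.fib (χ q) = Wgen (vv q + ww q)) ∧
          W₃.fib ρ = Wsp (r (v₀ + w₀))) :
    HasLocalOrderOn A V act r := by
  classical
  -- transport of the characterisations along `r v = x`
  have hPgen' : ∀ v x, r v = x → IsProjAlong ((P v).map A.subtype) (Wgen v) (p x) := by
    rintro v x rfl
    exact hPgen v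
  have hPsp' : ∀ v x, r v = x →
      IsProjAlong ((P v).map (IsLocalRing.residue A)) (Wsp x) (p x) := by
    rintro v x rfl
    exact hPsp v
  have hint : ∀ i v, coordOf P i v ∈ A := fun i v => (P v i.1 i.2).2
  have hred : ∀ v w, r v = r w →
      (P v).map (IsLocalRing.residue A) = (P w).map (IsLocalRing.residue A) := by
    intro v w hvw
    exact (hPsp' v (r w) hvw).unique (hPsp w)
  have hsmall : ∀ i v w, r v = r w → A.valuation (coordOf P i v - coordOf P i w) < 1 := by
    intro i v w hvw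
    have h1 : IsLocalRing.residue A (P v i.1 i.2) = IsLocalRing.residue A (P w i.1 i.2) :=
      congrFun (congrFun (hred v w hvw) i.1) i.2
    have h2 : IsLocalRing.residue A (P v i.1 i.2 - P w i.1 i.2) = 0 := by
      rw [map_sub, sub_eq_zero]
      exact h1
    rw [IsLocalRing.residue_eq_zero_iff, A.valuation_lt_one_iff] at h2
    exact h2
  have hγ : ∀ σ ∈ A.inertiaSubgroupIn ℚ, ∀ i v, coordOf P i (act σ v) = σ (coordOf P i v) := by
    intro σ hσ i v
    have h2 := hPgen' (act σ v) (r v) (hr σ hσ v)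
    have e : ∀ w : I → Qb, (((P v).map A.subtype).map σ) *ᵥ w =
        fun a => σ ((((P v).map A.subtype) *ᵥ fun b => σ.symm (w b)) a) := by
      intro w
      funext a
      simp only [Matrix.mulVec, dotProduct, Matrix.map_apply, map_sum, map_mul,
        AlgEquiv.apply_symm_apply]
    have h1 : IsProjAlong (((P v).map A.subtype).map σ) (Wgen (act σ v)) (p (r v)) := by
      refine ⟨fun w => ?_, fun w => ?_, h2.inj⟩
      · rw [e]
        exact heqv σ hσ v _ ((hPgen v).mem _)
      · rw [e]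
        funext a
        have h3 := congrFun ((hPgen v).comp (fun b => σ.symm (w b))) a
        simp only [Function.comp_apply] at h3 ⊢
        rw [h3, AlgEquiv.apply_symm_apply]
    have h3 := h2.unique h1
    exact congrFun (congrFun h3 i.1) i.2
  have hsep' : ∀ v w, r v = r w → (∀ i, coordOf P i v = coordOf P i w) → v = w := by
    intro v w hvw h
    apply hsep v w hvw
    have h1 : (P v).map A.subtype = (P w).map A.subtype := by
      ext a b
      exact h (a, b)
    rw [← (hPgen v).range_eq, ← (hPgen w).range_eq, h1]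
  refine hasLocalOrderOn_of_discs A act r hadd (coordOf P) hint hr hγ hsep' hsmall ?_
  intro v₀ w₀ ij
  -- the function ring of the product of the two discs
  have hΦ := discGens_small A hsmall (r v₀) (r w₀)
  have : Fintype (Disc r (r v₀) × Disc r (r w₀)) := Fintype.ofFinite _
  have : Nonempty (Disc r (r v₀) × Disc r (r w₀)) := ⟨(⟨v₀, rfl⟩, ⟨w₀, rfl⟩)⟩
  have hloc : IsLocalRing (funRing A (discGens r (coordOf P) (r v₀) (r w₀))) := isLocalRing hΦ
  have hχinj : ∀ f : funRing A (discGens r (coordOf P) (r v₀) (r w₀)),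
      (∀ q, ((Pi.evalRingHom (fun _ : Disc r (r v₀) × Disc r (r w₀) => Qb) q).comp
        (funRing A (discGens r (coordOf P) (r v₀) (r w₀))).val.toRingHom) f = 0) → f = 0 :=
    fun f hf => eval_jointly_injective f hf
  -- the two families of projectors
  let M₁ : Matrix I I (funRing A (discGens r (coordOf P) (r v₀) (r w₀))) := fun a b =>
    ⟨fun q => coordOf P (a, b) q.1.1, coord_fst_mem A hint (r v₀) (r w₀) (a, b)⟩
  let M₂ : Matrix I I (funRing A (discGens r (coordOf P) (r v₀) (r w₀))) := fun a b =>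
    ⟨fun q => coordOf P (a, b) q.2.1, coord_snd_mem A hint (r v₀) (r w₀) (a, b)⟩
  have hM₁χ : ∀ q : Disc r (r v₀) × Disc r (r w₀),
      M₁.map ((Pi.evalRingHom (fun _ : Disc r (r v₀) × Disc r (r w₀) => Qb) q).comp
        (funRing A (discGens r (coordOf P) (r v₀) (r w₀))).val.toRingHom) =
        (P q.1.1).map A.subtype := fun q => by
    ext a b
    rfl
  have hM₂χ : ∀ q : Disc r (r v₀) × Disc r (r w₀),
      M₂.map ((Pi.evalRingHom (fun _ : Disc r (r v₀) × Disc r (r w₀) => Qb) q).comp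
        (funRing A (discGens r (coordOf P) (r v₀) (r w₀))).val.toRingHom) =
        (P q.2.1).map A.subtype := fun q => by
    ext a b
    rfl
  have hM₁ρ : M₁.map (closedPoint hΦ (⟨v₀, rfl⟩, ⟨w₀, rfl⟩)) =
      (P v₀).map (IsLocalRing.residue A) := by
    ext a b
    rfl
  have hM₂ρ : M₂.map (closedPoint hΦ (⟨v₀, rfl⟩, ⟨w₀, rfl⟩)) =
      (P w₀).map (IsLocalRing.residue A) := by
    ext a b
    rfl
  have hidem₁ : M₁ * M₁ = M₁ := by
    refine Matrix.ext fun a b => ?_
    refine sub_eq_zero.1 (hχinj _ fun q => ?_)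
    rw [map_sub, sub_eq_zero]
    have h1 : ((Pi.evalRingHom (fun _ : Disc r (r v₀) × Disc r (r w₀) => Qb) q).comp
        (funRing A (discGens r (coordOf P) (r v₀) (r w₀))).val.toRingHom) ((M₁ * M₁) a b) =
        ((M₁ * M₁).map ((Pi.evalRingHom (fun _ : Disc r (r v₀) × Disc r (r w₀) => Qb) q).comp
        (funRing A (discGens r (coordOf P) (r v₀) (r w₀))).val.toRingHom)) a b := rfl
    rw [h1, Matrix.map_mul, hM₁χ, (hPgen _).idem]
    rfl
  have hidem₂ : M₂ * M₂ = M₂ := by
    refine Matrix.ext fun a b => ?_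
    refine sub_eq_zero.1 (hχinj _ fun q => ?_)
    rw [map_sub, sub_eq_zero]
    have h1 : ((Pi.evalRingHom (fun _ : Disc r (r v₀) × Disc r (r w₀) => Qb) q).comp
        (funRing A (discGens r (coordOf P) (r v₀) (r w₀))).val.toRingHom) ((M₂ * M₂) a b) =
        ((M₂ * M₂).map ((Pi.evalRingHom (fun _ : Disc r (r v₀) × Disc r (r w₀) => Qb) q).comp
        (funRing A (discGens r (coordOf P) (r v₀) (r w₀))).val.toRingHom)) a b := rfl
    rw [h1, Matrix.map_mul, hM₂χ, (hPgen _).idem]
    rfl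
  obtain ⟨W₃, hW₃χ, hW₃ρ⟩ := hKM (funRing A (discGens r (coordOf P) (r v₀) (r w₀)))
    (algebraMap A (funRing A (discGens r (coordOf P) (r v₀) (r w₀))))
    (Disc r (r v₀) × Disc r (r w₀))
    (fun q => (Pi.evalRingHom (fun _ : Disc r (r v₀) × Disc r (r w₀) => Qb) q).comp
        (funRing A (discGens r (coordOf P) (r v₀) (r w₀))).val.toRingHom)
    (closedPoint hΦ (⟨v₀, rfl⟩, ⟨w₀, rfl⟩)) hχinj (fun q a => rfl) (fun a => rfl)
    (fun q => q.1.1) (fun q => q.2.1) v₀ w₀ (fun q => q.1.2) (fun q => q.2.2)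
    ⟨M₁, hidem₁⟩ ⟨M₂, hidem₂⟩
    (fun q => by
      rw [Fam.fib_def, hM₁χ]
      exact (hPgen _).range_eq)
    (fun q => by
      rw [Fam.fib_def, hM₂χ]
      exact (hPgen _).range_eq)
    (by
      rw [Fam.fib_def, hM₁ρ]
      exact (hPsp _).range_eq)
    (by
      rw [Fam.fib_def, hM₂ρ]
      exact (hPsp _).range_eq)
  -- the projector of the sum family
  have hproj₃ : Function.Bijective
      (fun w : W₃.fib (closedPoint hΦ (⟨v₀, rfl⟩, ⟨w₀, rfl⟩)) =>
        (w : I → IsLocalRing.ResidueField A) ∘ p (r (v₀ + w₀))) := by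
    rw [hW₃ρ]
    exact hp _
  obtain ⟨P₃, hP₃⟩ := exists_projAlong.{0} (closedPoint hΦ (⟨v₀, rfl⟩, ⟨w₀, rfl⟩)) W₃
    (p (r (v₀ + w₀))) hproj₃
  refine ⟨(P₃ ij.1 ij.2).1, (P₃ ij.1 ij.2).2, fun q => ?_⟩
  have h1 : IsProjAlong (P₃.map ((Pi.evalRingHom (fun _ : Disc r (r v₀) × Disc r (r w₀) => Qb)
      q).comp (funRing A (discGens r (coordOf P) (r v₀) (r w₀))).val.toRingHom))
      (Wgen (q.1.1 + q.2.1)) (p (r (v₀ + w₀))) := by
    rw [← hW₃χ q]
    exact hP₃ Qb _
  have h2 := hPgen' (q.1.1 + q.2.1) (r (v₀ + w₀)) (hadd _ _ _ _ q.1.2 q.2.2)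
  have h3 := h1.unique h2
  exact congrFun (congrFun h3 ij.1) ij.2

/-- **(LOC-ASM), abstract form, with the smallness exported.** -/
theorem hasLocalOrderOn_of_families (A : ValuationSubring Qb) {V : Type} [AddCommGroup V]
    [Finite V] (act : GQ → V → V) {X : Type*} (r : V → X)
    (hadd : ∀ v v' w w' : V, r v = r v' → r w = r w' → r (v + w) = r (v' + w'))
    (hr : ∀ σ ∈ A.inertiaSubgroupIn ℚ, ∀ v, r (act σ v) = r v)
    {I : Type} [Fintype I] [DecidableEq I]
    (Wgen : V → Submodule Qb (I → Qb))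
    (Wsp : X → Submodule (IsLocalRing.ResidueField A) (I → IsLocalRing.ResidueField A))
    (hpt : ∀ v, ∃ W : Fam A I, W.fib A.subtype = Wgen v ∧
      W.fib (IsLocalRing.residue A) = Wsp (r v))
    (heqv : ∀ σ ∈ A.inertiaSubgroupIn ℚ, ∀ v, ∀ w ∈ Wgen v,
      (fun i => σ (w i)) ∈ Wgen (act σ v))
    (hsep : ∀ v w, r v = r w → Wgen v = Wgen w → v = w)
    (hKM : ∀ (𝓡 : Type) [CommRing 𝓡] [IsLocalRing 𝓡] (j : A →+* 𝓡) (Pt : Type)
        (χ : Pt → 𝓡 →+* Qb) (ρ : 𝓡 →+* IsLocalRing.ResidueField A) [IsLocalHom ρ],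
        (∀ f : 𝓡, (∀ q, χ q f = 0) → f = 0) → (∀ q a, χ q (j a) = a) →
        (∀ a, ρ (j a) = IsLocalRing.residue A a) →
        ∀ (vv ww : Pt → V) (v₀ w₀ : V), (∀ q, r (vv q) = r v₀) → (∀ q, r (ww q) = r w₀) →
        ∀ W₁ W₂ : Fam 𝓡 I,
        (∀ q, W₁.fib (χ q) = Wgen (vv q)) → (∀ q, W₂.fib (χ q) = Wgen (ww q)) →
        W₁.fib ρ = Wsp (r v₀) → W₂.fib ρ = Wsp (r w₀) →
        ∃ W₃ : Fam 𝓡 I, (∀ q, W₃.fib (χ q) = Wgen (vv q + ww q)) ∧
          W₃.fib ρ = Wsp (r (v₀ + w₀))) :
    HasLocalOrderOn A V act r := by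
  classical
  choose d p hp using fun x => exists_pivots (Wsp x)
  have hP : ∀ v, ∃ P : Matrix I I A, IsProjAlong (P.map A.subtype) (Wgen v) (p (r v)) ∧
      IsProjAlong (P.map (IsLocalRing.residue A)) (Wsp (r v)) (p (r v)) := by
    intro v
    obtain ⟨W, hW1, hW2⟩ := hpt v
    have hproj : Function.Bijective (fun w : W.fib (IsLocalRing.residue A) =>
        (w : I → IsLocalRing.ResidueField A) ∘ p (r v)) := by
      rw [hW2]
      exact hp (r v)
    obtain ⟨P, hPθ⟩ := exists_projAlong.{0} (IsLocalRing.residue A) W (p (r v)) hproj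
    refine ⟨P, ?_, ?_⟩
    · rw [← hW1]
      exact hPθ Qb A.subtype
    · rw [← hW2]
      exact hPθ _ (IsLocalRing.residue A)
  choose P hPgen hPsp using hP
  exact hasLocalOrderOn_of_projectors A act r hadd hr Wgen Wsp d p hp P hPgen hPsp heqv hsep hKM

end Fermat.Agent.Padic.S33.RC.SmallAsm
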