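/-
S33 / Route C (RC-5), second half: the one-disc assembly with the Khuri-Makdisi addition for an
abstract special fibre (`RC.exists_fam_add_spec`) plugged in — the analogue of
`Padic/LocalKM.hasLocalOrder_of_km` for a *constant* special fibre `Wt`, with the smallness of
the generators exported.

* `exists_smallOrder_of_km_spec` : a small local order on `(V, act)` from coordinate data on the
  generic fibre, the special chain `SpecChain` for `Wt`, divisors `D v` forming `KMTriple`s and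
  point families with special fibre `Wt`;
* `actI`, `exists_smallOrder_subgroup` : the shape of `SmallOrders` for an inertia-stable finite
  subgroup `V` of `J₀(N)(ℚ̄)`.
-/
import Mathlib
import Fermat.Agent.Padic.S33.RC.SmallAsm
import Fermat.Agent.Padic.S33.RC.FamAdd
import Fermat.Agent.Padic.LocalKM

set_option autoImplicit false

namespace Fermat.Agent.Padic.S33.RC.SmallAsm

open AlgebraicCurve Module
open Fermat.Agent.Lib.FF Fermat.Agent.Lib.LinAlg.Family
open Fermat.Agent.Padic Fermat.Agent.Padic.KMAdd Fermat.Agent.Padic.LocalAsm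
  Fermat.Agent.Padic.S33.RC

/-- **(RC-5), Khuri-Makdisi form.**  One disc: all point families have the same special fibre
`Wt`, for which the special chain holds.  Then `(V, act)` has a small local order. -/
theorem exists_smallOrder_of_km_spec (A : ValuationSubring Qb) {V : Type} [AddCommGroup V]
    [Finite V] (act : GQ → V → V)
    {F : Type*} [Field F] [Algebra Qb F] {x : F} (hF : IsFF1 Qb F x)
    (E B : Divisor Qb F)
    (n : ℤ) (hn : 5 * (genusFF Qb F : ℤ) + 1 ≤ n)
    (hE : Divisor.degree E = n) (hB : Divisor.degree B = genusFF Qb F)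
    {I₁ : Type} [Fintype I₁] [DecidableEq I₁]
    {I₂ J₁ J₂ J₄ : Type*} [Fintype I₂] [Fintype J₁] [Fintype J₂] [Fintype J₄]
    (a : I₂ → I₁ → I₁ → A) (b : J₂ → I₁ → J₁ → A) (c : J₄ → J₂ → I₂ → A)
    (C : KMCoord Qb F E B (Fam.mapTab A.subtype a) (Fam.mapTab A.subtype b)
      (Fam.mapTab A.subtype c))
    (Wt : Submodule (IsLocalRing.ResidueField A) (I₁ → IsLocalRing.ResidueField A))
    (hsp : SpecChain (Fam.mapTab (IsLocalRing.residue A) a)
      (Fam.mapTab (IsLocalRing.residue A) b) (Fam.mapTab (IsLocalRing.residue A) c) Wt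
      (2 * n - 3 * genusFF Qb F + 1))
    (D : V → Divisor Qb F) (hDnn : ∀ v, 0 ≤ D v)
    (hD : ∀ v w, KMTriple Qb F B (D v) (D w) (D (v + w)))
    (hpt : ∀ v, ∃ W : Fam A I₁,
      (W.fib A.subtype).map C.φ₁ = riemannRochSpace (E - D v) ∧
      W.fib (IsLocalRing.residue A) = Wt)
    (heqv : ∀ σ ∈ A.inertiaSubgroupIn ℚ, ∀ v, ∀ w : I₁ → Qb,
      C.φ₁ w ∈ riemannRochSpace (E - D v) →
      C.φ₁ (fun i => σ (w i)) ∈ riemannRochSpace (E - D (act σ v)))
    (hsep : ∀ v w, riemannRochSpace (E - D v) = riemannRochSpace (E - D w) → v = w) :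
    ∃ s : Set (V → Qb), s.Finite ∧
      (∀ f ∈ s, (∀ v, f v ∈ A) ∧ ∀ σ ∈ A.inertiaSubgroupIn ℚ, ∀ v, f (act σ v) = σ (f v)) ∧
      (∀ v w : V, (∀ f ∈ s, f v = f w) → v = w) ∧
      (∀ f ∈ s, ∃ (n : ℕ) (g h : Fin n → Algebra.adjoin A s), ∀ v w : V,
        f (v + w) = ∑ i, (g i : V → Qb) v * (h i : V → Qb) w) ∧
      ∀ f ∈ s, ∀ v : V, A.valuation (f v - f 0) < 1 := by
  have hle : ∀ v, riemannRochSpace (E - D v) ≤ LinearMap.range C.φ₁ := by
    intro v
    rw [C.range_φ₁]
    exact KMLemmas.L_mono (sub_le_self E (hDnn v))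
  refine (hasLocalOrderOn_of_families A act (fun _ : V => ()) (fun _ _ _ _ _ _ => rfl)
    (fun _ _ _ => rfl) (fun v => (riemannRochSpace (E - D v)).comap C.φ₁) (fun _ => Wt)
    ?_ ?_ ?_ ?_).small (fun _ _ => rfl)
  · -- hpt
    intro v
    obtain ⟨W, h1, h2⟩ := hpt v
    refine ⟨W, ?_, h2⟩
    rw [← h1, Submodule.comap_map_eq_of_injective C.inj_φ₁]
  · -- heqv
    intro σ hσ v w hw
    exact heqv σ hσ v w hw
  · -- hsep
    intro v w _ h
    apply hsep v w
    have h1 := congrArg (Submodule.map C.φ₁) h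
    rw [Submodule.map_comap_eq_of_le (hle v), Submodule.map_comap_eq_of_le (hle w)] at h1
    exact h1
  · -- hKM
    intro 𝓡 _ _ j Pt χ ρ _ hχ hχj hρj vv ww v₀ w₀ _ _ W₁ W₂ h₁ h₂ h₁' h₂'
    have hne : Nonempty Pt := by
      by_contra hemp
      rw [not_nonempty_iff] at hemp
      exact one_ne_zero (hχ (1 : 𝓡) fun q => isEmptyElim q)
    have hρs : Function.Surjective ρ := by
      intro y
      obtain ⟨a₀, rfl⟩ := IsLocalRing.residue_surjective y
      exact ⟨j a₀, hρj a₀⟩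
    have ea : ∀ q, Fam.mapTab (χ q) (Fam.mapTab j a) = Fam.mapTab A.subtype a := fun q => by
      funext k i i'
      exact hχj q _
    have eb : ∀ q, Fam.mapTab (χ q) (Fam.mapTab j b) = Fam.mapTab A.subtype b := fun q => by
      funext k i i'
      exact hχj q _
    have ec : ∀ q, Fam.mapTab (χ q) (Fam.mapTab j c) = Fam.mapTab A.subtype c := fun q => by
      funext k i i'
      exact hχj q _
    have ea' : Fam.mapTab ρ (Fam.mapTab j a) = Fam.mapTab (IsLocalRing.residue A) a := by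
      funext k i i'
      exact hρj _
    have eb' : Fam.mapTab ρ (Fam.mapTab j b) = Fam.mapTab (IsLocalRing.residue A) b := by
      funext k i i'
      exact hρj _
    have ec' : Fam.mapTab ρ (Fam.mapTab j c) = Fam.mapTab (IsLocalRing.residue A) c := by
      funext k i i'
      exact hρj _
    have hsp' : SpecChain (Fam.mapTab ρ (Fam.mapTab j a)) (Fam.mapTab ρ (Fam.mapTab j b))
        (Fam.mapTab ρ (Fam.mapTab j c)) Wt (2 * n - 3 * genusFF Qb F + 1) := by
      rw [ea', eb', ec']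
      exact hsp
    choose Cq hCq using fun q => LocalKM.exists_kmCoord_cast (ea q) (eb q) (ec q) C
    obtain ⟨W₃, h₃, h₃'⟩ := exists_fam_add_spec χ hχ ρ inferInstance hρs hF E B n hn hE hB
      (Fam.mapTab j a) (Fam.mapTab j b) (Fam.mapTab j c) Cq Wt hsp' W₁ W₂
      (fun q => D (vv q)) (fun q => D (ww q)) (fun q => D (vv q + ww q))
      (fun q => by rw [hCq, h₁ q, Submodule.map_comap_eq_of_le (hle _)])
      (fun q => by rw [hCq, h₂ q, Submodule.map_comap_eq_of_le (hle _)])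
      h₁' h₂' (fun q => hD (vv q) (ww q))
    refine ⟨W₃, fun q => ?_, h₃'⟩
    have h4 := h₃ q
    rw [hCq] at h4
    rw [← h4, Submodule.comap_map_eq_of_injective C.inj_φ₁]

end Fermat.Agent.Padic.S33.RC.SmallAsm

namespace Fermat.Agent.Padic.S33.RC.SmallAsm

open ModularCurve AlgebraicCurve Fermat.Agent.Padic

open Classical in
/-- The action of the inertia group on an inertia-stable subgroup of `J₀(N)(ℚ̄)`, extended by
the identity outside the inertia group (only its values on inertia matter). -/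
noncomputable def actI (A : ValuationSubring Qb) {N : ℕ} (V : AddSubgroup (JZero N))
    (hV : ∀ σ ∈ A.inertiaSubgroupIn ℚ, ∀ v ∈ V, σ • v ∈ V) : GQ → V → V :=
  fun σ v => if h : σ ∈ A.inertiaSubgroupIn ℚ then ⟨σ • (v : JZero N), hV σ h v v.2⟩ else v

theorem coe_actI (A : ValuationSubring Qb) {N : ℕ} (V : AddSubgroup (JZero N))
    (hV : ∀ σ ∈ A.inertiaSubgroupIn ℚ, ∀ v ∈ V, σ • v ∈ V) {σ : GQ}
    (hσ : σ ∈ A.inertiaSubgroupIn ℚ) (v : V) :
    ((actI A V hV σ v : V) : JZero N) = σ • (v : JZero N) := by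
  unfold actI
  rw [dif_pos hσ]

/-- A small local order for `actI` in the shape of the clause of `SmallOrders`
(`RC/SmallOrder.lean`): equivariance stated for `w = σ • v` inside `J₀(N)`. -/
theorem smallOrder_subgroup (A : ValuationSubring Qb) {N : ℕ} (V : AddSubgroup (JZero N))
    (hV : ∀ σ ∈ A.inertiaSubgroupIn ℚ, ∀ v ∈ V, σ • v ∈ V)
    (h : ∃ s : Set (V → Qb), s.Finite ∧
      (∀ f ∈ s, (∀ v, f v ∈ A) ∧
        ∀ σ ∈ A.inertiaSubgroupIn ℚ, ∀ v, f (actI A V hV σ v) = σ (f v)) ∧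
      (∀ v w : V, (∀ f ∈ s, f v = f w) → v = w) ∧
      (∀ f ∈ s, ∃ (n : ℕ) (g h : Fin n → Algebra.adjoin A s), ∀ v w : V,
        f (v + w) = ∑ i, (g i : V → Qb) v * (h i : V → Qb) w) ∧
      ∀ f ∈ s, ∀ v : V, A.valuation (f v - f 0) < 1) :
    ∃ s : Set (V → Qb), s.Finite ∧
      (∀ f ∈ s, (∀ v, f v ∈ A) ∧ ∀ σ ∈ A.inertiaSubgroupIn ℚ, ∀ v w : V,
        (w : JZero N) = σ • (v : JZero N) → f w = σ (f v)) ∧
      (∀ v w : V, (∀ f ∈ s, f v = f w) → v = w) ∧
      (∀ f ∈ s, ∃ (n : ℕ) (g h : Fin n → Algebra.adjoin A s), ∀ v w : V,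
        f (v + w) = ∑ i, (g i : V → Qb) v * (h i : V → Qb) w) ∧
      ∀ f ∈ s, ∀ v : V, A.valuation (f v - f 0) < 1 := by
  obtain ⟨s, h1, h2, h3, h4, h5⟩ := h
  refine ⟨s, h1, fun f hf => ⟨(h2 f hf).1, fun σ hσ v w hw => ?_⟩, h3, h4, h5⟩
  have e : w = actI A V hV σ v := Subtype.ext (by rw [hw, coe_actI A V hV hσ])
  rw [e]
  exact (h2 f hf).2 σ hσ v

end Fermat.Agent.Padic.S33.RC.SmallAsm
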