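/-
S33 / Route C (RC-5), the assembly in lattice form.

* `exists_fam_of_ortho` : the point family (`hpt`) from two orthonormal families `f` (of
  `W' ≤ W`) and `b` (of `W`): the coordinates of `W'` are the generic fibre of a family over `A`
  with special fibre the coordinates of the reduction `red (W' ∩ O)`;
* `exists_smallOrder_of_ortho` : **(RC-5)** — a small local order on `(V, act)` from
  - reduction data `PRed A O red (residue A)` for a subring `O` of the function field `F`,
  - orthonormal bases of all Riemann–Roch spaces (`hlat`), an orthonormal basis `b₁` of `L(E)`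
    compatible with the inertia action on the points (`heqv`),
  - the facts `SpecFacts` on the reductions of `L(E)`, `L(E - B)`, `L(2E - B)`,
  - divisors `D v` (`v ∈ V`) forming `KMTriple`s, separating the points, all with
    `red (L(E - D v) ∩ O) = red (L(E - B) ∩ O)`.
-/
import Mathlib
import Fermat.Agent.Padic.S33.RC.OrthoFam
import Fermat.Agent.Padic.S33.RC.SmallKM
import Fermat.Agent.Lib.Red.CoordOrtho

set_option autoImplicit false

noncomputable section

namespace Fermat.Agent.Padic.S33.RC.OrthoFam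

open AlgebraicCurve Module Matrix
open Fermat.Agent.BAD.Ortho Fermat.Agent.Lib.Red.Deform
open Fermat.Agent.Lib.FF Fermat.Agent.Lib.LinAlg.Family Fermat.Agent.Padic
  Fermat.Agent.Padic.KMAdd Fermat.Agent.Padic.LocalAsm Fermat.Agent.Padic.S33.RC
  Fermat.Agent.Padic.S33.RC.SmallAsm

variable {F : Type*} [Field F] [Algebra Qb F] {A : ValuationSubring Qb} {O : Subring F}
  {Ft : Type*} [CommRing Ft] [Algebra (IsLocalRing.ResidueField A) Ft] {red : O →+* Ft}

/-- **The point family from two orthonormal families.** -/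
theorem exists_fam_of_ortho (h : PRed A O red (IsLocalRing.residue A))
    {I : Type} [Fintype I] [DecidableEq I] {b : I → F} (hb : IsOrtho A O b)
    {d : ℕ} {f : Fin d → F} (hf : IsOrtho A O f)
    (hle : Submodule.span Qb (Set.range f) ≤ Submodule.span Qb (Set.range b)) :
    ∃ Fm : Fam A I,
      Fm.fib A.subtype =
        (Submodule.span Qb (Set.range f)).comap (Fintype.linearCombination Qb b) ∧
      Fm.fib (IsLocalRing.residue A) =
        (h.redSub (Submodule.span Qb (Set.range f))).comap
          (Fintype.linearCombination (IsLocalRing.ResidueField A)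
            fun i => red ⟨b i, hb.mem i⟩) := by
  classical
  obtain ⟨c, hcF, hcred⟩ := h.exists_inclTable hb hf
    (fun j => hle (Submodule.subset_span ⟨j, rfl⟩))
  set M : Matrix I (Fin d) A := fun i j => c j i with hM
  have hφinj : Function.Injective (Fintype.linearCombination Qb b) := hb.injective
  have hφ'inj : Function.Injective (Fintype.linearCombination (IsLocalRing.ResidueField A)
      fun i => red ⟨b i, hb.mem i⟩) :=
    linearIndependent_iff_injective_fintypeLinearCombination.1 (h.red_li hb)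
  have key1 : ∀ u : Fin d → Qb, Fintype.linearCombination Qb b
      ((M.map A.subtype).mulVecLin u) = ∑ j, u j • f j := by
    intro u
    rw [Fintype.linearCombination_apply]
    simp only [Matrix.mulVecLin_apply, Matrix.mulVec, dotProduct, hM, Finset.sum_smul]
    rw [Finset.sum_comm]
    refine Finset.sum_congr rfl fun j _ => ?_
    rw [hcF j, Finset.smul_sum]
    refine Finset.sum_congr rfl fun i _ => ?_
    rw [smul_smul, mul_comm]
    rfl
  have key2 : ∀ u : Fin d → IsLocalRing.ResidueField A,
      Fintype.linearCombination (IsLocalRing.ResidueField A) (fun i => red ⟨b i, hb.mem i⟩)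
        ((M.map (IsLocalRing.residue A)).mulVecLin u) = ∑ j, u j • red ⟨f j, hf.mem j⟩ := by
    intro u
    rw [Fintype.linearCombination_apply]
    simp only [Matrix.mulVecLin_apply, Matrix.mulVec, dotProduct, hM, Finset.sum_smul]
    rw [Finset.sum_comm]
    refine Finset.sum_congr rfl fun j _ => ?_
    rw [hcred j, Finset.smul_sum]
    refine Finset.sum_congr rfl fun i _ => ?_
    rw [smul_smul, mul_comm]
    rfl
  have hg : LinearMap.range (M.map A.subtype).mulVecLin =
      (Submodule.span Qb (Set.range f)).comap (Fintype.linearCombination Qb b) := by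
    ext w
    constructor
    · rintro ⟨u, rfl⟩
      rw [Submodule.mem_comap, key1]
      exact Submodule.sum_mem _ fun j _ =>
        Submodule.smul_mem _ _ (Submodule.subset_span ⟨j, rfl⟩)
    · intro hw
      obtain ⟨u, hu⟩ := (Submodule.mem_span_range_iff_exists_fun _).1 (Submodule.mem_comap.1 hw)
      exact ⟨u, hφinj (by rw [key1, hu])⟩
  have hs : LinearMap.range (M.map (IsLocalRing.residue A)).mulVecLin =
      (h.redSub (Submodule.span Qb (Set.range f))).comap
        (Fintype.linearCombination (IsLocalRing.ResidueField A)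
          fun i => red ⟨b i, hb.mem i⟩) := by
    rw [h.redSub_eq_span hf rfl]
    ext w
    constructor
    · rintro ⟨u, rfl⟩
      rw [Submodule.mem_comap, key2]
      exact Submodule.sum_mem _ fun j _ =>
        Submodule.smul_mem _ _ (Submodule.subset_span ⟨j, rfl⟩)
    · intro hw
      obtain ⟨u, hu⟩ := (Submodule.mem_span_range_iff_exists_fun _).1 (Submodule.mem_comap.1 hw)
      exact ⟨u, hφ'inj (by rw [key2, hu])⟩
  have hinj : Function.Injective (M.map (IsLocalRing.residue A)).mulVecLin := by
    intro u u' huu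
    have h1 := congrArg (Fintype.linearCombination (IsLocalRing.ResidueField A)
      fun i => red ⟨b i, hb.mem i⟩) huu
    rw [key2, key2] at h1
    have h2 := linearIndependent_iff_injective_fintypeLinearCombination.1 (h.red_li hf)
    exact h2 (by simpa only [Fintype.linearCombination_apply] using h1)
  refine exists_fam_of_matrix A M _ _ hg hs ?_
  rw [← hg, ← hs, LinearMap.finrank_range_of_inj hinj]
  refine (LinearMap.finrank_range_le _).trans ?_
  rw [Module.finrank_fin_fun, Module.finrank_fin_fun]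

/-- **(RC-5), lattice form.**  A small local order on `(V, act)` from orthonormal bases for the
pair `(A, O)`, the special facts on the reductions, and the divisors `D v`. -/
theorem exists_smallOrder_of_ortho {V : Type} [AddCommGroup V] [Finite V] (act : GQ → V → V)
    [Nontrivial Ft] {x : F} (hF : IsFF1 Qb F x)
    (h : PRed A O red (IsLocalRing.residue A))
    (hlat : ∀ D : Divisor Qb F,
      Fermat.Agent.Lib.Red.CoordLat.HasOrtho A O (riemannRochSpace D))
    (E B : Divisor Qb F)
    (n : ℤ) (hn : 5 * (genusFF Qb F : ℤ) + 1 ≤ n)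
    (hE : Divisor.degree E = n) (hB : Divisor.degree B = genusFF Qb F)
    {I₁ : Type} [Fintype I₁] [DecidableEq I₁] (b₁ : I₁ → F) (hb₁ : IsOrtho A O b₁)
    (hs₁ : Submodule.span Qb (Set.range b₁) = riemannRochSpace E)
    (hfacts : SpecFacts (h.redSub (riemannRochSpace E)) (h.redSub (riemannRochSpace (E - B)))
      (h.redSub (riemannRochSpace (2 • E - B))) (2 * n - 3 * genusFF Qb F + 1))
    (D : V → Divisor Qb F) (hDnn : ∀ v, 0 ≤ D v)
    (hD : ∀ v w, KMTriple Qb F B (D v) (D w) (D (v + w)))
    (hred : ∀ v, h.redSub (riemannRochSpace (E - D v)) = h.redSub (riemannRochSpace (E - B)))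
    (heqv : ∀ σ ∈ A.inertiaSubgroupIn ℚ, ∀ v, ∀ w : I₁ → Qb,
      ∑ i, w i • b₁ i ∈ riemannRochSpace (E - D v) →
      ∑ i, σ (w i) • b₁ i ∈ riemannRochSpace (E - D (act σ v)))
    (hsep : ∀ v w, riemannRochSpace (E - D v) = riemannRochSpace (E - D w) → v = w) :
    ∃ s : Set (V → Qb), s.Finite ∧
      (∀ f ∈ s, (∀ v, f v ∈ A) ∧ ∀ σ ∈ A.inertiaSubgroupIn ℚ, ∀ v, f (act σ v) = σ (f v)) ∧
      (∀ v w : V, (∀ f ∈ s, f v = f w) → v = w) ∧
      (∀ f ∈ s, ∃ (n : ℕ) (g h : Fin n → Algebra.adjoin A s), ∀ v w : V,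
        f (v + w) = ∑ i, (g i : V → Qb) v * (h i : V → Qb) w) ∧
      ∀ f ∈ s, ∀ v : V, A.valuation (f v - f 0) < 1 := by
  classical
  obtain ⟨d₂, b₂, hb₂li, hs₂, hb₂m, hb₂c⟩ := hlat (2 • E)
  obtain ⟨e₁, f₁, hf₁li, ht₁, hf₁m, hf₁c⟩ := hlat (E - B)
  obtain ⟨e₂, f₂, hf₂li, ht₂, hf₂m, hf₂c⟩ := hlat (2 • E - B)
  obtain ⟨e₄, f₄, hf₄li, ht₄, hf₄m, hf₄c⟩ := hlat (4 • E - B)
  have hb₂ : IsOrtho A O b₂ := ⟨hb₂li, hb₂m, hb₂c⟩
  have hf₁ : IsOrtho A O f₁ := ⟨hf₁li, hf₁m, hf₁c⟩
  have hf₂ : IsOrtho A O f₂ := ⟨hf₂li, hf₂m, hf₂c⟩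
  have hf₄ : IsOrtho A O f₄ := ⟨hf₄li, hf₄m, hf₄c⟩
  obtain ⟨a, b, c, C, C', hC, hC'⟩ :=
    h.exists_kmCoord_specCoord hb₁ hs₁ hb₂ hs₂ hf₁ ht₁ hf₂ ht₂ hf₄ ht₄
  have hsp := specChain_of_specCoord C' hfacts
  have eφ : C.φ₁ = Fintype.linearCombination Qb b₁ :=
    LinearMap.ext fun w => by rw [hC, Fintype.linearCombination_apply]
  have eφ' : C'.φ₁ = Fintype.linearCombination (IsLocalRing.ResidueField A)
      (fun i => red ⟨b₁ i, hb₁.mem i⟩) :=
    LinearMap.ext fun w => by rw [hC', Fintype.linearCombination_apply]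
  refine exists_smallOrder_of_km_spec A act hF E B n hn hE hB a b c C C'.Wt hsp D hDnn hD
    ?_ ?_ hsep
  · -- the point families
    intro v
    obtain ⟨d, f, hfli, hfs, hfm, hfc⟩ := hlat (E - D v)
    have hf : IsOrtho A O f := ⟨hfli, hfm, hfc⟩
    have hLle : riemannRochSpace (E - D v) ≤ riemannRochSpace E :=
      KMLemmas.L_mono (sub_le_self E (hDnn v))
    have hle : Submodule.span Qb (Set.range f) ≤ Submodule.span Qb (Set.range b₁) := by
      rw [hfs, hs₁]
      exact hLle
    obtain ⟨Fm, h1, h2⟩ := exists_fam_of_ortho h hb₁ hf hle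
    refine ⟨Fm, ?_, ?_⟩
    · rw [h1, hfs, eφ]
      refine Submodule.map_comap_eq_of_le ?_
      rw [Fintype.range_linearCombination, hs₁]
      exact hLle
    · rw [h2, hfs, hred v, ← eφ']
      rfl
  · -- equivariance
    intro σ hσ v w hw
    rw [hC] at hw ⊢
    exact heqv σ hσ v w hw

end Fermat.Agent.Padic.S33.RC.OrthoFam
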