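/-
S33 / Route C, brick (RC-3d) (helper60): the FORMAL consequences of the kernel-divisor package
(KD) for a subgroup `V` of the kernel of reduction.

(KD) gives, for every class `x` of the kernel of reduction, an effective divisor `D` of degree
`g` with `dim L(D) = 1`, `[D - B] = x` (and a property `P D`, in the application
`red Λ(E - D) = red Λ(E - B)`).  Everything here only uses `Lib/FF` and `Pic⁰`:

* `IsKD B D v` : the point data; `IsKD.kmTriple` : the divisor hypotheses `KMAdd.KMTriple` of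
  Khuri-Makdisi addition; `IsKD.eq_smul` : equivariance `D (g • v) = g • D v` (uniqueness of the
  effective divisor in a class with `dim L = 1`, `B` fixed by `g`); `IsKD.eq_of_L_sub_eq` :
  separation, `L(E - D v) = L(E - D w) → v = w` for `deg E ≥ 3g`;
* `exists_divisors` : the choice of `D : V → Divisor` for a subgroup `V ≤ Kr`;
* `mem_rr_smul` / `heqv_of_kd` : equivariance of the coordinate subspaces in the literal shape
  consumed by `RC.OrthoFam.exists_smallOrder_of_ortho` (coordinates in an inertia-fixed basis of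
  `L(E)`, action `SmallAsm.actI`);
* `smallOrders_of_kd` : **the assembly** — `RC.SmallOrders A N Kr` from reduction data
  `PRed A O red (residue A)`, orthonormal bases of all Riemann–Roch spaces, an inertia-fixed
  orthonormal basis of `L(E)`, `SpecFacts` for the reductions of `L(E)`, `L(E - B)`, `L(2E - B)`
  and the point data (KD) on `Kr`.
-/
import Mathlib
import Fermat.Agent.Padic.GenPosGlue
import Fermat.Agent.Padic.S33.RC.OrthoAsm
import Fermat.Agent.Padic.S33.RC.SmallOrder

set_option autoImplicit false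

noncomputable section

namespace Fermat.Agent.Padic.S33.RC.KDFormal

open AlgebraicCurve ModularCurve Module
open Fermat.Agent.Lib.FF Fermat.Agent.Padic Fermat.Agent.Padic.GenPosAbs
  Fermat.Agent.Padic.KMAdd

/-! ### abstract part -/

section Abstract

variable {K F : Type*} [Field K] [Field F] [Algebra K F] {x : F}

theorem classEq_add {D D' : Divisor K F} {v v' : Pic0 K F} (h : ClassEq D v)
    (h' : ClassEq D' v') : ClassEq (D + D') (v + v') := by
  obtain ⟨hd, hm⟩ := h
  obtain ⟨hd', hm'⟩ := h'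
  refine ⟨(Divisor.degZero (K := K) (F := F)).add_mem hd hd', ?_⟩
  rw [← hm, ← hm', ← Pic0.mk_add]
  rfl

/-- The point data of (KD): `D` is an effective divisor of degree `g` with `dim L(D) = 1` and
`[D - B] = v`. -/
structure IsKD (B D : Divisor K F) (v : Pic0 K F) : Prop where
  nonneg : 0 ≤ D
  degree : Divisor.degree D = genusFF K F
  finrank : finrank K (riemannRochSpace D) = 1
  cls : ClassEq (D - B) v

theorem isKD_of {B D : Divisor K F} {v : Pic0 K F} (h0 : 0 ≤ D)
    (hdeg : Divisor.degree D = genusFF K F) (hfin : finrank K (riemannRochSpace D) = 1)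
    (hcls : ∃ hD : D - B ∈ Divisor.degZero (K := K) (F := F), Pic0.mk ⟨D - B, hD⟩ = v) :
    IsKD B D v :=
  ⟨h0, hdeg, hfin, hcls⟩

namespace IsKD

variable {B D D' D₁ D₂ D₃ : Divisor K F} {v w : Pic0 K F}

/-- The divisor hypotheses of Khuri-Makdisi addition. -/
theorem kmTriple (h₁ : IsKD B D₁ v) (h₂ : IsKD B D₂ w) (h₃ : IsKD B D₃ (v + w)) :
    KMTriple K F B D₁ D₂ D₃ := by
  refine ⟨h₁.degree, h₂.degree, h₃.nonneg, ?_, h₃.finrank⟩
  have h := h₃.cls.sub_mem_principal (classEq_add h₁.cls h₂.cls)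
  have e : D₃ - B - (D₁ - B + (D₂ - B)) = D₃ - D₁ - D₂ + B := by abel
  rw [e] at h
  exact h

/-- The divisor of a class is unique. -/
theorem unique (h : IsKD B D v) (h' : IsKD B D' v) : D' = D := by
  refine eq_of_effective_of_finrank_one h.nonneg h'.nonneg h.finrank ?_
  have h1 := h'.cls.sub_mem_principal h.cls
  have e : D' - B - (D - B) = D' - D := by abel
  rwa [e] at h1

/-- **Equivariance**: the divisor of `g • v` is `g • D` (for `g • B = B`). -/
theorem eq_smul (g : SemilinearAut K F) (hB : g • B = B) (h : IsKD B D v)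
    (h' : IsKD B D' (g • v)) : D' = g • D := by
  refine (eq_of_effective_of_finrank_one h'.nonneg (smul_nonneg' g h.nonneg) h'.finrank ?_).symm
  have h1 := h.cls.smul g
  rw [smul_sub, hB] at h1
  have h2 := h1.sub_mem_principal h'.cls
  have e : g • D - B - (D' - B) = g • D - D' := by abel
  rwa [e] at h2

/-- The divisor determines the class. -/
theorem cls_unique (h : IsKD B D v) (h' : IsKD B D w) : v = w :=
  h.cls.unique h'.cls

/-- **Separation**: `L(E - D)` determines the class as soon as `deg E ≥ 3g`. -/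
theorem eq_of_L_sub_eq (hF : IsFF1 K F x) {E : Divisor K F}
    (hE : 3 * (genusFF K F : ℤ) ≤ Divisor.degree E) (h : IsKD B D v) (h' : IsKD B D' w)
    (hL : riemannRochSpace (E - D) = riemannRochSpace (E - D')) : v = w := by
  have e : D = D' := by
    refine GenPosAbs.eq_of_L_sub_eq hF ?_ ?_ hL
    · rw [map_sub, h.degree]
      linarith
    · rw [map_sub, h'.degree]
      linarith
  subst e
  exact h.cls_unique h'

end IsKD

/-- **The divisors `D v`** for a subgroup `V` of `Kr`, from the point data (KD) on `Kr`. -/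
theorem exists_divisors {B : Divisor K F} (P : Divisor K F → Prop) (Kr : AddSubgroup (Pic0 K F))
    (hKD : ∀ y ∈ Kr, ∃ D : Divisor K F, 0 ≤ D ∧ Divisor.degree D = genusFF K F ∧
      finrank K (riemannRochSpace D) = 1 ∧
      (∃ hD : D - B ∈ Divisor.degZero (K := K) (F := F), Pic0.mk ⟨D - B, hD⟩ = y) ∧ P D)
    (V : AddSubgroup (Pic0 K F)) (hV : V ≤ Kr) :
    ∃ D : V → Divisor K F, (∀ v : V, IsKD B (D v) (v : Pic0 K F)) ∧ ∀ v, P (D v) := by
  choose D h0 hdeg hfin hcls hP using fun v : V => hKD (v : Pic0 K F) (hV v.2)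
  exact ⟨D, fun v => ⟨h0 v, hdeg v, hfin v, hcls v⟩, hP⟩

/-- The Khuri-Makdisi triples of a family of (KD) divisors. -/
theorem kmTriple_of_kd {B : Divisor K F} {V : AddSubgroup (Pic0 K F)} {D : V → Divisor K F}
    (hD : ∀ v : V, IsKD B (D v) (v : Pic0 K F)) (v w : V) :
    KMTriple K F B (D v) (D w) (D (v + w)) :=
  (hD v).kmTriple (hD w) (hD (v + w))

/-- Equivariance of a family of (KD) divisors. -/
theorem smul_of_kd {B : Divisor K F} {V : AddSubgroup (Pic0 K F)} {D : V → Divisor K F}
    (hD : ∀ v : V, IsKD B (D v) (v : Pic0 K F)) (g : SemilinearAut K F) (hB : g • B = B)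
    (v : V) (hv : g • (v : Pic0 K F) ∈ V) : D ⟨g • (v : Pic0 K F), hv⟩ = g • D v :=
  (hD v).eq_smul g hB (hD ⟨g • (v : Pic0 K F), hv⟩)

/-- Separation for a family of (KD) divisors. -/
theorem hsep_of_kd (hF : IsFF1 K F x) {B E : Divisor K F}
    (hE : 3 * (genusFF K F : ℤ) ≤ Divisor.degree E) {V : AddSubgroup (Pic0 K F)}
    {D : V → Divisor K F} (hD : ∀ v : V, IsKD B (D v) (v : Pic0 K F)) (v w : V)
    (hL : riemannRochSpace (E - D v) = riemannRochSpace (E - D w)) : v = w :=
  Subtype.ext ((hD v).eq_of_L_sub_eq hF hE (hD w) hL)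

/-- A semilinear automorphism `g` with `g • E = E` fixing the `e i` maps the coordinates of
`L(E - D)` to the coordinates of `L(E - g • D)`. -/
theorem mem_rr_smul (g : SemilinearAut K F) {E D : Divisor K F} (hE : g • E = E)
    {ι : Type*} [Fintype ι] (e : ι → F) (he : ∀ i, g • e i = e i) (w : ι → K)
    (hw : ∑ i, w i • e i ∈ riemannRochSpace (E - D)) :
    ∑ i, SemilinearAut.baseAut g (w i) • e i ∈ riemannRochSpace (E - g • D) := by
  have h1 := GenPosGlue.smul_mem_rr g hw
  rw [GenPosGlue.smul_sum_smul, smul_sub, hE] at h1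
  simpa only [he] using h1

end Abstract

/-! ### the modular instance -/

section Modular

open Fermat.Agent.Padic.S33.RC Fermat.Agent.Padic.S33.RC.SmallAsm
  Fermat.Agent.Padic.S33.RC.OrthoFam Fermat.Agent.BAD.Ortho

local notation "Qb" => AlgebraicClosure ℚ
local notation "GQ" => (AlgebraicClosure ℚ ≃ₐ[ℚ] AlgebraicClosure ℚ)

variable {N : ℕ} (A : ValuationSubring Qb)

/-- The divisor of `actI σ v` is `σ • D v`. -/
theorem actI_divisor (V : AddSubgroup (JZero N))
    (hV : ∀ σ ∈ A.inertiaSubgroupIn ℚ, ∀ v ∈ V, σ • v ∈ V)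
    {B : Divisor Qb ↥(modularFunctionFieldBar N)}
    (hBI : ∀ σ ∈ A.inertiaSubgroupIn ℚ,
      arithmeticGalois (modularFunctionFieldFull N) σ • B = B)
    {D : V → Divisor Qb ↥(modularFunctionFieldBar N)}
    (hD : ∀ v : V, IsKD B (D v) (v : JZero N))
    {σ : GQ} (hσ : σ ∈ A.inertiaSubgroupIn ℚ) (v : V) :
    D (actI A V hV σ v) = arithmeticGalois (modularFunctionFieldFull N) σ • D v := by
  refine (hD v).eq_smul (arithmeticGalois (modularFunctionFieldFull N) σ) (hBI σ hσ) ?_
  have h := hD (actI A V hV σ v)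
  rw [coe_actI A V hV hσ v] at h
  exact h

/-- **heqv** in the literal shape of `exists_smallOrder_of_ortho`. -/
theorem heqv_of_kd (V : AddSubgroup (JZero N))
    (hV : ∀ σ ∈ A.inertiaSubgroupIn ℚ, ∀ v ∈ V, σ • v ∈ V)
    {E B : Divisor Qb ↥(modularFunctionFieldBar N)}
    (hEI : ∀ σ ∈ A.inertiaSubgroupIn ℚ,
      arithmeticGalois (modularFunctionFieldFull N) σ • E = E)
    (hBI : ∀ σ ∈ A.inertiaSubgroupIn ℚ,
      arithmeticGalois (modularFunctionFieldFull N) σ • B = B)
    {D : V → Divisor Qb ↥(modularFunctionFieldBar N)}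
    (hD : ∀ v : V, IsKD B (D v) (v : JZero N))
    {I₁ : Type*} [Fintype I₁] (b₁ : I₁ → ↥(modularFunctionFieldBar N))
    (hb : ∀ σ ∈ A.inertiaSubgroupIn ℚ, ∀ i,
      arithmeticGalois (modularFunctionFieldFull N) σ • b₁ i = b₁ i) :
    ∀ σ ∈ A.inertiaSubgroupIn ℚ, ∀ v, ∀ w : I₁ → Qb,
      ∑ i, w i • b₁ i ∈ riemannRochSpace (E - D v) →
      ∑ i, σ (w i) • b₁ i ∈ riemannRochSpace (E - D (actI A V hV σ v)) := by
  intro σ hσ v w hw
  rw [actI_divisor A V hV hBI hD hσ v]
  exact mem_rr_smul (arithmeticGalois (modularFunctionFieldFull N) σ) (hEI σ hσ) b₁ (hb σ hσ) w hw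

variable {A}

/-- **The assembly (RC-5, modular form).**  `SmallOrders A N Kr` from reduction data for a pair
`(A, O)`, orthonormal bases of all Riemann–Roch spaces, an inertia-fixed orthonormal basis of
`L(E)`, the special facts, and the point data (KD) on `Kr` with
`red Λ(E - D) = red Λ(E - B)`. -/
theorem smallOrders_of_kd [NeZero N] {O : Subring ↥(modularFunctionFieldBar N)}
    {Ft : Type*} [CommRing Ft] [Algebra (IsLocalRing.ResidueField A) Ft] [Nontrivial Ft]
    {red : O →+* Ft} {x : ↥(modularFunctionFieldBar N)}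
    (hF : IsFF1 Qb ↥(modularFunctionFieldBar N) x)
    (h : PRed A O red (IsLocalRing.residue A))
    (hlat : ∀ D : Divisor Qb ↥(modularFunctionFieldBar N),
      Fermat.Agent.Lib.Red.CoordLat.HasOrtho A O (riemannRochSpace D))
    (E B : Divisor Qb ↥(modularFunctionFieldBar N))
    (n : ℤ) (hn : 5 * (genusFF Qb ↥(modularFunctionFieldBar N) : ℤ) + 1 ≤ n)
    (hE : Divisor.degree E = n)
    (hB : Divisor.degree B = genusFF Qb ↥(modularFunctionFieldBar N))
    (hEI : ∀ σ ∈ A.inertiaSubgroupIn ℚ,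
      arithmeticGalois (modularFunctionFieldFull N) σ • E = E)
    (hBI : ∀ σ ∈ A.inertiaSubgroupIn ℚ,
      arithmeticGalois (modularFunctionFieldFull N) σ • B = B)
    (hbasis : ∃ (I₁ : Type) (_ : Fintype I₁) (b₁ : I₁ → ↥(modularFunctionFieldBar N)),
      IsOrtho A O b₁ ∧ Submodule.span Qb (Set.range b₁) = riemannRochSpace E ∧
      ∀ σ ∈ A.inertiaSubgroupIn ℚ, ∀ i,
        arithmeticGalois (modularFunctionFieldFull N) σ • b₁ i = b₁ i)
    (hfacts : SpecFacts (h.redSub (riemannRochSpace E)) (h.redSub (riemannRochSpace (E - B)))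
      (h.redSub (riemannRochSpace (2 • E - B)))
      (2 * n - 3 * genusFF Qb ↥(modularFunctionFieldBar N) + 1))
    (Kr : AddSubgroup (JZero N))
    (hKD : ∀ y ∈ Kr, ∃ D : Divisor Qb ↥(modularFunctionFieldBar N), 0 ≤ D ∧
      Divisor.degree D = genusFF Qb ↥(modularFunctionFieldBar N) ∧
      finrank Qb (riemannRochSpace D) = 1 ∧
      (∃ hD : D - B ∈ Divisor.degZero (K := Qb) (F := ↥(modularFunctionFieldBar N)),
        Pic0.mk ⟨D - B, hD⟩ = y) ∧
      h.redSub (riemannRochSpace (E - D)) = h.redSub (riemannRochSpace (E - B))) :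
    SmallOrders A N Kr := by
  classical
  intro V hVfin hVK hV
  obtain ⟨I₁, _, b₁, hb₁, hs₁, hbfix⟩ := hbasis
  obtain ⟨D, hD, hred⟩ := exists_divisors
    (fun D => h.redSub (riemannRochSpace (E - D)) = h.redSub (riemannRochSpace (E - B)))
    Kr hKD V hVK
  have hE3 : 3 * (genusFF Qb ↥(modularFunctionFieldBar N) : ℤ) ≤ Divisor.degree E := by
    rw [hE]
    have := Int.natCast_nonneg (genusFF Qb ↥(modularFunctionFieldBar N))
    linarith
  exact smallOrder_subgroup A V hV
    (exists_smallOrder_of_ortho (actI A V hV) hF h hlat E B n hn hE hB b₁ hb₁ hs₁ hfacts D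
      (fun v => (hD v).nonneg) (kmTriple_of_kd hD) hred
      (heqv_of_kd A V hV hEI hBI hD b₁ hbfix) (hsep_of_kd hF hE3 hD))

end Modular

end Fermat.Agent.Padic.S33.RC.KDFormal
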