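import Mathlib
import Fermat.Agent.Padic.S33.RC.NodalMul
import Fermat.Agent.Padic.S33.RC.SpecChainOf

/-!
# (RC-1b) `SpecFacts` on the nodal curve

The abstract special-fibre facts `RC.SpecFacts G₁ G₁B G₂B m` of `SpecChainOf.lean`, instantiated
on the nodal curve with two components (`Ft = F₁ × F₂`):

`G₁ = G(E)`, `G₁B = G(E - B)`, `G₂B = G(E + E - B)`, where `G(D₁, D₂)` is
`NodalRiemann.gluedSpace e₁ e₂ 1 D₁ D₂`, `B = (B₁, B₂) ≥ 0` is supported off the nodes and is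
non-special on the nodal curve: `G(B) ≤ G(0)`.

* `specFacts_gluedSpace` : NS form, `m = dim G((E - B) + (E - B))`;
* `exists_specFacts` : existential bound, `m = 2 deg(E₁ - B₁) + 2 deg(E₂ - B₂) + 2 - g₁ - g₂ - #nodes`.
-/

set_option autoImplicit false
set_option linter.style.haveILetI false

noncomputable section

namespace Fermat.Agent.Padic.S33.RC.NodalSpec

open AlgebraicCurve WithZero Module Fermat.Agent.Lib.FF Fermat.Agent.BAD.NodalRiemann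
open Fermat.Agent.Lib.FF.BasePoint Fermat.Agent.Padic.S33.RC.NodalMul

variable {K : Type*} [Field K]
variable {F₁ F₂ : Type*} [Field F₁] [Field F₂] [Algebra K F₁] [Algebra K F₂]
variable {ι : Type*} [Fintype ι] {x₁ : F₁} {x₂ : F₂}

omit [Fintype ι] in
theorem ne_zero_of_cong_one {F : Type*} [Field F] [Algebra K F] {P : Place K F} {f : F}
    (hf : Cong P f 1) : f ≠ 0 := by
  rintro rfl
  exact zero_ne_one ((cong_zero P).unique hf)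

/-- **`SpecFacts` on the nodal curve**, NS form. -/
theorem specFacts_gluedSpace [Infinite K] [Nonempty ι] (h₁ : IsFF1 K F₁ x₁)
    (h₂ : IsFF1 K F₂ x₂) {e₁ : ι → Place K F₁} {e₂ : ι → Place K F₂}
    (he₁ : Function.Injective e₁) (he₂ : Function.Injective e₂) {c₁ c₂ : ℤ}
    (hc₁ : NS K F₁ c₁) (hc₂ : NS K F₂ c₂) {E₁ B₁ : Divisor K F₁} {E₂ B₂ : Divisor K F₂}
    (hE₁ : ∀ i, E₁ (e₁ i) = 0) (hE₂ : ∀ i, E₂ (e₂ i) = 0)
    (hB₁ : ∀ i, B₁ (e₁ i) = 0) (hB₂ : ∀ i, B₂ (e₂ i) = 0)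
    (hB₁0 : 0 ≤ B₁) (hB₂0 : 0 ≤ B₂)
    (hns : gluedSpace e₁ e₂ (fun _ => (1 : K)) B₁ B₂ ≤ gluedSpace e₁ e₂ (fun _ => (1 : K)) 0 0)
    (hd₁ : 2 * c₁ + 3 + Fintype.card ι ≤ Divisor.degree (E₁ - B₁))
    (hd₂ : 2 * c₂ + 3 + Fintype.card ι ≤ Divisor.degree (E₂ - B₂)) :
    SpecFacts (gluedSpace e₁ e₂ (fun _ => (1 : K)) E₁ E₂)
      (gluedSpace e₁ e₂ (fun _ => (1 : K)) (E₁ - B₁) (E₂ - B₂))
      (gluedSpace e₁ e₂ (fun _ => (1 : K)) (E₁ + E₁ - B₁) (E₂ + E₂ - B₂))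
      (finrank K (gluedSpace e₁ e₂ (fun _ => (1 : K)) (E₁ - B₁ + (E₁ - B₁))
        (E₂ - B₂ + (E₂ - B₂))) : ℤ) := by
  have hcard : (0 : ℤ) ≤ Fintype.card ι := Int.natCast_nonneg _
  have hn₁ : -1 ≤ c₁ := hc₁.neg_one_le h₁
  have hn₂ : -1 ≤ c₂ := hc₂.neg_one_le h₂
  have hD₁ : ∀ i, (E₁ - B₁) (e₁ i) = 0 := fun i => by
    rw [Finsupp.sub_apply, hE₁ i, hB₁ i, sub_zero]
  have hD₂ : ∀ i, (E₂ - B₂) (e₂ i) = 0 := fun i => by
    rw [Finsupp.sub_apply, hE₂ i, hB₂ i, sub_zero]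
  have hDD₁ : ∀ i, (E₁ - B₁ + (E₁ - B₁)) (e₁ i) = 0 := fun i => by
    rw [Finsupp.add_apply, hD₁ i, add_zero]
  have hDD₂ : ∀ i, (E₂ - B₂ + (E₂ - B₂)) (e₂ i) = 0 := fun i => by
    rw [Finsupp.add_apply, hD₂ i, add_zero]
  have hC₁ : ∀ i, (E₁ + E₁ - B₁) (e₁ i) = 0 := fun i => by
    rw [Finsupp.sub_apply, Finsupp.add_apply, hE₁ i, hB₁ i, add_zero, sub_zero]
  have hC₂ : ∀ i, (E₂ + E₂ - B₂) (e₂ i) = 0 := fun i => by
    rw [Finsupp.sub_apply, Finsupp.add_apply, hE₂ i, hB₂ i, add_zero, sub_zero]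
  have hmul : gluedSpace e₁ e₂ (fun _ => (1 : K)) (E₁ - B₁) (E₂ - B₂)
      * gluedSpace e₁ e₂ (fun _ => (1 : K)) (E₁ - B₁) (E₂ - B₂)
      = gluedSpace e₁ e₂ (fun _ => (1 : K)) (E₁ - B₁ + (E₁ - B₁)) (E₂ - B₂ + (E₂ - B₂)) :=
    gluedSpace_mul_eq h₁ h₂ he₁ he₂ hc₁ hc₂ hD₁ hD₂ hD₁ hD₂ (by linarith) (by linarith)
      (by linarith) (by linarith)
  have hdd₁ : Divisor.degree (E₁ - B₁ + (E₁ - B₁)) = 2 * Divisor.degree (E₁ - B₁) := by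
    rw [map_add]
    ring
  have hdd₂ : Divisor.degree (E₂ - B₂ + (E₂ - B₂)) = 2 * Divisor.degree (E₂ - B₂) := by
    rw [map_add]
    ring
  have hCD₁ : E₁ + E₁ - B₁ - (E₁ - B₁ + (E₁ - B₁)) = B₁ := by abel
  have hCD₂ : E₂ + E₂ - B₂ - (E₂ - B₂ + (E₂ - B₂)) = B₂ := by abel
  refine ⟨gluedSpace_mono (sub_le_self E₁ hB₁0) (sub_le_self E₂ hB₂0), ?_, ?_, ?_, ?_⟩
  · -- `G₁B * G₁B ≤ G₂B`
    rw [hmul]
    refine gluedSpace_mono ?_ ?_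
    · have e : E₁ - B₁ + (E₁ - B₁) = E₁ + E₁ - B₁ - B₁ := by abel
      rw [e]
      exact sub_le_self _ hB₁0
    · have e : E₂ - B₂ + (E₂ - B₂) = E₂ + E₂ - B₂ - B₂ := by abel
      rw [e]
      exact sub_le_self _ hB₂0
  · rw [hmul]
  · -- the regular element and the line
    have hMD₁ : RR.MD (E₁ - B₁ + (E₁ - B₁) - nodeDiv e₁) = ⊤ := hc₁ _ (by
      rw [degree_sub_nodeDiv h₁, hdd₁]
      linarith)
    have hMD₂ : RR.MD (E₂ - B₂ + (E₂ - B₂) - nodeDiv e₂) = ⊤ := hc₂ _ (by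
      rw [degree_sub_nodeDiv h₂, hdd₂]
      linarith)
    obtain ⟨u, hu, hu1⟩ := exists_mem_gluedSpace_cong he₁ he₂ hDD₁ hDD₂ hMD₁ hMD₂
      (fun _ => (1 : K))
    obtain ⟨i₀⟩ := ‹Nonempty ι›
    have hu₁ : u.1 ≠ 0 := ne_zero_of_cong_one (hu1 i₀).1
    have hu₂ : u.2 ≠ 0 := ne_zero_of_cong_one (hu1 i₀).2
    refine ⟨u, by rw [hmul]; exact hu, fun t ht => ?_, fun v hv hline => ?_⟩
    · have ht1 : u.1 * t.1 = 0 := congrArg Prod.fst ht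
      have ht2 : u.2 * t.2 = 0 := congrArg Prod.snd ht
      exact Prod.ext ((mul_eq_zero.mp ht1).resolve_left hu₁)
        ((mul_eq_zero.mp ht2).resolve_left hu₂)
    · -- `t = v / u` lies in the colon, hence in `G(B) = G(0)`
      have ht : ((v.1 / u.1, v.2 / u.2) : F₁ × F₂)
          ∈ gluedSpace e₁ e₂ (fun _ => (1 : K)) B₁ B₂ := by
        have h := (forall_mul_mem_gluedSpace_iff_sub h₁ h₂ he₁ he₂ hc₁ hc₂ (C₁ := E₁ + E₁ - B₁)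
          (C₂ := E₂ + E₂ - B₂) (D₁' := E₁ - B₁ + (E₁ - B₁)) (D₂' := E₂ - B₂ + (E₂ - B₂))
          hC₁ hC₂ hDD₁ hDD₂ (by rw [hdd₁]; linarith) (by rw [hdd₂]; linarith)
          ((v.1 / u.1, v.2 / u.2) : F₁ × F₂)).mp ?_
        · rwa [hCD₁, hCD₂] at h
        · intro p hp
          obtain ⟨y, hy, hyu⟩ := hline p (by rw [hmul]; exact hp)
          have h1 : y.1 * u.1 = v.1 * p.1 := congrArg Prod.fst hyu
          have h2 : y.2 * u.2 = v.2 * p.2 := congrArg Prod.snd hyu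
          have e : ((v.1 / u.1, v.2 / u.2) : F₁ × F₂) * p = y := by
            refine Prod.ext ?_ ?_
            · show v.1 / u.1 * p.1 = y.1
              rw [div_mul_eq_mul_div, div_eq_iff hu₁, h1]
            · show v.2 / u.2 * p.2 = y.2
              rw [div_mul_eq_mul_div, div_eq_iff hu₂, h2]
          rw [e]
          exact hy
      obtain ⟨a, ha⟩ := (gluedSpace_zero_one h₁ h₂ e₁ e₂).mp (hns ht)
      have ha1 : v.1 / u.1 = algebraMap K F₁ a := congrArg Prod.fst ha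
      have ha2 : v.2 / u.2 = algebraMap K F₂ a := congrArg Prod.snd ha
      refine ⟨a, Prod.ext ?_ ?_⟩
      · show v.1 = a • u.1
        rw [Algebra.smul_def, ← ha1, div_mul_cancel₀ _ hu₁]
      · show v.2 = a • u.2
        rw [Algebra.smul_def, ← ha2, div_mul_cancel₀ _ hu₂]
  · -- the colon `(G₁B·G₁B : G₁B) ∩ G₁ = G₁B`
    intro f _ hf
    refine (forall_mul_mem_gluedSpace_iff h₁ h₂ he₁ he₂ hc₁ hc₂ hD₁ hD₂ hD₁ hD₂
      (by linarith) (by linarith) f).mp fun p hp => ?_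
    have := hf p hp
    rwa [hmul] at this

/-- **`SpecFacts` on the nodal curve**, existential bound, with the rank
`m = 2 deg(E₁ - B₁) + 2 deg(E₂ - B₂) + 2 - g₁ - g₂ - #nodes`. -/
theorem exists_specFacts [Infinite K] [Nonempty ι] (h₁ : IsFF1 K F₁ x₁) (h₂ : IsFF1 K F₂ x₂)
    (e₁ : ι → Place K F₁) (e₂ : ι → Place K F₂) (he₁ : Function.Injective e₁)
    (he₂ : Function.Injective e₂) :
    ∃ c : ℤ, ∀ (E₁ B₁ : Divisor K F₁) (E₂ B₂ : Divisor K F₂),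
      (∀ i, E₁ (e₁ i) = 0) → (∀ i, E₂ (e₂ i) = 0) →
      (∀ i, B₁ (e₁ i) = 0) → (∀ i, B₂ (e₂ i) = 0) → 0 ≤ B₁ → 0 ≤ B₂ →
      gluedSpace e₁ e₂ (fun _ => (1 : K)) B₁ B₂ ≤ gluedSpace e₁ e₂ (fun _ => (1 : K)) 0 0 →
      c ≤ Divisor.degree (E₁ - B₁) → c ≤ Divisor.degree (E₂ - B₂) →
      SpecFacts (gluedSpace e₁ e₂ (fun _ => (1 : K)) E₁ E₂)
        (gluedSpace e₁ e₂ (fun _ => (1 : K)) (E₁ - B₁) (E₂ - B₂))
        (gluedSpace e₁ e₂ (fun _ => (1 : K)) (E₁ + E₁ - B₁) (E₂ + E₂ - B₂))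
        (2 * Divisor.degree (E₁ - B₁) + 2 * Divisor.degree (E₂ - B₂) + 2 - genusFF K F₁
          - genusFF K F₂ - Fintype.card ι) := by
  obtain ⟨c₁, hc₁⟩ := exists_NS h₁
  obtain ⟨c₂, hc₂⟩ := exists_NS h₂
  obtain ⟨c₀, hc₀⟩ := exists_finrank_gluedSpace h₁ h₂ e₁ e₂ he₂ (K := K)
  have hcard : (0 : ℤ) ≤ Fintype.card ι := Int.natCast_nonneg _
  have hn₁ : -1 ≤ c₁ := hc₁.neg_one_le h₁
  have hn₂ : -1 ≤ c₂ := hc₂.neg_one_le h₂
  refine ⟨max (2 * max c₁ c₂ + 3 + Fintype.card ι) c₀,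
    fun E₁ B₁ E₂ B₂ hE₁ hE₂ hB₁ hB₂ hB₁0 hB₂0 hns hd₁ hd₂ => ?_⟩
  have hl := le_max_left c₁ c₂
  have hr := le_max_right c₁ c₂
  have hd₁a := (le_max_left (2 * max c₁ c₂ + 3 + Fintype.card ι) c₀).trans hd₁
  have hd₁b := (le_max_right (2 * max c₁ c₂ + 3 + (Fintype.card ι : ℤ)) c₀).trans hd₁
  have hd₂a := (le_max_left (2 * max c₁ c₂ + 3 + Fintype.card ι) c₀).trans hd₂
  have hd₂b := (le_max_right (2 * max c₁ c₂ + 3 + (Fintype.card ι : ℤ)) c₀).trans hd₂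
  have hD₁ : ∀ i, (E₁ - B₁) (e₁ i) = 0 := fun i => by
    rw [Finsupp.sub_apply, hE₁ i, hB₁ i, sub_zero]
  have hD₂ : ∀ i, (E₂ - B₂) (e₂ i) = 0 := fun i => by
    rw [Finsupp.sub_apply, hE₂ i, hB₂ i, sub_zero]
  have hdd₁ : Divisor.degree (E₁ - B₁ + (E₁ - B₁)) = 2 * Divisor.degree (E₁ - B₁) := by
    rw [map_add]
    ring
  have hdd₂ : Divisor.degree (E₂ - B₂ + (E₂ - B₂)) = 2 * Divisor.degree (E₂ - B₂) := by
    rw [map_add]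
    ring
  have hfr := hc₀ (fun _ => (1 : K)) (E₁ - B₁ + (E₁ - B₁)) (E₂ - B₂ + (E₂ - B₂))
    (by rw [hdd₁]; linarith) (by rw [hdd₂]; linarith)
    (fun i => by rw [Finsupp.add_apply, hD₁ i, add_zero])
    (fun i => by rw [Finsupp.add_apply, hD₂ i, add_zero])
  have hS := specFacts_gluedSpace h₁ h₂ he₁ he₂ hc₁ hc₂ hE₁ hE₂ hB₁ hB₂ hB₁0 hB₂0 hns
    (by linarith) (by linarith)
  rw [hfr, hdd₁, hdd₂] at hS
  exact hS

end Fermat.Agent.Padic.S33.RC.NodalSpec
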