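/-
S33 / Route C, item (S): the special facts `RC.SpecFacts` for the reductions of the lattices
`Λ(E)`, `Λ(E - B)`, `Λ(2E - B)` of a function field `F/L` with a nodal special fibre.

Abstract nodal setting (that of `BAD/NodalAsm`, `BAD/NodeCount`): `(A, O, red, π)` reduction
data (`OrthoFam.PRed`), `red : O →+* F₁ × F₂`, nodes `e₁ i ~ e₂ i`, orthonormal bases of all
Riemann–Roch spaces (`hlat`).

* `redSub_eq_lib`, `finrank_redSub` : `dim_k red Λ(V) = dim_L V`;
* `degree_genus_of_red` : if `red Λ(n • E) = gluedSpace (n • P₁) (n • P₂)` for all large `n`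
  then `deg E = deg P₁ + deg P₂` and `#nodes = g + 1 - g₁ - g₂`
  (the count of `BAD/NodeCount.card_nodes`, for arbitrary divisors);
* `exists_specFacts_red` : if moreover `red Λ(n • E - B) = gluedSpace (n • P₁ - B₁) (n • P₂ - B₂)`
  for all large `n` (RC-2), with `(B₁, B₂)` non-special on the nodal curve of degree `g`, then for
  all large `m` the divisor `m • E` has degree `≥ 5g + 1` and
  `SpecFacts (red Λ(mE)) (red Λ(mE - B)) (red Λ(2(mE) - B)) (2 deg(mE) - 3g + 1)`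
  — the hypothesis `hfacts` of `OrthoAsm.exists_smallOrder_of_ortho`.
-/
import Mathlib
import Fermat.Agent.Padic.S33.RC.OrthoFam
import Fermat.Agent.Padic.S33.RC.NodalSpec
import Fermat.Agent.Lib.Red.CoordOrtho
import Fermat.Agent.Lib.FF.WeilCanonical

set_option autoImplicit false

noncomputable section

namespace Fermat.Agent.Padic.S33.RC.SpecBad

open AlgebraicCurve Module
open Fermat.Agent.Lib.FF Fermat.Agent.BAD.NodalRiemann Fermat.Agent.Padic.S33.RC
  Fermat.Agent.Padic.S33.RC.OrthoFam Fermat.Agent.Lib.Red.CoordLat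
  Fermat.Agent.Lib.FF.WeilCanonical

variable {L F : Type*} [Field L] [Field F] [Algebra L F] {A : ValuationSubring L} {O : Subring F}

section General

variable {k Ft : Type*} [Field k] [CommRing Ft] [Algebra k Ft] {red : O →+* Ft} {π : A →+* k}

/-- The two definitions of the reduced lattice agree. -/
theorem redSub_eq_lib (h : PRed A O red π) (V : Submodule L F) :
    h.redSub V = redSub h.hOA red π h.hπsurj h.hredconst V :=
  Submodule.ext fun _ => Iff.rfl

/-- `dim_k red Λ(V) = dim_L V` for a space with an orthonormal basis. -/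
theorem finrank_redSub (h : PRed A O red π) {V : Submodule L F} (hV : HasOrtho A O V) :
    finrank k (h.redSub V) = finrank L V := by
  rw [redSub_eq_lib]
  exact hV.finrank_redSub h.hOA red π h.hπsurj h.hπ h.hredconst h.hker

end General

variable {k F₁ F₂ : Type*} [Field k] [Field F₁] [Field F₂] [Algebra k F₁] [Algebra k F₂]
  {red : O →+* F₁ × F₂} {π : A →+* k}
  {x : F} {x₁ : F₁} {x₂ : F₂} {ι : Type*} [Fintype ι]

/-- **The count** for arbitrary divisors: `deg E = deg P₁ + deg P₂` and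
`#ι = g + 1 - g₁ - g₂`. -/
theorem degree_genus_of_red (h : PRed A O red π)
    (hF : IsFF1 L F x) (h₁ : IsFF1 k F₁ x₁) (h₂ : IsFF1 k F₂ x₂)
    (e₁ : ι → Place k F₁) (e₂ : ι → Place k F₂) (he₂ : Function.Injective e₂)
    (hlat : ∀ D : Divisor L F, HasOrtho A O (riemannRochSpace D))
    (E : Divisor L F) (P₁ : Divisor k F₁) (P₂ : Divisor k F₂)
    (hP₁ : ∀ i, P₁ (e₁ i) = 0) (hP₂ : ∀ i, P₂ (e₂ i) = 0)
    (hdegE : 0 < Divisor.degree E) (hdegP₁ : 0 < Divisor.degree P₁)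
    (hdegP₂ : 0 < Divisor.degree P₂)
    (hS : ∃ N₀ : ℕ, ∀ n : ℕ, N₀ ≤ n → h.redSub (riemannRochSpace (n • E))
      = gluedSpace e₁ e₂ (fun _ => (1 : k)) (n • P₁) (n • P₂)) :
    Divisor.degree E = Divisor.degree P₁ + Divisor.degree P₂ ∧
      (Fintype.card ι : ℤ) = genusFF L F + 1 - genusFF k F₁ - genusFF k F₂ := by
  obtain ⟨N₀, hN₀⟩ := hS
  obtain ⟨c', hc'⟩ := exists_finrank_gluedSpace h₁ h₂ e₁ e₂ he₂
  set c : ℤ := 2 * (genusFF L F : ℤ) - 1 with hc
  set n₀ : ℕ := max N₀ (max c.toNat c'.toNat) with hn₀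
  have key : ∀ n : ℕ, n₀ ≤ n →
      (n : ℤ) * Divisor.degree E + 1 - genusFF L F
        = (n : ℤ) * Divisor.degree P₁ + (n : ℤ) * Divisor.degree P₂ + 2
          - genusFF k F₁ - genusFF k F₂ - Fintype.card ι := by
    intro n hn
    have hnN : N₀ ≤ n := (le_max_left _ _).trans hn
    have hnc : c ≤ (n : ℤ) := by
      have h1 : c.toNat ≤ n := ((le_max_left _ _).trans (le_max_right _ _)).trans hn
      have h2 := Int.self_le_toNat c
      exact h2.trans (by exact_mod_cast h1)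
    have hnc' : c' ≤ (n : ℤ) := by
      have h1 : c'.toNat ≤ n := ((le_max_right _ _).trans (le_max_right _ _)).trans hn
      have h2 := Int.self_le_toNat c'
      exact h2.trans (by exact_mod_cast h1)
    have hn0 : (0 : ℤ) ≤ n := Int.natCast_nonneg _
    have eF : Divisor.degree (n • E) = n * Divisor.degree E := by
      rw [map_nsmul, nsmul_eq_mul]
    have e1 : Divisor.degree (n • P₁) = n * Divisor.degree P₁ := by
      rw [map_nsmul, nsmul_eq_mul]
    have e2 : Divisor.degree (n • P₂) = n * Divisor.degree P₂ := by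
      rw [map_nsmul, nsmul_eq_mul]
    have hL := finrank_L_of_degree hF (D := n • E) (by rw [eF]; nlinarith)
    have hG := hc' (fun _ => (1 : k)) (n • P₁) (n • P₂)
      (by rw [e1]; nlinarith) (by rw [e2]; nlinarith)
      (fun i => by rw [Finsupp.smul_apply, hP₁ i, smul_zero])
      (fun i => by rw [Finsupp.smul_apply, hP₂ i, smul_zero])
    have hred := finrank_redSub h (hlat (n • E))
    rw [hN₀ n hnN] at hred
    have hred' : (finrank k (gluedSpace e₁ e₂ (fun _ => (1 : k)) (n • P₁) (n • P₂)) : ℤ)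
        = finrank L (riemannRochSpace (n • E)) := by
      exact_mod_cast hred
    rw [hG, hL, eF, e1, e2] at hred'
    linarith
  have k0 := key n₀ le_rfl
  have k1 := key (n₀ + 1) (Nat.le_succ _)
  push_cast at k1
  have hdeg : Divisor.degree E = Divisor.degree P₁ + Divisor.degree P₂ := by linarith
  refine ⟨hdeg, ?_⟩
  rw [hdeg] at k0
  linarith

/-- **(S)**: the special facts for the reduced lattices of `m • E`, `m • E - B`,
`2 • (m • E) - B`, for all large `m`. -/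
theorem exists_specFacts_red [Infinite k] [Nonempty ι] (h : PRed A O red π)
    (hF : IsFF1 L F x) (h₁ : IsFF1 k F₁ x₁) (h₂ : IsFF1 k F₂ x₂)
    (e₁ : ι → Place k F₁) (e₂ : ι → Place k F₂) (he₁ : Function.Injective e₁)
    (he₂ : Function.Injective e₂)
    (hlat : ∀ D : Divisor L F, HasOrtho A O (riemannRochSpace D))
    (E : Divisor L F) (P₁ : Divisor k F₁) (P₂ : Divisor k F₂)
    (hP₁ : ∀ i, P₁ (e₁ i) = 0) (hP₂ : ∀ i, P₂ (e₂ i) = 0)
    (hdegE : 0 < Divisor.degree E) (hdegP₁ : 0 < Divisor.degree P₁)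
    (hdegP₂ : 0 < Divisor.degree P₂)
    (hS : ∃ N₀ : ℕ, ∀ n : ℕ, N₀ ≤ n → h.redSub (riemannRochSpace (n • E))
      = gluedSpace e₁ e₂ (fun _ => (1 : k)) (n • P₁) (n • P₂))
    (B : Divisor L F) (B₁ : Divisor k F₁) (B₂ : Divisor k F₂)
    (hB₁ : ∀ i, B₁ (e₁ i) = 0) (hB₂ : ∀ i, B₂ (e₂ i) = 0) (hB₁0 : 0 ≤ B₁) (hB₂0 : 0 ≤ B₂)
    (hns : gluedSpace e₁ e₂ (fun _ => (1 : k)) B₁ B₂ ≤ gluedSpace e₁ e₂ (fun _ => (1 : k)) 0 0)
    (hdegB : Divisor.degree B₁ + Divisor.degree B₂ = genusFF L F)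
    (hSB : ∃ N₁ : ℕ, ∀ n : ℕ, N₁ ≤ n → h.redSub (riemannRochSpace (n • E - B))
      = gluedSpace e₁ e₂ (fun _ => (1 : k)) (n • P₁ - B₁) (n • P₂ - B₂)) :
    ∃ m₀ : ℕ, ∀ m : ℕ, m₀ ≤ m →
      5 * (genusFF L F : ℤ) + 1 ≤ Divisor.degree (m • E) ∧
      SpecFacts (h.redSub (riemannRochSpace (m • E)))
        (h.redSub (riemannRochSpace (m • E - B)))
        (h.redSub (riemannRochSpace (2 • (m • E) - B)))
        (2 * Divisor.degree (m • E) - 3 * genusFF L F + 1) := by
  obtain ⟨hdeg, hcard⟩ := degree_genus_of_red h hF h₁ h₂ e₁ e₂ he₂ hlat E P₁ P₂ hP₁ hP₂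
    hdegE hdegP₁ hdegP₂ hS
  obtain ⟨N₀, hN₀⟩ := hS
  obtain ⟨N₁, hN₁⟩ := hSB
  obtain ⟨c, hc⟩ := NodalSpec.exists_specFacts h₁ h₂ e₁ e₂ he₁ he₂
  set b₁ : ℤ := c + Divisor.degree B₁ with hb₁
  set b₂ : ℤ := c + Divisor.degree B₂ with hb₂
  set b₃ : ℤ := 5 * (genusFF L F : ℤ) + 1 with hb₃
  refine ⟨max (max N₀ N₁) (max b₁.toNat (max b₂.toNat b₃.toNat)), fun m hm => ?_⟩
  have hmN₀ : N₀ ≤ m := ((le_max_left _ _).trans (le_max_left _ _)).trans hm
  have hmN₁ : N₁ ≤ m := ((le_max_right _ _).trans (le_max_left _ _)).trans hm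
  have hmb₁ : b₁ ≤ (m : ℤ) := by
    have h1 : b₁.toNat ≤ m := ((le_max_left _ _).trans (le_max_right _ _)).trans hm
    exact (Int.self_le_toNat b₁).trans (by exact_mod_cast h1)
  have hmb₂ : b₂ ≤ (m : ℤ) := by
    have h1 : b₂.toNat ≤ m :=
      (((le_max_left _ _).trans (le_max_right _ _)).trans (le_max_right _ _)).trans hm
    exact (Int.self_le_toNat b₂).trans (by exact_mod_cast h1)
  have hmb₃ : b₃ ≤ (m : ℤ) := by
    have h1 : b₃.toNat ≤ m :=
      (((le_max_right _ _).trans (le_max_right _ _)).trans (le_max_right _ _)).trans hm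
    exact (Int.self_le_toNat b₃).trans (by exact_mod_cast h1)
  have hm0 : (0 : ℤ) ≤ m := Int.natCast_nonneg _
  have eE : Divisor.degree (m • E) = m * Divisor.degree E := by
    rw [map_nsmul, nsmul_eq_mul]
  have e1 : Divisor.degree (m • P₁ - B₁) = m * Divisor.degree P₁ - Divisor.degree B₁ := by
    rw [map_sub, map_nsmul, nsmul_eq_mul]
  have e2 : Divisor.degree (m • P₂ - B₂) = m * Divisor.degree P₂ - Divisor.degree B₂ := by
    rw [map_sub, map_nsmul, nsmul_eq_mul]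
  refine ⟨by rw [eE]; nlinarith, ?_⟩
  have hfacts := hc (m • P₁) B₁ (m • P₂) B₂
    (fun i => by rw [Finsupp.smul_apply, hP₁ i, smul_zero])
    (fun i => by rw [Finsupp.smul_apply, hP₂ i, smul_zero]) hB₁ hB₂ hB₁0 hB₂0 hns
    (by rw [e1]; nlinarith) (by rw [e2]; nlinarith)
  have hm2 : N₁ ≤ 2 * m := by omega
  have eE2 : (2 : ℕ) • (m • E) = (2 * m) • E := by rw [smul_smul]
  have eP₁ : m • P₁ + m • P₁ = (2 * m) • P₁ := by rw [two_mul, add_smul]
  have eP₂ : m • P₂ + m • P₂ = (2 * m) • P₂ := by rw [two_mul, add_smul]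
  rw [hN₀ m hmN₀, hN₁ m hmN₁, eE2, hN₁ (2 * m) hm2, ← eP₁, ← eP₂]
  have erank : 2 * Divisor.degree (m • E) - 3 * (genusFF L F : ℤ) + 1 =
      2 * Divisor.degree (m • P₁ - B₁) + 2 * Divisor.degree (m • P₂ - B₂) + 2
        - genusFF k F₁ - genusFF k F₂ - Fintype.card ι := by
    rw [eE, e1, e2, hdeg, hcard]
    linarith
  rw [erank]
  exact hfacts

end Fermat.Agent.Padic.S33.RC.SpecBad
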