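/-
S33 / Route C, integration of the middle seam (layer A): `SmallOrders A (M * q) Kr` for the bad
lattice `O = OPair h W`, `red = redPair h W` from

* the nodal fibre on the charts `n • E` (`hS`),
* the base divisor `B` with `red Λ(n • E - B) = gluedSpace (n • P₁ - B₁) (n • P₂ - B₂)` (RC-2),
  `(B₁, B₂)` non-special of degree `g`,
* the kernel divisors (RC-3): for every `y ∈ Kr` an effective `D` of degree `g` with
  `l(D) = 1`, `[D - B] = y` and `red Λ(m • E - D) = red Λ(m • E - B)`.

Composition of `SpecBad.exists_specFacts_red` (item (S)), helper3's inertia-fixed orthonormal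
bases and helper60's `KDFormal.smallOrders_of_kd` (on top of helper93's `OrthoAsm`).
-/
import Mathlib
import Fermat.Agent.BAD.KerRed
import Fermat.Agent.BAD.LatFixedInst
import Fermat.Agent.Padic.S33.RC.KDFormal
import Fermat.Agent.Padic.S33.RC.SpecBad

set_option autoImplicit false
set_option synthInstance.maxHeartbeats 400000
set_option maxHeartbeats 1600000

noncomputable section

namespace Fermat.Agent.Padic.S33.RC.GeoAsm

open AlgebraicCurve ModularCurve Module
open Fermat.Agent.Lib.FF Fermat.Agent.Lib.Red.Deform Fermat.Agent.Lib.Red.CoordLat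
  Fermat.Agent.BAD.NodalRiemann Fermat.Agent.BAD.TwoVal Fermat.Agent.BAD.BadU
  Fermat.Agent.BAD.Ortho
  Fermat.Agent.Padic.S33.RC Fermat.Agent.Padic.S33.RC.OrthoFam

local notation "Qb" => AlgebraicClosure ℚ

variable {A : ValuationSubring Qb} {M q : ℕ} [NeZero M] [NeZero q]
  {W : laurentBaseChange Qb (modularFunctionFieldFull (M * q)) ≃ₐ[Qb]
    laurentBaseChange Qb (modularFunctionFieldFull (M * q))}

/-- The reduction data `(A, OPair h W, redPair h W, residue)` of the bad lattice. -/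
theorem pRed_bad (h : BadSetup A (IsLocalRing.residue A) M q) :
    PRed A (OPair h W) (redPair h W) (IsLocalRing.residue A) where
  hπsurj := IsLocalRing.residue_surjective
  hπ := h.pi_eq_zero_iff
  hOA := OPair_hOA h
  hker := redPair_eq_zero_iff h
  hredconst := fun a => (redPair_algebraMap h a _).trans rfl

/-- **Layer A of the middle seam.** -/
theorem smallOrders_of_charts (hq : q.Prime) (hA : A.LiesOverPrime q)
    (h : BadSetup A (IsLocalRing.residue A) M q) (hW : IsAL M q W)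
    {ι : Type} [Fintype ι] [Nonempty ι]
    (e₁ e₂ : ι → Place (IsLocalRing.ResidueField A)
      (modularFunctionFieldFullC (IsLocalRing.ResidueField A) M))
    (he₁ : Function.Injective e₁) (he₂ : Function.Injective e₂)
    (E : Divisor Qb (laurentBaseChange Qb (modularFunctionFieldFull (M * q))))
    (hEI : ∀ σ ∈ A.inertiaSubgroupIn ℚ,
      arithmeticGalois (modularFunctionFieldFull (M * q)) σ • E = E)
    (hdegE : 0 < Divisor.degree E)
    (P₁ P₂ : Divisor (IsLocalRing.ResidueField A)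
      (modularFunctionFieldFullC (IsLocalRing.ResidueField A) M))
    (hP₁ : ∀ i, P₁ (e₁ i) = 0) (hP₂ : ∀ i, P₂ (e₂ i) = 0)
    (hdegP₁ : 0 < Divisor.degree P₁) (hdegP₂ : 0 < Divisor.degree P₂)
    (hS : ∃ N₀ : ℕ, ∀ n : ℕ, N₀ ≤ n →
      (pRed_bad (W := W) h).redSub (riemannRochSpace (n • E))
        = gluedSpace e₁ e₂ (fun _ => (1 : IsLocalRing.ResidueField A)) (n • P₁) (n • P₂))
    (B : Divisor Qb (laurentBaseChange Qb (modularFunctionFieldFull (M * q))))
    (hBI : ∀ σ ∈ A.inertiaSubgroupIn ℚ,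
      arithmeticGalois (modularFunctionFieldFull (M * q)) σ • B = B)
    (hdegB : Divisor.degree B
      = genusFF Qb (laurentBaseChange Qb (modularFunctionFieldFull (M * q))))
    (B₁ B₂ : Divisor (IsLocalRing.ResidueField A)
      (modularFunctionFieldFullC (IsLocalRing.ResidueField A) M))
    (hB₁ : ∀ i, B₁ (e₁ i) = 0) (hB₂ : ∀ i, B₂ (e₂ i) = 0) (hB₁0 : 0 ≤ B₁) (hB₂0 : 0 ≤ B₂)
    (hns : gluedSpace e₁ e₂ (fun _ => (1 : IsLocalRing.ResidueField A)) B₁ B₂
      ≤ gluedSpace e₁ e₂ (fun _ => (1 : IsLocalRing.ResidueField A)) 0 0)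
    (hdegBt : Divisor.degree B₁ + Divisor.degree B₂
      = genusFF Qb (laurentBaseChange Qb (modularFunctionFieldFull (M * q))))
    (hSB : ∃ N₁ : ℕ, ∀ n : ℕ, N₁ ≤ n →
      (pRed_bad (W := W) h).redSub (riemannRochSpace (n • E - B))
        = gluedSpace e₁ e₂ (fun _ => (1 : IsLocalRing.ResidueField A))
          (n • P₁ - B₁) (n • P₂ - B₂))
    (Kr : AddSubgroup (JZero (M * q)))
    (hKD : ∃ m₁ : ℕ, ∀ m : ℕ, m₁ ≤ m → ∀ y ∈ Kr,
      ∃ D : Divisor Qb (laurentBaseChange Qb (modularFunctionFieldFull (M * q))), 0 ≤ D ∧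
        Divisor.degree D = genusFF Qb (laurentBaseChange Qb (modularFunctionFieldFull (M * q))) ∧
        finrank Qb (riemannRochSpace D) = 1 ∧
        (∃ hD : D - B ∈ Divisor.degZero (K := Qb)
            (F := laurentBaseChange Qb (modularFunctionFieldFull (M * q))),
          Pic0.mk ⟨D - B, hD⟩ = y) ∧
        (pRed_bad (W := W) h).redSub (riemannRochSpace (m • E - D))
          = (pRed_bad (W := W) h).redSub (riemannRochSpace (m • E - B))) :
    SmallOrders A (M * q) Kr := by
  classical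
  have hAC : IsAlgClosed (IsLocalRing.ResidueField A) :=
    Fermat.Agent.Lib.FF.CharP.isAlgClosed_residueField A
  have hπs : Function.Surjective (IsLocalRing.residue A) := IsLocalRing.residue_surjective
  have hF := isFF1_xL Qb (M * q)
  have h₁ := isFF1_xk (IsLocalRing.ResidueField A) M
  have hlat : ∀ D : Divisor Qb (laurentBaseChange Qb (modularFunctionFieldFull (M * q))),
      HasOrtho A (OPair h W) (riemannRochSpace D) := latAt hπs h W hW
  obtain ⟨m₀, hm₀⟩ := SpecBad.exists_specFacts_red (pRed_bad (W := W) h) hF h₁ h₁ e₁ e₂ he₁ he₂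
    hlat E P₁ P₂ hP₁ hP₂ hdegE hdegP₁ hdegP₂ hS B B₁ B₂ hB₁ hB₂ hB₁0 hB₂0 hns hdegBt hSB
  obtain ⟨m₁, hm₁⟩ := hKD
  set m : ℕ := max m₀ m₁ with hm
  obtain ⟨h5, hfacts⟩ := hm₀ m (le_max_left _ _)
  have hEmI : ∀ σ ∈ A.inertiaSubgroupIn ℚ,
      arithmeticGalois (modularFunctionFieldFull (M * q)) σ • (m • E) = m • E := by
    intro σ hσ
    rw [smul_comm, hEI σ hσ]
  -- an inertia-fixed orthonormal basis of `L(m • E)`
  obtain ⟨n, b, hbfix, hbli, hbspan, hbO, hbc⟩ :=
    Fermat.Agent.BAD.LatFixedInst.exists_fixed_ortho_basis_rr hq hA h hπs hW (m • E) hEmI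
  exact KDFormal.smallOrders_of_kd hF (pRed_bad (W := W) h) hlat (m • E) B
    (Divisor.degree (m • E)) h5 rfl hdegB hEmI hBI
    ⟨Fin n, inferInstance, b, ⟨hbli, hbO, hbc⟩, hbspan, fun σ hσ i => hbfix i σ hσ⟩
    hfacts Kr (hm₁ m (le_max_right _ _))

end Fermat.Agent.Padic.S33.RC.GeoAsm
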