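/-
S33 / Route C (RC-3), abstract core: the divisors `D_v` of the classes in the kernel of reduction.

Setting of `BAD/NodalP1Asm`: `F/L` a function field, `A` a valuation subring of `L`, `O ⊆ F` a
subring with a reduction map `red : O → F₁ × F₂` onto (a subring of) the product of the function
fields of the two components of a nodal special fibre, glued along the pairs of places
`(e₁ i, e₂ i)`; `G(X₁, X₂) = gluedSpace e₁ e₂ 1 X₁ X₂`.

Inputs:

* a base divisor `B ≥ 0` of degree `g` on the generic fibre and a pair `(B₁, B₂)` off the nodes,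
  non-special on the nodal curve (`G(B₁, B₂) ≤ G(0, 0)`), with `red (L(X - B) ∩ O) = G(X~ - B~)`
  for the charts `X` that are used ((RC-2));
* for every class `v` a representative `D` of degree zero, a unit `u` of `F₁ × F₂` and ONE large
  chart `C` with `u · red (L(D + C) ∩ O) = G(C~)` ((T): "the line bundle of `v` is trivial on the
  special fibre").

Outputs:

* `exists_section` : `l(B + D) = 1` and there is `f ∈ L(B + D) ∩ O` with `u · red f = 1`;
* `redSub_sub_eq` : `red (L(C' - (B + D + div f)) ∩ O) = G(C'~ - B~)` — the special fibre of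
  `L(C' - D_v)` does not depend on `v`;
* `exists_divisors` : the family `D_v` (effective, degree `g`, `[D_v - B] = v`, unique, equivariant,
  `l(D_v) = 1`, `KMTriple`) with constant special fibres.
-/
import Mathlib
import Fermat.Agent.Padic.S33.RC.NodalMul
import Fermat.Agent.Padic.S33.RC.NodalGenPos
import Fermat.Agent.Lib.Red.CoordOrtho
import Fermat.Agent.Padic.GenPosAbs
import Fermat.Agent.Padic.KMAdd

set_option autoImplicit false

namespace Fermat.Agent.Padic.S33.RC.KerDivFam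

open AlgebraicCurve Module Fermat.Agent.Lib.FF Fermat.Agent.Lib.FF.BasePoint
  Fermat.Agent.Lib.Red.Deform Fermat.Agent.Lib.Red.CoordLat Fermat.Agent.BAD.NodalRiemann
  Fermat.Agent.Padic.GenPosAbs Fermat.Agent.Padic.KMAdd
  Fermat.Agent.Padic.S33.RC.NodalMul Fermat.Agent.Padic.S33.RC.NodalGenPos

variable {L F : Type*} [Field L] [Field F] [Algebra L F]
variable {A : ValuationSubring L} {O : Subring F}
variable {k F₁ F₂ : Type*} [Field k] [Field F₁] [Field F₂] [Algebra k F₁] [Algebra k F₂]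

section

variable (hOA : ∀ x : L, algebraMap L F x ∈ O ↔ x ∈ A) (red : O →+* F₁ × F₂) (π : A →+* k)
  (hπ : Function.Surjective π)
  (hπker : ∀ a : A, π a = 0 ↔ A.valuation (a : L) < 1)
  (hconst : ∀ a : A, red ⟨algebraMap L F (a : L), (hOA _).2 a.2⟩ = algebraMap k (F₁ × F₂) (π a))
  (hker : ∀ y : O, red y = 0 ↔ Small A O (y : F))

include hπker hker in
/-- The reduction of a lattice with an orthonormal basis is finite-dimensional. -/
theorem finite_redSub {V : Submodule L F} (h : HasOrtho A O V) :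
    Module.Finite k (redSub hOA red π hπ hconst V) := by
  have hfr := h.finrank_redSub hOA red π hπ hπker hconst hker
  by_cases h0 : Module.finrank L V = 0
  · have := h.finiteDimensional
    have hV : V = ⊥ := Submodule.finrank_eq_zero.1 h0
    have hbot : redSub hOA red π hπ hconst V = ⊥ := by
      rw [eq_bot_iff]
      rintro t ⟨y, hy, rfl⟩
      rw [hV, Submodule.mem_bot] at hy
      have : y = 0 := Subtype.ext hy
      rw [this, map_zero]
      exact Submodule.zero_mem _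
    rw [hbot]
    infer_instance
  · exact Module.finite_of_finrank_pos (by rw [hfr]; exact Nat.pos_of_ne_zero h0)

include hπ hπker hconst hker in
/-- **Fact (a).**  If `u · red (L(D + C) ∩ O) ⊆ G(C~)` for one large chart `C` and the base
divisor `B` is non-special on the nodal curve, then `l(B + D) = 1` and `L(B + D) ∩ O` contains a
function `f` with `u · red f = 1`. -/
theorem exists_section
    {x : F} (hF : IsFF1 L F x) {x₁ : F₁} (h₁ : IsFF1 k F₁ x₁) {x₂ : F₂} (h₂ : IsFF1 k F₂ x₂)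
    {ι : Type*} [Fintype ι] [Nonempty ι] {e₁ : ι → Place k F₁} {e₂ : ι → Place k F₂}
    (he₁ : Function.Injective e₁) (he₂ : Function.Injective e₂)
    {c₁ c₂ : ℤ} (hc₁ : NS k F₁ c₁) (hc₂ : NS k F₂ c₂)
    {B : Divisor L F} {B₁ : Divisor k F₁} {B₂ : Divisor k F₂}
    (hB₁ : ∀ i, B₁ (e₁ i) = 0) (hB₂ : ∀ i, B₂ (e₂ i) = 0)
    (hBdeg : Divisor.degree B = genusFF L F)
    (hns : gluedSpace e₁ e₂ (fun _ => (1 : k)) B₁ B₂ ≤ gluedSpace e₁ e₂ (fun _ => (1 : k)) 0 0)
    {C : Divisor L F} {C₁ : Divisor k F₁} {C₂ : Divisor k F₂}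
    (hC₁ : ∀ i, C₁ (e₁ i) = 0) (hC₂ : ∀ i, C₂ (e₂ i) = 0)
    (hdC₁ : c₁ + Fintype.card ι + 1 ≤ Divisor.degree (C₁ - B₁))
    (hdC₂ : c₂ + Fintype.card ι + 1 ≤ Divisor.degree (C₂ - B₂))
    (hCB : ∀ t ∈ gluedSpace e₁ e₂ (fun _ => (1 : k)) (C₁ - B₁) (C₂ - B₂),
      ∃ y : O, (y : F) ∈ riemannRochSpace (C - B) ∧ red y = t)
    {D : Divisor L F} (hD : Divisor.degree D = 0) {u u' : F₁ × F₂} (huu' : u * u' = 1)
    (hT : ∀ s : O, (s : F) ∈ riemannRochSpace (D + C) →
      u * red s ∈ gluedSpace e₁ e₂ (fun _ => (1 : k)) C₁ C₂)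
    (hlat : HasOrtho A O (riemannRochSpace (B + D))) :
    Module.finrank L (riemannRochSpace (B + D)) = 1 ∧
      ∃ f : O, (f : F) ∈ riemannRochSpace (B + D) ∧ u * red f = 1 := by
  classical
  have hu'u : u' * u = 1 := by rw [mul_comm]; exact huu'
  -- Step 1: `u · red f` is a constant
  have key : ∀ f : O, (f : F) ∈ riemannRochSpace (B + D) →
      ∃ c : k, u * red f = algebraMap k (F₁ × F₂) c := by
    intro f hf
    have hmem : u * red f ∈ gluedSpace e₁ e₂ (fun _ => (1 : k)) B₁ B₂ := by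
      refine (forall_mul_mem_gluedSpace_iff h₁ h₂ he₁ he₂ hc₁ hc₂ hB₁ hB₂
        (D₁' := C₁ - B₁) (D₂' := C₂ - B₂) ?_ ?_ hdC₁ hdC₂ _).1 ?_
      · intro i; rw [Finsupp.sub_apply, hC₁ i, hB₁ i, sub_zero]
      · intro i; rw [Finsupp.sub_apply, hC₂ i, hB₂ i, sub_zero]
      · intro p hp
        obtain ⟨y, hy, rfl⟩ := hCB p hp
        have h1 : ((f * y : O) : F) ∈ riemannRochSpace (D + C) := by
          have h := mul_mem_L_add hf hy
          have e : B + D + (C - B) = D + C := by abel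
          rw [e] at h
          exact h
        have h2 := hT (f * y) h1
        rw [map_mul, ← mul_assoc] at h2
        have e1 : B₁ + (C₁ - B₁) = C₁ := by abel
        have e2 : B₂ + (C₂ - B₂) = C₂ := by abel
        rw [e1, e2]
        exact h2
    obtain ⟨a, ha⟩ := (gluedSpace_zero_one h₁ h₂ e₁ e₂).1 (hns hmem)
    exact ⟨a, ha⟩
  -- Step 2: the rank is one
  have hu'0 : u' ≠ 0 := by
    rintro rfl
    rw [mul_zero] at huu'
    exact zero_ne_one huu'
  have hle : redSub hOA red π hπ hconst (riemannRochSpace (B + D)) ≤ Submodule.span k {u'} := by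
    rintro t ⟨f, hf, rfl⟩
    obtain ⟨c, hc⟩ := key f hf
    have h1 : red f = c • u' := by
      have h2 : red f = u' * (u * red f) := by rw [← mul_assoc, hu'u, one_mul]
      rw [h2, hc, Algebra.smul_def, mul_comm]
    rw [h1]
    exact Submodule.smul_mem _ _ (Submodule.subset_span rfl)
  have hfr := hlat.finrank_redSub hOA red π hπ hπker hconst hker
  have h1 : Module.finrank k (redSub hOA red π hπ hconst (riemannRochSpace (B + D))) ≤ 1 := by
    refine (Submodule.finrank_mono hle).trans ?_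
    rw [finrank_span_singleton hu'0]
  have h2 : 1 ≤ Module.finrank L (riemannRochSpace (B + D)) := by
    have h := hF.riemann_le (B + D)
    rw [map_add, hBdeg, hD] at h
    have h' : (1 : ℤ) ≤ (Module.finrank L (riemannRochSpace (B + D)) : ℤ) := by linarith
    exact_mod_cast h'
  have h3 : Module.finrank L (riemannRochSpace (B + D)) = 1 := le_antisymm (hfr ▸ h1) h2
  refine ⟨h3, ?_⟩
  -- Step 3: a generator with `u · red f = 1`
  have hpos : 0 < Module.finrank k (redSub hOA red π hπ hconst (riemannRochSpace (B + D))) := by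
    rw [hfr, h3]
    exact one_pos
  have hfin : Module.Finite k (redSub hOA red π hπ hconst (riemannRochSpace (B + D))) :=
    Module.finite_of_finrank_pos hpos
  obtain ⟨⟨t, ⟨f₀, hf₀, rfl⟩⟩, ht0⟩ := Module.finrank_pos_iff_exists_ne_zero.1 hpos
  obtain ⟨c, hc⟩ := key f₀ hf₀
  have hc0 : c ≠ 0 := by
    rintro rfl
    rw [map_zero] at hc
    apply ht0
    apply Subtype.ext
    show red f₀ = 0
    calc red f₀ = u' * (u * red f₀) := by rw [← mul_assoc, hu'u, one_mul]
      _ = 0 := by rw [hc, mul_zero]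
  obtain ⟨a, ha⟩ := hπ c⁻¹
  refine ⟨⟨algebraMap L F (a : L), (hOA _).2 a.2⟩ * f₀, ?_, ?_⟩
  · show algebraMap L F (a : L) * (f₀ : F) ∈ _
    rw [← Algebra.smul_def]
    exact Submodule.smul_mem _ _ hf₀
  · rw [map_mul, hconst, ha, mul_left_comm, hc, ← map_mul, inv_mul_cancel₀ hc0, map_one]

include hπ hπker hconst hker in
/-- **Fact (b).**  With `f ∈ L(B + D) ∩ O`, `u · red f = 1`, and `u · red (L(D + C) ∩ O) ⊇ G(C~)`:
the reduction of `L(C' - (B + D + div f)) ∩ O` is `G(C'~ - B~)`, the reduction of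
`L(C' - B) ∩ O`. -/
theorem redSub_sub_eq
    {x : F} (hF : IsFF1 L F x) {x₁ : F₁} (h₁ : IsFF1 k F₁ x₁) {x₂ : F₂} (h₂ : IsFF1 k F₂ x₂)
    {ι : Type*} [Fintype ι] {e₁ : ι → Place k F₁} {e₂ : ι → Place k F₂}
    (he₁ : Function.Injective e₁) (he₂ : Function.Injective e₂)
    {c₁ c₂ : ℤ} (hc₁ : NS k F₁ c₁) (hc₂ : NS k F₂ c₂)
    {B : Divisor L F} {B₁ : Divisor k F₁} {B₂ : Divisor k F₂}
    (hB₁ : ∀ i, B₁ (e₁ i) = 0) (hB₂ : ∀ i, B₂ (e₂ i) = 0)
    {C : Divisor L F} {C₁ : Divisor k F₁} {C₂ : Divisor k F₂}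
    (hC₁ : ∀ i, C₁ (e₁ i) = 0) (hC₂ : ∀ i, C₂ (e₂ i) = 0)
    (hdC₁ : c₁ + Fintype.card ι + 1 ≤ Divisor.degree C₁)
    (hdC₂ : c₂ + Fintype.card ι + 1 ≤ Divisor.degree C₂)
    {D : Divisor L F} (hD : Divisor.degree D = 0) {u u' : F₁ × F₂} (huu' : u * u' = 1)
    (hT : ∀ t ∈ gluedSpace e₁ e₂ (fun _ => (1 : k)) C₁ C₂,
      ∃ s : O, (s : F) ∈ riemannRochSpace (D + C) ∧ u * red s = t)
    (f : O) (hf0 : (f : F) ≠ 0) (huf : u * red f = 1)
    {Df : Divisor L F} (hDf : ∀ v : Place L F, Df v = v.ord (f : F))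
    {C' : Divisor L F} {C₁' : Divisor k F₁} {C₂' : Divisor k F₂}
    (hC₁' : ∀ i, C₁' (e₁ i) = 0) (hC₂' : ∀ i, C₂' (e₂ i) = 0)
    (hdeg : 2 * (genusFF L F : ℤ) - 1 ≤ Divisor.degree (C' - B))
    (hC'B : ∀ t, (∃ y : O, (y : F) ∈ riemannRochSpace (C' - B) ∧ red y = t) ↔
      t ∈ gluedSpace e₁ e₂ (fun _ => (1 : k)) (C₁' - B₁) (C₂' - B₂))
    (hC'C : ∀ y : O, (y : F) ∈ riemannRochSpace (C' + C - B) →
      red y ∈ gluedSpace e₁ e₂ (fun _ => (1 : k)) (C₁' + C₁ - B₁) (C₂' + C₂ - B₂))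
    (hlat : ∀ X : Divisor L F, HasOrtho A O (riemannRochSpace X)) (t : F₁ × F₂) :
    (∃ y : O, (y : F) ∈ riemannRochSpace (C' - (B + D + Df)) ∧ red y = t) ↔
      t ∈ gluedSpace e₁ e₂ (fun _ => (1 : k)) (C₁' - B₁) (C₂' - B₂) := by
  classical
  have := hF.hasPrincipalDivisors
  have hu'u : u' * u = 1 := by rw [mul_comm]; exact huu'
  have hredf : red f = u' := by
    calc red f = u' * (u * red f) := by rw [← mul_assoc, hu'u, one_mul]
      _ = u' := by rw [huf, mul_one]
  have hDfdeg : Divisor.degree Df = 0 := degree_of_mem_principal ⟨(f : F), hf0, hDf⟩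
  set G := gluedSpace e₁ e₂ (fun _ => (1 : k)) (C₁' - B₁) (C₂' - B₂) with hG
  set R0 := redSub hOA red π hπ hconst (riemannRochSpace (C' - B - D)) with hR0
  set R1 := redSub hOA red π hπ hconst (riemannRochSpace (C' - (B + D + Df))) with hR1
  set RB := redSub hOA red π hπ hconst (riemannRochSpace (C' - B)) with hRB
  let mulU : (F₁ × F₂) ≃ₗ[k] (F₁ × F₂) :=
    LinearEquiv.ofLinearMap (LinearMap.mulLeft k u') (LinearMap.mulLeft k u)
      (LinearMap.ext fun t => by
        simp only [LinearMap.comp_apply, LinearMap.mulLeft_apply, LinearMap.id_apply,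
          ← mul_assoc, hu'u, one_mul])
      (LinearMap.ext fun t => by
        simp only [LinearMap.comp_apply, LinearMap.mulLeft_apply, LinearMap.id_apply,
          ← mul_assoc, huu', one_mul])
  have hmulU : ∀ t, mulU t = u' * t := fun t => rfl
  set M : Submodule k (F₁ × F₂) := R0.map (mulU : (F₁ × F₂) →ₗ[k] (F₁ × F₂)) with hM
  -- `M ≤ G`
  have hMG : M ≤ G := by
    rintro _ ⟨_, ⟨y, hy, rfl⟩, rfl⟩
    show u' * red y ∈ G
    refine (forall_mul_mem_gluedSpace_iff h₁ h₂ he₁ he₂ hc₁ hc₂ (D₁ := C₁' - B₁)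
      (D₂ := C₂' - B₂) ?_ ?_ hC₁ hC₂ hdC₁ hdC₂ _).1 ?_
    · intro i; rw [Finsupp.sub_apply, hC₁' i, hB₁ i, sub_zero]
    · intro i; rw [Finsupp.sub_apply, hC₂' i, hB₂ i, sub_zero]
    · intro p hp
      obtain ⟨s, hs, rfl⟩ := hT p hp
      have h1 : ((y * s : O) : F) ∈ riemannRochSpace (C' + C - B) := by
        have h := mul_mem_L_add hy hs
        have e : C' - B - D + (D + C) = C' + C - B := by abel
        rw [e] at h
        exact h
      have h2 := hC'C (y * s) h1
      have e : u' * red y * (u * red s) = red (y * s) := by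
        rw [map_mul]
        calc u' * red y * (u * red s) = (u' * u) * (red y * red s) := by ring
          _ = red y * red s := by rw [hu'u, one_mul]
      rw [e]
      have e1 : C₁' - B₁ + C₁ = C₁' + C₁ - B₁ := by abel
      have e2 : C₂' - B₂ + C₂ = C₂' + C₂ - B₂ := by abel
      rw [e1, e2]
      exact h2
  -- `M ≤ R1`
  have hMR : M ≤ R1 := by
    rintro _ ⟨_, ⟨y, hy, rfl⟩, rfl⟩
    refine ⟨f * y, ?_, ?_⟩
    · show (f : F) * (y : F) ∈ riemannRochSpace (C' - (B + D + Df))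
      rw [KMLemmas.mul_mem_L_iff hf0 hDf]
      have e : C' - (B + D + Df) + Df = C' - B - D := by abel
      rw [e]
      exact hy
    · rw [map_mul, hredf]
      rfl
  -- dimensions
  have hfinG : Module.Finite k G := finite_gluedSpace h₁ h₂ e₁ e₂ _ _ _
  have hfinR1 : Module.Finite k R1 := finite_redSub hOA red π hπ hπker hconst hker (hlat _)
  have hdM : Module.finrank k M = Module.finrank k R0 := LinearEquiv.finrank_map_eq mulU _
  have hd0 : Module.finrank k R0 = Module.finrank L (riemannRochSpace (C' - B - D)) :=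
    (hlat _).finrank_redSub hOA red π hπ hπker hconst hker
  have hd1 : Module.finrank k R1 = Module.finrank L (riemannRochSpace (C' - (B + D + Df))) :=
    (hlat _).finrank_redSub hOA red π hπ hπker hconst hker
  have hdB : Module.finrank k RB = Module.finrank L (riemannRochSpace (C' - B)) :=
    (hlat _).finrank_redSub hOA red π hπ hπker hconst hker
  have hRBG : RB = G := by
    ext t
    exact hC'B t
  have hr0 : (Module.finrank L (riemannRochSpace (C' - B - D)) : ℤ) =
      Module.finrank L (riemannRochSpace (C' - B)) := by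
    rw [WeilCanonical.finrank_L_of_degree hF hdeg, WeilCanonical.finrank_L_of_degree hF
      (by rw [map_sub, hD, sub_zero]; exact hdeg), map_sub, hD, sub_zero]
  have hr1 : (Module.finrank L (riemannRochSpace (C' - (B + D + Df))) : ℤ) =
      Module.finrank L (riemannRochSpace (C' - B)) := by
    have e : Divisor.degree (C' - (B + D + Df)) = Divisor.degree (C' - B) := by
      simp only [map_sub, map_add, hD, hDfdeg]
      ring
    rw [WeilCanonical.finrank_L_of_degree hF hdeg, WeilCanonical.finrank_L_of_degree hF (by rw [e]; exact hdeg), e]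
  have hr0' : Module.finrank L (riemannRochSpace (C' - B - D)) =
      Module.finrank L (riemannRochSpace (C' - B)) := by exact_mod_cast hr0
  have hr1' : Module.finrank L (riemannRochSpace (C' - (B + D + Df))) =
      Module.finrank L (riemannRochSpace (C' - B)) := by exact_mod_cast hr1
  have hMeqG : M = G := by
    apply Submodule.eq_of_le_of_finrank_eq hMG
    rw [hdM, hd0, hr0', ← hdB, hRBG]
  have hMeqR : M = R1 := by
    apply Submodule.eq_of_le_of_finrank_eq hMR
    rw [hdM, hd0, hr0', hd1, hr1']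
  have : R1 = G := hMeqR.symm.trans hMeqG
  rw [← this]
  exact Iff.rfl

include hπ hπker hconst hker in
/-- **(RC-3), abstract form.**  The divisors `D_v` of the classes `v ∈ V`: effective of degree
`g`, `[D_v - B] = v`, unique, equivariant, non-special, forming Khuri-Makdisi triples, and with
special fibres `red (L(C' - D_v) ∩ O) = G(C'~ - B~)` independent of `v`. -/
theorem exists_divisors
    {x : F} (hF : IsFF1 L F x) {x₁ : F₁} (h₁ : IsFF1 k F₁ x₁) {x₂ : F₂} (h₂ : IsFF1 k F₂ x₂)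
    {ι : Type*} [Fintype ι] [Nonempty ι] {e₁ : ι → Place k F₁} {e₂ : ι → Place k F₂}
    (he₁ : Function.Injective e₁) (he₂ : Function.Injective e₂)
    {c₁ c₂ : ℤ} (hc₁ : NS k F₁ c₁) (hc₂ : NS k F₂ c₂)
    (hlat : ∀ X : Divisor L F, HasOrtho A O (riemannRochSpace X))
    (I : Set (SemilinearAut L F))
    {B : Divisor L F} {B₁ : Divisor k F₁} {B₂ : Divisor k F₂}
    (hBdeg : Divisor.degree B = genusFF L F) (hBsmul : ∀ g ∈ I, g • B = B)
    (hB₁ : ∀ i, B₁ (e₁ i) = 0) (hB₂ : ∀ i, B₂ (e₂ i) = 0)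
    (hns : gluedSpace e₁ e₂ (fun _ => (1 : k)) B₁ B₂ ≤ gluedSpace e₁ e₂ (fun _ => (1 : k)) 0 0)
    {C : Divisor L F} {C₁ : Divisor k F₁} {C₂ : Divisor k F₂}
    (hC₁ : ∀ i, C₁ (e₁ i) = 0) (hC₂ : ∀ i, C₂ (e₂ i) = 0)
    (hdC₁ : c₁ + Fintype.card ι + 1 ≤ Divisor.degree (C₁ - B₁))
    (hdC₂ : c₂ + Fintype.card ι + 1 ≤ Divisor.degree (C₂ - B₂))
    (hdC₁' : c₁ + Fintype.card ι + 1 ≤ Divisor.degree C₁)
    (hdC₂' : c₂ + Fintype.card ι + 1 ≤ Divisor.degree C₂)
    (hCB : ∀ t ∈ gluedSpace e₁ e₂ (fun _ => (1 : k)) (C₁ - B₁) (C₂ - B₂),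
      ∃ y : O, (y : F) ∈ riemannRochSpace (C - B) ∧ red y = t)
    (V : AddSubgroup (Pic0 L F))
    (hT : ∀ v : V, ∃ D : Divisor L F, ClassEq D (v : Pic0 L F) ∧ ∃ u u' : F₁ × F₂, u * u' = 1 ∧
      ∀ t, (∃ s : O, (s : F) ∈ riemannRochSpace (D + C) ∧ u * red s = t) ↔
        t ∈ gluedSpace e₁ e₂ (fun _ => (1 : k)) C₁ C₂) :
    ∃ Dv : V → Divisor L F,
      (∀ v, 0 ≤ Dv v) ∧
      (∀ v, Divisor.degree (Dv v) = genusFF L F) ∧
      (∀ v : V, ClassEq (Dv v - B) (v : Pic0 L F)) ∧
      (∀ (v : V) (D' : Divisor L F), 0 ≤ D' → ClassEq (D' - B) (v : Pic0 L F) → D' = Dv v) ∧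
      (∀ g ∈ I, ∀ (v : V) (hv : g • (v : Pic0 L F) ∈ V),
        Dv ⟨g • (v : Pic0 L F), hv⟩ = g • Dv v) ∧
      (∀ v, Module.finrank L (riemannRochSpace (Dv v)) = 1) ∧
      (∀ v w : V, KMTriple L F B (Dv v) (Dv w) (Dv (v + w))) ∧
      Function.Injective Dv ∧
      ∀ (v : V) (C' : Divisor L F) (C₁' : Divisor k F₁) (C₂' : Divisor k F₂),
        (∀ i, C₁' (e₁ i) = 0) → (∀ i, C₂' (e₂ i) = 0) →
        2 * (genusFF L F : ℤ) - 1 ≤ Divisor.degree (C' - B) →
        (∀ t, (∃ y : O, (y : F) ∈ riemannRochSpace (C' - B) ∧ red y = t) ↔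
          t ∈ gluedSpace e₁ e₂ (fun _ => (1 : k)) (C₁' - B₁) (C₂' - B₂)) →
        (∀ y : O, (y : F) ∈ riemannRochSpace (C' + C - B) →
          red y ∈ gluedSpace e₁ e₂ (fun _ => (1 : k)) (C₁' + C₁ - B₁) (C₂' + C₂ - B₂)) →
        ∀ t, (∃ y : O, (y : F) ∈ riemannRochSpace (C' - Dv v) ∧ red y = t) ↔
          t ∈ gluedSpace e₁ e₂ (fun _ => (1 : k)) (C₁' - B₁) (C₂' - B₂) := by
  classical
  have := hF.hasPrincipalDivisors
  choose D0 hD0cls u u' huu' hTv using hT
  have hXmem : ∀ v, D0 v ∈ Divisor.degZero (K := L) (F := F) := fun v => (hD0cls v).choose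
  have hXdeg : ∀ v, Divisor.degree (D0 v) = 0 := fun v => Divisor.mem_degZero.1 (hXmem v)
  set X : V → Divisor.degZero (K := L) (F := F) := fun v => ⟨D0 v, hXmem v⟩ with hXdef
  have hX : ∀ v, Pic0.mk (X v) = (v : Pic0 L F) := fun v => (hD0cls v).choose_spec
  have hXc : ∀ v, ((X v : Divisor.degZero (K := L) (F := F)) : Divisor L F) = D0 v :=
    fun v => rfl
  -- the sections
  have hA : ∀ v, Module.finrank L (riemannRochSpace (B + D0 v)) = 1 ∧
      ∃ f : O, (f : F) ∈ riemannRochSpace (B + D0 v) ∧ u v * red f = 1 := fun v =>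
    exists_section hOA red π hπ hπker hconst hker hF h₁ h₂ he₁ he₂ hc₁ hc₂ hB₁ hB₂ hBdeg hns
      hC₁ hC₂ hdC₁ hdC₂ hCB (hXdeg v) (huu' v) (fun s hs => (hTv v _).1 ⟨s, hs, rfl⟩) (hlat _)
  choose hfr f hfmem huf using hA
  have hf0 : ∀ v, (f v : F) ≠ 0 := by
    intro v h0
    have h1 : f v = 0 := Subtype.ext h0
    have h2 := huf v
    rw [h1, map_zero, mul_zero] at h2
    exact zero_ne_one h2
  have hdiv : ∀ v : V, ∃ Df : Divisor L F, (∀ P, Df P = P.ord (f v : F)) ∧
      Divisor.degree Df = 0 :=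
    fun v => HasPrincipalDivisors.exists_divisor (K := L) (f v : F) (hf0 v)
  choose Df hDf hDfdeg using hdiv
  have hDfprin : ∀ v, Df v ∈ Divisor.principal (K := L) (F := F) := fun v =>
    ⟨(f v : F), hf0 v, hDf v⟩
  set Dv : V → Divisor L F := fun v => B + D0 v + Df v with hDv
  have hnn : ∀ v, 0 ≤ Dv v := by
    intro v
    refine Finsupp.le_def.2 fun P => ?_
    rcases (mem_riemannRochSpace_iff.1 (hfmem v)) P with h0 | h
    · exact absurd h0 (hf0 v)
    · simp only [hDv, Finsupp.coe_zero, Pi.zero_apply, Finsupp.add_apply, hDf v P] at h ⊢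
      omega
  have hdegv : ∀ v, Divisor.degree (Dv v) = genusFF L F := by
    intro v
    simp only [hDv, map_add, hXdeg, hBdeg, hDfdeg]
    ring
  have hcls' : ∀ (v : V) (D' : Divisor L F), ClassEq (D' - B) (v : Pic0 L F) ↔
      D' - B - D0 v ∈ Divisor.principal (K := L) (F := F) := by
    intro v D'
    rw [← hX v, ← hXc v]
    exact classEq_iff _ _
  have hcls : ∀ v : V, ClassEq (Dv v - B) (v : Pic0 L F) := by
    intro v
    rw [hcls']
    have e : Dv v - B - D0 v = Df v := by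
      simp only [hDv]
      abel
    rw [e]
    exact hDfprin v
  have hfin : ∀ v, Module.finrank L (riemannRochSpace (Dv v)) = 1 := by
    intro v
    have e : Dv v - (B + D0 v) ∈ Divisor.principal (K := L) (F := F) := by
      have e' : Dv v - (B + D0 v) = Df v := by
        simp only [hDv]
        abel
      rw [e']
      exact hDfprin v
    rw [finrank_L_eq_of_principal e]
    exact hfr v
  have huniq : ∀ (v : V) (D' : Divisor L F), 0 ≤ D' → ClassEq (D' - B) (v : Pic0 L F) →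
      D' = Dv v := by
    intro v D' hD' hc
    refine eq_of_effective_of_finrank_one (hnn v) hD' (hfin v) ?_
    have h1 := (hcls' v D').1 hc
    have h2 := (hcls' v (Dv v)).1 (hcls v)
    have h3 := (Divisor.principal (K := L) (F := F)).sub_mem h1 h2
    have h4 : D' - B - D0 v - (Dv v - B - D0 v) = D' - Dv v := by abel
    rwa [h4] at h3
  have hsmul : ∀ g ∈ I, ∀ (v : V) (hv : g • (v : Pic0 L F) ∈ V),
      Dv ⟨g • (v : Pic0 L F), hv⟩ = g • Dv v := by
    intro g hg v hv
    refine (huniq ⟨g • (v : Pic0 L F), hv⟩ (g • Dv v) (smul_nonneg' g (hnn v)) ?_).symm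
    have h1 := (hcls v).smul g
    rwa [smul_sub, hBsmul g hg] at h1
  have hadd : ∀ v w : V, Dv (v + w) - Dv v - Dv w + B ∈
      Divisor.principal (K := L) (F := F) := by
    intro v w
    have h1 : Pic0.mk (X (v + w)) = Pic0.mk (X v + X w) := by
      rw [Pic0.mk_add, hX, hX, hX]
      rfl
    have h2 := (mk_eq_mk_iff _ _).1 h1
    have h3 := (Divisor.principal (K := L) (F := F)).neg_mem h2
    have h4 := (Divisor.principal (K := L) (F := F)).add_mem h3
      ((Divisor.principal (K := L) (F := F)).sub_mem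
        ((Divisor.principal (K := L) (F := F)).sub_mem (hDfprin (v + w)) (hDfprin v))
        (hDfprin w))
    have h5 : -(((X v + X w : Divisor.degZero (K := L) (F := F)) : Divisor L F) -
        (X (v + w) : Divisor L F)) + (Df (v + w) - Df v - Df w) =
        Dv (v + w) - Dv v - Dv w + B := by
      simp only [hDv]
      push_cast
      rw [hXc, hXc, hXc]
      abel
    rwa [h5] at h4
  have hinj : Function.Injective Dv := by
    intro v w hvw
    have h1 := hcls v
    have h2 := hcls w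
    rw [hvw] at h1
    exact Subtype.ext (h1.unique h2)
  refine ⟨Dv, hnn, hdegv, hcls, huniq, hsmul, hfin, fun v w =>
    ⟨hdegv v, hdegv w, hnn (v + w), hadd v w, hfin (v + w)⟩, hinj, ?_⟩
  intro v C' C₁' C₂' hC₁' hC₂' hdeg hC'B hC'C t
  exact redSub_sub_eq hOA red π hπ hπker hconst hker hF h₁ h₂ he₁ he₂ hc₁ hc₂ hB₁ hB₂ hC₁ hC₂
    hdC₁' hdC₂' (hXdeg v) (huu' v) (fun t ht => (hTv v t).2 ht) (f v) (hf0 v) (huf v) (hDf v)
    hC₁' hC₂' hdeg hC'B hC'C hlat t

end

end Fermat.Agent.Padic.S33.RC.KerDivFam
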