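/-
S33 / Route C (RC-3, step (S2)): the point data (KD) of the kernel of reduction.

* `exists_kd` (abstract nodal setting of `RC/SpecBad`: reduction data `PRed A O red π`,
  `red : O →+* F₁ × F₂`, nodes `e₁ i ~ e₂ i`, a divisor `E` on the generic fibre whose
  multiples reduce to `gluedSpace (n • P₁) (n • P₂)`, a base divisor `B` with reductions
  `gluedSpace (n • P₁ - B₁) (n • P₂ - B₂)`, `(B₁, B₂)` non-special on the nodal curve):
  for all large `m`, EVERY class `y` with a representative `D'` whose line bundle is trivial on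
  the special fibre (`u · red Λ(D' + n • E) = gluedSpace (n • P₁) (n • P₂)` for large `n`, `u` a
  unit) is the class of `D - B` for an effective divisor `D` of degree `g` with `l(D) = 1` and
  `red Λ(m • E - D) = red Λ(m • E - B)` — the literal `hKD` of
  `RC.KDFormal.smallOrders_of_kd`, from the two bricks `KerDivFam.exists_section` and
  `KerDivFam.redSub_sub_eq`.
-/
import Mathlib
import Fermat.Agent.Padic.S33.RC.KerDivFam
import Fermat.Agent.Padic.S33.RC.OrthoFam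
import Fermat.Agent.BAD.KerRedTriv

set_option autoImplicit false

noncomputable section

namespace Fermat.Agent.Padic.S33.RC.KerDivInst

open AlgebraicCurve Module
open Fermat.Agent.Lib.FF Fermat.Agent.Lib.FF.BasePoint Fermat.Agent.BAD.NodalRiemann
  Fermat.Agent.Padic.S33.RC Fermat.Agent.Padic.S33.RC.OrthoFam Fermat.Agent.Lib.Red.CoordLat
  Fermat.Agent.Padic.GenPosAbs

section Abstract

variable {L F : Type*} [Field L] [Field F] [Algebra L F] {A : ValuationSubring L} {O : Subring F}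
variable {k F₁ F₂ : Type*} [Field k] [Field F₁] [Field F₂] [Algebra k F₁] [Algebra k F₂]
  {red : O →+* F₁ × F₂} {π : A →+* k}
  {x : F} {x₁ : F₁} {x₂ : F₂} {ι : Type*} [Fintype ι]

/-- **(KD), abstract diagonal form.** -/
theorem exists_kd [Nonempty ι] (h : PRed A O red π)
    (hF : IsFF1 L F x) (h₁ : IsFF1 k F₁ x₁) (h₂ : IsFF1 k F₂ x₂)
    (e₁ : ι → Place k F₁) (e₂ : ι → Place k F₂) (he₁ : Function.Injective e₁)
    (he₂ : Function.Injective e₂)
    (hlat : ∀ D : Divisor L F, HasOrtho A O (riemannRochSpace D))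
    (E : Divisor L F) (P₁ : Divisor k F₁) (P₂ : Divisor k F₂)
    (hP₁ : ∀ i, P₁ (e₁ i) = 0) (hP₂ : ∀ i, P₂ (e₂ i) = 0)
    (hdegE : 0 < Divisor.degree E) (hdegP₁ : 0 < Divisor.degree P₁)
    (hdegP₂ : 0 < Divisor.degree P₂)
    (B : Divisor L F) (B₁ : Divisor k F₁) (B₂ : Divisor k F₂)
    (hB₁ : ∀ i, B₁ (e₁ i) = 0) (hB₂ : ∀ i, B₂ (e₂ i) = 0)
    (hns : gluedSpace e₁ e₂ (fun _ => (1 : k)) B₁ B₂ ≤ gluedSpace e₁ e₂ (fun _ => (1 : k)) 0 0)
    (hdegB : Divisor.degree B = genusFF L F)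
    (hSB : ∃ N₁ : ℕ, ∀ n : ℕ, N₁ ≤ n → h.redSub (riemannRochSpace (n • E - B))
      = gluedSpace e₁ e₂ (fun _ => (1 : k)) (n • P₁ - B₁) (n • P₂ - B₂)) :
    ∃ m₀ : ℕ, ∀ m : ℕ, m₀ ≤ m → ∀ (y : Pic0 L F) (D' : Divisor L F), ClassEq D' y →
      ∀ u u' : F₁ × F₂, u * u' = 1 →
      (∃ N : ℕ, ∀ n : ℕ, N ≤ n → ∀ t : F₁ × F₂,
        (∃ s : O, (s : F) ∈ riemannRochSpace (D' + n • E) ∧ u * red s = t) ↔
          t ∈ gluedSpace e₁ e₂ (fun _ => (1 : k)) (n • P₁) (n • P₂)) →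
      ∃ D : Divisor L F, 0 ≤ D ∧ Divisor.degree D = genusFF L F ∧
        finrank L (riemannRochSpace D) = 1 ∧
        (∃ hD : D - B ∈ Divisor.degZero (K := L) (F := F), Pic0.mk ⟨D - B, hD⟩ = y) ∧
        h.redSub (riemannRochSpace (m • E - D)) = h.redSub (riemannRochSpace (m • E - B)) := by
  classical
  have := hF.hasPrincipalDivisors
  obtain ⟨c₁, hc₁⟩ := exists_NS h₁
  obtain ⟨c₂, hc₂⟩ := exists_NS h₂
  obtain ⟨N₁, hN₁⟩ := hSB
  have hg0 : (0 : ℤ) ≤ (genusFF L F : ℤ) := Int.natCast_nonneg _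
  refine ⟨max N₁ (3 * genusFF L F), fun m hm y D' hD'y u u' huu' hT => ?_⟩
  have hmN₁ : N₁ ≤ m := (le_max_left _ _).trans hm
  have hm3 : 3 * genusFF L F ≤ m := (le_max_right _ _).trans hm
  obtain ⟨N, hN⟩ := hT
  have hD'deg : Divisor.degree D' = 0 := Divisor.mem_degZero.1 hD'y.choose
  -- the chart `n • E`
  set b₁ : ℤ := c₁ + Fintype.card ι + 1 + max (Divisor.degree B₁) 0 with hb₁
  set b₂ : ℤ := c₂ + Fintype.card ι + 1 + max (Divisor.degree B₂) 0 with hb₂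
  set n : ℕ := max (max N N₁) (max b₁.toNat b₂.toNat) with hn
  have hnN : N ≤ n := (le_max_left _ _).trans (le_max_left _ _)
  have hnN₁ : N₁ ≤ n := (le_max_right _ _).trans (le_max_left _ _)
  have hnb₁ : b₁ ≤ (n : ℤ) := by
    have h1 : b₁.toNat ≤ n := (le_max_left _ _).trans (le_max_right _ _)
    exact (Int.self_le_toNat b₁).trans (by exact_mod_cast h1)
  have hnb₂ : b₂ ≤ (n : ℤ) := by
    have h1 : b₂.toNat ≤ n := (le_max_right _ _).trans (le_max_right _ _)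
    exact (Int.self_le_toNat b₂).trans (by exact_mod_cast h1)
  have hn0 : (0 : ℤ) ≤ n := Int.natCast_nonneg _
  have hC₁ : ∀ i, (n • P₁) (e₁ i) = 0 := fun i => by
    rw [Finsupp.smul_apply, hP₁ i, smul_zero]
  have hC₂ : ∀ i, (n • P₂) (e₂ i) = 0 := fun i => by
    rw [Finsupp.smul_apply, hP₂ i, smul_zero]
  have hC₁' : ∀ i, (m • P₁) (e₁ i) = 0 := fun i => by
    rw [Finsupp.smul_apply, hP₁ i, smul_zero]
  have hC₂' : ∀ i, (m • P₂) (e₂ i) = 0 := fun i => by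
    rw [Finsupp.smul_apply, hP₂ i, smul_zero]
  have e1 : Divisor.degree (n • P₁) = n * Divisor.degree P₁ := by
    rw [map_nsmul, nsmul_eq_mul]
  have e2 : Divisor.degree (n • P₂) = n * Divisor.degree P₂ := by
    rw [map_nsmul, nsmul_eq_mul]
  have hmax₁ := le_max_left (Divisor.degree B₁) 0
  have hmax₁' := le_max_right (Divisor.degree B₁) 0
  have hmax₂ := le_max_left (Divisor.degree B₂) 0
  have hmax₂' := le_max_right (Divisor.degree B₂) 0
  have hdC₁ : c₁ + Fintype.card ι + 1 ≤ Divisor.degree (n • P₁ - B₁) := by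
    rw [map_sub, e1]; nlinarith
  have hdC₂ : c₂ + Fintype.card ι + 1 ≤ Divisor.degree (n • P₂ - B₂) := by
    rw [map_sub, e2]; nlinarith
  have hdC₁' : c₁ + Fintype.card ι + 1 ≤ Divisor.degree (n • P₁) := by
    rw [e1]; nlinarith
  have hdC₂' : c₂ + Fintype.card ι + 1 ≤ Divisor.degree (n • P₂) := by
    rw [e2]; nlinarith
  -- fact (a)
  obtain ⟨hfr, f, hfmem, huf⟩ := KerDivFam.exists_section h.hOA red π h.hπsurj h.hπ h.hredconst
    h.hker hF h₁ h₂ he₁ he₂ hc₁ hc₂ hB₁ hB₂ hdegB hns hC₁ hC₂ hdC₁ hdC₂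
    (fun t ht => by
      have h1 : t ∈ h.redSub (riemannRochSpace (n • E - B)) := by rw [hN₁ n hnN₁]; exact ht
      exact h1)
    hD'deg huu' (fun s hs => (hN n hnN _).1 ⟨s, hs, rfl⟩) (hlat _)
  have hf0 : (f : F) ≠ 0 := by
    intro h0
    have h1 : f = 0 := Subtype.ext h0
    rw [h1, map_zero, mul_zero] at huf
    exact zero_ne_one huf
  obtain ⟨Df, hDf, hDfdeg⟩ := HasPrincipalDivisors.exists_divisor (K := L) (f : F) hf0
  have hDfprin : Df ∈ Divisor.principal (K := L) (F := F) := ⟨(f : F), hf0, hDf⟩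
  refine ⟨B + D' + Df, ?_, ?_, ?_, ?_, ?_⟩
  · refine Finsupp.le_def.2 fun P => ?_
    rcases (mem_riemannRochSpace_iff.1 hfmem) P with h0 | h'
    · exact absurd h0 hf0
    · simp only [Finsupp.coe_zero, Pi.zero_apply, Finsupp.add_apply, hDf P] at h' ⊢
      omega
  · simp only [map_add, hD'deg, hdegB, hDfdeg]
    ring
  · have e : B + D' + Df - (B + D') ∈ Divisor.principal (K := L) (F := F) := by
      have e' : B + D' + Df - (B + D') = Df := by abel
      rw [e']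
      exact hDfprin
    rw [finrank_L_eq_of_principal e]
    exact hfr
  · refine hD'y.of_sub_mem_principal ?_ ?_
    · have e' : B + D' + Df - B - D' = Df := by abel
      rw [e']
      exact hDfprin
    · simp only [map_add, map_sub, hD'deg, hdegB, hDfdeg]
      ring
  · -- fact (b)
    have hdeg : 2 * (genusFF L F : ℤ) - 1 ≤ Divisor.degree (m • E - B) := by
      rw [map_sub, map_nsmul, nsmul_eq_mul, hdegB]
      have hm3' : (3 * genusFF L F : ℤ) ≤ (m : ℤ) := by exact_mod_cast hm3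
      nlinarith
    have key := KerDivFam.redSub_sub_eq h.hOA red π h.hπsurj h.hπ h.hredconst h.hker hF h₁ h₂
      he₁ he₂ hc₁ hc₂ hB₁ hB₂ hC₁ hC₂ hdC₁' hdC₂' hD'deg huu'
      (fun t ht => (hN n hnN t).2 ht) f hf0 huf hDf hC₁' hC₂' hdeg
      (fun t => by
        have h1 := hN₁ m hmN₁
        rw [← h1]
        exact Iff.rfl)
      (fun z hz => by
        have h1 := hN₁ (m + n) (by omega)
        have e3 : (m + n) • E = m • E + n • E := add_nsmul _ _ _
        have e4 : (m + n) • P₁ = m • P₁ + n • P₁ := add_nsmul _ _ _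
        have e5 : (m + n) • P₂ = m • P₂ + n • P₂ := add_nsmul _ _ _
        rw [e3, e4, e5] at h1
        rw [← h1]
        exact ⟨z, hz, rfl⟩)
      hlat
    rw [hN₁ m hmN₁]
    exact Submodule.ext fun t => key t

end Abstract

/-! ### the modular instance -/

section Modular

open ModularCurve Fermat.Agent.BAD.TwoVal Fermat.Agent.BAD.NodalAsm Fermat.Agent.BAD.BadU
  Fermat.Agent.BAD.KerRed

local notation "Qb" => AlgebraicClosure ℚ

variable {A : ValuationSubring Qb} {k : Type} [Field k] {π : A →+* k} {M q : ℕ} [NeZero M]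
  [NeZero q]

/-- The reduction data of the pair `(A, O_∞ ∩ O_0)` at a bad prime. -/
theorem pRed_pair (hπ : Function.Surjective π) (h : BadSetup A π M q)
    (W : laurentBaseChange Qb (modularFunctionFieldFull (M * q)) ≃ₐ[Qb]
      laurentBaseChange Qb (modularFunctionFieldFull (M * q))) :
    PRed A (OPair h W) (redPair h W) π where
  hπsurj := hπ
  hπ := h.pi_eq_zero_iff
  hOA := fun x => OPair_hOA h x
  hker := redPair_eq_zero_iff h
  hredconst := fun a => (redPair_algebraMap h a _).trans rfl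

/-- The second chart divisors of a nodal datum are effective (`(1, 1)` is the reduction of
`1 ∈ L((N₀ + 1) • E2)`). -/
theorem nonneg_of_datum (h : BadSetup A π M q)
    (W : laurentBaseChange Qb (modularFunctionFieldFull (M * q)) ≃ₐ[Qb]
      laurentBaseChange Qb (modularFunctionFieldFull (M * q)))
    {E1 E2 : Divisor Qb (laurentBaseChange Qb (modularFunctionFieldFull (M * q)))}
    (hE1 : ∀ v, 0 ≤ E1 v) (hE2 : ∀ v, 0 ≤ E2 v)
    {ι : Type} (e₁ e₂ : ι → Place k (modularFunctionFieldFullC k M))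
    (P₁ Z₁ P₂ Z₂ : Divisor k (modularFunctionFieldFullC k M))
    (hS2 : ∃ N₀ : ℕ, ∀ n₁ n₂ : ℕ, N₀ ≤ n₁ + n₂ →
      ∀ t : ↥(modularFunctionFieldFullC k M) × ↥(modularFunctionFieldFullC k M),
        (∃ y : OPair h W,
            (y : laurentBaseChange Qb (modularFunctionFieldFull (M * q))) ∈
              riemannRochSpace (n₁ • E1 + n₂ • E2) ∧ redPair h W y = t) ↔
          t ∈ gluedSpace e₁ e₂ (fun _ => (1 : k))
            (n₁ • P₁ + n₂ • Z₁) (n₁ • P₂ + n₂ • Z₂)) :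
    (∀ v, 0 ≤ P₁ v) ∧ (∀ v, 0 ≤ Z₁ v) ∧ (∀ v, 0 ≤ P₂ v) ∧ (∀ v, 0 ≤ Z₂ v) := by
  obtain ⟨N₀, hN₀⟩ := hS2
  have key : ∀ n₁ n₂ : ℕ, N₀ ≤ n₁ + n₂ →
      (∀ v, 0 ≤ (n₁ • P₁ + n₂ • Z₁) v) ∧ (∀ v, 0 ≤ (n₁ • P₂ + n₂ • Z₂) v) := by
    intro n₁ n₂ hn
    have h1 : (1 : ↥(modularFunctionFieldFullC k M) × ↥(modularFunctionFieldFullC k M)) ∈
        gluedSpace e₁ e₂ (fun _ => (1 : k)) (n₁ • P₁ + n₂ • Z₁) (n₁ • P₂ + n₂ • Z₂) :=
      (hN₀ n₁ n₂ hn 1).1 ⟨1, Fermat.Agent.BAD.KerRed.one_mem_L hE1 hE2 n₁ n₂, map_one _⟩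
    obtain ⟨g1, g2, -⟩ := h1
    refine ⟨fun v => ?_, fun v => ?_⟩
    · rcases (mem_riemannRochSpace_iff.1 g1) v with h0 | h'
      · exact absurd h0 one_ne_zero
      · have e : v.ord (1 : ↥(modularFunctionFieldFullC k M) ×
            ↥(modularFunctionFieldFullC k M)).1 = 0 := Place.ord_one v
        rw [e] at h'
        linarith
    · rcases (mem_riemannRochSpace_iff.1 g2) v with h0 | h'
      · exact absurd h0 one_ne_zero
      · have e : v.ord (1 : ↥(modularFunctionFieldFullC k M) ×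
            ↥(modularFunctionFieldFullC k M)).2 = 0 := Place.ord_one v
        rw [e] at h'
        linarith
  have kP := key (N₀ + 1) 0 (by omega)
  have kZ := key 0 (N₀ + 1) (by omega)
  have hpos : (0 : ℤ) < ((N₀ + 1 : ℕ) : ℤ) := by exact_mod_cast Nat.succ_pos N₀
  refine ⟨fun v => ?_, fun v => ?_, fun v => ?_, fun v => ?_⟩
  · have h1 := kP.1 v
    simp only [Finsupp.smul_apply, zero_smul, add_zero, nsmul_eq_mul] at h1
    exact nonneg_of_mul_nonneg_right h1 hpos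
  · have h1 := kZ.1 v
    simp only [Finsupp.smul_apply, zero_smul, zero_add, nsmul_eq_mul] at h1
    exact nonneg_of_mul_nonneg_right h1 hpos
  · have h1 := kP.2 v
    simp only [Finsupp.smul_apply, zero_smul, add_zero, nsmul_eq_mul] at h1
    exact nonneg_of_mul_nonneg_right h1 hpos
  · have h1 := kZ.2 v
    simp only [Finsupp.smul_apply, zero_smul, zero_add, nsmul_eq_mul] at h1
    exact nonneg_of_mul_nonneg_right h1 hpos

/-- **(KD) for the kernel of reduction of `J₀(Mq)` at `q`** — the literal hypothesis `hKD` of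
`RC.KDFormal.smallOrders_of_kd` for `Kr = kerRed h W`, `E = m • (E1 + E2)`, every large `m`.

Inputs: a nodal datum (`hNF`, and its components as obtained by destructuring it), and a base
divisor `B` of degree `g` whose lattices `Λ(n₁ E1 + n₂ E2 - B)` reduce to the glued spaces of
`(n₁ P₁ + n₂ Z₁ - B₁, n₁ P₂ + n₂ Z₂ - B₂)` (RC-2, in the shape of
`BAD.BasePts.exists_basePoints`), with `(B₁, B₂)` off the nodes and non-special on the nodal
curve. -/
theorem exists_kd_kerRed [IsAlgClosed k] (hπ : Function.Surjective π) (h : BadSetup A π M q)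
    (W : laurentBaseChange Qb (modularFunctionFieldFull (M * q)) ≃ₐ[Qb]
      laurentBaseChange Qb (modularFunctionFieldFull (M * q))) (hW : IsAL M q W)
    {E1 E2 : Divisor Qb (laurentBaseChange Qb (modularFunctionFieldFull (M * q)))}
    (hNF : NodalFibreFor h W E1 E2)
    {ι : Type} [Fintype ι] [Nonempty ι]
    (e₁ e₂ : ι → Place k (modularFunctionFieldFullC k M))
    (P₁ Z₁ P₂ Z₂ : Divisor k (modularFunctionFieldFullC k M))
    (hinj₁ : Function.Injective e₁) (hinj₂ : Function.Injective e₂)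
    (hP₁ : ∀ i, P₁ (e₁ i) = 0) (hZ₁ : ∀ i, Z₁ (e₁ i) = 0)
    (hP₂ : ∀ i, P₂ (e₂ i) = 0) (hZ₂ : ∀ i, Z₂ (e₂ i) = 0)
    (hdegP₁ : 0 < Divisor.degree P₁) (hdegP₂ : 0 < Divisor.degree P₂)
    (hS2 : ∃ N₀ : ℕ, ∀ n₁ n₂ : ℕ, N₀ ≤ n₁ + n₂ →
      ∀ t : ↥(modularFunctionFieldFullC k M) × ↥(modularFunctionFieldFullC k M),
        (∃ y : OPair h W,
            (y : laurentBaseChange Qb (modularFunctionFieldFull (M * q))) ∈
              riemannRochSpace (n₁ • E1 + n₂ • E2) ∧ redPair h W y = t) ↔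
          t ∈ gluedSpace e₁ e₂ (fun _ => (1 : k))
            (n₁ • P₁ + n₂ • Z₁) (n₁ • P₂ + n₂ • Z₂))
    (B : Divisor Qb (laurentBaseChange Qb (modularFunctionFieldFull (M * q))))
    (B₁ B₂ : Divisor k (modularFunctionFieldFullC k M))
    (hB₁ : ∀ i, B₁ (e₁ i) = 0) (hB₂ : ∀ i, B₂ (e₂ i) = 0)
    (hns : gluedSpace e₁ e₂ (fun _ => (1 : k)) B₁ B₂ ≤ gluedSpace e₁ e₂ (fun _ => (1 : k)) 0 0)
    (hdegB : Divisor.degree B =
      genusFF Qb ↥(laurentBaseChange Qb (modularFunctionFieldFull (M * q))))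
    (hRC2 : ∃ (c : ℤ) (N₀ : ℕ), ∀ n₁ n₂ : ℕ, N₀ ≤ n₁ + n₂ →
      c ≤ Divisor.degree (n₁ • P₁ + n₂ • Z₁) → c ≤ Divisor.degree (n₁ • P₂ + n₂ • Z₂) →
      ∀ t : ↥(modularFunctionFieldFullC k M) × ↥(modularFunctionFieldFullC k M),
        (∃ y : OPair h W,
            (y : laurentBaseChange Qb (modularFunctionFieldFull (M * q))) ∈
              riemannRochSpace (n₁ • E1 + n₂ • E2 - B) ∧ redPair h W y = t) ↔
          t ∈ gluedSpace e₁ e₂ (fun _ => (1 : k))
            (n₁ • P₁ + n₂ • Z₁ - B₁) (n₁ • P₂ + n₂ • Z₂ - B₂))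
    (hP : PRed A (OPair h W) (redPair h W) π) :
    ∃ m₀ : ℕ, ∀ m : ℕ, m₀ ≤ m → ∀ y ∈ kerRed h W,
      ∃ D : Divisor Qb (laurentBaseChange Qb (modularFunctionFieldFull (M * q))), 0 ≤ D ∧
        Divisor.degree D =
          genusFF Qb ↥(laurentBaseChange Qb (modularFunctionFieldFull (M * q))) ∧
        finrank Qb (riemannRochSpace D) = 1 ∧
        (∃ hD : D - B ∈ Divisor.degZero (K := Qb)
            (F := ↥(laurentBaseChange Qb (modularFunctionFieldFull (M * q)))),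
          Pic0.mk ⟨D - B, hD⟩ = y) ∧
        hP.redSub (riemannRochSpace (m • (E1 + E2) - D)) =
          hP.redSub (riemannRochSpace (m • (E1 + E2) - B)) := by
  have hNF' := hNF
  obtain ⟨_, _, _, _, _, _, _, _, _, -, -, -, -, -, -, -, -, -, -, hE1, hE2, -, hdegE1, hdegE2,
    -, -⟩ := hNF'
  obtain ⟨hP₁0, hZ₁0, hP₂0, hZ₂0⟩ := nonneg_of_datum h W hE1 hE2 e₁ e₂ P₁ Z₁ P₂ Z₂ hS2
  have hκ := isFF1_xk k M
  have hdZ₁ : 0 ≤ Divisor.degree Z₁ := Fermat.Agent.Lib.FF.GenPos.degree_nonneg hκ hZ₁0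
  have hdZ₂ : 0 ≤ Divisor.degree Z₂ := Fermat.Agent.Lib.FF.GenPos.degree_nonneg hκ hZ₂0
  have hLat : LatAt h W := latAt hπ h W hW
  -- RC-2 on the diagonal charts
  have hSB : ∃ N₁ : ℕ, ∀ n : ℕ, N₁ ≤ n → hP.redSub (riemannRochSpace (n • (E1 + E2) - B))
      = gluedSpace e₁ e₂ (fun _ => (1 : k)) (n • (P₁ + Z₁) - B₁) (n • (P₂ + Z₂) - B₂) := by
    obtain ⟨c, N₀, hc⟩ := hRC2
    refine ⟨max N₀ c.toNat, fun n hn => ?_⟩
    have hnN : N₀ ≤ n + n := ((le_max_left _ _).trans hn).trans (Nat.le_add_right _ _)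
    have hnc : c ≤ (n : ℤ) := by
      have h1 : c.toNat ≤ n := (le_max_right _ _).trans hn
      exact (Int.self_le_toNat c).trans (by exact_mod_cast h1)
    have hn0 : (0 : ℤ) ≤ n := Int.natCast_nonneg _
    have d1 : c ≤ Divisor.degree (n • P₁ + n • Z₁) := by
      rw [map_add, map_nsmul, map_nsmul, nsmul_eq_mul, nsmul_eq_mul]
      nlinarith
    have d2 : c ≤ Divisor.degree (n • P₂ + n • Z₂) := by
      rw [map_add, map_nsmul, map_nsmul, nsmul_eq_mul, nsmul_eq_mul]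
      nlinarith
    rw [nsmul_add, nsmul_add, nsmul_add]
    exact Submodule.ext fun t => hc n n hnN d1 d2 t
  obtain ⟨N₀, hN₀⟩ := hS2
  obtain ⟨m₀, hm₀⟩ := exists_kd hP (isFF1_xL Qb (M * q)) hκ hκ e₁ e₂ hinj₁ hinj₂ hLat
    (E1 + E2) (P₁ + Z₁) (P₂ + Z₂)
    (fun i => by rw [Finsupp.add_apply, hP₁ i, hZ₁ i, add_zero])
    (fun i => by rw [Finsupp.add_apply, hP₂ i, hZ₂ i, add_zero])
    (by rw [map_add]; linarith) (by rw [map_add]; linarith) (by rw [map_add]; linarith)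
    B B₁ B₂ hB₁ hB₂ hns hdegB hSB
  refine ⟨m₀, fun m hm y hy => ?_⟩
  obtain ⟨D', hD', N, hN⟩ := exists_normalized_red hπ h W hW hNF hy
  refine hm₀ m hm y (D' : Divisor Qb (laurentBaseChange Qb (modularFunctionFieldFull (M * q))))
    ⟨D'.2, hD'⟩ 1 1 (mul_one 1) ⟨max N N₀, fun n hn t => ?_⟩
  have hnN : N ≤ n + n := ((le_max_left _ _).trans hn).trans (Nat.le_add_right _ _)
  have hnN₀ : N₀ ≤ n + n := ((le_max_right _ _).trans hn).trans (Nat.le_add_right _ _)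
  have h1 := (hN n n hnN t).1
  have h2 := hN₀ n n hnN₀ t
  rw [nsmul_add, nsmul_add, nsmul_add, ← add_assoc]
  simp only [one_mul]
  exact h1.trans h2

/-- **(KD) for `kerRed h W`, base points form**: `exists_kd_kerRed` for `B = ∑_{Q ∈ T} Q`,
`(B₁, B₂) = (∑_{T₁} v, ∑_{T₂} v)`, with the hypotheses in the literal shape of the conclusion of
`BAD.BasePts.exists_basePoints`. -/
theorem exists_kd_kerRed_sumPl [IsAlgClosed k] (hπ : Function.Surjective π)
    (h : BadSetup A π M q)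
    (W : laurentBaseChange Qb (modularFunctionFieldFull (M * q)) ≃ₐ[Qb]
      laurentBaseChange Qb (modularFunctionFieldFull (M * q))) (hW : IsAL M q W)
    {E1 E2 : Divisor Qb (laurentBaseChange Qb (modularFunctionFieldFull (M * q)))}
    (hNF : NodalFibreFor h W E1 E2)
    {ι : Type} [Fintype ι] [Nonempty ι]
    (e₁ e₂ : ι → Place k (modularFunctionFieldFullC k M))
    (P₁ Z₁ P₂ Z₂ : Divisor k (modularFunctionFieldFullC k M))
    (hinj₁ : Function.Injective e₁) (hinj₂ : Function.Injective e₂)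
    (hP₁ : ∀ i, P₁ (e₁ i) = 0) (hZ₁ : ∀ i, Z₁ (e₁ i) = 0)
    (hP₂ : ∀ i, P₂ (e₂ i) = 0) (hZ₂ : ∀ i, Z₂ (e₂ i) = 0)
    (hdegP₁ : 0 < Divisor.degree P₁) (hdegP₂ : 0 < Divisor.degree P₂)
    (hS2 : ∃ N₀ : ℕ, ∀ n₁ n₂ : ℕ, N₀ ≤ n₁ + n₂ →
      ∀ t : ↥(modularFunctionFieldFullC k M) × ↥(modularFunctionFieldFullC k M),
        (∃ y : OPair h W,
            (y : laurentBaseChange Qb (modularFunctionFieldFull (M * q))) ∈
              riemannRochSpace (n₁ • E1 + n₂ • E2) ∧ redPair h W y = t) ↔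
          t ∈ gluedSpace e₁ e₂ (fun _ => (1 : k))
            (n₁ • P₁ + n₂ • Z₁) (n₁ • P₂ + n₂ • Z₂))
    (T : Finset (Place Qb (laurentBaseChange Qb (modularFunctionFieldFull (M * q)))))
    (T₁ T₂ : Finset (Place k (modularFunctionFieldFullC k M)))
    (hTcard : (T.card : ℤ) =
      genusFF Qb ↥(laurentBaseChange Qb (modularFunctionFieldFull (M * q))))
    (hT₁ : ∀ i, e₁ i ∉ T₁) (hT₂ : ∀ i, e₂ i ∉ T₂)
    (hns : gluedSpace e₁ e₂ (fun _ => (1 : k)) (RR.sumPl T₁) (RR.sumPl T₂) =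
      gluedSpace e₁ e₂ (fun _ => (1 : k)) 0 0)
    (hRC2 : ∃ (c : ℤ) (N₀ : ℕ), ∀ n₁ n₂ : ℕ, N₀ ≤ n₁ + n₂ →
      c ≤ Divisor.degree (n₁ • P₁ + n₂ • Z₁) → c ≤ Divisor.degree (n₁ • P₂ + n₂ • Z₂) →
      ∀ t : ↥(modularFunctionFieldFullC k M) × ↥(modularFunctionFieldFullC k M),
        (∃ y : OPair h W,
            (y : laurentBaseChange Qb (modularFunctionFieldFull (M * q))) ∈
              riemannRochSpace (n₁ • E1 + n₂ • E2 - RR.sumPl T) ∧ redPair h W y = t) ↔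
          t ∈ gluedSpace e₁ e₂ (fun _ => (1 : k))
            (n₁ • P₁ + n₂ • Z₁ - RR.sumPl T₁) (n₁ • P₂ + n₂ • Z₂ - RR.sumPl T₂))
    (hP : PRed A (OPair h W) (redPair h W) π) :
    ∃ m₀ : ℕ, ∀ m : ℕ, m₀ ≤ m → ∀ y ∈ kerRed h W,
      ∃ D : Divisor Qb (laurentBaseChange Qb (modularFunctionFieldFull (M * q))), 0 ≤ D ∧
        Divisor.degree D =
          genusFF Qb ↥(laurentBaseChange Qb (modularFunctionFieldFull (M * q))) ∧
        finrank Qb (riemannRochSpace D) = 1 ∧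
        (∃ hD : D - RR.sumPl T ∈ Divisor.degZero (K := Qb)
            (F := ↥(laurentBaseChange Qb (modularFunctionFieldFull (M * q)))),
          Pic0.mk ⟨D - RR.sumPl T, hD⟩ = y) ∧
        hP.redSub (riemannRochSpace (m • (E1 + E2) - D)) =
          hP.redSub (riemannRochSpace (m • (E1 + E2) - RR.sumPl T)) :=
  exists_kd_kerRed hπ h W hW hNF e₁ e₂ P₁ Z₁ P₂ Z₂ hinj₁ hinj₂ hP₁ hZ₁ hP₂ hZ₂ hdegP₁ hdegP₂
    hS2 (RR.sumPl T) (RR.sumPl T₁) (RR.sumPl T₂)
    (fun i => RR.sumPl_apply_of_notMem (hT₁ i)) (fun i => RR.sumPl_apply_of_notMem (hT₂ i))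
    hns.le (by rw [RR.degree_sumPl (isFF1_xL Qb (M * q)).resK, hTcard]) hRC2 hP

end Modular

end Fermat.Agent.Padic.S33.RC.KerDivInst
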