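/-
S33 / Route C, integration of the middle seam (layer B): `SmallOrders A (M * q) (kerRed h W)`
from a nodal datum of the special fibre of `X₀(Mq)` at `q` and the per-point lifts (H)
(`hlift₁`, `hlift₂`: every smooth point of the two components off a finite set is the reduction
of an inertia-fixed place of the generic fibre off `E1`, `E2`).

Composition of

* `BAD.BasePts.exists_basePoints` (RC-2: the base divisor `B = ∑_{Q ∈ T} Q`),
* `RC.KerDivInst.exists_kd_kerRed_sumPl` (RC-3: the kernel divisors, diagonal charts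
  `m • (E1 + E2)`),
* `RC.GeoAsm.smallOrders_of_charts` (layer A) for `E = E1 + E2`, `P_j + Z_j`.
-/
import Mathlib
import Fermat.Agent.Padic.S33.RC.GeoAsm
import Fermat.Agent.Padic.S33.RC.KerDivInst
import Fermat.Agent.BAD.BasePtsAsm

set_option autoImplicit false
set_option synthInstance.maxHeartbeats 400000
set_option maxHeartbeats 1600000

noncomputable section

namespace Fermat.Agent.Padic.S33.RC.GeoLift

open AlgebraicCurve ModularCurve Module
open Fermat.Agent.Lib.FF Fermat.Agent.Lib.Red.Deform Fermat.Agent.Lib.Red.CoordLat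
  Fermat.Agent.BAD.NodalRiemann Fermat.Agent.BAD.TwoVal Fermat.Agent.BAD.BadU
  Fermat.Agent.BAD.KerRed Fermat.Agent.BAD.BasePts
  Fermat.Agent.Padic.S33.RC Fermat.Agent.Padic.S33.RC.OrthoFam
  Fermat.Agent.Padic.S33.RC.GeoAsm

local notation "Qb" => AlgebraicClosure ℚ

variable {A : ValuationSubring Qb} {M q : ℕ} [NeZero M] [NeZero q]
  {W : laurentBaseChange Qb (modularFunctionFieldFull (M * q)) ≃ₐ[Qb]
    laurentBaseChange Qb (modularFunctionFieldFull (M * q))}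

/-- **Layer B of the middle seam.**  Small local orders on the kernel of reduction, from a nodal
datum and the per-point lifts. -/
theorem smallOrders_kerRed_of_lift (hA : A.LiesOverPrime q)
    (h : BadSetup A (IsLocalRing.residue A) M q) (hW : IsAL M q W)
    {E1 E2 : Divisor Qb (laurentBaseChange Qb (modularFunctionFieldFull (M * q)))}
    (hNF : NodalFibreFor h W E1 E2)
    {ι : Type} [Fintype ι] [Nonempty ι]
    (e₁ e₂ : ι → Place (IsLocalRing.ResidueField A)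
      (modularFunctionFieldFullC (IsLocalRing.ResidueField A) M))
    (P₁ Z₁ P₂ Z₂ : Divisor (IsLocalRing.ResidueField A)
      (modularFunctionFieldFullC (IsLocalRing.ResidueField A) M))
    (hinj₁ : Function.Injective e₁) (hinj₂ : Function.Injective e₂)
    (hP₁ : ∀ i, P₁ (e₁ i) = 0) (hZ₁ : ∀ i, Z₁ (e₁ i) = 0)
    (hP₂ : ∀ i, P₂ (e₂ i) = 0) (hZ₂ : ∀ i, Z₂ (e₂ i) = 0)
    (hdegP₁ : 0 < Divisor.degree P₁) (hdegP₂ : 0 < Divisor.degree P₂)
    (hE1 : ∀ v, 0 ≤ E1 v) (hE2 : ∀ v, 0 ≤ E2 v)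
    (hdegE1 : 0 < Divisor.degree E1) (hdegE2 : 0 < Divisor.degree E2)
    (hgalE : ∀ σ ∈ A.inertiaSubgroupIn ℚ,
      arithmeticGalois (modularFunctionFieldFull (M * q)) σ • E1 = E1 ∧
      arithmeticGalois (modularFunctionFieldFull (M * q)) σ • E2 = E2)
    (hS2 : ∃ N₀ : ℕ, ∀ n₁ n₂ : ℕ, N₀ ≤ n₁ + n₂ →
      ∀ t : ↥(modularFunctionFieldFullC (IsLocalRing.ResidueField A) M) ×
          ↥(modularFunctionFieldFullC (IsLocalRing.ResidueField A) M),
        (∃ y : OPair h W,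
            (y : laurentBaseChange Qb (modularFunctionFieldFull (M * q))) ∈
              riemannRochSpace (n₁ • E1 + n₂ • E2) ∧ redPair h W y = t) ↔
          t ∈ gluedSpace e₁ e₂ (fun _ => (1 : IsLocalRing.ResidueField A))
            (n₁ • P₁ + n₂ • Z₁) (n₁ • P₂ + n₂ • Z₂))
    (S₁ S₂ : Finset (Place (IsLocalRing.ResidueField A)
      (modularFunctionFieldFullC (IsLocalRing.ResidueField A) M)))
    (hlift₁ : ∀ Qt : Place (IsLocalRing.ResidueField A)
        (modularFunctionFieldFullC (IsLocalRing.ResidueField A) M), Qt ∉ S₁ →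
      (∀ i, e₁ i ≠ Qt) → P₁ Qt = 0 → Z₁ Qt = 0 →
      ∃ Q : Place Qb (laurentBaseChange Qb (modularFunctionFieldFull (M * q))),
        (∀ σ ∈ A.inertiaSubgroupIn ℚ,
          arithmeticGalois (modularFunctionFieldFull (M * q)) σ • Q = Q) ∧
        E1 Q = 0 ∧ E2 Q = 0 ∧ RedTo₁ h W E1 E2 Q Qt)
    (hlift₂ : ∀ Qt : Place (IsLocalRing.ResidueField A)
        (modularFunctionFieldFullC (IsLocalRing.ResidueField A) M), Qt ∉ S₂ →
      (∀ i, e₂ i ≠ Qt) → P₂ Qt = 0 → Z₂ Qt = 0 →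
      ∃ Q : Place Qb (laurentBaseChange Qb (modularFunctionFieldFull (M * q))),
        (∀ σ ∈ A.inertiaSubgroupIn ℚ,
          arithmeticGalois (modularFunctionFieldFull (M * q)) σ • Q = Q) ∧
        E1 Q = 0 ∧ E2 Q = 0 ∧ RedTo₂ h W E1 E2 Q Qt) :
    SmallOrders A (M * q) (kerRed h W) := by
  classical
  have hAC : IsAlgClosed (IsLocalRing.ResidueField A) :=
    Fermat.Agent.Lib.FF.CharP.isAlgClosed_residueField A
  have hπs : Function.Surjective (IsLocalRing.residue A) := IsLocalRing.residue_surjective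
  have hFk := isFF1_xk (IsLocalRing.ResidueField A) M
  -- RC-2: the base divisor
  obtain ⟨T, T₁, T₂, hTcard, hTsum, -, hBI, -, -, -, hn₁, hn₂, -, -, hns, c, N₀, hRC2⟩ :=
    exists_basePoints hπs h W hW E1 E2 e₁ e₂ P₁ Z₁ P₂ Z₂ hinj₂ hP₁ hZ₁ hP₂ hZ₂ hdegP₁ hdegP₂
      hdegE1 hdegE2 hS2 S₁ S₂ hlift₁ hlift₂
  obtain ⟨hP₁0, hZ₁0, hP₂0, hZ₂0⟩ :=
    KerDivInst.nonneg_of_datum h W hE1 hE2 e₁ e₂ P₁ Z₁ P₂ Z₂ hS2
  -- RC-3: the kernel divisors
  have hKD := KerDivInst.exists_kd_kerRed_sumPl hπs h W hW hNF e₁ e₂ P₁ Z₁ P₂ Z₂ hinj₁ hinj₂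
    hP₁ hZ₁ hP₂ hZ₂ hdegP₁ hdegP₂ hS2 T T₁ T₂ hTcard hn₁ hn₂ hns ⟨c, N₀, hRC2⟩
    (pRed_bad (W := W) h)
  have hdZ₁ : 0 ≤ Divisor.degree Z₁ := GenPos.degree_nonneg hFk hZ₁0
  have hdZ₂ : 0 ≤ Divisor.degree Z₂ := GenPos.degree_nonneg hFk hZ₂0
  refine smallOrders_of_charts h.hℓ hA h hW e₁ e₂ hinj₁ hinj₂ (E1 + E2) ?_ ?_ (P₁ + Z₁) (P₂ + Z₂)
    ?_ ?_ ?_ ?_ ?_ (RR.sumPl T) hBI ?_ (RR.sumPl T₁) (RR.sumPl T₂) ?_ ?_ (RR.sumPl_nonneg T₁)
    (RR.sumPl_nonneg T₂) hns.le ?_ ?_ (kerRed h W) hKD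
  · -- inertia-invariance of `E1 + E2`
    intro σ hσ
    have a1 := (hgalE σ hσ).1
    have a2 := (hgalE σ hσ).2
    ext P
    have b1 := DFunLike.congr_fun a1 P
    have b2 := DFunLike.congr_fun a2 P
    rw [SemilinearAut.divisor_smul_apply] at b1 b2
    rw [SemilinearAut.divisor_smul_apply, Finsupp.add_apply, Finsupp.add_apply, b1, b2]
  · rw [map_add]; linarith
  · intro i; rw [Finsupp.add_apply, hP₁ i, hZ₁ i, add_zero]
  · intro i; rw [Finsupp.add_apply, hP₂ i, hZ₂ i, add_zero]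
  · rw [map_add]; linarith
  · rw [map_add]; linarith
  · -- the diagonal charts
    obtain ⟨N, hN⟩ := hS2
    refine ⟨N, fun n hn => ?_⟩
    ext t
    rw [nsmul_add, nsmul_add, nsmul_add]
    exact hN n n (by omega) t
  · rw [RR.degree_sumPl (isFF1_xL Qb (M * q)).resK, hTcard]
  · exact fun i => RR.sumPl_apply_of_notMem (hn₁ i)
  · exact fun i => RR.sumPl_apply_of_notMem (hn₂ i)
  · rw [RR.degree_sumPl hFk.resK, RR.degree_sumPl hFk.resK, ← hTcard, hTsum]
    push_cast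
    ring
  · -- RC-2 on the diagonal charts
    refine ⟨max N₀ c.toNat, fun n hn => ?_⟩
    have hnN : N₀ ≤ n := (le_max_left _ _).trans hn
    have hnc : c ≤ (n : ℤ) := by
      have h1 : c.toNat ≤ n := (le_max_right _ _).trans hn
      have h2 : c ≤ (c.toNat : ℤ) := Int.self_le_toNat c
      have h3 : (c.toNat : ℤ) ≤ (n : ℤ) := by exact_mod_cast h1
      exact h2.trans h3
    have hn0 : (0 : ℤ) ≤ (n : ℤ) := Int.natCast_nonneg n
    have hd₁ : c ≤ Divisor.degree (n • P₁ + n • Z₁) := by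
      rw [map_add, map_nsmul, map_nsmul, nsmul_eq_mul, nsmul_eq_mul]
      nlinarith
    have hd₂ : c ≤ Divisor.degree (n • P₂ + n • Z₂) := by
      rw [map_add, map_nsmul, map_nsmul, nsmul_eq_mul, nsmul_eq_mul]
      nlinarith
    ext t
    rw [nsmul_add, nsmul_add, nsmul_add]
    exact hRC2 n n (by omega) hd₁ hd₂ t

end Fermat.Agent.Padic.S33.RC.GeoLift
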