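/-
S33 / Route C (RC-3), bridge: the twisted family core `KerDivFam.exists_divisors` in the shape of
the hypothesis `hKD` of `KDFormal.smallOrders_of_kd` (reduction data packaged as
`OrthoFam.PRed`, reduced lattices as `PRed.redSub`).

* `hT_of_const` : the triviality statement (T) with a pair of nonzero constants `(c₁, c₂)`
  (shape of `BAD.KerRed.triv_of_sections`) as the hypothesis `hT` of `KerDivFam`;
* `hKD_of_twisted` : for every class `y ∈ Kr` with a representative `D'` satisfying (T) at one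
  chart `C`, the canonical divisor `D` (`0 ≤ D`, `deg D = g`, `l(D) = 1`, `[D - B] = y`) with
  `red Λ(E - D) = red Λ(E - B)`.
-/
import Mathlib
import Fermat.Agent.Padic.S33.RC.KerDivFam
import Fermat.Agent.Padic.S33.RC.OrthoFam

set_option autoImplicit false

namespace Fermat.Agent.Padic.S33.RC.KerDivKD

open AlgebraicCurve Module Fermat.Agent.Lib.FF Fermat.Agent.Lib.FF.BasePoint
  Fermat.Agent.Lib.Red.Deform Fermat.Agent.Lib.Red.CoordLat Fermat.Agent.BAD.NodalRiemann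
  Fermat.Agent.Padic.GenPosAbs Fermat.Agent.Padic.S33.RC.OrthoFam

variable {L F : Type*} [Field L] [Field F] [Algebra L F]
variable {A : ValuationSubring L} {O : Subring F}
variable {k F₁ F₂ : Type*} [Field k] [Field F₁] [Field F₂] [Algebra k F₁] [Algebra k F₂]

/-- (T) with a pair of nonzero constants, as the hypothesis `hT` of `KerDivFam.exists_divisors`. -/
theorem hT_of_const {red : O →+* F₁ × F₂} {ι : Type*} {e₁ : ι → Place k F₁}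
    {e₂ : ι → Place k F₂} {D C : Divisor L F} {C₁ : Divisor k F₁} {C₂ : Divisor k F₂}
    {c₁ c₂ : k} (hc₁ : c₁ ≠ 0) (hc₂ : c₂ ≠ 0)
    (hC : ∀ t, (∃ y : O, (y : F) ∈ riemannRochSpace C ∧ red y = t) ↔
      t ∈ gluedSpace e₁ e₂ (fun _ => (1 : k)) C₁ C₂)
    (hTr : ∀ t, (∃ y : O, (y : F) ∈ riemannRochSpace (D + C) ∧
        (algebraMap k F₁ c₁, algebraMap k F₂ c₂) * red y = t) ↔
      (∃ y : O, (y : F) ∈ riemannRochSpace C ∧ red y = t)) :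
    ∃ u u' : F₁ × F₂, u * u' = 1 ∧
      ∀ t, (∃ s : O, (s : F) ∈ riemannRochSpace (D + C) ∧ u * red s = t) ↔
        t ∈ gluedSpace e₁ e₂ (fun _ => (1 : k)) C₁ C₂ := by
  refine ⟨(algebraMap k F₁ c₁, algebraMap k F₂ c₂), (algebraMap k F₁ c₁⁻¹, algebraMap k F₂ c₂⁻¹),
    ?_, fun t => (hTr t).trans (hC t)⟩
  refine Prod.ext ?_ ?_
  · show algebraMap k F₁ c₁ * algebraMap k F₁ c₁⁻¹ = 1
    rw [← map_mul, mul_inv_cancel₀ hc₁, map_one]
  · show algebraMap k F₂ c₂ * algebraMap k F₂ c₂⁻¹ = 1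
    rw [← map_mul, mul_inv_cancel₀ hc₂, map_one]

/-- **(KD) from the twisted core.**  The hypothesis `hKD` of `KDFormal.smallOrders_of_kd` for a
subgroup `Kr` of classes all of which satisfy (T) at one chart `C`, with RC-2 at `C` (`hCB`),
at the chart `E` (`hEB`) and at `E + C` (`hECB`). -/
theorem hKD_of_twisted {red : O →+* F₁ × F₂} {π : A →+* k} (h : PRed A O red π)
    {x : F} (hF : IsFF1 L F x) {x₁ : F₁} (h₁ : IsFF1 k F₁ x₁) {x₂ : F₂} (h₂ : IsFF1 k F₂ x₂)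
    {ι : Type*} [Fintype ι] [Nonempty ι] {e₁ : ι → Place k F₁} {e₂ : ι → Place k F₂}
    (he₁ : Function.Injective e₁) (he₂ : Function.Injective e₂)
    {c₁ c₂ : ℤ} (hc₁ : NS k F₁ c₁) (hc₂ : NS k F₂ c₂)
    (hlat : ∀ X : Divisor L F, HasOrtho A O (riemannRochSpace X))
    {B : Divisor L F} {B₁ : Divisor k F₁} {B₂ : Divisor k F₂}
    (hBdeg : Divisor.degree B = genusFF L F)
    (hB₁ : ∀ i, B₁ (e₁ i) = 0) (hB₂ : ∀ i, B₂ (e₂ i) = 0)
    (hns : gluedSpace e₁ e₂ (fun _ => (1 : k)) B₁ B₂ ≤ gluedSpace e₁ e₂ (fun _ => (1 : k)) 0 0)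
    {C : Divisor L F} {C₁ : Divisor k F₁} {C₂ : Divisor k F₂}
    (hC₁ : ∀ i, C₁ (e₁ i) = 0) (hC₂ : ∀ i, C₂ (e₂ i) = 0)
    (hdC₁ : c₁ + Fintype.card ι + 1 ≤ Divisor.degree (C₁ - B₁))
    (hdC₂ : c₂ + Fintype.card ι + 1 ≤ Divisor.degree (C₂ - B₂))
    (hdC₁' : c₁ + Fintype.card ι + 1 ≤ Divisor.degree C₁)
    (hdC₂' : c₂ + Fintype.card ι + 1 ≤ Divisor.degree C₂)
    (hCB : ∀ t ∈ gluedSpace e₁ e₂ (fun _ => (1 : k)) (C₁ - B₁) (C₂ - B₂),
      ∃ y : O, (y : F) ∈ riemannRochSpace (C - B) ∧ red y = t)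
    {E : Divisor L F} {E₁ : Divisor k F₁} {E₂ : Divisor k F₂}
    (hE₁ : ∀ i, E₁ (e₁ i) = 0) (hE₂ : ∀ i, E₂ (e₂ i) = 0)
    (hEdeg : 2 * (genusFF L F : ℤ) - 1 ≤ Divisor.degree (E - B))
    (hEB : ∀ t, (∃ y : O, (y : F) ∈ riemannRochSpace (E - B) ∧ red y = t) ↔
      t ∈ gluedSpace e₁ e₂ (fun _ => (1 : k)) (E₁ - B₁) (E₂ - B₂))
    (hECB : ∀ y : O, (y : F) ∈ riemannRochSpace (E + C - B) →
      red y ∈ gluedSpace e₁ e₂ (fun _ => (1 : k)) (E₁ + C₁ - B₁) (E₂ + C₂ - B₂))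
    (Kr : AddSubgroup (Pic0 L F))
    (hT : ∀ v ∈ Kr, ∃ D : Divisor L F, ClassEq D v ∧ ∃ u u' : F₁ × F₂, u * u' = 1 ∧
      ∀ t, (∃ s : O, (s : F) ∈ riemannRochSpace (D + C) ∧ u * red s = t) ↔
        t ∈ gluedSpace e₁ e₂ (fun _ => (1 : k)) C₁ C₂) :
    ∀ y ∈ Kr, ∃ D : Divisor L F, 0 ≤ D ∧ Divisor.degree D = genusFF L F ∧
      finrank L (riemannRochSpace D) = 1 ∧
      (∃ hD : D - B ∈ Divisor.degZero (K := L) (F := F), Pic0.mk ⟨D - B, hD⟩ = y) ∧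
      h.redSub (riemannRochSpace (E - D)) = h.redSub (riemannRochSpace (E - B)) := by
  obtain ⟨Dv, hnn, hdeg, hcls, -, -, hfin, -, -, hred⟩ :=
    KerDivFam.exists_divisors h.hOA red π h.hπsurj h.hπ h.hredconst h.hker hF h₁ h₂ he₁ he₂
      hc₁ hc₂ hlat (∅ : Set (SemilinearAut L F)) hBdeg (fun g hg => absurd hg (Set.notMem_empty g))
      hB₁ hB₂ hns hC₁ hC₂ hdC₁ hdC₂ hdC₁' hdC₂' hCB Kr (fun v => hT v v.2)
  intro y hy
  refine ⟨Dv ⟨y, hy⟩, hnn _, hdeg _, hfin _, hcls ⟨y, hy⟩, ?_⟩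
  ext t
  exact (hred ⟨y, hy⟩ E E₁ E₂ hE₁ hE₂ hEdeg hEB hECB t).trans (hEB t).symm

end Fermat.Agent.Padic.S33.RC.KerDivKD
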