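/-
S33 / Route C (RC-5, modular half, coordinates): the coordinate data of the Khuri-Makdisi chain
from ORTHONORMAL bases over a SUBRING `O` with a reduction into a commutative algebra.

`Padic/KMData.exists_kmCoord` needs a valuation ring `O` and a residue FIELD.  On the nodal fibre
`O = O_∞ ∩ O_0` is only a subring and the reduction goes to `κ × κ`.  Here:

* `RedS A O red π` : the reduction data (`O ∩ L = A`, `ker red = 𝔪_A • O`, constants);
* `redli`, `mem_span_red_iff` : the reductions of an orthonormal family (`BAD/Ortho.IsOrtho`) are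
  independent over the residue field, and their span is the reduction of `V ∩ O`;
* `exists_mulTable`, `exists_inclMatrix` : multiplication / inclusion tables over `A`;
* `exists_coord` : the tables `a b c` over `A` with `KMCoord` on the generic fibre and
  `RC.SpecCoord` on the special fibre;
* `exists_fam`, `exists_fam_of_coord` : the point families (`hpt` of
  `RC.SmallAsm.exists_smallOrder_of_km_spec`).
-/
import Mathlib
import Fermat.Agent.BAD.Ortho
import Fermat.Agent.Padic.S33.RC.SpecChainOf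
import Fermat.Agent.Padic.KMCoordOfBases
import Fermat.Agent.Padic.LocalAsm

set_option autoImplicit false

noncomputable section

namespace Fermat.Agent.Padic.S33.RC.CoordOrtho

open AlgebraicCurve Module Matrix
open Fermat.Agent.Lib.LinAlg.Family Fermat.Agent.Lib.Red.Deform Fermat.Agent.BAD.Ortho
open Fermat.Agent.Padic Fermat.Agent.Padic.KMAdd Fermat.Agent.Padic.S33.RC

section Abstract

variable {L F k Ft : Type*} [Field L] [Field F] [Algebra L F] [Field k] [CommRing Ft]
  [Algebra k Ft]

/-- Reduction data for a subring `O` of `F` (e.g. an intersection of valuation rings) with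
values in a commutative `k`-algebra `Ft`. -/
structure RedS (A : ValuationSubring L) (O : Subring F) (red : O →+* Ft) (π : A →+* k) :
    Prop where
  hπsurj : Function.Surjective π
  hπ : ∀ a : A, π a = 0 ↔ A.valuation (a : L) < 1
  hOA : ∀ c : L, algebraMap L F c ∈ O ↔ c ∈ A
  hker : ∀ y : O, red y = 0 ↔ Small A O (y : F)
  hconst : ∀ (c : A) (hc : algebraMap L F (c : L) ∈ O),
    red ⟨algebraMap L F (c : L), hc⟩ = algebraMap k Ft (π c)

variable {A : ValuationSubring L} {O : Subring F} {red : O →+* Ft} {π : A →+* k}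

/-- The reductions of a family of elements of `O`. -/
def redFam (red : O →+* Ft) {ι : Type*} (b : ι → F) (hb : ∀ i, b i ∈ O) : ι → Ft :=
  fun i => red ⟨b i, hb i⟩

theorem redFam_apply {ι : Type*} (b : ι → F) (hb : ∀ i, b i ∈ O) (i : ι) :
    redFam red b hb i = red ⟨b i, hb i⟩ := rfl

namespace RedS

/-- Constants of `A` as elements of `O`. -/
def cO (h : RedS A O red π) (a : A) : O := ⟨algebraMap L F (a : L), (h.hOA _).2 a.2⟩

theorem red_cO (h : RedS A O red π) (a : A) : red (h.cO a) = algebraMap k Ft (π a) :=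
  h.hconst a _

/-- An integral combination as an element of `O`. -/
def comb (h : RedS A O red π) {ι : Type*} [Fintype ι] (b : ι → F) (hb : ∀ i, b i ∈ O)
    (c : ι → A) : O :=
  ∑ i, h.cO (c i) * ⟨b i, hb i⟩

theorem coe_comb (h : RedS A O red π) {ι : Type*} [Fintype ι] (b : ι → F) (hb : ∀ i, b i ∈ O)
    (c : ι → A) : ((h.comb b hb c : O) : F) = ∑ i, (c i : L) • b i := by
  rw [comb, AddSubmonoidClass.coe_finsetSum]
  refine Finset.sum_congr rfl fun i _ => ?_
  show algebraMap L F (c i : L) * b i = (c i : L) • b i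
  rw [Algebra.smul_def]

theorem red_comb (h : RedS A O red π) {ι : Type*} [Fintype ι] (b : ι → F) (hb : ∀ i, b i ∈ O)
    (c : ι → A) : red (h.comb b hb c) = ∑ i, π (c i) • redFam red b hb i := by
  rw [comb, map_sum]
  refine Finset.sum_congr rfl fun i _ => ?_
  rw [map_mul, h.red_cO, Algebra.smul_def]
  rfl

/-- The reduction of an element of `O` given as an integral combination. -/
theorem red_eq_of_eq_sum (h : RedS A O red π) {ι : Type*} [Fintype ι] (b : ι → F)
    (hb : ∀ i, b i ∈ O) (c : ι → A) (y : O) (hy : (y : F) = ∑ i, (c i : L) • b i) :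
    red y = ∑ i, π (c i) • redFam red b hb i := by
  rw [← h.red_comb b hb c]
  congr 1
  exact Subtype.ext (hy.trans (h.coe_comb b hb c).symm)

end RedS

/-- **The reductions of an orthonormal family are linearly independent** over the residue
field. -/
theorem redli (h : RedS A O red π) {ι : Type*} [Fintype ι] {b : ι → F} (hb : IsOrtho A O b) :
    LinearIndependent k (redFam red b hb.mem) := by
  rw [Fintype.linearIndependent_iff]
  intro g hg i
  choose c hc using fun i => h.hπsurj (g i)
  have h1 : red (h.comb b hb.mem c) = 0 := by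
    rw [h.red_comb, ← hg]
    exact Finset.sum_congr rfl fun i _ => by rw [hc i]
  rw [h.hker, h.coe_comb] at h1
  have h2 := (hb.small_iff h.hOA (fun i => (c i : L))).1 h1 i
  rw [← hc i]
  exact (h.hπ (c i)).2 h2

/-- **The span of the reductions of an orthonormal basis of `V` is the reduction of `V ∩ O`.** -/
theorem mem_span_red_iff (h : RedS A O red π) {ι : Type*} [Fintype ι] {b : ι → F}
    (hb : IsOrtho A O b) (t : Ft) :
    t ∈ Submodule.span k (Set.range (redFam red b hb.mem)) ↔
      ∃ y : O, (y : F) ∈ Submodule.span L (Set.range b) ∧ red y = t := by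
  constructor
  · intro ht
    obtain ⟨g, rfl⟩ := (Submodule.mem_span_range_iff_exists_fun k).1 ht
    choose c hc using fun i => h.hπsurj (g i)
    refine ⟨h.comb b hb.mem c, ?_, ?_⟩
    · rw [h.coe_comb]
      exact Submodule.sum_mem _ fun i _ =>
        Submodule.smul_mem _ _ (Submodule.subset_span ⟨i, rfl⟩)
    · rw [h.red_comb]
      exact Finset.sum_congr rfl fun i _ => by rw [hc i]
  · rintro ⟨y, hy, rfl⟩
    obtain ⟨c, hc⟩ := hb.exists_coord hy
    have hcA : ∀ i, c i ∈ A := hb.coeff c (hc ▸ y.2)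
    rw [h.red_eq_of_eq_sum b hb.mem (fun i => ⟨c i, hcA i⟩) y hc]
    exact Submodule.sum_mem _ fun i _ =>
      Submodule.smul_mem _ _ (Submodule.subset_span ⟨i, rfl⟩)

/-- The span of the reductions, as a submodule described by `red(V ∩ O)`. -/
theorem span_red_eq (h : RedS A O red π) {ι : Type*} [Fintype ι] {b : ι → F}
    (hb : IsOrtho A O b) {V : Submodule L F} (hV : Submodule.span L (Set.range b) = V)
    (G : Submodule k Ft) (hG : ∀ t, t ∈ G ↔ ∃ y : O, (y : F) ∈ V ∧ red y = t) :
    Submodule.span k (Set.range (redFam red b hb.mem)) = G := by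
  ext t
  rw [mem_span_red_iff h hb, hG, hV]

/-- **Multiplication tables** with entries in `A`, compatible with the reduction. -/
theorem exists_mulTable (h : RedS A O red π) {ι₁ ι₂ ι₃ : Type*} [Fintype ι₁] [Fintype ι₂]
    [Fintype ι₃] {b₁ : ι₁ → F} {b₂ : ι₂ → F} {b₃ : ι₃ → F}
    (hb₁ : IsOrtho A O b₁) (hb₂ : IsOrtho A O b₂) (hb₃ : IsOrtho A O b₃)
    (hmul : ∀ i j, b₁ i * b₂ j ∈ Submodule.span L (Set.range b₃)) :
    ∃ a : ι₃ → ι₁ → ι₂ → A,
      (∀ i j, b₁ i * b₂ j = ∑ l, (a l i j : L) • b₃ l) ∧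
      ∀ i j, redFam red b₁ hb₁.mem i * redFam red b₂ hb₂.mem j =
        ∑ l, π (a l i j) • redFam red b₃ hb₃.mem l := by
  have hex : ∀ i j, ∃ c : ι₃ → A, b₁ i * b₂ j = ∑ l, (c l : L) • b₃ l := by
    intro i j
    obtain ⟨c, hc⟩ := hb₃.exists_coord (hmul i j)
    have hcA : ∀ l, c l ∈ A := hb₃.coeff c (hc ▸ O.mul_mem (hb₁.mem i) (hb₂.mem j))
    exact ⟨fun l => ⟨c l, hcA l⟩, hc⟩
  choose c hc using hex
  refine ⟨fun l i j => c i j l, hc, fun i j => ?_⟩
  have h1 := h.red_eq_of_eq_sum b₃ hb₃.mem (c i j)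
    (⟨b₁ i, hb₁.mem i⟩ * ⟨b₂ j, hb₂.mem j⟩) (hc i j)
  rw [map_mul] at h1
  exact h1

/-- **Inclusion matrix** of an orthonormal family `b` with span inside the span of the
orthonormal family `b₁`: a matrix over `A` expressing `b` in `b₁`, on both fibres. -/
theorem exists_inclMatrix (h : RedS A O red π) {I₁ ι : Type*} [Fintype I₁] [Fintype ι]
    {b₁ : I₁ → F} {b : ι → F} (hb₁ : IsOrtho A O b₁) (hb : IsOrtho A O b)
    (hle : Submodule.span L (Set.range b) ≤ Submodule.span L (Set.range b₁)) :
    ∃ M : Matrix I₁ ι A,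
      (∀ x : ι → L, Fintype.linearCombination L b₁ ((M.map A.subtype) *ᵥ x) =
        Fintype.linearCombination L b x) ∧
      (∀ x : ι → k, Fintype.linearCombination k (redFam red b₁ hb₁.mem) ((M.map π) *ᵥ x) =
        Fintype.linearCombination k (redFam red b hb.mem) x) := by
  have hex : ∀ i, ∃ c : I₁ → A, b i = ∑ l, (c l : L) • b₁ l := by
    intro i
    obtain ⟨c, hc⟩ := hb₁.exists_coord (hle (Submodule.subset_span ⟨i, rfl⟩))
    have hcA : ∀ l, c l ∈ A := hb₁.coeff c (hc ▸ hb.mem i)
    exact ⟨fun l => ⟨c l, hcA l⟩, hc⟩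
  choose c hc using hex
  have hck : ∀ i, redFam red b hb.mem i = ∑ l, π (c i l) • redFam red b₁ hb₁.mem l :=
    fun i => h.red_eq_of_eq_sum b₁ hb₁.mem (c i) ⟨b i, hb.mem i⟩ (hc i)
  refine ⟨Matrix.of fun l i => c i l, fun x => ?_, fun x => ?_⟩
  · simp only [Fintype.linearCombination_apply, Matrix.mulVec, dotProduct, Matrix.map_apply,
      Matrix.of_apply, Finset.sum_smul]
    rw [Finset.sum_comm]
    refine Finset.sum_congr rfl fun i _ => ?_
    rw [hc i, Finset.smul_sum]
    refine Finset.sum_congr rfl fun l _ => ?_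
    rw [smul_smul, mul_comm]
    rfl
  · simp only [Fintype.linearCombination_apply, Matrix.mulVec, dotProduct, Matrix.map_apply,
      Matrix.of_apply, Finset.sum_smul]
    rw [Finset.sum_comm]
    refine Finset.sum_congr rfl fun i _ => ?_
    rw [hck i, Finset.smul_sum]
    refine Finset.sum_congr rfl fun l _ => ?_
    rw [smul_smul, mul_comm]

/-- Structure constants give multiplicativity of the coordinate maps (commutative algebra
version of `KMAdd.linearCombination_mulTab`). -/
theorem linearCombination_mulTab_alg {ι ι' κ : Type*} [Fintype ι] [Fintype ι'] [Fintype κ]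
    (c : κ → ι → ι' → k) (e : ι → Ft) (e' : ι' → Ft) (e'' : κ → Ft)
    (h : ∀ i j, e i * e' j = ∑ l, c l i j • e'' l) (v : ι → k) (w : ι' → k) :
    Fintype.linearCombination k e'' (mulTab c v w) =
      Fintype.linearCombination k e v * Fintype.linearCombination k e' w := by
  simp only [Fintype.linearCombination_apply, mulTab, Finset.sum_mul, Finset.mul_sum,
    smul_mul_smul_comm, h, Finset.smul_sum, Finset.sum_smul, smul_smul]
  rw [Finset.sum_comm]
  conv_rhs => rw [Finset.sum_comm]
  refine Finset.sum_congr rfl fun i _ => ?_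
  rw [Finset.sum_comm]
  refine Finset.sum_congr rfl fun j _ => Finset.sum_congr rfl fun l _ => ?_
  congr 1
  ring

/-- **The coordinate data on both fibres from five orthonormal bases.**  The tables have entries
in `A`; the generic tables are their images in `L`, the special ones their reductions; the
special fibre is described by `RC.SpecCoord` for the subspaces `G₁ = red(L(E) ∩ O)`,
`G₁B = red(L(E - B) ∩ O)`, `G₂B = red(L(2E - B) ∩ O)`. -/
theorem exists_coord (h : RedS A O red π) {E B : Divisor L F}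
    {I₁ I₂ J₁ J₂ J₄ : Type*} [Fintype I₁] [Fintype I₂] [Fintype J₁] [Fintype J₂] [Fintype J₄]
    {b₁ : I₁ → F} {b₂ : I₂ → F} {f₁ : J₁ → F} {f₂ : J₂ → F} {f₄ : J₄ → F}
    (hb₁ : IsOrtho A O b₁) (hb₂ : IsOrtho A O b₂) (hf₁ : IsOrtho A O f₁)
    (hf₂ : IsOrtho A O f₂) (hf₄ : IsOrtho A O f₄)
    (hs₁ : Submodule.span L (Set.range b₁) = riemannRochSpace E)
    (hs₂ : Submodule.span L (Set.range b₂) = riemannRochSpace (2 • E))
    (ht₁ : Submodule.span L (Set.range f₁) = riemannRochSpace (E - B))
    (ht₂ : Submodule.span L (Set.range f₂) = riemannRochSpace (2 • E - B))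
    (ht₄ : Submodule.span L (Set.range f₄) = riemannRochSpace (4 • E - B))
    (G₁ G₁B G₂B : Submodule k Ft)
    (hG₁ : ∀ t, t ∈ G₁ ↔ ∃ y : O, (y : F) ∈ riemannRochSpace E ∧ red y = t)
    (hG₁B : ∀ t, t ∈ G₁B ↔ ∃ y : O, (y : F) ∈ riemannRochSpace (E - B) ∧ red y = t)
    (hG₂B : ∀ t, t ∈ G₂B ↔ ∃ y : O, (y : F) ∈ riemannRochSpace (2 • E - B) ∧ red y = t) :
    ∃ (a : I₂ → I₁ → I₁ → A) (b : J₂ → I₁ → J₁ → A) (c : J₄ → J₂ → I₂ → A)
      (C : KMCoord L F E B (Fam.mapTab A.subtype a) (Fam.mapTab A.subtype b)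
        (Fam.mapTab A.subtype c))
      (C' : SpecCoord k Ft (Fam.mapTab π a) (Fam.mapTab π b) (Fam.mapTab π c) G₁ G₁B G₂B),
      (∀ v, C.φ₁ v = ∑ i, v i • b₁ i) ∧
      (∀ v, C'.φ₁ v = ∑ i, v i • redFam red b₁ hb₁.mem i) := by
  have m₁ : ∀ i j, b₁ i * b₁ j ∈ Submodule.span L (Set.range b₂) := by
    intro i j
    rw [hs₂]
    have hi : b₁ i ∈ riemannRochSpace E := hs₁ ▸ Submodule.subset_span ⟨i, rfl⟩
    have hj : b₁ j ∈ riemannRochSpace E := hs₁ ▸ Submodule.subset_span ⟨j, rfl⟩
    have := Fermat.Agent.Lib.FF.KMLemmas.mul_mem_L hi hj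
    rwa [← two_nsmul] at this
  have m₂ : ∀ i j, b₁ i * f₁ j ∈ Submodule.span L (Set.range f₂) := by
    intro i j
    rw [ht₂]
    have hi : b₁ i ∈ riemannRochSpace E := hs₁ ▸ Submodule.subset_span ⟨i, rfl⟩
    have hj : f₁ j ∈ riemannRochSpace (E - B) := ht₁ ▸ Submodule.subset_span ⟨j, rfl⟩
    have := Fermat.Agent.Lib.FF.KMLemmas.mul_mem_L hi hj
    have e : E + (E - B) = 2 • E - B := by rw [two_nsmul]; abel
    rwa [e] at this
  have m₃ : ∀ i j, f₂ i * b₂ j ∈ Submodule.span L (Set.range f₄) := by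
    intro i j
    rw [ht₄]
    have hi : f₂ i ∈ riemannRochSpace (2 • E - B) := ht₂ ▸ Submodule.subset_span ⟨i, rfl⟩
    have hj : b₂ j ∈ riemannRochSpace (2 • E) := hs₂ ▸ Submodule.subset_span ⟨j, rfl⟩
    have := Fermat.Agent.Lib.FF.KMLemmas.mul_mem_L hi hj
    have e : 2 • E - B + 2 • E = 4 • E - B := by
      rw [show (4 : ℕ) = 2 + 2 from rfl, add_nsmul]; abel
    rwa [e] at this
  obtain ⟨a, haL, hak⟩ := exists_mulTable h hb₁ hb₁ hb₂ m₁
  obtain ⟨b, hbL, hbk⟩ := exists_mulTable h hb₁ hf₁ hf₂ m₂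
  obtain ⟨c, hcL, hck⟩ := exists_mulTable h hf₂ hb₂ hf₄ m₃
  refine ⟨a, b, c,
    KMCoord.ofBases E B _ _ _ b₁ b₂ f₁ f₂ f₄ hb₁.li hb₂.li hf₂.li hf₄.li hs₁ ht₁ ht₂
      haL hbL hcL,
    { φ₁ := Fintype.linearCombination k (redFam red b₁ hb₁.mem)
      φ₂ := Fintype.linearCombination k (redFam red b₂ hb₂.mem)
      ψ₁ := Fintype.linearCombination k (redFam red f₁ hf₁.mem)
      ψ₂ := Fintype.linearCombination k (redFam red f₂ hf₂.mem)
      ψ₄ := Fintype.linearCombination k (redFam red f₄ hf₄.mem)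
      inj_φ₁ := linearIndependent_iff_injective_fintypeLinearCombination.1 (redli h hb₁)
      inj_φ₂ := linearIndependent_iff_injective_fintypeLinearCombination.1 (redli h hb₂)
      inj_ψ₂ := linearIndependent_iff_injective_fintypeLinearCombination.1 (redli h hf₂)
      inj_ψ₄ := linearIndependent_iff_injective_fintypeLinearCombination.1 (redli h hf₄)
      range_φ₁ := by
        rw [Fintype.range_linearCombination]
        exact span_red_eq h hb₁ hs₁ G₁ hG₁
      range_ψ₁ := by
        rw [Fintype.range_linearCombination]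
        exact span_red_eq h hf₁ ht₁ G₁B hG₁B
      range_ψ₂ := by
        rw [Fintype.range_linearCombination]
        exact span_red_eq h hf₂ ht₂ G₂B hG₂B
      mul_a := linearCombination_mulTab_alg _ _ _ _ hak
      mul_b := linearCombination_mulTab_alg _ _ _ _ hbk
      mul_c := linearCombination_mulTab_alg _ _ _ _ hck },
    fun v => rfl, fun v => rfl⟩

/-- Reindexing an orthonormal family. -/
theorem IsOrtho.comp_equiv {ι ι' : Type*} [Fintype ι] [Fintype ι'] {b : ι → F}
    (hb : IsOrtho A O b) (e : ι' ≃ ι) : IsOrtho A O (b ∘ e) := by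
  refine ⟨hb.li.comp e e.injective, fun i => hb.mem (e i), fun c hc i => ?_⟩
  have h1 : ∑ j, c (e.symm j) • b j = ∑ i, c i • (b ∘ e) i := by
    rw [← Equiv.sum_comp e]
    exact Finset.sum_congr rfl fun i _ => by rw [Equiv.symm_apply_apply]; rfl
  have h2 := hb.coeff (fun j => c (e.symm j)) (h1 ▸ hc) (e i)
  rwa [Equiv.symm_apply_apply] at h2

end Abstract

section Families

local notation "Qb" => AlgebraicClosure ℚ

variable {F Ft : Type*} [Field F] [Algebra Qb F] [CommRing Ft]
  {A : ValuationSubring Qb} [Algebra (IsLocalRing.ResidueField A) Ft]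
  {O : Subring F} {red : O →+* Ft}

/-- **Point families from lattices** (`hpt`): for an orthonormal basis `b₁` and a subspace
`W` of its span there is a family over `A` whose generic fibre is `W` in the coordinates `b₁`
and whose special fibre is the reduction of `W ∩ O` in the coordinates `red b₁`. -/
theorem exists_fam (h : RedS A O red (IsLocalRing.residue A))
    {I₁ : Type} [Fintype I₁] [DecidableEq I₁] {b₁ : I₁ → F} (hb₁ : IsOrtho A O b₁)
    (W : Submodule Qb F) (hW : W ≤ Submodule.span Qb (Set.range b₁)) :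
    ∃ Wf : Fam A I₁,
      (Wf.fib A.subtype).map (Fintype.linearCombination Qb b₁) = W ∧
      ∀ v : I₁ → IsLocalRing.ResidueField A, v ∈ Wf.fib (IsLocalRing.residue A) ↔
        ∃ y : O, (y : F) ∈ W ∧ red y = ∑ i, v i • redFam red b₁ hb₁.mem i := by
  classical
  obtain ⟨κ, hκ, b', hb', hspan'⟩ := hb₁.exists_sub h.hOA W hW
  set d := Fintype.card κ with hd
  have e : Fin d ≃ κ := (Fintype.equivFin κ).symm
  have hb : IsOrtho A O (b' ∘ e) := IsOrtho.comp_equiv hb' e
  have hspan : Submodule.span Qb (Set.range (b' ∘ e)) = W := by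
    rw [Set.range_comp, e.surjective.range_eq, Set.image_univ]
    exact hspan'
  obtain ⟨M, hML, hMk⟩ := exists_inclMatrix h hb₁ hb (by rw [hspan]; exact hW)
  have hinjL : Function.Injective (M.map A.subtype).mulVecLin := by
    intro x y hxy
    apply hb.injective
    rw [← hML x, ← hML y]
    exact congrArg _ hxy
  have hinjk : Function.Injective (M.map (IsLocalRing.residue A)).mulVecLin := by
    intro x y hxy
    apply linearIndependent_iff_injective_fintypeLinearCombination.1 (redli h hb)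
    rw [← hMk x, ← hMk y]
    exact congrArg _ hxy
  have hrL : LinearMap.range (M.map A.subtype).mulVecLin =
      W.comap (Fintype.linearCombination Qb b₁) := by
    ext y
    rw [Submodule.mem_comap, ← hspan, ← Fintype.range_linearCombination]
    constructor
    · rintro ⟨x, rfl⟩
      exact ⟨x, (hML x).symm⟩
    · rintro ⟨x, hx⟩
      exact ⟨x, hb₁.injective ((hML x).trans hx)⟩
  have hrk : LinearMap.range (M.map (IsLocalRing.residue A)).mulVecLin =
      (Submodule.span (IsLocalRing.ResidueField A)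
        (Set.range (redFam red (b' ∘ e) hb.mem))).comap
        (Fintype.linearCombination (IsLocalRing.ResidueField A) (redFam red b₁ hb₁.mem)) := by
    ext y
    rw [Submodule.mem_comap, ← Fintype.range_linearCombination]
    constructor
    · rintro ⟨x, rfl⟩
      exact ⟨x, (hMk x).symm⟩
    · rintro ⟨x, hx⟩
      exact ⟨x, linearIndependent_iff_injective_fintypeLinearCombination.1 (redli h hb₁)
        ((hMk x).trans hx)⟩
  have hrank : finrank Qb ↥(W.comap (Fintype.linearCombination Qb b₁)) ≤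
      finrank (IsLocalRing.ResidueField A)
        ↥((Submodule.span (IsLocalRing.ResidueField A)
          (Set.range (redFam red (b' ∘ e) hb.mem))).comap
          (Fintype.linearCombination (IsLocalRing.ResidueField A)
            (redFam red b₁ hb₁.mem))) := by
    rw [← hrL, ← hrk, LinearMap.finrank_range_of_inj hinjL,
      LinearMap.finrank_range_of_inj hinjk, Module.finrank_fintype_fun_eq_card,
      Module.finrank_fintype_fun_eq_card]
  obtain ⟨Wf, hWf1, hWf2⟩ := LocalAsm.exists_fam_of_matrix A M _ _ hrL hrk hrank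
  refine ⟨Wf, ?_, fun v => ?_⟩
  · rw [hWf1, Submodule.map_comap_eq_of_le]
    rw [Fintype.range_linearCombination]
    exact hW
  · rw [hWf2, Submodule.mem_comap, mem_span_red_iff h hb, hspan,
      Fintype.linearCombination_apply]

/-- `hpt` in the shape of `RC.SmallAsm.exists_smallOrder_of_km_spec`: if the reduction of
`W ∩ O` is `G₁B`, the family of `W` has special fibre `C'.Wt`. -/
theorem exists_fam_of_coord (h : RedS A O red (IsLocalRing.residue A))
    {E B : Divisor Qb F}
    {I₁ : Type} [Fintype I₁] [DecidableEq I₁]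
    {I₂ J₁ J₂ J₄ : Type*} [Fintype I₂] [Fintype J₁] [Fintype J₂] [Fintype J₄]
    {b₁ : I₁ → F} (hb₁ : IsOrtho A O b₁)
    {a : I₂ → I₁ → I₁ → A} {b : J₂ → I₁ → J₁ → A} {c : J₄ → J₂ → I₂ → A}
    (C : KMCoord Qb F E B (Fam.mapTab A.subtype a) (Fam.mapTab A.subtype b)
      (Fam.mapTab A.subtype c))
    {G₁ G₁B G₂B : Submodule (IsLocalRing.ResidueField A) Ft}
    (C' : SpecCoord (IsLocalRing.ResidueField A) Ft (Fam.mapTab (IsLocalRing.residue A) a)
      (Fam.mapTab (IsLocalRing.residue A) b) (Fam.mapTab (IsLocalRing.residue A) c)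
      G₁ G₁B G₂B)
    (hC : ∀ v, C.φ₁ v = ∑ i, v i • b₁ i)
    (hC' : ∀ v, C'.φ₁ v = ∑ i, v i • redFam red b₁ hb₁.mem i)
    (W : Submodule Qb F) (hW : W ≤ riemannRochSpace E)
    (hred : ∀ t, t ∈ G₁B ↔ ∃ y : O, (y : F) ∈ W ∧ red y = t) :
    ∃ Wf : Fam A I₁, (Wf.fib A.subtype).map C.φ₁ = W ∧
      Wf.fib (IsLocalRing.residue A) = C'.Wt := by
  have hφ : C.φ₁ = Fintype.linearCombination Qb b₁ :=
    LinearMap.ext fun v => by rw [hC, Fintype.linearCombination_apply]
  have hs₁ : Submodule.span Qb (Set.range b₁) = riemannRochSpace E := by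
    rw [← Fintype.range_linearCombination, ← hφ, C.range_φ₁]
  obtain ⟨Wf, h1, h2⟩ := exists_fam h hb₁ W (by rw [hs₁]; exact hW)
  refine ⟨Wf, by rw [hφ]; exact h1, ?_⟩
  ext v
  rw [h2, SpecCoord.Wt, Submodule.mem_comap, hred, hC']

end Families

end Fermat.Agent.Padic.S33.RC.CoordOrtho
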