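/-
S33 / Route C (RC-3d, helper60): the assembly `KDFormal.smallOrders_of_kd` with the point data
(KD) quantified PER FINITE SUBGROUP.

The triviality statement (T) for a class `y` of the kernel of reduction holds on the charts
`n₁ E1 + n₂ E2` with `n₁ + n₂ ≥ N(y)`, and `N(y)` depends on `y`; the kernel of reduction is
infinite, so there is no chart serving all its classes at once.  `RC.SmallOrders` only speaks
about finite subgroups `V ≤ Kr`, and for those a common chart exists.  Hence the producer of (KD)
should be allowed to choose its auxiliary chart after `V`: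

* `smallOrders_of_kd_fin` : `SmallOrders A N Kr` from the same ambient data as
  `smallOrders_of_kd` (`E`, `B`, `n`, the inertia-fixed orthonormal basis of `L(E)`, `SpecFacts`)
  and, for every finite subgroup `V ≤ Kr`, the point data (KD) at the classes of `V`.
-/
import Mathlib
import Fermat.Agent.Padic.S33.RC.KDFormal

set_option autoImplicit false

noncomputable section

namespace Fermat.Agent.Padic.S33.RC.KDFormal

open AlgebraicCurve ModularCurve Module
open Fermat.Agent.Lib.FF Fermat.Agent.Padic Fermat.Agent.Padic.GenPosAbs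
  Fermat.Agent.Padic.KMAdd
open Fermat.Agent.Padic.S33.RC Fermat.Agent.Padic.S33.RC.SmallAsm
  Fermat.Agent.Padic.S33.RC.OrthoFam Fermat.Agent.BAD.Ortho

local notation "Qb" => AlgebraicClosure ℚ

variable {N : ℕ} {A : ValuationSubring Qb}

/-- **The assembly (RC-5, modular form), (KD) per finite subgroup.**  As
`smallOrders_of_kd`, but the point data are only required at the classes of each finite
subgroup `V ≤ Kr` (so that their producer may choose a chart depending on `V`). -/
theorem smallOrders_of_kd_fin [NeZero N] {O : Subring ↥(modularFunctionFieldBar N)}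
    {Ft : Type*} [CommRing Ft] [Algebra (IsLocalRing.ResidueField A) Ft] [Nontrivial Ft]
    {red : O →+* Ft} {x : ↥(modularFunctionFieldBar N)}
    (hF : IsFF1 Qb ↥(modularFunctionFieldBar N) x)
    (h : PRed A O red (IsLocalRing.residue A))
    (hlat : ∀ D : Divisor Qb ↥(modularFunctionFieldBar N),
      Fermat.Agent.Lib.Red.CoordLat.HasOrtho A O (riemannRochSpace D))
    (E B : Divisor Qb ↥(modularFunctionFieldBar N))
    (n : ℤ) (hn : 5 * (genusFF Qb ↥(modularFunctionFieldBar N) : ℤ) + 1 ≤ n)
    (hE : Divisor.degree E = n)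
    (hB : Divisor.degree B = genusFF Qb ↥(modularFunctionFieldBar N))
    (hEI : ∀ σ ∈ A.inertiaSubgroupIn ℚ,
      arithmeticGalois (modularFunctionFieldFull N) σ • E = E)
    (hBI : ∀ σ ∈ A.inertiaSubgroupIn ℚ,
      arithmeticGalois (modularFunctionFieldFull N) σ • B = B)
    (hbasis : ∃ (I₁ : Type) (_ : Fintype I₁) (b₁ : I₁ → ↥(modularFunctionFieldBar N)),
      IsOrtho A O b₁ ∧ Submodule.span Qb (Set.range b₁) = riemannRochSpace E ∧
      ∀ σ ∈ A.inertiaSubgroupIn ℚ, ∀ i,
        arithmeticGalois (modularFunctionFieldFull N) σ • b₁ i = b₁ i)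
    (hfacts : SpecFacts (h.redSub (riemannRochSpace E)) (h.redSub (riemannRochSpace (E - B)))
      (h.redSub (riemannRochSpace (2 • E - B)))
      (2 * n - 3 * genusFF Qb ↥(modularFunctionFieldBar N) + 1))
    (Kr : AddSubgroup (JZero N))
    (hKD : ∀ V : AddSubgroup (JZero N), Finite V → V ≤ Kr →
      ∀ y ∈ V, ∃ D : Divisor Qb ↥(modularFunctionFieldBar N), 0 ≤ D ∧
        Divisor.degree D = genusFF Qb ↥(modularFunctionFieldBar N) ∧
        finrank Qb (riemannRochSpace D) = 1 ∧
        (∃ hD : D - B ∈ Divisor.degZero (K := Qb) (F := ↥(modularFunctionFieldBar N)),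
          Pic0.mk ⟨D - B, hD⟩ = y) ∧
        h.redSub (riemannRochSpace (E - D)) = h.redSub (riemannRochSpace (E - B))) :
    SmallOrders A N Kr := by
  classical
  intro V hVfin hVK hV
  obtain ⟨I₁, _, b₁, hb₁, hs₁, hbfix⟩ := hbasis
  obtain ⟨D, hD, hred⟩ := exists_divisors
    (fun D => h.redSub (riemannRochSpace (E - D)) = h.redSub (riemannRochSpace (E - B)))
    V (hKD V hVfin hVK) V le_rfl
  have hE3 : 3 * (genusFF Qb ↥(modularFunctionFieldBar N) : ℤ) ≤ Divisor.degree E := by
    rw [hE]
    have := Int.natCast_nonneg (genusFF Qb ↥(modularFunctionFieldBar N))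
    linarith
  exact smallOrder_subgroup A V hV
    (exists_smallOrder_of_ortho (actI A V hV) hF h hlat E B n hn hE hB b₁ hb₁ hs₁ hfacts D
      (fun v => (hD v).nonneg) (kmTriple_of_kd hD) hred
      (heqv_of_kd A V hV hEI hBI hD b₁ hbfix) (hsep_of_kd hF hE3 hD))

end Fermat.Agent.Padic.S33.RC.KDFormal
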