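/-
S33 / Route C (RC-3, abstract core): the canonical effective divisor of a class in the kernel of
reduction and the reduction of its Riemann–Roch lattices.

Setting of `Lib/Red/Deform` + `CoordLat`: `L ⊆ F` a function field, `A` a valuation subring of
`L`, `O` a subring of `F` with `O ∩ L = A`, `red : O →+* Ft` with kernel the small elements, and
`redSub V = red (V ∩ O)`.  (In the application `O = OPair h W`, `red = redPair h W`,
`Ft = κ × κ`.)

* `exists_section_red_one` (fact (a)): if `red Λ(E + D') ⊆ G`, `GB ⊆ red Λ(E - B)` and the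
  transporter `(G : GB)` consists of constants (`B̃` non-special on the special fibre), then for
  `deg (B + D') = g` the space `L(B + D')` is a line, generated by an element of `O` with
  reduction `1`.
* `redSub_sub_eq` (fact (b)): for `Dx = B + D' + div y` with `y⁻¹ ∈ O`, `red y⁻¹ = 1`:
  `red Λ(E₁ - Dx) = red Λ(E₁ - B)`, provided `G₂ ⊆ red Λ(E₂ + D')`,
  `red Λ(E₁ + E₂ - B) ⊆ GB₁₂` and `(GB₁₂ : G₂) ⊆ red Λ(E₁ - B)`.
-/
import Mathlib
import Fermat.Agent.Lib.Red.CoordOrtho
import Fermat.Agent.Lib.FF.WeilCanonical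
import Fermat.Agent.Lib.FF.KMLemmas

set_option autoImplicit false

noncomputable section

namespace Fermat.Agent.Padic.S33.RC.KerDiv

open AlgebraicCurve Module WithZero
open Fermat.Agent.Lib.FF Fermat.Agent.Lib.Red.Deform Fermat.Agent.Lib.Red.CoordLat
  Fermat.Agent.Lib.FF.KMLemmas Fermat.Agent.Lib.FF.WeilCanonical

variable {L F : Type*} [Field L] [Field F] [Algebra L F] {A : ValuationSubring L} {O : Subring F}
  {k Ft : Type*} [Field k] [CommRing Ft] [Algebra k Ft]

variable (hOA : ∀ x : L, algebraMap L F x ∈ O ↔ x ∈ A) (red : O →+* Ft) (π : A →+* k)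
  (hπ : Function.Surjective π)
  (hconst : ∀ a : A, red ⟨algebraMap L F (a : L), (hOA _).2 a.2⟩ = algebraMap k Ft (π a))

/-- Products of reduced lattices. -/
theorem mul_mem_redSub {V₁ V₂ V₃ : Submodule L F} (hV : ∀ f ∈ V₁, ∀ g ∈ V₂, f * g ∈ V₃)
    {t p : Ft} (ht : t ∈ redSub hOA red π hπ hconst V₁)
    (hp : p ∈ redSub hOA red π hπ hconst V₂) :
    t * p ∈ redSub hOA red π hπ hconst V₃ := by
  obtain ⟨y, hy, rfl⟩ := ht
  obtain ⟨z, hz, rfl⟩ := hp
  exact ⟨y * z, hV _ hy _ hz, map_mul _ _ _⟩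

/-- **Fact (a)**: `L(B + D')` is a line generated by a section with reduction `1`. -/
theorem exists_section_red_one [Nontrivial Ft]
    (hπker : ∀ a : A, π a = 0 ↔ A.valuation (a : L) < 1)
    (hker : ∀ y : O, red y = 0 ↔ Small A O (y : F))
    {x : F} (hF : IsFF1 L F x)
    (E B D' : Divisor L F)
    (hdeg : Divisor.degree (B + D') = genusFF L F)
    (hLat : HasOrtho A O (riemannRochSpace (B + D')))
    (G GB : Submodule k Ft)
    (hG : redSub hOA red π hπ hconst (riemannRochSpace (E + D')) ≤ G)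
    (hGB : GB ≤ redSub hOA red π hπ hconst (riemannRochSpace (E - B)))
    (hcol : ∀ t : Ft, (∀ p ∈ GB, t * p ∈ G) → ∃ c : k, t = algebraMap k Ft c) :
    finrank L (riemannRochSpace (B + D')) = 1 ∧
      ∃ y : O, (y : F) ∈ riemannRochSpace (B + D') ∧ red y = 1 := by
  classical
  set R := redSub hOA red π hπ hconst (riemannRochSpace (B + D')) with hR
  have hfin : finrank k R = finrank L (riemannRochSpace (B + D')) :=
    hLat.finrank_redSub hOA red π hπ hπker hconst hker
  -- every element of `R` is a constant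
  have hRc : ∀ t ∈ R, ∃ c : k, t = algebraMap k Ft c := by
    intro t ht
    refine hcol t fun p hp => hG ?_
    refine mul_mem_redSub hOA red π hπ hconst (fun f hf g hg => ?_) ht (hGB hp)
    have h1 := mul_mem_L hf hg
    have e : B + D' + (E - B) = E + D' := by abel
    rwa [e] at h1
  have hle : R ≤ Submodule.span k {(1 : Ft)} := by
    intro t ht
    obtain ⟨c, rfl⟩ := hRc t ht
    rw [Submodule.mem_span_singleton]
    exact ⟨c, by rw [Algebra.algebraMap_eq_smul_one]⟩
  have h1 : finrank k R ≤ 1 := by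
    have h' := LinearMap.finrank_le_finrank_of_injective (Submodule.inclusion_injective hle)
    rwa [finrank_span_singleton (one_ne_zero (α := Ft))] at h'
  have h2 : (1 : ℤ) ≤ finrank L (riemannRochSpace (B + D')) := by
    have h' := hF.riemann_le (B + D')
    rw [hdeg] at h'
    linarith
  have h3 : finrank L (riemannRochSpace (B + D')) = 1 := by omega
  refine ⟨h3, ?_⟩
  have hpos : 0 < finrank k R := by omega
  have hnt : Nontrivial R := Module.nontrivial_of_finrank_pos hpos
  obtain ⟨t, ht0⟩ := exists_ne (0 : R)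
  obtain ⟨y, hy, hyt⟩ := t.2
  obtain ⟨c, hc⟩ := hRc t.1 t.2
  have hc0 : c ≠ 0 := by
    rintro rfl
    apply ht0
    apply Subtype.ext
    rw [hc, map_zero]
    rfl
  obtain ⟨a, ha⟩ := hπ c⁻¹
  refine ⟨⟨algebraMap L F (a : L), (hOA _).2 a.2⟩ * y, ?_, ?_⟩
  · show algebraMap L F (a : L) * (y : F) ∈ _
    rw [← Algebra.smul_def]
    exact Submodule.smul_mem _ _ hy
  · rw [map_mul, hconst, ha, hyt, hc, ← map_mul, inv_mul_cancel₀ hc0, map_one]

/-- **Fact (b)**: the reduced lattices of `E₁ - Dx` and `E₁ - B` agree. -/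
theorem redSub_sub_eq
    (hπker : ∀ a : A, π a = 0 ↔ A.valuation (a : L) < 1)
    (hker : ∀ y : O, red y = 0 ↔ Small A O (y : F))
    {x : F} (hF : IsFF1 L F x)
    (hLat : ∀ D : Divisor L F, HasOrtho A O (riemannRochSpace D))
    (B D' Dx : Divisor L F) (hB : Divisor.degree B = genusFF L F)
    (hDx : Divisor.degree Dx = genusFF L F)
    (y : F) (hy0 : y ≠ 0) (hyO : y⁻¹ ∈ O) (hy1 : red ⟨y⁻¹, hyO⟩ = 1)
    (hDxy : ∀ P : Place L F, Dx P = B P + D' P + P.ord y)
    (E₁ E₂ : Divisor L F) (hE₁ : 3 * (genusFF L F : ℤ) ≤ Divisor.degree E₁)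
    (G₂ GB₁ GB₁₂ : Submodule k Ft)
    (hG₂ : G₂ ≤ redSub hOA red π hπ hconst (riemannRochSpace (E₂ + D')))
    (hGB₁₂ : redSub hOA red π hπ hconst (riemannRochSpace (E₁ + E₂ - B)) ≤ GB₁₂)
    (hGB₁ : redSub hOA red π hπ hconst (riemannRochSpace (E₁ - B)) = GB₁)
    (hcol : ∀ t : Ft, (∀ p ∈ G₂, t * p ∈ GB₁₂) → t ∈ GB₁) :
    redSub hOA red π hπ hconst (riemannRochSpace (E₁ - Dx)) = GB₁ := by
  classical
  have hg0 : (0 : ℤ) ≤ (genusFF L F : ℤ) := Int.natCast_nonneg _
  -- the inclusion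
  have hle : redSub hOA red π hπ hconst (riemannRochSpace (E₁ - Dx)) ≤ GB₁ := by
    rintro t ⟨w, hw, rfl⟩
    refine hcol _ fun p hp => hGB₁₂ ?_
    obtain ⟨z, hz, rfl⟩ := hG₂ hp
    refine ⟨w * ⟨y⁻¹, hyO⟩ * z, ?_, by rw [map_mul, map_mul, hy1, mul_one]⟩
    show (w : F) * y⁻¹ * (z : F) ∈ _
    have h1 : (w : F) * y⁻¹ ∈ riemannRochSpace (E₁ - B - D') := by
      intro P
      have hval : P.adicValuation y⁻¹ = exp (P.ord y) := by
        rw [map_inv₀, P.adicValuation_eq_exp_neg_ord hy0, ← exp_neg, neg_neg]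
      have hwP := hw P
      rw [map_mul, hval]
      have e : exp ((E₁ - B - D') P) = exp ((E₁ - Dx) P) * exp (P.ord y) := by
        rw [← exp_add]
        congr 1
        simp only [Finsupp.coe_sub, Pi.sub_apply]
        rw [hDxy P]
        ring
      rw [e]
      exact mul_le_mul' hwP le_rfl
    have h2 := mul_mem_L h1 hz
    have e : E₁ - B - D' + (E₂ + D') = E₁ + E₂ - B := by abel
    rwa [e] at h2
  -- the dimensions
  have hd1 : (finrank k (redSub hOA red π hπ hconst (riemannRochSpace (E₁ - Dx))) : ℤ) =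
      Divisor.degree E₁ - 2 * genusFF L F + 1 := by
    rw [(hLat _).finrank_redSub hOA red π hπ hπker hconst hker,
      finrank_L_of_degree hF (by rw [map_sub, hDx]; linarith), map_sub, hDx]
    ring
  have hd2 : (finrank k GB₁ : ℤ) = Divisor.degree E₁ - 2 * genusFF L F + 1 := by
    rw [← hGB₁, (hLat _).finrank_redSub hOA red π hπ hπker hconst hker,
      finrank_L_of_degree hF (by rw [map_sub, hB]; linarith), map_sub, hB]
    ring
  have hpos : 0 < finrank k GB₁ := by
    have : (0 : ℤ) < (finrank k GB₁ : ℤ) := by rw [hd2]; linarith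
    exact_mod_cast this
  have : Module.Finite k GB₁ := Module.finite_of_finrank_pos hpos
  exact Submodule.eq_of_le_of_finrank_eq hle (by
    have : (finrank k (redSub hOA red π hπ hconst (riemannRochSpace (E₁ - Dx))) : ℤ) =
        (finrank k GB₁ : ℤ) := by rw [hd1, hd2]
    exact_mod_cast this)

end Fermat.Agent.Padic.S33.RC.KerDiv
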