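/-
S33 / Route C (RC-3), bridge, per-class form: the body of the hypothesis `hKD` of
`KDFormal.smallOrders_of_kd` for ONE class `y`, with the chart `C` of the triviality statement (T)
chosen for that class (in the modular instance the chart of (T) depends on the class, and the
kernel of reduction is not known to be finite, so `KerDivKD.hKD_of_twisted` — one chart for all
classes — does not apply to it directly).

* `hKD_of_class` : for a class `y` with a representative `D` satisfying (T) at a chart `C`, the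
  canonical divisor `D'` (`0 ≤ D'`, `deg D' = g`, `l(D') = 1`, `[D' - B] = y`) with
  `red Λ(E - D') = red Λ(E - B)`.
-/
import Mathlib
import Fermat.Agent.Padic.S33.RC.KerDivKD

set_option autoImplicit false

namespace Fermat.Agent.Padic.S33.RC.KerDivKD2

open AlgebraicCurve Module Fermat.Agent.Lib.FF Fermat.Agent.Lib.FF.BasePoint
  Fermat.Agent.Lib.Red.Deform Fermat.Agent.Lib.Red.CoordLat Fermat.Agent.BAD.NodalRiemann
  Fermat.Agent.Padic.GenPosAbs Fermat.Agent.Padic.S33.RC.OrthoFam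

variable {L F : Type*} [Field L] [Field F] [Algebra L F]
variable {A : ValuationSubring L} {O : Subring F}
variable {k F₁ F₂ : Type*} [Field k] [Field F₁] [Field F₂] [Algebra k F₁] [Algebra k F₂]

/-- **(KD) for one class.**  The body of the hypothesis `hKD` of `KDFormal.smallOrders_of_kd`
for a class `y` with a representative `D` satisfying (T) at a chart `C`, with RC-2 at `C`
(`hCB`), at the chart `E` (`hEB`) and at `E + C` (`hECB`). -/
theorem hKD_of_class {red : O →+* F₁ × F₂} {π : A →+* k} (h : PRed A O red π)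
    {x : F} (hF : IsFF1 L F x) {x₁ : F₁} (h₁ : IsFF1 k F₁ x₁) {x₂ : F₂} (h₂ : IsFF1 k F₂ x₂)
    {ι : Type*} [Fintype ι] [Nonempty ι] {e₁ : ι → Place k F₁} {e₂ : ι → Place k F₂}
    (he₁ : Function.Injective e₁) (he₂ : Function.Injective e₂)
    {c₁ c₂ : ℤ} (hc₁ : NS k F₁ c₁) (hc₂ : NS k F₂ c₂)
    (hlat : ∀ X : Divisor L F, HasOrtho A O (riemannRochSpace X))
    {B : Divisor L F} {B₁ : Divisor k F₁} {B₂ : Divisor k F₂}
    (hBdeg : Divisor.degree B = genusFF L F)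
    (hB₁ : ∀ i, B₁ (e₁ i) = 0) (hB₂ : ∀ i, B₂ (e₂ i) = 0)
    (hns : gluedSpace e₁ e₂ (fun _ => (1 : k)) B₁ B₂ ≤ gluedSpace e₁ e₂ (fun _ => (1 : k)) 0 0)
    {C : Divisor L F} {C₁ : Divisor k F₁} {C₂ : Divisor k F₂}
    (hC₁ : ∀ i, C₁ (e₁ i) = 0) (hC₂ : ∀ i, C₂ (e₂ i) = 0)
    (hdC₁ : c₁ + Fintype.card ι + 1 ≤ Divisor.degree (C₁ - B₁))
    (hdC₂ : c₂ + Fintype.card ι + 1 ≤ Divisor.degree (C₂ - B₂))
    (hdC₁' : c₁ + Fintype.card ι + 1 ≤ Divisor.degree C₁)
    (hdC₂' : c₂ + Fintype.card ι + 1 ≤ Divisor.degree C₂)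
    (hCB : ∀ t ∈ gluedSpace e₁ e₂ (fun _ => (1 : k)) (C₁ - B₁) (C₂ - B₂),
      ∃ y : O, (y : F) ∈ riemannRochSpace (C - B) ∧ red y = t)
    {E : Divisor L F} {E₁ : Divisor k F₁} {E₂ : Divisor k F₂}
    (hE₁ : ∀ i, E₁ (e₁ i) = 0) (hE₂ : ∀ i, E₂ (e₂ i) = 0)
    (hEdeg : 2 * (genusFF L F : ℤ) - 1 ≤ Divisor.degree (E - B))
    (hEB : ∀ t, (∃ y : O, (y : F) ∈ riemannRochSpace (E - B) ∧ red y = t) ↔
      t ∈ gluedSpace e₁ e₂ (fun _ => (1 : k)) (E₁ - B₁) (E₂ - B₂))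
    (hECB : ∀ y : O, (y : F) ∈ riemannRochSpace (E + C - B) →
      red y ∈ gluedSpace e₁ e₂ (fun _ => (1 : k)) (E₁ + C₁ - B₁) (E₂ + C₂ - B₂))
    (y : Pic0 L F) {D : Divisor L F} (hcls : ClassEq D y) {u u' : F₁ × F₂} (huu' : u * u' = 1)
    (hT : ∀ t, (∃ s : O, (s : F) ∈ riemannRochSpace (D + C) ∧ u * red s = t) ↔
      t ∈ gluedSpace e₁ e₂ (fun _ => (1 : k)) C₁ C₂) :
    ∃ D' : Divisor L F, 0 ≤ D' ∧ Divisor.degree D' = genusFF L F ∧
      finrank L (riemannRochSpace D') = 1 ∧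
      (∃ hD : D' - B ∈ Divisor.degZero (K := L) (F := F), Pic0.mk ⟨D' - B, hD⟩ = y) ∧
      h.redSub (riemannRochSpace (E - D')) = h.redSub (riemannRochSpace (E - B)) := by
  classical
  have := hF.hasPrincipalDivisors
  have hDdeg : Divisor.degree D = 0 := Divisor.mem_degZero.1 hcls.choose
  obtain ⟨hfr, f, hfmem, huf⟩ := KerDivFam.exists_section h.hOA red π h.hπsurj h.hπ h.hredconst
    h.hker hF h₁ h₂ he₁ he₂ hc₁ hc₂ hB₁ hB₂ hBdeg hns hC₁ hC₂ hdC₁ hdC₂ hCB hDdeg huu'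
    (fun s hs => (hT _).1 ⟨s, hs, rfl⟩) (hlat _)
  have hf0 : (f : F) ≠ 0 := by
    intro h0
    have h1 : f = 0 := Subtype.ext h0
    rw [h1, map_zero, mul_zero] at huf
    exact zero_ne_one huf
  obtain ⟨Df, hDf, hDfdeg⟩ := HasPrincipalDivisors.exists_divisor (K := L) (f : F) hf0
  have hDfprin : Df ∈ Divisor.principal (K := L) (F := F) := ⟨(f : F), hf0, hDf⟩
  refine ⟨B + D + Df, ?_, ?_, ?_, ?_, ?_⟩
  · refine Finsupp.le_def.2 fun P => ?_
    rcases (mem_riemannRochSpace_iff.1 hfmem) P with h0 | h'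
    · exact absurd h0 hf0
    · simp only [Finsupp.coe_zero, Pi.zero_apply, Finsupp.add_apply, hDf P] at h' ⊢
      omega
  · simp only [map_add, hDdeg, hBdeg, hDfdeg]
    ring
  · have e : B + D + Df - (B + D) ∈ Divisor.principal (K := L) (F := F) := by
      have e' : B + D + Df - (B + D) = Df := by abel
      rw [e']
      exact hDfprin
    rw [finrank_L_eq_of_principal e]
    exact hfr
  · refine ClassEq.of_sub_mem_principal hcls ?_ ?_
    · have e' : B + D + Df - B - D = Df := by abel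
      rw [e']
      exact hDfprin
    · simp only [map_add, map_sub, hDdeg, hBdeg, hDfdeg]
      ring
  · ext t
    exact (KerDivFam.redSub_sub_eq h.hOA red π h.hπsurj h.hπ h.hredconst h.hker hF h₁ h₂ he₁ he₂
      hc₁ hc₂ hB₁ hB₂ hC₁ hC₂ hdC₁' hdC₂' hDdeg huu' (fun t ht => (hT t).2 ht) f hf0 huf hDf
      hE₁ hE₂ hEdeg hEB hECB hlat t).trans (hEB t).symm

end Fermat.Agent.Padic.S33.RC.KerDivKD2
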