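/-
S33 / Route C (RC-3), modular instance (second seat): the point data (KD) on the kernel of
reduction `BAD.KerRed.kerRed h W` of `J₀(Mq)`.

Setting of `BAD/KerRed`: `A` a valuation subring of `ℚ̄`, `π : A → k`, `h : BadSetup A π M q`,
`O = OPair h W ⊆ F = F_{Mq}`, `redPair h W : O → κ × κ`, and an explicit nodal datum
`(ι, e₁, e₂, P₁, Z₁, P₂, Z₂, E1, E2)` with the conjuncts of `KerRed.NodalFibreFor`.  Input: the
conclusions of RC-2 (`BAD.BasePts.exists_basePoints`) for base points `T ↦ (T₁, T₂)`.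

* `pRed_pair` : the reduction data `OrthoFam.PRed A (OPair h W) (redPair h W) π`;
* `hKD_kerRed` : there is `N` such that for every chart `E = n₁ E1 + n₂ E2` with `N ≤ n₁` and
  every class `y` of `kerRed h W` there is a divisor `D ≥ 0` of degree `g`, `l(D) = 1`,
  `[D - B] = y` (`B = ∑_{Q ∈ T} Q`) with `red Λ(E - D) = red Λ(E - B)` — the literal hypothesis
  `hKD` of `KDFormal.smallOrders_of_kd` at `Kr = kerRed h W`.
-/
import Mathlib
import Fermat.Agent.BAD.KerRedTriv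
import Fermat.Agent.Padic.S33.RC.KerDivKD2

set_option autoImplicit false

namespace Fermat.Agent.Padic.S33.RC.KerDivInstB

open AlgebraicCurve ModularCurve Module Fermat.Agent.Lib.FF Fermat.Agent.Lib.FF.BasePoint
  Fermat.Agent.Lib.Red.Deform Fermat.Agent.Lib.Red.CoordLat Fermat.Agent.BAD.NodalDiv
  Fermat.Agent.BAD.NodalRiemann Fermat.Agent.BAD.TwoVal Fermat.Agent.BAD.NodalAsm
  Fermat.Agent.BAD.BadU Fermat.Agent.Padic.GenPosAbs Fermat.Agent.Padic.S33.RC.OrthoFam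

local notation "Qb" => AlgebraicClosure ℚ

section abs

variable {K F : Type*} [Field K] [Field F] [Algebra K F]

theorem nonneg_of_one_mem {D : Divisor K F} (h : (1 : F) ∈ riemannRochSpace D)
    (v : Place K F) : 0 ≤ D v := by
  rcases (mem_riemannRochSpace_iff.1 h) v with h0 | h1
  · exact absurd h0 one_ne_zero
  · rw [Place.ord_one] at h1
    omega

theorem degree_nonneg_of_forall {D : Divisor K F} (h : ∀ v, 0 ≤ D v) :
    0 ≤ Divisor.degree D := by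
  have : Divisor.degree D = D.sum fun v a => a * (v.deg : ℤ) := by
    simp [Divisor.degree]
  rw [this]
  exact Finset.sum_nonneg fun P _ => mul_nonneg (h P) (Int.natCast_nonneg _)

theorem le_degree_chart {P Z : Divisor K F} (hP : 0 < Divisor.degree P)
    (hZ : 0 ≤ Divisor.degree Z) (n₁ n₂ : ℕ) :
    (n₁ : ℤ) ≤ Divisor.degree (n₁ • P + n₂ • Z) := by
  rw [map_add, map_nsmul, map_nsmul, nsmul_eq_mul, nsmul_eq_mul]
  have h1 : (n₁ : ℤ) * 1 ≤ n₁ * Divisor.degree P :=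
    mul_le_mul_of_nonneg_left (Int.add_one_le_iff.2 hP) (Int.natCast_nonneg _)
  have h2 : (0 : ℤ) ≤ n₂ * Divisor.degree Z := mul_nonneg (Int.natCast_nonneg _) hZ
  linarith

theorem nonneg_of_nsmul_chart {P Z : Divisor K F} {m : ℕ}
    (h : (1 : F) ∈ riemannRochSpace (0 • P + (m + 1) • Z)) (v : Place K F) : 0 ≤ Z v := by
  have h1 := nonneg_of_one_mem h v
  rw [Finsupp.add_apply, Finsupp.smul_apply, Finsupp.smul_apply, zero_smul, zero_add,
    nsmul_eq_mul] at h1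
  by_contra hneg
  push Not at hneg
  have h2 : ((m + 1 : ℕ) : ℤ) * Z v < 0 :=
    mul_neg_of_pos_of_neg (by exact_mod_cast Nat.succ_pos m) hneg
  omega

theorem chart_add (P Z : Divisor K F) (n₁ n₂ a : ℕ) :
    n₁ • P + n₂ • Z + (a • P + 0 • Z) = (n₁ + a) • P + (n₂ + 0) • Z := by
  rw [add_smul, zero_smul, add_zero, add_zero]
  abel

end abs

variable {A : ValuationSubring Qb} {k : Type} [Field k] {π : A →+* k} {M q : ℕ} [NeZero M]
  [NeZero q]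

/-- The reduction data `PRed` of the pair `(A, O_∞ ∩ O_0)`. -/
theorem pRed_pair (hπ : Function.Surjective π) (h : BadSetup A π M q)
    (W : laurentBaseChange Qb (modularFunctionFieldFull (M * q)) ≃ₐ[Qb]
      laurentBaseChange Qb (modularFunctionFieldFull (M * q))) :
    PRed A (OPair h W) (redPair h W) π where
  hπsurj := hπ
  hπ := h.pi_eq_zero_iff
  hOA := fun x => OPair_hOA h x
  hker := redPair_eq_zero_iff h
  hredconst := fun a => (redPair_algebraMap h a _).trans rfl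

section main

variable [IsAlgClosed k] (hπ : Function.Surjective π) (h : BadSetup A π M q)
  (W : laurentBaseChange Qb (modularFunctionFieldFull (M * q)) ≃ₐ[Qb]
    laurentBaseChange Qb (modularFunctionFieldFull (M * q))) (hW : IsAL M q W)
  (E1 E2 : Divisor Qb (laurentBaseChange Qb (modularFunctionFieldFull (M * q))))
  {ι : Type} [Fintype ι] [Nonempty ι]
  (e₁ e₂ : ι → Place k (modularFunctionFieldFullC k M))
  (P₁ Z₁ P₂ Z₂ : Divisor k (modularFunctionFieldFullC k M))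
  (hinj₁ : Function.Injective e₁) (hinj₂ : Function.Injective e₂)
  (hP₁ : ∀ i, P₁ (e₁ i) = 0) (hZ₁ : ∀ i, Z₁ (e₁ i) = 0)
  (hP₂ : ∀ i, P₂ (e₂ i) = 0) (hZ₂ : ∀ i, Z₂ (e₂ i) = 0)
  (hd₁ : ∀ v, P₁ v = 0 ∨ Z₁ v = 0) (hd₂ : ∀ v, P₂ v = 0 ∨ Z₂ v = 0)
  (hdegP₁ : 0 < Divisor.degree P₁) (hdegP₂ : 0 < Divisor.degree P₂)
  (hE1 : ∀ v, 0 ≤ E1 v) (hE2 : ∀ v, 0 ≤ E2 v) (hdisj : ∀ v, E1 v = 0 ∨ E2 v = 0)
  (hdegE1 : 0 < Divisor.degree E1) (hdegE2 : 0 < Divisor.degree E2)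
  (hgalE : ∀ σ ∈ A.inertiaSubgroupIn ℚ,
    arithmeticGalois (modularFunctionFieldFull (M * q)) σ • E1 = E1 ∧
    arithmeticGalois (modularFunctionFieldFull (M * q)) σ • E2 = E2)
  (hS2 : ∃ N₀ : ℕ, ∀ n₁ n₂ : ℕ, N₀ ≤ n₁ + n₂ →
    ∀ t : ↥(modularFunctionFieldFullC k M) × ↥(modularFunctionFieldFullC k M),
      (∃ y : OPair h W,
          (y : laurentBaseChange Qb (modularFunctionFieldFull (M * q))) ∈
            riemannRochSpace (n₁ • E1 + n₂ • E2) ∧ redPair h W y = t) ↔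
        t ∈ gluedSpace e₁ e₂ (fun _ => (1 : k))
          (n₁ • P₁ + n₂ • Z₁) (n₁ • P₂ + n₂ • Z₂))

include hW hinj₁ hinj₂ hP₁ hZ₁ hP₂ hZ₂ hd₁ hd₂ hdegP₁ hdegP₂ hE1 hE2 hdisj hdegE1 hdegE2 hgalE
  hS2 in
set_option maxHeartbeats 1000000 in
/-- **S33 (RC-3), modular form: (KD) on the kernel of reduction.**  From the nodal datum and the
conclusions of RC-2 for the base points `T ↦ (T₁, T₂)`: the literal hypothesis `hKD` of
`KDFormal.smallOrders_of_kd` at `Kr = kerRed h W`, `B = ∑_{Q ∈ T} Q`, for every chart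
`E = n₁ E1 + n₂ E2` with `n₁` large. -/
theorem hKD_kerRed
    (T : Finset (Place Qb (laurentBaseChange Qb (modularFunctionFieldFull (M * q)))))
    (T₁ T₂ : Finset (Place k (modularFunctionFieldFullC k M)))
    (hTcard : (T.card : ℤ)
      = genusFF Qb ↥(laurentBaseChange Qb (modularFunctionFieldFull (M * q))))
    (hn₁ : ∀ i, e₁ i ∉ T₁) (hn₂ : ∀ i, e₂ i ∉ T₂)
    (hns : gluedSpace e₁ e₂ (fun _ => (1 : k)) (RR.sumPl T₁) (RR.sumPl T₂)
      = gluedSpace e₁ e₂ (fun _ => (1 : k)) 0 0)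
    (hRC : ∃ (c : ℤ) (N₀ : ℕ), ∀ n₁ n₂ : ℕ, N₀ ≤ n₁ + n₂ →
      c ≤ Divisor.degree (n₁ • P₁ + n₂ • Z₁) → c ≤ Divisor.degree (n₁ • P₂ + n₂ • Z₂) →
      ∀ t : ↥(modularFunctionFieldFullC k M) × ↥(modularFunctionFieldFullC k M),
        (∃ y : OPair h W,
            (y : laurentBaseChange Qb (modularFunctionFieldFull (M * q))) ∈
              riemannRochSpace (n₁ • E1 + n₂ • E2 - RR.sumPl T) ∧ redPair h W y = t) ↔
          t ∈ gluedSpace e₁ e₂ (fun _ => (1 : k))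
            (n₁ • P₁ + n₂ • Z₁ - RR.sumPl T₁) (n₁ • P₂ + n₂ • Z₂ - RR.sumPl T₂)) :
    ∃ N : ℕ, ∀ n₁ n₂ : ℕ, N ≤ n₁ → ∀ y ∈ Fermat.Agent.BAD.KerRed.kerRed h W,
      ∃ D : Divisor Qb (laurentBaseChange Qb (modularFunctionFieldFull (M * q))), 0 ≤ D ∧
        Divisor.degree D
          = genusFF Qb ↥(laurentBaseChange Qb (modularFunctionFieldFull (M * q))) ∧
        finrank Qb (riemannRochSpace D) = 1 ∧
        (∃ hD : D - RR.sumPl T ∈ Divisor.degZero (K := Qb)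
            (F := ↥(laurentBaseChange Qb (modularFunctionFieldFull (M * q)))),
          Pic0.mk ⟨D - RR.sumPl T, hD⟩ = y) ∧
        (pRed_pair hπ h W).redSub (riemannRochSpace (n₁ • E1 + n₂ • E2 - D)) =
          (pRed_pair hπ h W).redSub (riemannRochSpace (n₁ • E1 + n₂ • E2 - RR.sumPl T)) := by
  classical
  obtain ⟨N₀, hS2'⟩ := hS2
  obtain ⟨c, N₀', hRC'⟩ := hRC
  have hNF : Fermat.Agent.BAD.KerRed.NodalFibreFor h W E1 E2 :=
    ⟨ι, inferInstance, inferInstance, e₁, e₂, P₁, Z₁, P₂, Z₂, hinj₁, hinj₂, hP₁, hZ₁, hP₂, hZ₂,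
      hd₁, hd₂, hdegP₁, hdegP₂, hE1, hE2, hdisj, hdegE1, hdegE2, hgalE, N₀, hS2'⟩
  have hLat : LatAt h W := latAt hπ h W hW
  have hF := isFF1_xL Qb (M * q)
  have hκ := isFF1_xk k M
  obtain ⟨c₀, hc₀⟩ := exists_NS hκ
  -- `Z_j ≥ 0`
  have hone : (1 : ↥(modularFunctionFieldFullC k M) × ↥(modularFunctionFieldFullC k M)) ∈
      gluedSpace e₁ e₂ (fun _ => (1 : k)) (0 • P₁ + (N₀ + 1) • Z₁) (0 • P₂ + (N₀ + 1) • Z₂) :=
    (hS2' 0 (N₀ + 1) (by omega) 1).1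
      ⟨1, Fermat.Agent.BAD.KerRed.one_mem_L hE1 hE2 0 (N₀ + 1), map_one _⟩
  have hZ₁deg : 0 ≤ Divisor.degree Z₁ :=
    degree_nonneg_of_forall fun v => nonneg_of_nsmul_chart (P := P₁) hone.1 v
  have hZ₂deg : 0 ≤ Divisor.degree Z₂ :=
    degree_nonneg_of_forall fun v => nonneg_of_nsmul_chart (P := P₂) hone.2.1 v
  have hdeg₁ : ∀ m₁ m₂ : ℕ, (m₁ : ℤ) ≤ Divisor.degree (m₁ • P₁ + m₂ • Z₁) :=
    fun m₁ m₂ => le_degree_chart hdegP₁ hZ₁deg m₁ m₂
  have hdeg₂ : ∀ m₁ m₂ : ℕ, (m₁ : ℤ) ≤ Divisor.degree (m₁ • P₂ + m₂ • Z₂) :=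
    fun m₁ m₂ => le_degree_chart hdegP₂ hZ₂deg m₁ m₂
  have hdegE : ∀ m₁ m₂ : ℕ, (m₁ : ℤ) ≤ Divisor.degree (m₁ • E1 + m₂ • E2) :=
    fun m₁ m₂ => le_degree_chart hdegE1 hdegE2.le m₁ m₂
  have hB₁deg : Divisor.degree (RR.sumPl T₁) = T₁.card := RR.degree_sumPl hκ.resK T₁
  have hB₂deg : Divisor.degree (RR.sumPl T₂) = T₂.card := RR.degree_sumPl hκ.resK T₂
  have hBdeg : Divisor.degree (RR.sumPl T)
      = genusFF Qb ↥(laurentBaseChange Qb (modularFunctionFieldFull (M * q))) := by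
    rw [RR.degree_sumPl hF.resK T]
    exact hTcard
  have hc_le : c ≤ (c.toNat : ℤ) := Int.self_le_toNat c
  have hc₀_le : c₀ ≤ (c₀.toNat : ℤ) := Int.self_le_toNat c₀
  set g : ℕ := genusFF Qb ↥(laurentBaseChange Qb (modularFunctionFieldFull (M * q))) with hg
  set K₀ : ℕ := N₀ + N₀' + c.toNat + c₀.toNat + Fintype.card ι + 1 + T₁.card + T₂.card + 3 * g
    with hK₀
  -- RC-2 at the charts with first index `≥ K₀`
  have hRCbig : ∀ m₁ m₂ : ℕ, K₀ ≤ m₁ →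
      ∀ t : ↥(modularFunctionFieldFullC k M) × ↥(modularFunctionFieldFullC k M),
        (∃ y : OPair h W,
            (y : laurentBaseChange Qb (modularFunctionFieldFull (M * q))) ∈
              riemannRochSpace (m₁ • E1 + m₂ • E2 - RR.sumPl T) ∧ redPair h W y = t) ↔
          t ∈ gluedSpace e₁ e₂ (fun _ => (1 : k))
            (m₁ • P₁ + m₂ • Z₁ - RR.sumPl T₁) (m₁ • P₂ + m₂ • Z₂ - RR.sumPl T₂) := by
    intro m₁ m₂ hm
    have hm' : ((c.toNat : ℕ) : ℤ) ≤ (m₁ : ℤ) := by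
      exact_mod_cast (by omega : c.toNat ≤ m₁)
    refine hRC' m₁ m₂ (by omega) ?_ ?_
    · have := hdeg₁ m₁ m₂
      linarith
    · have := hdeg₂ m₁ m₂
      linarith
  refine ⟨K₀, ?_⟩
  intro n₁ n₂ hn y hy
  obtain ⟨D₀, hD₀y, hsec⟩ := Fermat.Agent.BAD.KerRed.mem_kerRed.1 hy
  have hD₀deg : Divisor.degree
      (D₀ : Divisor Qb (laurentBaseChange Qb (modularFunctionFieldFull (M * q)))) = 0 :=
    Divisor.mem_degZero.1 D₀.2
  obtain ⟨c₁', c₂', hc₁', hc₂', Ny, hNy⟩ :=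
    Fermat.Agent.BAD.KerRed.trivOn_of_hasSec_neg hπ h W hW hNF
      (D₀ : Divisor Qb (laurentBaseChange Qb (modularFunctionFieldFull (M * q)))) hD₀deg
      (hsec E1 E2 hNF).2
  set a : ℕ := K₀ + Ny with ha
  have haK : K₀ ≤ a := by omega
  -- (T) at the chart `(a, 0)`
  have hTr : ∀ t : ↥(modularFunctionFieldFullC k M) × ↥(modularFunctionFieldFullC k M),
      (∃ y : OPair h W,
          (y : laurentBaseChange Qb (modularFunctionFieldFull (M * q))) ∈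
            riemannRochSpace
              ((D₀ : Divisor Qb (laurentBaseChange Qb (modularFunctionFieldFull (M * q))))
                + (a • E1 + 0 • E2)) ∧
          (algebraMap k ↥(modularFunctionFieldFullC k M) c₁',
            algebraMap k ↥(modularFunctionFieldFullC k M) c₂') * redPair h W y = t) ↔
        (∃ y : OPair h W,
          (y : laurentBaseChange Qb (modularFunctionFieldFull (M * q))) ∈
            riemannRochSpace (a • E1 + 0 • E2) ∧ redPair h W y = t) := by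
    intro t
    rw [← add_assoc]
    exact hNy a 0 (by omega) t
  obtain ⟨u, u', huu', hT⟩ := KerDivKD.hT_of_const (e₁ := e₁) (e₂ := e₂) hc₁' hc₂'
    (hS2' a 0 (by omega)) hTr
  have haZ : ((c₀.toNat : ℕ) : ℤ) + (Fintype.card ι : ℤ) + 1 + (T₁.card : ℤ) + (T₂.card : ℤ)
      ≤ (a : ℤ) := by
    exact_mod_cast (by omega : c₀.toNat + Fintype.card ι + 1 + T₁.card + T₂.card ≤ a)
  have hnZ : 3 * (g : ℤ) ≤ (n₁ : ℤ) := by
    exact_mod_cast (by omega : 3 * g ≤ n₁)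
  have hT₁0 : (0 : ℤ) ≤ T₁.card := Int.natCast_nonneg _
  have hT₂0 : (0 : ℤ) ≤ T₂.card := Int.natCast_nonneg _
  have eE : n₁ • E1 + n₂ • E2 + (a • E1 + 0 • E2) = (n₁ + a) • E1 + (n₂ + 0) • E2 :=
    chart_add E1 E2 n₁ n₂ a
  have eP₁ : n₁ • P₁ + n₂ • Z₁ + (a • P₁ + 0 • Z₁) = (n₁ + a) • P₁ + (n₂ + 0) • Z₁ :=
    chart_add P₁ Z₁ n₁ n₂ a
  have eP₂ : n₁ • P₂ + n₂ • Z₂ + (a • P₂ + 0 • Z₂) = (n₁ + a) • P₂ + (n₂ + 0) • Z₂ :=
    chart_add P₂ Z₂ n₁ n₂ a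
  refine KerDivKD2.hKD_of_class (pRed_pair hπ h W) hF hκ hκ hinj₁ hinj₂ hc₀ hc₀ hLat hBdeg
    (fun i => RR.sumPl_apply_of_notMem (hn₁ i)) (fun i => RR.sumPl_apply_of_notMem (hn₂ i))
    hns.le (C := a • E1 + 0 • E2) (C₁ := a • P₁ + 0 • Z₁) (C₂ := a • P₂ + 0 • Z₂)
    ?_ ?_ ?_ ?_ ?_ ?_ (fun t ht => (hRCbig a 0 haK t).2 ht)
    (E := n₁ • E1 + n₂ • E2) (E₁ := n₁ • P₁ + n₂ • Z₁) (E₂ := n₁ • P₂ + n₂ • Z₂)
    ?_ ?_ ?_ (hRCbig n₁ n₂ hn) ?_ y ⟨D₀.2, hD₀y⟩ huu' hT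
  · intro i
    rw [Finsupp.add_apply, Finsupp.smul_apply, Finsupp.smul_apply, hP₁ i, hZ₁ i]
    simp
  · intro i
    rw [Finsupp.add_apply, Finsupp.smul_apply, Finsupp.smul_apply, hP₂ i, hZ₂ i]
    simp
  · rw [map_sub, hB₁deg]
    have := hdeg₁ a 0
    linarith
  · rw [map_sub, hB₂deg]
    have := hdeg₂ a 0
    linarith
  · have := hdeg₁ a 0
    linarith
  · have := hdeg₂ a 0
    linarith
  · intro i
    rw [Finsupp.add_apply, Finsupp.smul_apply, Finsupp.smul_apply, hP₁ i, hZ₁ i]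
    simp
  · intro i
    rw [Finsupp.add_apply, Finsupp.smul_apply, Finsupp.smul_apply, hP₂ i, hZ₂ i]
    simp
  · rw [map_sub, hBdeg]
    have := hdegE n₁ n₂
    linarith
  · intro y' hy'
    rw [eE] at hy'
    rw [eP₁, eP₂]
    exact (hRCbig (n₁ + a) (n₂ + 0) (by omega) _).1 ⟨y', hy', rfl⟩

end main

end Fermat.Agent.Padic.S33.RC.KerDivInstB
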