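/-
S33 / Route C, row S33-NC+ (helper42): the strengthened non-connectedness statement (NCg+),
abstract form.

`P` a valuation subring of `ℚ̄` over an odd prime `p`, `I` its inertia group, `V` a finite abelian
group with an action `act` of `I` by additive bijections, `B` a `P`-order on `V` with an
`I`-equivariant basis (`IsPOrder`), all of whose points are connected (`conn = ⊤`).

* `mem_of_conn_eq_top` : a subgroup `L` of `V` with `act σ v - v ∈ L` for all `σ ∈ I`, `v ∈ V`
  is all of `V` ("a connected order has no nonzero quotient with trivial inertia action";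
  Raynaud's `e < p - 1` in disguise).

Proof (helper20, S33 decision of 19:10): a character `ψ` trivial on `L` of exact order `p` at a
point `v₀` lies in `B`; its coordinates in an equivariant basis are fixed by an open subgroup `H`
of `I`, and the monogenicity of the ring of integers of the fixed field of `H` over the
`I`-invariants (`Loc.MonoB.mono` at `e = 1`, `ϖ = -p`) writes `ψ = ∑ Π^k g_k` with `g_k ∈ B`
`I`-equivariant; the `g_k` are again `L`-invariant (averaging over `L` has an `I`-fixed matrix in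
the equivariant basis, and `1, Π, …` are independent over the `I`-fixed elements); hence the
`g_k v₀ - g_k 0` are `I`-fixed elements of the maximal ideal, so divisible by `p`, and
`ψ v₀ - 1 ∈ p P`: impossible for a primitive `p`-th root of unity, `p` odd.
-/
import Mathlib
import Fermat.Agent.Lib.FinFlat.Mult
import Fermat.Agent.TW.Flat.Local.MonoB
import Fermat.Agent.Padic.S33.LocKum.Group

set_option autoImplicit false

namespace Fermat.Agent.Padic.S33.RC.NCPlus

open Fermat.Agent.Lib.FinFlat Fermat.Agent.TW.Flat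

local notation "Qb" => AlgebraicClosure ℚ
local notation "GQ" => (AlgebraicClosure ℚ ≃ₐ[ℚ] AlgebraicClosure ℚ)

variable {P : ValuationSubring Qb} {Γ : Subgroup GQ} {V : Type} [AddCommGroup V]
  {act : GQ → V → V} {B : Subalgebra P (V → Qb)}

/-! ### Roots of unity of order prime to `p` -/

/-- A root of unity of order prime to `p` which is `≡ 1` modulo the maximal ideal is `1`. -/
theorem eq_one_of_pow_eq_one_of_sub_mem {p : ℕ} (hp : p.Prime) (hP : P.LiesOverPrime p) {m : ℕ}
    (hm : ¬ p ∣ m) {ξ : Qb} (hξ : ξ ^ m = 1) (hξm : ξ - 1 ∈ P.nonunits) : ξ = 1 := by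
  by_contra hne
  have hξP : ξ ∈ P := by
    have : ξ = (ξ - 1) + 1 := by ring
    rw [this]
    exact P.add_mem _ _ (mem_of_mem_nonunits hξm) P.one_mem
  have hsum0 : ∑ j ∈ Finset.range m, ξ ^ j = 0 := by
    have h1 : (∑ j ∈ Finset.range m, ξ ^ j) * (ξ - 1) = 0 := by
      rw [geom_sum_mul, hξ, sub_self]
    rcases mul_eq_zero.mp h1 with h | h
    · exact h
    · exact absurd (sub_eq_zero.mp h) hne
  have hpow : ∀ j : ℕ, ξ ^ j - 1 ∈ P.nonunits := by
    intro j
    have : ξ ^ j - 1 = (∑ i ∈ Finset.range j, ξ ^ i) * (ξ - 1) := (geom_sum_mul ξ j).symm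
    rw [this]
    exact nonunits_mul_mem_left (P.toSubring.sum_mem fun i _ => pow_mem hξP i) hξm
  have hmm : (m : Qb) ∈ P.nonunits := by
    have e : (m : Qb) = -∑ j ∈ Finset.range m, (ξ ^ j - 1) := by
      rw [Finset.sum_sub_distrib, hsum0]
      simp
    rw [e]
    exact nonunits_neg_mem (nonunits_sum_mem _ _ fun j _ => hpow j)
  have hcop : Nat.Coprime p m := (Nat.Prime.coprime_iff_not_dvd hp).mpr hm
  have hbez : ((p : ℤ) * Nat.gcdA p m + (m : ℤ) * Nat.gcdB p m : ℤ) = 1 := by
    have := Nat.gcd_eq_gcd_ab p m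
    rw [hcop] at this
    exact_mod_cast this.symm
  have h1 : (1 : Qb) = (Nat.gcdA p m : Qb) * (p : Qb) + (Nat.gcdB p m : Qb) * (m : Qb) := by
    have := congrArg (Int.cast : ℤ → Qb) hbez
    push_cast at this
    rw [← this]
    ring
  have : (1 : Qb) ∈ P.nonunits := by
    rw [h1]
    exact nonunits_add_mem (nonunits_mul_mem_left (intCast_mem P _) hP)
      (nonunits_mul_mem_left (intCast_mem P _) hmm)
  exact one_notMem_nonunits P this

/-! ### Characters -/

/-- A character trivial on a subgroup `L` and nontrivial at a given point outside `L`. -/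
theorem exists_addChar_trivial_on [Finite V] (L : AddSubgroup V) {v : V} (hv : v ∉ L) :
    ∃ ψ : AddChar V Qb, (∀ l ∈ L, ψ l = 1) ∧ ψ v ≠ 1 := by
  have hv' : (QuotientAddGroup.mk v : V ⧸ L) ≠ 0 := by
    intro h
    exact hv ((QuotientAddGroup.eq_zero_iff v).mp h)
  obtain ⟨χ, hχ⟩ := exists_addChar_ne_one hv'
  refine ⟨χ.compAddMonoidHom (QuotientAddGroup.mk' L), fun l hl => ?_, ?_⟩
  · rw [AddChar.compAddMonoidHom_apply, QuotientAddGroup.mk'_apply,
      (QuotientAddGroup.eq_zero_iff l).mpr hl, AddChar.map_zero_eq_one]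
  · rw [AddChar.compAddMonoidHom_apply, QuotientAddGroup.mk'_apply]
    exact hχ

/-- If all points are connected, a character which is nontrivial at some point takes a value of
exact order `p`. -/
theorem exists_order_p [Finite V] {p : ℕ} (hp : p.Prime) (hP : P.LiesOverPrime p)
    (hB : IsPOrder P Γ act B) (hconn : ∀ v, v ∈ hB.conn) (ψ : AddChar V Qb) {v₁ : V}
    (h1 : ψ v₁ ≠ 1) : ∃ v₀ : V, ψ v₀ ≠ 1 ∧ ψ v₀ ^ p = 1 := by
  obtain ⟨a, m, hm, hcard⟩ := Nat.exists_eq_pow_mul_and_not_dvd (Nat.card_pos (α := V)).ne' p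
    hp.ne_one
  have hξm : ψ (p ^ a • v₁) ^ m = 1 := by
    rw [← AddChar.map_nsmul_eq_pow, smul_smul, mul_comm, ← hcard, card_nsmul_eq_zero',
      AddChar.map_zero_eq_one]
  have hξ1 : ψ (p ^ a • v₁) - 1 ∈ P.nonunits := by
    have := hB.sub_mem_nonunits_of_mem_conn (hB.addChar_mem' ψ) (v := p ^ a • v₁) (w := 0)
      (by rw [sub_zero]; exact hconn _)
    rwa [AddChar.map_zero_eq_one] at this
  have hpa : ψ v₁ ^ p ^ a = 1 := by
    rw [← AddChar.map_nsmul_eq_pow]
    exact eq_one_of_pow_eq_one_of_sub_mem hp hP hm hξm hξ1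
  classical
  have hex : ∃ b : ℕ, ψ v₁ ^ p ^ b = 1 := ⟨a, hpa⟩
  have hb0 : Nat.find hex ≠ 0 := by
    intro h0
    have := Nat.find_spec hex
    rw [h0, pow_zero, pow_one] at this
    exact h1 this
  obtain ⟨c, hc⟩ := Nat.exists_eq_succ_of_ne_zero hb0
  refine ⟨p ^ c • v₁, ?_, ?_⟩
  · rw [AddChar.map_nsmul_eq_pow]
    exact Nat.find_min hex (by omega : c < Nat.find hex)
  · rw [AddChar.map_nsmul_eq_pow, ← pow_mul, ← pow_succ, ← Nat.succ_eq_add_one, ← hc]
    exact Nat.find_spec hex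

/-! ### Averaging over a subgroup -/

/-- The sum of the translates of a function by the elements of a finite subgroup. -/
noncomputable def avL (L : AddSubgroup V) [Fintype L] : (V → Qb) →ₗ[Qb] (V → Qb) where
  toFun f := fun v => ∑ l : L, f (v + l)
  map_add' f g := by
    funext v
    simp only [Pi.add_apply, Finset.sum_add_distrib]
  map_smul' c f := by
    funext v
    simp only [Pi.smul_apply, smul_eq_mul, RingHom.id_apply, Finset.mul_sum]

theorem avL_apply (L : AddSubgroup V) [Fintype L] (f : V → Qb) (v : V) :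
    avL L f v = ∑ l : L, f (v + l) := rfl

/-- The average is invariant under translations by `L`. -/
theorem avL_invariant (L : AddSubgroup V) [Fintype L] (f : V → Qb) (l' : L) (v : V) :
    avL L f (v + l') = avL L f v := by
  rw [avL_apply, avL_apply]
  refine Fintype.sum_bijective (fun l : L => l' + l) (AddGroup.addLeft_bijective l') _ _
    fun l => ?_
  rw [AddSubgroup.coe_add, add_assoc]

/-- On invariant functions the average is multiplication by `|L|`. -/
theorem avL_of_invariant (L : AddSubgroup V) [Fintype L] {f : V → Qb}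
    (hf : ∀ l ∈ L, ∀ v, f (v + l) = f v) : avL L f = (Fintype.card L : Qb) • f := by
  funext v
  rw [avL_apply, Pi.smul_apply, smul_eq_mul]
  have h : ∀ l : L, f (v + l) = f v := fun l => hf l l.2 v
  simp only [h, Finset.sum_const, Finset.card_univ, nsmul_eq_mul]

/-- The average of an equivariant function over a stable subgroup is equivariant. -/
theorem avL_equivar (L : AddSubgroup V) [Fintype L] {f : V → Qb} (hf : Equivar Γ act f)
    (hadd : ∀ σ ∈ Γ, ∀ v w, act σ (v + w) = act σ v + act σ w)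
    (hinj : ∀ σ ∈ Γ, Function.Injective (act σ)) (hLst : ∀ σ ∈ Γ, ∀ l ∈ L, act σ l ∈ L) :
    Equivar Γ act (avL L f) := by
  intro σ hσ v
  rw [avL_apply, avL_apply, map_sum]
  let e : L → L := fun l => ⟨act σ l, hLst σ hσ l l.2⟩
  have he : Function.Bijective e := by
    rw [← Finite.injective_iff_bijective]
    intro l l' h
    exact Subtype.ext (hinj σ hσ (congrArg Subtype.val h))
  rw [← he.sum_comp (fun l : L => f (act σ v + l))]
  refine Finset.sum_congr rfl fun l _ => ?_
  show f (act σ v + act σ l) = σ (f (v + l))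
  rw [← hadd σ hσ, hf σ hσ]


/-! ### The main theorem -/

set_option maxHeartbeats 800000 in
/-- **(NCg+), abstract form.** Let `B` be a `P`-order on the finite group `V` with an
`I`-equivariant basis, `I` the inertia group of `P` (over the odd prime `p`) acting on `V` by
additive bijections, and assume that all points of `V` are connected. Then every subgroup `L`
such that `I` acts trivially on `V / L` is equal to `V`. -/
theorem mem_of_conn_eq_top [Finite V] {p : ℕ} (hp : p.Prime) (hp2 : p ≠ 2)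
    (hP : P.LiesOverPrime p) (hB : IsPOrder P (P.inertiaSubgroupIn ℚ) act B)
    (hadd : ∀ σ ∈ P.inertiaSubgroupIn ℚ, ∀ v w, act σ (v + w) = act σ v + act σ w)
    (hsurj : ∀ σ ∈ P.inertiaSubgroupIn ℚ, Function.Surjective (act σ))
    (hconn : ∀ v, v ∈ hB.conn) (L : AddSubgroup V)
    (hL : ∀ σ ∈ P.inertiaSubgroupIn ℚ, ∀ v, act σ v - v ∈ L) (v₁ : V) : v₁ ∈ L := by
  classical
  by_contra hv₁
  have : Fact p.Prime := ⟨hp⟩
  cases nonempty_fintype L
  obtain ⟨ψ, hψL, hψ1⟩ := exists_addChar_trivial_on L hv₁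
  obtain ⟨v₀, hv₀, hv₀p⟩ := exists_order_p hp hP hB hconn ψ hψ1
  obtain ⟨ι, hι, b, hb, hmem⟩ := hB.exists_basis
  -- the coordinates of `ψ`
  have hcP : ∀ i, b.repr (ψ : V → Qb) i ∈ P := fun i => (hmem _).mp (hB.addChar_mem' ψ) i
  -- their common stabiliser in the inertia group
  let H : Subgroup GQ :=
    { carrier := {σ | σ ∈ P.inertiaSubgroupIn ℚ ∧
        ∀ i, σ (b.repr (ψ : V → Qb) i) = b.repr (ψ : V → Qb) i}
      mul_mem' := by
        rintro σ τ ⟨hσ, hσc⟩ ⟨hτ, hτc⟩
        refine ⟨(P.inertiaSubgroupIn ℚ).mul_mem hσ hτ, fun i => ?_⟩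
        rw [AlgEquiv.mul_apply, hτc, hσc]
      one_mem' := ⟨(P.inertiaSubgroupIn ℚ).one_mem, fun i => rfl⟩
      inv_mem' := by
        rintro σ ⟨hσ, hσc⟩
        refine ⟨(P.inertiaSubgroupIn ℚ).inv_mem hσ, fun i => ?_⟩
        have h1 : σ⁻¹ (σ (b.repr (ψ : V → Qb) i)) = b.repr (ψ : V → Qb) i := by
          rw [← AlgEquiv.mul_apply, inv_mul_cancel, AlgEquiv.one_apply]
        rw [hσc] at h1
        exact h1 }
  have hHmem : ∀ σ, σ ∈ H ↔ σ ∈ P.inertiaSubgroupIn ℚ ∧
      ∀ i, σ (b.repr (ψ : V → Qb) i) = b.repr (ψ : V → Qb) i := fun σ => Iff.rfl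
  have hfixϖ : ∀ σ : GQ, σ (-(p : Qb)) = -(p : Qb) := fun σ => by rw [map_neg, map_natCast]
  have hfinrange : (Set.range fun i => b.repr (ψ : V → Qb) i).Finite := Set.finite_range _
  have hopen : ∃ L₀ : IntermediateField ℚ Qb, FiniteDimensional ℚ L₀ ∧
      ∀ σ ∈ P.inertiaSubgroupIn ℚ, (∀ x ∈ L₀, σ x = x) → σ ∈ H := by
    refine ⟨IntermediateField.adjoin ℚ (Set.range fun i => b.repr (ψ : V → Qb) i), ?_, ?_⟩
    · have : Finite (Set.range fun i => b.repr (ψ : V → Qb) i) := hfinrange.to_subtype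
      have : Algebra.IsAlgebraic ℚ Qb := Fermat.Agent.Lib.GalQbar.isAlgebraic_rat
      exact IntermediateField.finiteDimensional_adjoin
        (fun x _ => (Algebra.IsAlgebraic.isAlgebraic x).isIntegral)
    · intro σ hσ hx
      exact (hHmem σ).mpr ⟨hσ, fun i => hx _ (IntermediateField.subset_adjoin ℚ _ ⟨i, rfl⟩)⟩
  have hidx : H.relIndex (P.inertiaSubgroupIn ℚ) ≠ 0 :=
    LocKum.relIndex_ne_zero_of_open (P.inertiaSubgroupIn ℚ) H hopen
  obtain ⟨τ, hτI, hτu⟩ := LocKum.exists_reps H (P.inertiaSubgroupIn ℚ) hidx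
  obtain ⟨L₀, hL₀fin, hL₀⟩ := hopen
  obtain ⟨Pu, hPuP, -, -, hspan, hind⟩ := Loc.MonoB.mono p P hP 1 one_pos
    (Nat.Prime.not_dvd_one hp) (-(p : Qb)) (pow_one _) H
    (fun σ hσ => ⟨((hHmem σ).mp hσ).1, hfixϖ σ⟩)
    ⟨L₀, hL₀fin, fun σ hσ _ hx => hL₀ σ hσ hx⟩ (H.relIndex (P.inertiaSubgroupIn ℚ))
    (Nat.pos_of_ne_zero hidx)
    ⟨τ, fun i => ⟨hτI i, hfixϖ _⟩, fun σ hσ _ => hτu σ hσ⟩
  -- decomposition of the coordinates
  have hdec : ∀ i, ∃ a : Fin (H.relIndex (P.inertiaSubgroupIn ℚ)) → Qb,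
      (∀ k, a k ∈ P ∧ ∀ σ ∈ P.inertiaSubgroupIn ℚ, σ (a k) = a k) ∧
      b.repr (ψ : V → Qb) i = ∑ k, a k * Pu ^ (k : ℕ) := by
    intro i
    obtain ⟨a, ha, hsum⟩ := hspan (b.repr (ψ : V → Qb) i) (hcP i)
      (fun σ hσ => ((hHmem σ).mp hσ).2 i)
    exact ⟨a, fun k => ⟨(ha k).1, fun σ hσ => (ha k).2 σ hσ (hfixϖ σ)⟩, hsum⟩
  choose a haP hasum using hdec
  -- the equivariant pieces
  let g : Fin (H.relIndex (P.inertiaSubgroupIn ℚ)) → V → Qb := fun k => ∑ i, a i k • b i
  have hgrepr : ∀ k j, b.repr (g k) j = a j k := fun k j =>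
    congrFun (b.repr_sum_self (fun i => a i k)) j
  have hgB : ∀ k, g k ∈ B := fun k => (hmem _).mpr fun j => by
    rw [hgrepr]
    exact (haP j k).1
  have hgeq : ∀ k, Equivar (P.inertiaSubgroupIn ℚ) act (g k) := by
    intro k σ hσ v
    show (∑ i, a i k • b i) (act σ v) = σ ((∑ i, a i k • b i) v)
    rw [Finset.sum_apply, Finset.sum_apply, map_sum]
    refine Finset.sum_congr rfl fun i _ => ?_
    rw [Pi.smul_apply, Pi.smul_apply, smul_eq_mul, smul_eq_mul, map_mul, (haP i k).2 σ hσ,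
      hb i σ hσ]
  have hψsum : (ψ : V → Qb) = ∑ k : Fin (H.relIndex (P.inertiaSubgroupIn ℚ)), Pu ^ (k : ℕ) • g k := by
    conv_lhs => rw [← b.sum_repr (ψ : V → Qb)]
    show ∑ i, b.repr (ψ : V → Qb) i • b i =
      ∑ k : Fin (H.relIndex (P.inertiaSubgroupIn ℚ)), Pu ^ (k : ℕ) • ∑ i, a i k • b i
    simp only [Finset.smul_sum]
    rw [Finset.sum_comm]
    refine Finset.sum_congr rfl fun i _ => ?_
    rw [hasum i, Finset.sum_smul]
    refine Finset.sum_congr rfl fun k _ => ?_
    rw [smul_smul, mul_comm]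
  -- the averaging operator and its matrix
  have hinj : ∀ σ ∈ P.inertiaSubgroupIn ℚ, Function.Injective (act σ) := fun σ hσ =>
    Finite.injective_iff_surjective.mpr (hsurj σ hσ)
  have hact0 : ∀ σ ∈ P.inertiaSubgroupIn ℚ, act σ 0 = 0 := by
    intro σ hσ
    have h := hadd σ hσ 0 0
    rw [add_zero] at h
    exact left_eq_add.mp h
  have hLst : ∀ σ ∈ P.inertiaSubgroupIn ℚ, ∀ l ∈ L, act σ l ∈ L := by
    intro σ hσ l hl
    have := L.add_mem (hL σ hσ l) hl
    rwa [sub_add_cancel] at this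
  have hAvb : ∀ i, Equivar (P.inertiaSubgroupIn ℚ) act (avL L (b i)) := fun i =>
    avL_equivar L (hb i) hadd hinj hLst
  have hmfix : ∀ j i, ∀ σ ∈ P.inertiaSubgroupIn ℚ,
      σ (b.repr (avL L (b i)) j) = b.repr (avL L (b i)) j := fun j i σ hσ =>
    repr_fixed_of_equivar b hb hsurj (hAvb i) hσ j
  have hψinv : ∀ l ∈ L, ∀ v, ψ (v + l) = ψ v := by
    intro l hl v
    rw [AddChar.map_add_eq_mul, hψL l hl, mul_one]
  have hAvψ : avL L (ψ : V → Qb) = (Fintype.card L : Qb) • (ψ : V → Qb) :=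
    avL_of_invariant L hψinv
  have hreprAv : ∀ (c : ι → Qb) (j : ι),
      b.repr (avL L (∑ i, c i • b i)) j = ∑ i, b.repr (avL L (b i)) j * c i := by
    intro c j
    rw [map_sum, map_sum, Finsupp.coe_finsetSum, Finset.sum_apply]
    refine Finset.sum_congr rfl fun i _ => ?_
    rw [map_smul, map_smul, Finsupp.coe_smul, Pi.smul_apply, smul_eq_mul, mul_comm]
  have hcoord : ∀ j, ∑ i, b.repr (avL L (b i)) j * b.repr (ψ : V → Qb) i =
      (Fintype.card L : Qb) * b.repr (ψ : V → Qb) j := by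
    intro j
    have h1 := hreprAv (fun i => b.repr (ψ : V → Qb) i) j
    rw [b.sum_repr, hAvψ, map_smul, Finsupp.coe_smul, Pi.smul_apply, smul_eq_mul] at h1
    exact h1.symm
  have hd : ∀ j k, ∑ i, b.repr (avL L (b i)) j * a i k = (Fintype.card L : Qb) * a j k := by
    intro j
    have hfix : ∀ k, ∀ σ ∈ P.inertiaSubgroupIn ℚ, σ (-(p : Qb)) = -(p : Qb) →
        σ (∑ i, b.repr (avL L (b i)) j * a i k - (Fintype.card L : Qb) * a j k) =
          ∑ i, b.repr (avL L (b i)) j * a i k - (Fintype.card L : Qb) * a j k := by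
      intro k σ hσ _
      rw [map_sub, map_sum, map_mul, map_natCast, (haP j k).2 σ hσ]
      congr 1
      refine Finset.sum_congr rfl fun i _ => ?_
      rw [map_mul, hmfix j i σ hσ, (haP i k).2 σ hσ]
    have hzero : ∑ k, (∑ i, b.repr (avL L (b i)) j * a i k - (Fintype.card L : Qb) * a j k) *
        Pu ^ (k : ℕ) = 0 := by
      have h1 : ∑ k, (∑ i, b.repr (avL L (b i)) j * a i k - (Fintype.card L : Qb) * a j k) *
          Pu ^ (k : ℕ) = ∑ i, b.repr (avL L (b i)) j * (∑ k, a i k * Pu ^ (k : ℕ)) -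
            (Fintype.card L : Qb) * ∑ k, a j k * Pu ^ (k : ℕ) := by
        simp only [sub_mul, Finset.sum_sub_distrib, Finset.sum_mul, Finset.mul_sum]
        rw [Finset.sum_comm]
        congr 1
        · refine Finset.sum_congr rfl fun i _ => Finset.sum_congr rfl fun k _ => ?_
          ring
        · refine Finset.sum_congr rfl fun k _ => ?_
          ring
      rw [h1]
      simp only [← hasum]
      rw [hcoord j, sub_self]
    have h := hind _ hfix hzero
    intro k
    exact sub_eq_zero.mp (h k)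
  have hAvg : ∀ k, avL L (g k) = (Fintype.card L : Qb) • g k := by
    intro k
    apply b.repr.injective
    ext j
    rw [show g k = ∑ i, a i k • b i from rfl, hreprAv (fun i => a i k) j, hd j k, map_smul,
      Finsupp.coe_smul, Pi.smul_apply, smul_eq_mul]
    congr 1
    exact (congrFun (b.repr_sum_self (fun i => a i k)) j).symm
  have hcard0 : (Fintype.card L : Qb) ≠ 0 := Nat.cast_ne_zero.mpr Fintype.card_ne_zero
  have hginv : ∀ k, ∀ l ∈ L, ∀ v, g k (v + l) = g k v := by
    intro k l hl v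
    have h1 : g k = (Fintype.card L : Qb)⁻¹ • avL L (g k) := by
      rw [hAvg k, smul_smul, inv_mul_cancel₀ hcard0, one_smul]
    rw [h1, Pi.smul_apply, Pi.smul_apply, avL_invariant L (g k) ⟨l, hl⟩ v]
  -- the values at `v₀` and `0` differ by multiples of `p`
  have hdiv : ∀ k, ∃ t ∈ P, g k v₀ - g k 0 = (p : Qb) * t := by
    intro k
    refine exists_eq_mul_of_inertia_fixed hp P hP (fun σ hσ => ?_)
      (hB.sub_mem_nonunits_of_mem_conn (hgB k) (by rw [sub_zero]; exact hconn v₀))
    rw [map_sub, ← hgeq k σ hσ, ← hgeq k σ hσ, hact0 σ hσ]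
    congr 1
    have h := hginv k _ (hL σ hσ v₀) v₀
    rw [add_sub_cancel] at h
    exact h
  choose t ht htv using hdiv
  apply sub_one_not_mul_prime hp hp2 hP (ζ := ψ v₀) hv₀p hv₀
  refine ⟨∑ k : Fin (H.relIndex (P.inertiaSubgroupIn ℚ)), Pu ^ (k : ℕ) * t k,
    P.toSubring.sum_mem fun k _ => P.mul_mem _ _ (P.pow_mem hPuP _) (ht k), ?_⟩
  have e1 := congrFun hψsum v₀
  have e2 := congrFun hψsum 0
  rw [Finset.sum_apply] at e1 e2
  rw [AddChar.map_zero_eq_one] at e2
  rw [e1, e2, ← Finset.sum_sub_distrib, Finset.mul_sum]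
  refine Finset.sum_congr rfl fun k _ => ?_
  rw [Pi.smul_apply, Pi.smul_apply, smul_eq_mul, smul_eq_mul, ← mul_sub, htv k]
  ring

end Fermat.Agent.Padic.S33.RC.NCPlus
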