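/-
S33 / Route C, row S33-NC+ (helper42), part (b): the strengthened statement (NCg+) on
`J₀(N)(ℚ̄)` from small local orders on the finite subgroups of `Kr`.

`ncgPlus_of_smallOrders : SmallOrders A N Kr → NCgPlus A Kr`
(`SmallOrders` of `RC/SmallOrder.lean`, `NCgPlus` of `PkgOfGeoPull.lean`): there are no finite
subgroups `L ⊊ V ⊆ Kr` with the inertia group of `A` acting trivially on `V / L`.  No hypothesis on
the action on `L`, no `p`-torsion hypothesis.
-/
import Mathlib
import Fermat.Agent.Padic.S33.RC.NCPlus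
import Fermat.Agent.Padic.S33.RC.SmallOrder
import Fermat.Agent.Padic.S33.PkgOfGeoPull

set_option autoImplicit false

namespace Fermat.Agent.Padic.S33.RC.NCPlus

open Fermat.Agent.Lib.FinFlat ModularCurve AlgebraicCurve

local notation "Qb" => AlgebraicClosure ℚ
local notation "GQ" => (AlgebraicClosure ℚ ≃ₐ[ℚ] AlgebraicClosure ℚ)

/-- **(NCg+)** from small local orders: a finite subgroup `V ≤ Kr` on which the inertia group acts
trivially modulo a subgroup `L` is equal to `L`. -/
theorem ncgPlus_of_smallOrders {p N : ℕ} [NeZero N] (hp : p.Prime) (hp2 : p ≠ 2)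
    {A : ValuationSubring Qb} (hA : A.LiesOverPrime p) (Kr : AddSubgroup (JZero N))
    (h : SmallOrders A N Kr) : NCgPlus A Kr := by
  intro V L hLV hVK hfinV hquot
  have hstab : ∀ σ ∈ A.inertiaSubgroupIn ℚ, ∀ v ∈ V, σ • v ∈ V := by
    intro σ hσ v hv
    have h1 := V.add_mem (hLV (hquot σ hσ v hv)) hv
    rwa [sub_add_cancel] at h1
  obtain ⟨s, hsfin, hs, hsep, hcomul, hsmall⟩ := h V hfinV hVK hstab
  have hsm : HasSmallOrder A V (inertiaAct A V hstab) :=
    ⟨s, hsfin, fun f hf => ⟨(hs f hf).1, fun σ hσ v =>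
      (hs f hf).2 σ hσ v _ (coe_inertiaAct A V hstab hσ v)⟩, hsep, hcomul, hsmall⟩
  obtain ⟨B, hB, htop⟩ := exists_isPOrder_of_small hsm
  have hinj : ∀ σ ∈ A.inertiaSubgroupIn ℚ, Function.Injective (inertiaAct A V hstab σ) := by
    intro σ hσ v w hvw
    refine Subtype.ext ?_
    have h1 := congrArg Subtype.val hvw
    rw [coe_inertiaAct A V hstab hσ, coe_inertiaAct A V hstab hσ] at h1
    exact MulAction.injective σ h1
  have key := mem_of_conn_eq_top hp hp2 hA hB
    (fun σ hσ v w => Subtype.ext (by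
      rw [AddSubgroup.coe_add, coe_inertiaAct A V hstab hσ, coe_inertiaAct A V hstab hσ,
        coe_inertiaAct A V hstab hσ, AddSubgroup.coe_add, smul_add]))
    (fun σ hσ => Finite.injective_iff_surjective.mp (hinj σ hσ)) htop
    (L.comap V.subtype)
    (fun σ hσ v => by
      rw [AddSubgroup.mem_comap]
      show ((inertiaAct A V hstab σ v - v : V) : JZero N) ∈ L
      rw [AddSubgroup.coe_sub, coe_inertiaAct A V hstab hσ]
      exact hquot σ hσ v v.2)
  intro x hx
  exact key ⟨x, hx⟩

end Fermat.Agent.Padic.S33.RC.NCPlus
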