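/-
S33 / Route C (RC-5): the lattice form of the assembly for an ARBITRARY residue map.

`OrthoAsm.exists_smallOrder_of_ortho` is stated for the canonical residue map
`IsLocalRing.residue A`.  Here the reduction data `PRed A O red π` is allowed to have any
surjective `π : A →+* k` (as in the `BAD` files): `k` is identified with the residue field of
`A`, and the special facts are transported along this identification.

* `specFacts_restrictScalars` : `SpecFacts` is invariant under restriction of scalars along a
  bijective homomorphism of fields;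
* `exists_smallOrder_of_orthoK` : **(RC-5), lattice form, general `π`.**
-/
import Mathlib
import Fermat.Agent.Padic.S33.RC.OrthoAsm

set_option autoImplicit false
set_option linter.style.haveILetI false

noncomputable section

namespace Fermat.Agent.Padic.S33.RC.OrthoFam

open AlgebraicCurve Module
open Fermat.Agent.BAD.Ortho Fermat.Agent.Lib.Red.Deform
open Fermat.Agent.Lib.FF Fermat.Agent.Padic Fermat.Agent.Padic.KMAdd
  Fermat.Agent.Padic.S33.RC

section Transport

variable {k' k Ft : Type*} [Field k'] [Field k] [CommRing Ft] [Algebra k' k] [Algebra k Ft]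
  [Algebra k' Ft] [IsScalarTower k' k Ft]

/-- The rank of a subspace does not change under restriction of scalars along a bijection. -/
theorem finrank_restrictScalars_of_bijective (hbij : Function.Bijective (algebraMap k' k))
    (S : Submodule k Ft) : finrank k' ↥(S.restrictScalars k') = finrank k ↥S := by
  have h1 : Module.rank k' ↥(S.restrictScalars k') = Module.rank k ↥S :=
    rank_eq_of_equiv_equiv (algebraMap k' k)
      (Submodule.restrictScalarsEquiv k' k Ft S).toAddEquiv hbij
      (fun r m => Subtype.ext (algebraMap_smul k r (m : Ft)).symm)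
  unfold finrank
  rw [h1]

/-- `SpecFacts` is invariant under restriction of scalars along a bijective homomorphism. -/
theorem specFacts_restrictScalars (hbij : Function.Bijective (algebraMap k' k))
    {G₁ G₁B G₂B : Submodule k Ft} {m : ℤ} (hf : SpecFacts G₁ G₁B G₂B m) :
    SpecFacts (G₁.restrictScalars k') (G₁B.restrictScalars k') (G₂B.restrictScalars k') m := by
  have hmul : G₁B.restrictScalars k' * G₁B.restrictScalars k' =
      (G₁B * G₁B).restrictScalars k' := rfl
  refine ⟨fun x hx => hf.le hx, ?_, ?_, ?_, ?_⟩
  · rw [hmul]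
    exact fun x hx => hf.mul_le hx
  · rw [hmul, finrank_restrictScalars_of_bijective hbij]
    exact hf.finrank_mul
  · obtain ⟨u, hu, hreg, huniq⟩ := hf.exists_regular
    refine ⟨u, hu, hreg, fun v hv hall => ?_⟩
    obtain ⟨cst, hcst⟩ := huniq v hv (fun u' hu' => hall u' hu')
    obtain ⟨c', rfl⟩ := hbij.2 cst
    exact ⟨c', by rw [hcst, algebraMap_smul]⟩
  · intro f hf1 hall
    exact hf.colon f hf1 (fun y hy => hall y hy)

end Transport

variable {F : Type*} [Field F] [Algebra Qb F] {A : ValuationSubring Qb} {O : Subring F}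
  {k : Type*} [Field k] {Ft : Type*} [CommRing Ft] [Algebra k Ft] {red : O →+* Ft}
  {π : A →+* k}

/-- **(RC-5), lattice form, general residue map.**  A small local order on `(V, act)` from
orthonormal bases for the pair `(A, O)`, the special facts on the reductions, and the divisors
`D v`; the reduction data may use any surjective `π : A →+* k`. -/
theorem exists_smallOrder_of_orthoK {V : Type} [AddCommGroup V] [Finite V] (act : GQ → V → V)
    [Nontrivial Ft] {x : F} (hF : IsFF1 Qb F x)
    (h : PRed A O red π)
    (hlat : ∀ D : Divisor Qb F,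
      Fermat.Agent.Lib.Red.CoordLat.HasOrtho A O (riemannRochSpace D))
    (E B : Divisor Qb F)
    (n : ℤ) (hn : 5 * (genusFF Qb F : ℤ) + 1 ≤ n)
    (hE : Divisor.degree E = n) (hB : Divisor.degree B = genusFF Qb F)
    {I₁ : Type} [Fintype I₁] [DecidableEq I₁] (b₁ : I₁ → F) (hb₁ : IsOrtho A O b₁)
    (hs₁ : Submodule.span Qb (Set.range b₁) = riemannRochSpace E)
    (hfacts : SpecFacts (h.redSub (riemannRochSpace E)) (h.redSub (riemannRochSpace (E - B)))
      (h.redSub (riemannRochSpace (2 • E - B))) (2 * n - 3 * genusFF Qb F + 1))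
    (D : V → Divisor Qb F) (hDnn : ∀ v, 0 ≤ D v)
    (hD : ∀ v w, KMTriple Qb F B (D v) (D w) (D (v + w)))
    (hred : ∀ v, h.redSub (riemannRochSpace (E - D v)) = h.redSub (riemannRochSpace (E - B)))
    (heqv : ∀ σ ∈ A.inertiaSubgroupIn ℚ, ∀ v, ∀ w : I₁ → Qb,
      ∑ i, w i • b₁ i ∈ riemannRochSpace (E - D v) →
      ∑ i, σ (w i) • b₁ i ∈ riemannRochSpace (E - D (act σ v)))
    (hsep : ∀ v w, riemannRochSpace (E - D v) = riemannRochSpace (E - D w) → v = w) :
    ∃ s : Set (V → Qb), s.Finite ∧
      (∀ f ∈ s, (∀ v, f v ∈ A) ∧ ∀ σ ∈ A.inertiaSubgroupIn ℚ, ∀ v, f (act σ v) = σ (f v)) ∧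
      (∀ v w : V, (∀ f ∈ s, f v = f w) → v = w) ∧
      (∀ f ∈ s, ∃ (n : ℕ) (g h : Fin n → Algebra.adjoin A s), ∀ v w : V,
        f (v + w) = ∑ i, (g i : V → Qb) v * (h i : V → Qb) w) ∧
      ∀ f ∈ s, ∀ v : V, A.valuation (f v - f 0) < 1 := by
  classical
  -- the identification of the residue field of `A` with `k`
  haveI hloc : IsLocalHom π := ⟨fun a ha => by
    by_contra hna
    have hlt : A.valuation (a : Qb) < 1 := by
      refine lt_of_le_of_ne (A.valuation_le_one a) (fun h1 => hna ?_)
      exact (ValuationSubring.valuation_eq_one_iff A a).mpr h1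
    exact ha.ne_zero ((h.hπ a).2 hlt)⟩
  let ι : IsLocalRing.ResidueField A →+* k := IsLocalRing.ResidueField.lift π
  have hι : ∀ a : A, ι (IsLocalRing.residue A a) = π a := fun a =>
    IsLocalRing.ResidueField.lift_residue_apply π a
  have hbij : Function.Bijective ι :=
    ⟨ι.injective, fun c => by
      obtain ⟨a, rfl⟩ := h.hπsurj c
      exact ⟨_, hι a⟩⟩
  letI : Algebra (IsLocalRing.ResidueField A) k := ι.toAlgebra
  letI : Algebra (IsLocalRing.ResidueField A) Ft := ((algebraMap k Ft).comp ι).toAlgebra
  haveI : IsScalarTower (IsLocalRing.ResidueField A) k Ft :=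
    IsScalarTower.of_algebraMap_eq (fun _ => rfl)
  have h' : PRed A O red (IsLocalRing.residue A) :=
    { hπsurj := IsLocalRing.residue_surjective
      hπ := fun a => by
        rw [← h.hπ a, ← hι a]
        exact (map_eq_zero_iff ι ι.injective).symm
      hOA := h.hOA
      hker := h.hker
      hredconst := fun c => by
        rw [h.hredconst c]
        show algebraMap k Ft (π c) = algebraMap k Ft (ι (IsLocalRing.residue A c))
        rw [hι] }
  have hrs : ∀ W : Submodule Qb F,
      h'.redSub W = (h.redSub W).restrictScalars (IsLocalRing.ResidueField A) :=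
    fun W => Submodule.ext fun _ => Iff.rfl
  refine exists_smallOrder_of_ortho act hF h' hlat E B n hn hE hB b₁ hb₁ hs₁ ?_ D hDnn hD ?_
    heqv hsep
  · rw [hrs, hrs, hrs]
    exact specFacts_restrictScalars hbij hfacts
  · intro v
    rw [hrs, hrs, hred v]

end Fermat.Agent.Padic.S33.RC.OrthoFam
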