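/-
S33 / Route C (RC-2 (H)): the lattice-level instance of `BAD/HenselChar.Hyp` in the abstract
nodal setting.

Setting of `Lib/Red/Deform` + `CoordOrtho` (`L ⊆ F` a function field, `A` a valuation subring of
`L`, `O` a subring of `F` with `O ∩ L = A`, `red : O →+* Ft` with kernel the small elements) and
an effective divisor `E` of `F`.

* `chartAlg E hE : Subalgebra L F` : the chart ring `R = ⋃_N L(N • E)`;
  `chartInt E hE O : Subring (chartAlg E hE)` : its integral elements `RA = R ∩ O`;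
  `intO : RA →+* O`; `evHom red pr Q hreg : RA →+* k` : the value at the place `Q` of the
  `pr`-component of the reduction (`cong_evHom`).
* `hyp_of_point_data` (abstract core): from the reduced charts `red Λ(N • E) = G N` (`N > 0`) and
  the point data `ut`, `wt` on the special fibre (non-zero-divisor `ut` vanishing at `Q`, `wt` with a
  pole at `Q`, `(ut wt)(Q) = 1`, (LOC) and (FG) on the `G N`): for EVERY lift `u ∈ Λ(m • E)` of `ut`
  there is `e ∈ RA` with `HenselChar.Hyp π RA _ (evHom …) u e`.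
* `exists_hyp_fst` / `exists_hyp_snd` : the nodal instance (`Ft = F₁ × F₂`,
  `G N = gluedSpace e₁ e₂ 1 (N • D₁) (N • D₂)`, `Q` a non-node point of component 1 / 2 off the
  support of `D_j`), the point data being supplied by `NodalPoint.exists_point_data_fst/snd`.
* `diag_charts` : the diagonal charts `N • (M • (E1 + E2))` of a two-parameter nodal datum.
-/
import Mathlib
import Fermat.Agent.BAD.HenselChar
import Fermat.Agent.Lib.Red.CoordOrtho
import Fermat.Agent.Padic.S33.RC.NodalPoint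

set_option autoImplicit false

noncomputable section

namespace Fermat.Agent.Padic.S33.RC.PointLat

open AlgebraicCurve WithZero
open Fermat.Agent.Lib.FF Fermat.Agent.Lib.Red.Deform Fermat.Agent.Lib.Red.CoordLat
  Fermat.Agent.BAD.NodalRiemann Fermat.Agent.BAD.HenselChar

/-! ### The chart ring -/

section Chart

variable {L F : Type*} [Field L] [Field F] [Algebra L F]

theorem nsmul_mono_of_nonneg {E : Divisor L F} (hE : 0 ≤ E) {N N' : ℕ} (h : N ≤ N') :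
    N • E ≤ N' • E := by
  refine Finsupp.le_def.mpr fun v => ?_
  rw [Finsupp.smul_apply, Finsupp.smul_apply, nsmul_eq_mul, nsmul_eq_mul]
  have h0 : (0 : ℤ) ≤ E v := Finsupp.le_def.mp hE v
  have h1 : (N : ℤ) ≤ (N' : ℤ) := by exact_mod_cast h
  exact mul_le_mul_of_nonneg_right h1 h0

theorem mem_L_nsmul_mono {E : Divisor L F} (hE : 0 ≤ E) {N N' : ℕ} (h : N ≤ N') {y : F}
    (hy : y ∈ riemannRochSpace (N • E)) : y ∈ riemannRochSpace (N' • E) :=
  fun v => (hy v).trans (exp_le_exp.mpr (Finsupp.le_def.mp (nsmul_mono_of_nonneg hE h) v))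

theorem mul_mem_L_nsmul {E : Divisor L F} {N N' : ℕ} {y z : F}
    (hy : y ∈ riemannRochSpace (N • E)) (hz : z ∈ riemannRochSpace (N' • E)) :
    y * z ∈ riemannRochSpace ((N + N') • E) := by
  intro v
  rw [add_smul, map_mul, Finsupp.add_apply, exp_add]
  exact mul_le_mul' (hy v) (hz v)

/-- The chart ring `⋃_N L(N • E)` of an effective divisor `E`. -/
def chartAlg (E : Divisor L F) (hE : 0 ≤ E) : Subalgebra L F where
  carrier := {y | ∃ N : ℕ, y ∈ riemannRochSpace (N • E)}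
  mul_mem' := by
    rintro a b ⟨N, ha⟩ ⟨N', hb⟩
    exact ⟨N + N', mul_mem_L_nsmul ha hb⟩
  add_mem' := by
    rintro a b ⟨N, ha⟩ ⟨N', hb⟩
    exact ⟨N + N', add_mem (mem_L_nsmul_mono hE (Nat.le_add_right N N') ha)
      (mem_L_nsmul_mono hE (Nat.le_add_left N' N) hb)⟩
  algebraMap_mem' := fun c => ⟨0, fun v => by
    rw [zero_smul, Finsupp.zero_apply, exp_zero]
    exact v.adicValuation_algebraMap_le_one c⟩

theorem mem_chartAlg {E : Divisor L F} {hE : 0 ≤ E} {y : F} :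
    y ∈ chartAlg E hE ↔ ∃ N : ℕ, y ∈ riemannRochSpace (N • E) := Iff.rfl

/-- The integral elements of the chart ring. -/
def chartInt (E : Divisor L F) (hE : 0 ≤ E) (O : Subring F) : Subring (chartAlg E hE) :=
  O.comap (chartAlg E hE).val.toRingHom

theorem mem_chartInt {E : Divisor L F} {hE : 0 ≤ E} {O : Subring F} {y : chartAlg E hE} :
    y ∈ chartInt E hE O ↔ (y : F) ∈ O := Iff.rfl

/-- The inclusion of the integral chart ring into `F`. -/
def intF (E : Divisor L F) (hE : 0 ≤ E) (O : Subring F) : chartInt E hE O →+* F :=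
  (chartAlg E hE).val.toRingHom.comp (chartInt E hE O).subtype

theorem intF_apply {E : Divisor L F} {hE : 0 ≤ E} {O : Subring F} (y : chartInt E hE O) :
    intF E hE O y = ((y : chartAlg E hE) : F) := rfl

theorem intF_injective (E : Divisor L F) (hE : 0 ≤ E) (O : Subring F) :
    Function.Injective (intF E hE O) := fun _ _ h => Subtype.ext (Subtype.ext h)

theorem intF_mem {E : Divisor L F} {hE : 0 ≤ E} {O : Subring F} (y : chartInt E hE O) :
    intF E hE O y ∈ O := y.2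

theorem intF_mem_L {E : Divisor L F} {hE : 0 ≤ E} {O : Subring F} (y : chartInt E hE O) :
    ∃ N : ℕ, intF E hE O y ∈ riemannRochSpace (N • E) := (y : chartAlg E hE).2

/-- The inclusion of the integral chart ring into `O`. -/
def intO (E : Divisor L F) (hE : 0 ≤ E) (O : Subring F) : chartInt E hE O →+* O :=
  (intF E hE O).codRestrict O intF_mem

@[simp]
theorem coe_intO {E : Divisor L F} {hE : 0 ≤ E} {O : Subring F} (y : chartInt E hE O) :
    ((intO E hE O y : O) : F) = ((y : chartAlg E hE) : F) := rfl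

/-- An element of `O ∩ ⋃ L(N • E)` as an element of the integral chart ring. -/
def mkInt (E : Divisor L F) (hE : 0 ≤ E) (O : Subring F) (y : F) (hyO : y ∈ O)
    (hy : ∃ N : ℕ, y ∈ riemannRochSpace (N • E)) : chartInt E hE O :=
  ⟨⟨y, hy⟩, hyO⟩

@[simp]
theorem intF_mkInt {E : Divisor L F} {hE : 0 ≤ E} {O : Subring F} (y : F) (hyO : y ∈ O)
    (hy : ∃ N : ℕ, y ∈ riemannRochSpace (N • E)) : intF E hE O (mkInt E hE O y hyO hy) = y := rfl

theorem intO_mkInt {E : Divisor L F} {hE : 0 ≤ E} {O : Subring F} (y : F) (hyO : y ∈ O)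
    (hy : ∃ N : ℕ, y ∈ riemannRochSpace (N • E)) :
    intO E hE O (mkInt E hE O y hyO hy) = ⟨y, hyO⟩ := rfl

theorem algebraMap_mem_chartInt {A : ValuationSubring L} {O : Subring F}
    (hOA : ∀ x : L, algebraMap L F x ∈ O ↔ x ∈ A) (E : Divisor L F) (hE : 0 ≤ E) (a : A) :
    algebraMap L (chartAlg E hE) (a : L) ∈ chartInt E hE O :=
  (hOA _).2 a.2

theorem intF_cA {A : ValuationSubring L} {O : Subring F}
    (hOA : ∀ x : L, algebraMap L F x ∈ O ↔ x ∈ A) (E : Divisor L F) (hE : 0 ≤ E) (a : A) :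
    intF E hE O (cA (chartInt E hE O) (algebraMap_mem_chartInt hOA E hE) a) =
      algebraMap L F (a : L) := rfl

end Chart

/-! ### Values at a place -/

section Value

variable {k Fj : Type*} [Field k] [Field Fj] [Algebra k Fj]

open Classical in
/-- The value of `f` at the place `Q` (junk value `0` if `f` is not regular at `Q`). -/
def valAt (Q : Place k Fj) (f : Fj) : k :=
  if h : ∃ c : k, Cong Q f c then h.choose else 0

theorem valAt_eq {Q : Place k Fj} {f : Fj} {c : k} (h : Cong Q f c) : valAt Q f = c := by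
  classical
  have h' : ∃ c : k, Cong Q f c := ⟨c, h⟩
  unfold valAt
  rw [dif_pos h']
  exact h'.choose_spec.unique h

theorem cong_valAt {Q : Place k Fj} {f : Fj} (h : ∃ c : k, Cong Q f c) : Cong Q f (valAt Q f) := by
  obtain ⟨c, hc⟩ := h
  rw [valAt_eq hc]
  exact hc

theorem cong_one' (Q : Place k Fj) : Cong Q (1 : Fj) (1 : k) := by
  have h := cong_algebraMap Q (1 : k)
  rwa [map_one] at h

end Value

/-! ### Lattices -/

section Lattice

variable {L F : Type*} [Field L] [Field F] [Algebra L F] {A : ValuationSubring L} {O : Subring F}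

theorem valSubring_smul_eq (a : A) (y : F) : a • y = algebraMap L F (a : L) * y := by
  rw [Algebra.smul_def]
  rfl

/-- The lattice `V ∩ O` as an `A`-module. -/
def latSub (hOA : ∀ x : L, algebraMap L F x ∈ O ↔ x ∈ A) (V : Submodule L F) : Submodule A F where
  carrier := {y | y ∈ O ∧ y ∈ V}
  add_mem' := fun ha hb => ⟨O.add_mem ha.1 hb.1, V.add_mem ha.2 hb.2⟩
  zero_mem' := ⟨O.zero_mem, V.zero_mem⟩
  smul_mem' := fun a y hy => by
    show a • y ∈ O ∧ a • y ∈ V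
    rw [valSubring_smul_eq]
    refine ⟨O.mul_mem ((hOA _).2 a.2) hy.1, ?_⟩
    rw [← Algebra.smul_def]
    exact V.smul_mem _ hy.2

theorem mem_latSub (hOA : ∀ x : L, algebraMap L F x ∈ O ↔ x ∈ A) {V : Submodule L F} {y : F} :
    y ∈ latSub hOA V ↔ y ∈ O ∧ y ∈ V := Iff.rfl

/-- Coordinates in an orthonormal basis are integral. -/
theorem exists_coeffs {V : Submodule L F} {n : ℕ} {b : Fin n → F}
    (hspan : Submodule.span L (Set.range b) = V)
    (hint : ∀ c : Fin n → L, ∑ i, c i • b i ∈ O → ∀ i, c i ∈ A) {y : F} (hyO : y ∈ O)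
    (hyV : y ∈ V) : ∃ c : Fin n → A, y = ∑ i, algebraMap L F (c i : L) * b i := by
  rw [← hspan] at hyV
  obtain ⟨c, rfl⟩ := (Submodule.mem_span_range_iff_exists_fun L).1 hyV
  have hc := hint c hyO
  refine ⟨fun i => ⟨c i, hc i⟩, Finset.sum_congr rfl fun i _ => ?_⟩
  rw [Algebra.smul_def]

theorem latSub_fg (hOA : ∀ x : L, algebraMap L F x ∈ O ↔ x ∈ A) {V : Submodule L F}
    (h : HasOrtho A O V) : (latSub hOA V).FG := by
  obtain ⟨n, b, -, hspan, hbO, hint⟩ := h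
  have e : latSub hOA V = Submodule.span A (Set.range b) := by
    apply le_antisymm
    · rintro y ⟨hyO, hyV⟩
      obtain ⟨c, rfl⟩ := exists_coeffs hspan hint hyO hyV
      refine Submodule.sum_mem _ fun i _ => ?_
      rw [← valSubring_smul_eq]
      exact Submodule.smul_mem _ _ (Submodule.subset_span ⟨i, rfl⟩)
    · rw [Submodule.span_le]
      rintro _ ⟨i, rfl⟩
      exact ⟨hbO i, hspan ▸ Submodule.subset_span ⟨i, rfl⟩⟩
  rw [e]
  exact Submodule.fg_span (Set.finite_range b)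

/-- A small element of `V` is `a · o` with `a ∈ 𝔪_A` and `o ∈ V ∩ O`. -/
theorem exists_dvd_of_small {V : Submodule L F} {x : F} (hx : x ∈ V) (h : Small A O x) :
    ∃ a : A, a ∈ IsLocalRing.maximalIdeal A ∧ ∃ o : F, o ∈ O ∧ o ∈ V ∧
      x = algebraMap L F (a : L) * o := by
  obtain ⟨a, ha, o, ho, rfl⟩ := h
  have haA : a ∈ A := (A.valuation_le_one_iff a).1 ha.le
  refine ⟨⟨a, haA⟩, (A.valuation_lt_one_iff _).2 ha, ?_⟩
  by_cases ha0 : a = 0
  · refine ⟨0, O.zero_mem, V.zero_mem, ?_⟩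
    subst ha0
    simp
  · refine ⟨o, ho, ?_, rfl⟩
    have e : o = a⁻¹ • (algebraMap L F a * o) := by
      rw [Algebra.smul_def, ← mul_assoc, ← map_mul, inv_mul_cancel₀ ha0, map_one, one_mul]
    rw [e]
    exact V.smul_mem _ hx

end Lattice

/-! ### The abstract core -/

section Core

variable {L F : Type*} [Field L] [Field F] [Algebra L F] {A : ValuationSubring L} {O : Subring F}
  {k Ft Fj : Type*} [Field k] [CommRing Ft] [Algebra k Ft] [Field Fj] [Algebra k Fj]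

/-- The value at `Q` of the `pr`-component of the reduction, on the integral chart ring. -/
def evHom {E : Divisor L F} {hE : 0 ≤ E} (red : O →+* Ft) (pr : Ft →+* Fj) (Q : Place k Fj)
    (hreg : ∀ y : chartInt E hE O, ∃ c : k, Cong Q (pr (red (intO E hE O y))) c) :
    chartInt E hE O →+* k where
  toFun y := valAt Q (pr (red (intO E hE O y)))
  map_one' := valAt_eq (by
    rw [map_one, map_one, map_one]
    exact cong_one' Q)
  map_mul' y z := by
    obtain ⟨c, hc⟩ := hreg y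
    obtain ⟨d, hd⟩ := hreg z
    rw [valAt_eq hc, valAt_eq hd]
    refine valAt_eq ?_
    rw [map_mul, map_mul, map_mul]
    exact hc.mul hd
  map_zero' := valAt_eq (by
    rw [map_zero, map_zero, map_zero]
    exact cong_zero Q)
  map_add' y z := by
    obtain ⟨c, hc⟩ := hreg y
    obtain ⟨d, hd⟩ := hreg z
    rw [valAt_eq hc, valAt_eq hd]
    refine valAt_eq ?_
    rw [map_add, map_add, map_add]
    exact hc.add hd

omit [Algebra k Ft] in
theorem evHom_apply {E : Divisor L F} {hE : 0 ≤ E} (red : O →+* Ft) (pr : Ft →+* Fj)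
    (Q : Place k Fj)
    (hreg : ∀ y : chartInt E hE O, ∃ c : k, Cong Q (pr (red (intO E hE O y))) c)
    (y : chartInt E hE O) :
    evHom red pr Q hreg y = valAt Q (pr (red (intO E hE O y))) := rfl

omit [Algebra k Ft] in
/-- `evHom` is the value at `Q`. -/
theorem cong_evHom {E : Divisor L F} {hE : 0 ≤ E} (red : O →+* Ft) (pr : Ft →+* Fj)
    (Q : Place k Fj)
    (hreg : ∀ y : chartInt E hE O, ∃ c : k, Cong Q (pr (red (intO E hE O y))) c)
    (y : chartInt E hE O) :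
    Cong Q (pr (red (intO E hE O y))) (evHom red pr Q hreg y) :=
  cong_valAt (hreg y)

/-- (SAT): an element whose reduction is a non-zero-divisor divides in `O` only elements
of `O`. -/
theorem mem_of_mul_mem_O (hOA : ∀ x : L, algebraMap L F x ∈ O ↔ x ∈ A)
    (hval : ∀ y : F, y ≠ 0 → ∃ c : L, c ≠ 0 ∧ algebraMap L F c * y ∈ O ∧
      ¬ Small A O (algebraMap L F c * y))
    (red : O →+* Ft) (π : A →+* k)
    (hπker : ∀ a : A, π a = 0 ↔ A.valuation (a : L) < 1)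
    (hconst : ∀ a : A, red ⟨algebraMap L F (a : L), (hOA _).2 a.2⟩ = algebraMap k Ft (π a))
    (hker : ∀ y : O, red y = 0 ↔ Small A O (y : F))
    {u : O} (hnzd : ∀ t : Ft, red u * t = 0 → t = 0) {g : F} (h : (u : F) * g ∈ O) : g ∈ O := by
  by_cases hg : g = 0
  · subst hg
    exact O.zero_mem
  obtain ⟨c, hc0, hcO, hns⟩ := hval g hg
  by_cases hv : A.valuation c < 1
  · exfalso
    have hcA : c ∈ A := (A.valuation_le_one_iff c).1 hv.le
    apply hns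
    have h1 : red ⟨algebraMap L F c, (hOA _).2 hcA⟩ = 0 := by
      have h' := hconst ⟨c, hcA⟩
      rw [h', (hπker ⟨c, hcA⟩).2 hv, map_zero]
    have h2 : u * (⟨algebraMap L F c * g, hcO⟩ : O) =
        ⟨algebraMap L F c, (hOA _).2 hcA⟩ * ⟨(u : F) * g, h⟩ :=
      Subtype.ext (by
        show (u : F) * (algebraMap L F c * g) = algebraMap L F c * ((u : F) * g)
        ring)
    have h3 : red u * red ⟨algebraMap L F c * g, hcO⟩ = 0 := by
      rw [← map_mul, h2, map_mul, h1, zero_mul]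
    exact (hker ⟨_, hcO⟩).1 (hnzd _ h3)
  · have hcinv : c⁻¹ ∈ A := by
      rw [← A.valuation_le_one_iff, map_inv₀]
      exact inv_le_one_of_one_le₀ (not_lt.1 hv)
    have e : g = algebraMap L F c⁻¹ * (algebraMap L F c * g) := by
      rw [← mul_assoc, ← map_mul, inv_mul_cancel₀ hc0, map_one, one_mul]
    rw [e]
    exact O.mul_mem ((hOA _).2 hcinv) hcO

/-- One step of (FG): `Λ_{N+m} = u·Λ_N + Λ_{N+m-1}` by Nakayama. -/
theorem lattice_step (hOA : ∀ x : L, algebraMap L F x ∈ O ↔ x ∈ A)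
    (red : O →+* Ft) (hker : ∀ y : O, red y = 0 ↔ Small A O (y : F))
    {E : Divisor L F} (hE : 0 ≤ E) (G : ℕ → Set Ft)
    (hS : ∀ N : ℕ, 0 < N → ∀ t : Ft,
      (∃ y : O, (y : F) ∈ riemannRochSpace (N • E) ∧ red y = t) ↔ t ∈ G N)
    {m N : ℕ} (hN : 0 < N) (hNm : 0 < N + m - 1)
    (hlat : HasOrtho A O (riemannRochSpace ((N + m) • E))) {ut : Ft}
    (hdec : ∀ t ∈ G (N + m), ∃ s ∈ G N, ∃ r ∈ G (N + m - 1), t = ut * s + r)
    (u : O) (hu : (u : F) ∈ riemannRochSpace (m • E)) (hured : red u = ut)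
    {y : F} (hyO : y ∈ O) (hyL : y ∈ riemannRochSpace ((N + m) • E)) :
    ∃ z : F, z ∈ O ∧ z ∈ riemannRochSpace (N • E) ∧ ∃ b : F, b ∈ O ∧
      b ∈ riemannRochSpace ((N + m - 1) • E) ∧ y = (u : F) * z + b := by
  classical
  set M : Submodule A F := latSub hOA (riemannRochSpace ((N + m) • E)) with hM
  set M' : Submodule A F :=
    (latSub hOA (riemannRochSpace (N • E))).map (LinearMap.mulLeft A (u : F)) ⊔
      latSub hOA (riemannRochSpace ((N + m - 1) • E)) with hM'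
  have hle : M ≤ M' ⊔ IsLocalRing.maximalIdeal A • M := by
    rintro x ⟨hxO, hxL⟩
    have ht : red ⟨x, hxO⟩ ∈ G (N + m) := (hS (N + m) (by omega) _).1 ⟨⟨x, hxO⟩, hxL, rfl⟩
    obtain ⟨s, hs, r, hr, hsr⟩ := hdec _ ht
    obtain ⟨z, hzL, rfl⟩ := (hS N hN s).2 hs
    obtain ⟨b, hbL, rfl⟩ := (hS (N + m - 1) hNm r).2 hr
    have h0 : red (⟨x, hxO⟩ - (u * z + b)) = 0 := by
      rw [map_sub, map_add, map_mul, hured, hsr, sub_self]
    have hsm := (hker _).1 h0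
    have huzL : (u : F) * (z : F) ∈ riemannRochSpace ((N + m) • E) := by
      have h' := mul_mem_L_nsmul hu hzL
      rwa [add_comm m N] at h'
    have hbL' : (b : F) ∈ riemannRochSpace ((N + m) • E) :=
      mem_L_nsmul_mono hE (by omega) hbL
    have hxL' : x - ((u : F) * z + b) ∈ riemannRochSpace ((N + m) • E) :=
      sub_mem hxL (add_mem huzL hbL')
    obtain ⟨a, ha, o, hoO, hoL, hx⟩ := exists_dvd_of_small hxL' hsm
    refine Submodule.mem_sup.2 ⟨(u : F) * z + b, ?_, a • o,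
      Submodule.smul_mem_smul ha ⟨hoO, hoL⟩, ?_⟩
    · exact Submodule.mem_sup.2 ⟨(u : F) * z, Submodule.mem_map.2 ⟨z, ⟨z.2, hzL⟩, rfl⟩, b,
        ⟨b.2, hbL⟩, rfl⟩
    · rw [valSubring_smul_eq, ← hx]
      ring
  have hfg : M.FG := latSub_fg hOA hlat
  have hjac : IsLocalRing.maximalIdeal A ≤ (⊥ : Ideal A).jacobson := by
    rw [IsLocalRing.jacobson_eq_maximalIdeal ⊥ bot_ne_top]
  have hMM' := Submodule.le_of_le_smul_of_le_jacobson_bot hfg hjac hle
  have hy' : y ∈ M' := hMM' ⟨hyO, hyL⟩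
  obtain ⟨p, hp, b, hb, rfl⟩ := Submodule.mem_sup.1 hy'
  obtain ⟨z, hz, rfl⟩ := Submodule.mem_map.1 hp
  exact ⟨z, hz.1, hz.2, b, hb.1, hb.2, rfl⟩

/-- (FG) on the lattices: every integral chart function is `u·z + b` with `b` in a fixed
lattice. -/
theorem lattice_fg (hOA : ∀ x : L, algebraMap L F x ∈ O ↔ x ∈ A)
    (red : O →+* Ft) (hker : ∀ y : O, red y = 0 ↔ Small A O (y : F))
    {E : Divisor L F} (hE : 0 ≤ E)
    (hlat : ∀ N : ℕ, HasOrtho A O (riemannRochSpace (N • E))) (G : ℕ → Set Ft)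
    (hS : ∀ N : ℕ, 0 < N → ∀ t : Ft,
      (∃ y : O, (y : F) ∈ riemannRochSpace (N • E) ∧ red y = t) ↔ t ∈ G N)
    {m : ℕ} {ut : Ft}
    (hFG : ∃ N₀ : ℕ, ∀ N, N₀ ≤ N → ∀ t ∈ G (N + m), ∃ s ∈ G N, ∃ r ∈ G (N + m - 1),
      t = ut * s + r)
    (u : O) (hu : (u : F) ∈ riemannRochSpace (m • E)) (hured : red u = ut) :
    ∃ N₂ : ℕ, ∀ (N : ℕ) (y : F), y ∈ O → y ∈ riemannRochSpace (N • E) →
      ∃ z : F, z ∈ O ∧ (∃ K : ℕ, z ∈ riemannRochSpace (K • E)) ∧ ∃ b : F, b ∈ O ∧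
        b ∈ riemannRochSpace (N₂ • E) ∧ y = (u : F) * z + b := by
  obtain ⟨N₀, hN₀⟩ := hFG
  refine ⟨N₀ + 1 + m, ?_⟩
  have key : ∀ (j : ℕ) (y : F), y ∈ O → y ∈ riemannRochSpace ((N₀ + 1 + m + j) • E) →
      ∃ z : F, z ∈ O ∧ (∃ K : ℕ, z ∈ riemannRochSpace (K • E)) ∧ ∃ b : F, b ∈ O ∧
        b ∈ riemannRochSpace ((N₀ + 1 + m) • E) ∧ y = (u : F) * z + b := by
    intro j
    induction j with
    | zero =>
      intro y hyO hyL
      exact ⟨0, O.zero_mem, ⟨0, zero_mem _⟩, y, hyO, hyL, by ring⟩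
    | succ j ih =>
      intro y hyO hyL
      have e1 : N₀ + 1 + m + (j + 1) = (N₀ + 1 + j + 1) + m := by omega
      rw [e1] at hyL
      obtain ⟨z₁, hz₁O, hz₁L, b₁, hb₁O, hb₁L, rfl⟩ :=
        lattice_step hOA red hker hE G hS (N := N₀ + 1 + j + 1) (by omega) (by omega) (hlat _)
          (hN₀ _ (by omega)) u hu hured hyO hyL
      have e2 : N₀ + 1 + j + 1 + m - 1 = N₀ + 1 + m + j := by omega
      rw [e2] at hb₁L
      obtain ⟨z₂, hz₂O, ⟨K, hz₂L⟩, b₂, hb₂O, hb₂L, rfl⟩ := ih b₁ hb₁O hb₁L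
      exact ⟨z₁ + z₂, O.add_mem hz₁O hz₂O, ⟨(N₀ + 1 + j + 1) + K,
        add_mem (mem_L_nsmul_mono hE (Nat.le_add_right _ _) hz₁L)
          (mem_L_nsmul_mono hE (Nat.le_add_left _ _) hz₂L)⟩, b₂, hb₂O, hb₂L, by ring⟩
  intro N y hyO hyL
  exact key N y hyO (mem_L_nsmul_mono hE (Nat.le_add_left _ _) hyL)

/-- **The hypotheses of `HenselChar` from point data on the special fibre** (abstract core).
`G N` are the reduced charts `red Λ(N • E)`; `ut` is a non-zero-divisor vanishing at `Q`, `wt` has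
a pole at `Q`, `(ut wt)(Q) = 1`, with (LOC) and (FG) on the `G N`.  Then for every lift
`u ∈ Λ(m • E)` of `ut` there is `e` in the integral chart ring satisfying `HenselChar.Hyp`. -/
theorem hyp_of_point_data
    (hOA : ∀ x : L, algebraMap L F x ∈ O ↔ x ∈ A)
    (hval : ∀ y : F, y ≠ 0 → ∃ c : L, c ≠ 0 ∧ algebraMap L F c * y ∈ O ∧
      ¬ Small A O (algebraMap L F c * y))
    (red : O →+* Ft) (π : A →+* k) (hπ : Function.Surjective π)
    (hπker : ∀ a : A, π a = 0 ↔ A.valuation (a : L) < 1)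
    (hconst : ∀ a : A, red ⟨algebraMap L F (a : L), (hOA _).2 a.2⟩ = algebraMap k Ft (π a))
    (hker : ∀ y : O, red y = 0 ↔ Small A O (y : F))
    (E : Divisor L F) (hE : 0 ≤ E)
    (hlat : ∀ N : ℕ, HasOrtho A O (riemannRochSpace (N • E)))
    (G : ℕ → Set Ft)
    (hS : ∀ N : ℕ, 0 < N → ∀ t : Ft,
      (∃ y : O, (y : F) ∈ riemannRochSpace (N • E) ∧ red y = t) ↔ t ∈ G N)
    (pr : Ft →+* Fj) (hpr : ∀ c : k, pr (algebraMap k Ft c) = algebraMap k Fj c)
    (Q : Place k Fj)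
    (hreg : ∀ y : chartInt E hE O, ∃ c : k, Cong Q (pr (red (intO E hE O y))) c)
    {m : ℕ} (hm : 0 < m) {ut wt : Ft}
    (hnzd : ∀ t : Ft, ut * t = 0 → t = 0)
    (hut0 : Cong Q (pr ut) 0)
    (hwpole : ∀ c : k, ¬ Cong Q (pr wt) c)
    (hone : Cong Q (pr (ut * wt)) 1)
    (hLOC : ∀ N : ℕ, 0 < N → ∀ t ∈ G N, Cong Q (pr t) 0 → wt * t ∈ G (N + m))
    (hFG : ∃ N₀ : ℕ, ∀ N, N₀ ≤ N → ∀ t ∈ G (N + m), ∃ s ∈ G N, ∃ r ∈ G (N + m - 1),
      t = ut * s + r)
    (u : O) (hu : (u : F) ∈ riemannRochSpace (m • E)) (hured : red u = ut) :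
    ∃ e : chartInt E hE O,
      Hyp π (chartInt E hE O) (algebraMap_mem_chartInt hOA E hE) (evHom red pr Q hreg)
        (mkInt E hE O (u : F) u.2 ⟨m, hu⟩) e := by
  classical
  have hutG : ut ∈ G m := (hS m hm ut).1 ⟨u, hu, hured⟩
  -- the lift `e` of `wt * ut`
  have hwu : wt * ut ∈ G (m + m) := hLOC m hm ut hutG hut0
  obtain ⟨eO, heL, hered⟩ := (hS (m + m) (by omega) _).2 hwu
  have hintO_e : intO E hE O (mkInt E hE O (eO : F) eO.2 ⟨m + m, heL⟩) = eO := rfl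
  have hintO_u : intO E hE O (mkInt E hE O (u : F) u.2 ⟨m, hu⟩) = u := rfl
  -- constants reduce through `π`
  have hredc : ∀ a : A, red (intO E hE O (cA (chartInt E hE O)
      (algebraMap_mem_chartInt hOA E hE) a)) = algebraMap k Ft (π a) := fun a => hconst a
  -- the ideal `𝔪 RA` reduces to zero
  have hmap0 : ∀ q ∈ Ideal.map (cA (chartInt E hE O) (algebraMap_mem_chartInt hOA E hE))
      (IsLocalRing.maximalIdeal A), red (intO E hE O q) = 0 := by
    intro q hq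
    have hle : Ideal.map (cA (chartInt E hE O) (algebraMap_mem_chartInt hOA E hE))
        (IsLocalRing.maximalIdeal A) ≤ RingHom.ker (red.comp (intO E hE O)) := by
      rw [Ideal.map_le_iff_le_comap]
      intro a ha
      rw [Ideal.mem_comap, RingHom.mem_ker, RingHom.comp_apply, hredc,
        (hπker a).2 ((A.valuation_lt_one_iff a).1 ha), map_zero]
    exact hle hq
  refine ⟨mkInt E hE O (eO : F) eO.2 ⟨m + m, heL⟩, ?_⟩
  refine { surj := hπ, zero := ?_, eps := ?_, span := ?_, fg := ?_, sat := ?_, one := ?_,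
           loc := ?_, nz := ?_ }
  · -- zero
    exact fun a ha => (hπker a).2 ((A.valuation_lt_one_iff a).1 ha)
  · -- eps
    intro a
    refine valAt_eq ?_
    rw [hredc, hpr]
    exact cong_algebraMap Q _
  · -- span
    intro y
    by_cases hy : (y : F) = 0
    · refine ⟨1, one_ne_zero, ?_⟩
      have hy' : y = 0 := Subtype.ext hy
      rw [hy', mul_zero]
      exact Subring.zero_mem _
    · obtain ⟨c, hc0, hcO, -⟩ := hval (y : F) hy
      exact ⟨c, hc0, hcO⟩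
  · -- fg
    obtain ⟨N₂, hN₂⟩ := lattice_fg hOA red hker hE hlat G hS hFG u hu hured
    obtain ⟨n, b, -, hspan, hbO, hint⟩ := hlat N₂
    have hbL : ∀ i, b i ∈ riemannRochSpace (N₂ • E) := fun i =>
      hspan ▸ Submodule.subset_span ⟨i, rfl⟩
    refine ⟨n, fun i => mkInt E hE O (b i) (hbO i) ⟨N₂, hbL i⟩, fun y => ?_⟩
    obtain ⟨N, hyL⟩ := intF_mem_L y
    obtain ⟨z, hzO, hzL, b', hb'O, hb'L, hyz⟩ := hN₂ N _ (intF_mem y) hyL
    obtain ⟨c, hc⟩ := exists_coeffs hspan hint hb'O hb'L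
    refine ⟨c, mkInt E hE O z hzO hzL, ?_⟩
    apply intF_injective
    rw [map_add, map_sum, map_mul, hyz, hc, add_comm]
    refine congrArg₂ (· + ·) (Finset.sum_congr rfl fun i _ => ?_) rfl
    rw [map_mul]
    rfl
  · -- sat
    intro g hg
    exact mem_of_mul_mem_O hOA hval red π hπker hconst hker (u := u)
      (by rw [hured]; exact hnzd) hg
  · -- one
    refine valAt_eq ?_
    rw [hintO_e, hered, mul_comm]
    exact hone
  · -- loc
    intro y hy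
    have hy0 : Cong Q (pr (red (intO E hE O y))) 0 := by
      have h' := cong_evHom red pr Q hreg y
      rwa [hy] at h'
    obtain ⟨N, hyL⟩ := intF_mem_L y
    have hyL' : intF E hE O y ∈ riemannRochSpace ((N + 1) • E) :=
      mem_L_nsmul_mono hE (Nat.le_succ N) hyL
    have ht : red (intO E hE O y) ∈ G (N + 1) :=
      (hS (N + 1) (Nat.succ_pos N) _).1 ⟨intO E hE O y, hyL', rfl⟩
    have hwy := hLOC (N + 1) (Nat.succ_pos N) _ ht hy0
    obtain ⟨zO, hzL, hzred⟩ := (hS (N + 1 + m) (by omega) _).2 hwy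
    have h0 : red (eO * intO E hE O y - u * zO) = 0 := by
      rw [map_sub, map_mul, map_mul, hered, hzred, hured]
      ring
    have hsm := (hker _).1 h0
    have hxL : (eO : F) * intF E hE O y - (u : F) * (zO : F) ∈
        riemannRochSpace ((m + m + (N + 1)) • E) := by
      refine sub_mem (mul_mem_L_nsmul heL hyL') ?_
      have h' := mul_mem_L_nsmul hu hzL
      exact mem_L_nsmul_mono hE (by omega) h'
    obtain ⟨a, ha, o, hoO, hoL, hx⟩ := exists_dvd_of_small hxL hsm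
    have key : mkInt E hE O (eO : F) eO.2 ⟨m + m, heL⟩ * y =
        mkInt E hE O (u : F) u.2 ⟨m, hu⟩ * mkInt E hE O (zO : F) zO.2 ⟨_, hzL⟩ +
          cA (chartInt E hE O) (algebraMap_mem_chartInt hOA E hE) a *
            mkInt E hE O o hoO ⟨_, hoL⟩ := by
      apply intF_injective
      rw [map_add, map_mul, map_mul, map_mul]
      show (eO : F) * intF E hE O y = (u : F) * (zO : F) + algebraMap L F (a : L) * o
      rw [← hx]
      ring
    rw [key]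
    unfold J
    exact Submodule.add_mem_sup (Ideal.mem_span_singleton'.2 ⟨_, mul_comm _ _⟩)
      (Ideal.mul_mem_right _ _ (Ideal.mem_map_of_mem _ ha))
  · -- nz
    intro hJ
    unfold J at hJ
    obtain ⟨p, hp, q, hq, hpq⟩ := Submodule.mem_sup.1 hJ
    obtain ⟨z, rfl⟩ := Ideal.mem_span_singleton'.1 hp
    have h1 : red (intO E hE O (mkInt E hE O (eO : F) eO.2 ⟨m + m, heL⟩)) =
        red (intO E hE O z) * ut := by
      rw [← hpq, map_add, map_add, map_mul, map_mul, hmap0 q hq, add_zero, hintO_u, hured]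
    rw [hintO_e, hered] at h1
    have h2 : wt = red (intO E hE O z) := by
      have h3 : ut * (wt - red (intO E hE O z)) = 0 := by
        rw [mul_sub, mul_comm ut wt, h1]
        ring
      exact sub_eq_zero.1 (hnzd _ h3)
    obtain ⟨c, hc⟩ := hreg z
    rw [← h2] at hc
    exact hwpole c hc

end Core

/-! ### The nodal instance -/

section Nodal

open Fermat.Agent.Padic.S33.RC.NodalMul Fermat.Agent.Padic.S33.RC.NodalPoint

variable {L F : Type*} [Field L] [Field F] [Algebra L F] {A : ValuationSubring L} {O : Subring F}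
  {k F₁ F₂ : Type*} [Field k] [Field F₁] [Field F₂] [Algebra k F₁] [Algebra k F₂]
  {ι : Type*} [Fintype ι] {x₁ : F₁} {x₂ : F₂}

omit [Fintype ι] in
/-- Regularity at a point of component 1 off the support of `D₁`. -/
theorem exists_cong_fst (h₁ : IsFF1 k F₁ x₁) (red : O →+* F₁ × F₂)
    {e₁ : ι → Place k F₁} {e₂ : ι → Place k F₂} {E : Divisor L F} (hE : 0 ≤ E)
    {D₁ : Divisor k F₁} {D₂ : Divisor k F₂}
    (hS : ∀ N : ℕ, 0 < N → ∀ t : F₁ × F₂,
      (∃ y : O, (y : F) ∈ riemannRochSpace (N • E) ∧ red y = t) ↔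
        t ∈ gluedSpace e₁ e₂ (fun _ => (1 : k)) (N • D₁) (N • D₂))
    (Q : Place k F₁) (hQD : D₁ Q = 0) (y : chartInt E hE O) :
    ∃ c : k, Cong Q (RingHom.fst F₁ F₂ (red (intO E hE O y))) c := by
  obtain ⟨N, hyL⟩ := intF_mem_L y
  have hyL' : intF E hE O y ∈ riemannRochSpace ((N + 1) • E) :=
    mem_L_nsmul_mono hE (Nat.le_succ N) hyL
  have ht := (hS (N + 1) (Nat.succ_pos N) _).1 ⟨intO E hE O y, hyL', rfl⟩
  refine exists_cong (h₁.resK Q) (le_one_of_mem_L (B := (N + 1) • D₁) ?_ ht.1)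
  rw [nsmul_apply_eq, hQD, mul_zero]

omit [Fintype ι] in
/-- Regularity at a point of component 2 off the support of `D₂`. -/
theorem exists_cong_snd (h₂ : IsFF1 k F₂ x₂) (red : O →+* F₁ × F₂)
    {e₁ : ι → Place k F₁} {e₂ : ι → Place k F₂} {E : Divisor L F} (hE : 0 ≤ E)
    {D₁ : Divisor k F₁} {D₂ : Divisor k F₂}
    (hS : ∀ N : ℕ, 0 < N → ∀ t : F₁ × F₂,
      (∃ y : O, (y : F) ∈ riemannRochSpace (N • E) ∧ red y = t) ↔
        t ∈ gluedSpace e₁ e₂ (fun _ => (1 : k)) (N • D₁) (N • D₂))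
    (Q : Place k F₂) (hQD : D₂ Q = 0) (y : chartInt E hE O) :
    ∃ c : k, Cong Q (RingHom.snd F₁ F₂ (red (intO E hE O y))) c := by
  obtain ⟨N, hyL⟩ := intF_mem_L y
  have hyL' : intF E hE O y ∈ riemannRochSpace ((N + 1) • E) :=
    mem_L_nsmul_mono hE (Nat.le_succ N) hyL
  have ht := (hS (N + 1) (Nat.succ_pos N) _).1 ⟨intO E hE O y, hyL', rfl⟩
  refine exists_cong (h₂.resK Q) (le_one_of_mem_L (B := (N + 1) • D₂) ?_ ht.2.1)
  rw [nsmul_apply_eq, hQD, mul_zero]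

omit [Fintype ι] in
/-- The reduced divisors of an effective chart divisor are effective (`1 ∈ Λ(E)`). -/
theorem nonneg_of_charts (red : O →+* F₁ × F₂)
    {e₁ : ι → Place k F₁} {e₂ : ι → Place k F₂} {E : Divisor L F} (hE : 0 ≤ E)
    {D₁ : Divisor k F₁} {D₂ : Divisor k F₂}
    (hS : ∀ N : ℕ, 0 < N → ∀ t : F₁ × F₂,
      (∃ y : O, (y : F) ∈ riemannRochSpace (N • E) ∧ red y = t) ↔
        t ∈ gluedSpace e₁ e₂ (fun _ => (1 : k)) (N • D₁) (N • D₂)) :
    0 ≤ D₁ ∧ 0 ≤ D₂ := by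
  have h1 : (1 : F) ∈ riemannRochSpace (1 • E) := fun v => by
    rw [map_one, ← exp_zero, exp_le_exp, one_smul]
    exact Finsupp.le_def.mp hE v
  have ht := (hS 1 Nat.one_pos _).1 ⟨1, h1, rfl⟩
  rw [map_one] at ht
  constructor
  · refine Finsupp.le_def.mpr fun v => ?_
    have h2 := ht.1 v
    rw [Prod.fst_one, map_one, ← exp_zero, exp_le_exp, one_smul] at h2
    exact h2
  · refine Finsupp.le_def.mpr fun v => ?_
    have h2 := ht.2.1 v
    rw [Prod.snd_one, map_one, ← exp_zero, exp_le_exp, one_smul] at h2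
    exact h2

theorem prod_nzd {u : F₁ × F₂} (h1 : u.1 ≠ 0) (h2 : u.2 ≠ 0) (t : F₁ × F₂) (h : u * t = 0) :
    t = 0 := by
  have e1 : u.1 * t.1 = 0 := congrArg Prod.fst h
  have e2 : u.2 * t.2 = 0 := congrArg Prod.snd h
  exact Prod.ext ((mul_eq_zero.1 e1).resolve_left h1) ((mul_eq_zero.1 e2).resolve_left h2)

/-- **`HenselChar.Hyp` at a smooth point of component 1.**  For a non-node point `Q` of
component 1 off the support of `D₁` there are `m > 0` and `ut ∈ G_m` such that EVERY lift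
`u ∈ Λ(m • E)` of `ut` (e.g. an inertia-fixed one) satisfies the hypotheses of the abstract
Hensel lemma for the evaluation `evHom red (RingHom.fst F₁ F₂) Q _` at `Q`, for a suitable
`e`. -/
theorem exists_hyp_fst [Infinite k] (h₁ : IsFF1 k F₁ x₁) (h₂ : IsFF1 k F₂ x₂)
    (hOA : ∀ x : L, algebraMap L F x ∈ O ↔ x ∈ A)
    (hval : ∀ y : F, y ≠ 0 → ∃ c : L, c ≠ 0 ∧ algebraMap L F c * y ∈ O ∧
      ¬ Small A O (algebraMap L F c * y))
    (red : O →+* F₁ × F₂) (π : A →+* k) (hπ : Function.Surjective π)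
    (hπker : ∀ a : A, π a = 0 ↔ A.valuation (a : L) < 1)
    (hconst : ∀ a : A, red ⟨algebraMap L F (a : L), (hOA _).2 a.2⟩ =
      algebraMap k (F₁ × F₂) (π a))
    (hker : ∀ y : O, red y = 0 ↔ Small A O (y : F))
    {e₁ : ι → Place k F₁} {e₂ : ι → Place k F₂} (he₂ : Function.Injective e₂)
    (E : Divisor L F) (hE : 0 ≤ E)
    (hlat : ∀ N : ℕ, HasOrtho A O (riemannRochSpace (N • E)))
    (D₁ : Divisor k F₁) (D₂ : Divisor k F₂) (hD₁ : ∀ i, D₁ (e₁ i) = 0)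
    (hD₂ : ∀ i, D₂ (e₂ i) = 0)
    (hd₁ : 0 < Divisor.degree D₁) (hd₂ : 0 < Divisor.degree D₂)
    (hS : ∀ N : ℕ, 0 < N → ∀ t : F₁ × F₂,
      (∃ y : O, (y : F) ∈ riemannRochSpace (N • E) ∧ red y = t) ↔
        t ∈ gluedSpace e₁ e₂ (fun _ => (1 : k)) (N • D₁) (N • D₂))
    (Q : Place k F₁) (hQe : ∀ i, e₁ i ≠ Q) (hQD : D₁ Q = 0) :
    ∃ (m : ℕ) (ut : F₁ × F₂), 0 < m ∧
      ut ∈ gluedSpace e₁ e₂ (fun _ => (1 : k)) (m • D₁) (m • D₂) ∧
      ∀ (u : O) (hu : (u : F) ∈ riemannRochSpace (m • E)), red u = ut →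
        ∃ e : chartInt E hE O,
          Hyp π (chartInt E hE O) (algebraMap_mem_chartInt hOA E hE)
            (evHom red (RingHom.fst F₁ F₂) Q (exists_cong_fst h₁ red hE hS Q hQD))
            (mkInt E hE O (u : F) u.2 ⟨m, hu⟩) e := by
  obtain ⟨hD₁0, hD₂0⟩ := nonneg_of_charts red hE hS
  obtain ⟨m, ut, wt, hm, hut, -, -, hu1, hu2, hutQ, -, hwtQ, hone, hLOC, hFG⟩ :=
    exists_point_data_fst h₁ h₂ he₂ D₁ D₂ hD₁ hD₂ hD₁0 hD₂0 hd₁ hd₂ Q hQe hQD
  refine ⟨m, ut, hm, hut, fun u hu hured => ?_⟩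
  refine hyp_of_point_data hOA hval red π hπ hπker hconst hker E hE hlat
    (fun N => (gluedSpace e₁ e₂ (fun _ => (1 : k)) (N • D₁) (N • D₂) : Set (F₁ × F₂))) hS
    (RingHom.fst F₁ F₂) (fun c => rfl) Q (exists_cong_fst h₁ red hE hS Q hQD) hm
    (ut := ut) (wt := wt) (prod_nzd hu1 hu2) ?_ ?_ hone (fun N _ t ht h0 => hLOC N t ht h0)
    hFG u hu hured
  · refine cong_zero_iff.2 ?_
    show Q.adicValuation ut.1 < 1
    rw [hutQ, ← exp_zero, exp_lt_exp]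
    norm_num
  · intro c hc
    have h1 : Q.adicValuation wt.1 ≤ 1 := hc.le_one
    rw [hwtQ, ← exp_zero, exp_le_exp] at h1
    norm_num at h1

/-- **`HenselChar.Hyp` at a smooth point of component 2.** -/
theorem exists_hyp_snd [Infinite k] (h₁ : IsFF1 k F₁ x₁) (h₂ : IsFF1 k F₂ x₂)
    (hOA : ∀ x : L, algebraMap L F x ∈ O ↔ x ∈ A)
    (hval : ∀ y : F, y ≠ 0 → ∃ c : L, c ≠ 0 ∧ algebraMap L F c * y ∈ O ∧
      ¬ Small A O (algebraMap L F c * y))
    (red : O →+* F₁ × F₂) (π : A →+* k) (hπ : Function.Surjective π)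
    (hπker : ∀ a : A, π a = 0 ↔ A.valuation (a : L) < 1)
    (hconst : ∀ a : A, red ⟨algebraMap L F (a : L), (hOA _).2 a.2⟩ =
      algebraMap k (F₁ × F₂) (π a))
    (hker : ∀ y : O, red y = 0 ↔ Small A O (y : F))
    {e₁ : ι → Place k F₁} {e₂ : ι → Place k F₂} (he₂ : Function.Injective e₂)
    (E : Divisor L F) (hE : 0 ≤ E)
    (hlat : ∀ N : ℕ, HasOrtho A O (riemannRochSpace (N • E)))
    (D₁ : Divisor k F₁) (D₂ : Divisor k F₂) (hD₁ : ∀ i, D₁ (e₁ i) = 0)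
    (hD₂ : ∀ i, D₂ (e₂ i) = 0)
    (hd₁ : 0 < Divisor.degree D₁) (hd₂ : 0 < Divisor.degree D₂)
    (hS : ∀ N : ℕ, 0 < N → ∀ t : F₁ × F₂,
      (∃ y : O, (y : F) ∈ riemannRochSpace (N • E) ∧ red y = t) ↔
        t ∈ gluedSpace e₁ e₂ (fun _ => (1 : k)) (N • D₁) (N • D₂))
    (Q : Place k F₂) (hQe : ∀ i, e₂ i ≠ Q) (hQD : D₂ Q = 0) :
    ∃ (m : ℕ) (ut : F₁ × F₂), 0 < m ∧
      ut ∈ gluedSpace e₁ e₂ (fun _ => (1 : k)) (m • D₁) (m • D₂) ∧
      ∀ (u : O) (hu : (u : F) ∈ riemannRochSpace (m • E)), red u = ut →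
        ∃ e : chartInt E hE O,
          Hyp π (chartInt E hE O) (algebraMap_mem_chartInt hOA E hE)
            (evHom red (RingHom.snd F₁ F₂) Q (exists_cong_snd h₂ red hE hS Q hQD))
            (mkInt E hE O (u : F) u.2 ⟨m, hu⟩) e := by
  obtain ⟨hD₁0, hD₂0⟩ := nonneg_of_charts red hE hS
  obtain ⟨m, ut, wt, hm, hut, -, -, hu1, hu2, hutQ, -, hwtQ, hone, hLOC, hFG⟩ :=
    exists_point_data_snd h₁ h₂ he₂ D₁ D₂ hD₁ hD₂ hD₁0 hD₂0 hd₁ hd₂ Q hQe hQD
  refine ⟨m, ut, hm, hut, fun u hu hured => ?_⟩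
  refine hyp_of_point_data hOA hval red π hπ hπker hconst hker E hE hlat
    (fun N => (gluedSpace e₁ e₂ (fun _ => (1 : k)) (N • D₁) (N • D₂) : Set (F₁ × F₂))) hS
    (RingHom.snd F₁ F₂) (fun c => rfl) Q (exists_cong_snd h₂ red hE hS Q hQD) hm
    (ut := ut) (wt := wt) (prod_nzd hu1 hu2) ?_ ?_ hone (fun N _ t ht h0 => hLOC N t ht h0)
    hFG u hu hured
  · refine cong_zero_iff.2 ?_
    show Q.adicValuation ut.2 < 1
    rw [hutQ, ← exp_zero, exp_lt_exp]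
    norm_num
  · intro c hc
    have h1 : Q.adicValuation wt.2 ≤ 1 := hc.le_one
    rw [hwtQ, ← exp_zero, exp_le_exp] at h1
    norm_num at h1

omit [Fintype ι] in
/-- The diagonal charts `N • (M • (E1 + E2))`, `N > 0`, of a two-parameter nodal datum. -/
theorem diag_charts (red : O →+* F₁ × F₂) {e₁ : ι → Place k F₁} {e₂ : ι → Place k F₂}
    (E1 E2 : Divisor L F) (P₁ Z₁ : Divisor k F₁) (P₂ Z₂ : Divisor k F₂)
    (hS2 : ∃ N₀ : ℕ, ∀ n₁ n₂ : ℕ, N₀ ≤ n₁ + n₂ → ∀ t : F₁ × F₂,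
      (∃ y : O, (y : F) ∈ riemannRochSpace (n₁ • E1 + n₂ • E2) ∧ red y = t) ↔
        t ∈ gluedSpace e₁ e₂ (fun _ => (1 : k)) (n₁ • P₁ + n₂ • Z₁) (n₁ • P₂ + n₂ • Z₂)) :
    ∃ M : ℕ, 0 < M ∧ ∀ N : ℕ, 0 < N → ∀ t : F₁ × F₂,
      (∃ y : O, (y : F) ∈ riemannRochSpace (N • (M • (E1 + E2))) ∧ red y = t) ↔
        t ∈ gluedSpace e₁ e₂ (fun _ => (1 : k)) (N • (M • (P₁ + Z₁)))
          (N • (M • (P₂ + Z₂))) := by
  obtain ⟨N₀, h⟩ := hS2
  refine ⟨N₀ + 1, Nat.succ_pos _, fun N hN t => ?_⟩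
  have h1 : N₀ + 1 ≤ N * (N₀ + 1) := Nat.le_mul_of_pos_left _ hN
  have h2 := h (N * (N₀ + 1)) (N * (N₀ + 1)) (by omega) t
  rw [← mul_nsmul', ← mul_nsmul', ← mul_nsmul', smul_add, smul_add, smul_add]
  exact h2

omit [Fintype ι] in
/-- In a two-parameter nodal datum with effective `E1`, `E2` the divisors `Z₁`, `Z₂` are
effective. -/
theorem nonneg_snd_of_charts2 (red : O →+* F₁ × F₂) {e₁ : ι → Place k F₁} {e₂ : ι → Place k F₂}
    (E1 E2 : Divisor L F) (hE2 : ∀ v, 0 ≤ E2 v)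
    (P₁ Z₁ : Divisor k F₁) (P₂ Z₂ : Divisor k F₂)
    (hS2 : ∃ N₀ : ℕ, ∀ n₁ n₂ : ℕ, N₀ ≤ n₁ + n₂ → ∀ t : F₁ × F₂,
      (∃ y : O, (y : F) ∈ riemannRochSpace (n₁ • E1 + n₂ • E2) ∧ red y = t) ↔
        t ∈ gluedSpace e₁ e₂ (fun _ => (1 : k)) (n₁ • P₁ + n₂ • Z₁) (n₁ • P₂ + n₂ • Z₂)) :
    0 ≤ Z₁ ∧ 0 ≤ Z₂ := by
  obtain ⟨N₀, h⟩ := hS2
  have h1 : (1 : F) ∈ riemannRochSpace (0 • E1 + (N₀ + 1) • E2) := fun v => by
    rw [map_one, ← exp_zero, exp_le_exp, zero_smul, zero_add, Finsupp.smul_apply]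
    exact nsmul_nonneg (hE2 v) _
  have ht := (h 0 (N₀ + 1) (by omega) _).1 ⟨1, h1, rfl⟩
  rw [map_one] at ht
  have hpos : (0 : ℤ) < ((N₀ + 1 : ℕ) : ℤ) := by exact_mod_cast Nat.succ_pos N₀
  constructor
  · refine Finsupp.le_def.mpr fun v => ?_
    have h2 := ht.1 v
    rw [Prod.fst_one, map_one, ← exp_zero, exp_le_exp, zero_smul, zero_add, nsmul_apply_eq] at h2
    exact nonneg_of_mul_nonneg_right h2 hpos
  · refine Finsupp.le_def.mpr fun v => ?_
    have h2 := ht.2.1 v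
    rw [Prod.snd_one, map_one, ← exp_zero, exp_le_exp, zero_smul, zero_add, nsmul_apply_eq] at h2
    exact nonneg_of_mul_nonneg_right h2 hpos

omit [Fintype ι] in
theorem degree_nonneg' {K' F' : Type*} [Field K'] [Field F'] [Algebra K' F'] {D : Divisor K' F'}
    (h : 0 ≤ D) : 0 ≤ Divisor.degree D := by
  have e : Divisor.degree D = D.sum fun v n => n * (v.deg : ℤ) := by
    simp [Divisor.degree, Finsupp.liftAddHom_apply]
  rw [e]
  exact Finset.sum_nonneg fun v _ =>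
    mul_nonneg (Finsupp.le_def.mp h v) (Int.natCast_nonneg _)

/-- `exists_hyp_fst` for a two-parameter nodal datum (the conjuncts of `KerRed.NodalFibreFor`), on
the diagonal chart divisor `M • (E1 + E2)`; a lift `u` of `ut` exists, and EVERY lift works. -/
theorem exists_hyp_fst_of_datum [Infinite k] (h₁ : IsFF1 k F₁ x₁) (h₂ : IsFF1 k F₂ x₂)
    (hOA : ∀ x : L, algebraMap L F x ∈ O ↔ x ∈ A)
    (hval : ∀ y : F, y ≠ 0 → ∃ c : L, c ≠ 0 ∧ algebraMap L F c * y ∈ O ∧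
      ¬ Small A O (algebraMap L F c * y))
    (red : O →+* F₁ × F₂) (π : A →+* k) (hπ : Function.Surjective π)
    (hπker : ∀ a : A, π a = 0 ↔ A.valuation (a : L) < 1)
    (hconst : ∀ a : A, red ⟨algebraMap L F (a : L), (hOA _).2 a.2⟩ =
      algebraMap k (F₁ × F₂) (π a))
    (hker : ∀ y : O, red y = 0 ↔ Small A O (y : F))
    {e₁ : ι → Place k F₁} {e₂ : ι → Place k F₂} (he₂ : Function.Injective e₂)
    (E1 E2 : Divisor L F) (hE1 : ∀ v, 0 ≤ E1 v) (hE2 : ∀ v, 0 ≤ E2 v)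
    (hlat : ∀ B : Divisor L F, HasOrtho A O (riemannRochSpace B))
    (P₁ Z₁ : Divisor k F₁) (P₂ Z₂ : Divisor k F₂)
    (hP₁ : ∀ i, P₁ (e₁ i) = 0) (hZ₁ : ∀ i, Z₁ (e₁ i) = 0)
    (hP₂ : ∀ i, P₂ (e₂ i) = 0) (hZ₂ : ∀ i, Z₂ (e₂ i) = 0)
    (hdegP₁ : 0 < Divisor.degree P₁) (hdegP₂ : 0 < Divisor.degree P₂)
    (hS2 : ∃ N₀ : ℕ, ∀ n₁ n₂ : ℕ, N₀ ≤ n₁ + n₂ → ∀ t : F₁ × F₂,
      (∃ y : O, (y : F) ∈ riemannRochSpace (n₁ • E1 + n₂ • E2) ∧ red y = t) ↔
        t ∈ gluedSpace e₁ e₂ (fun _ => (1 : k)) (n₁ • P₁ + n₂ • Z₁) (n₁ • P₂ + n₂ • Z₂))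
    (Q : Place k F₁) (hQe : ∀ i, e₁ i ≠ Q) (hQP : P₁ Q = 0) (hQZ : Z₁ Q = 0) :
    ∃ (M : ℕ) (hE : 0 ≤ M • (E1 + E2))
      (hreg : ∀ y : chartInt (M • (E1 + E2)) hE O,
        ∃ c : k, Cong Q (RingHom.fst F₁ F₂ (red (intO (M • (E1 + E2)) hE O y))) c)
      (m : ℕ) (ut : F₁ × F₂), 0 < M ∧ 0 < m ∧
      ut ∈ gluedSpace e₁ e₂ (fun _ => (1 : k)) (m • (M • (P₁ + Z₁))) (m • (M • (P₂ + Z₂))) ∧
      (∃ u : O, (u : F) ∈ riemannRochSpace (m • (M • (E1 + E2))) ∧ red u = ut) ∧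
      ∀ (u : O) (hu : (u : F) ∈ riemannRochSpace (m • (M • (E1 + E2)))), red u = ut →
        ∃ e : chartInt (M • (E1 + E2)) hE O,
          Hyp π (chartInt (M • (E1 + E2)) hE O) (algebraMap_mem_chartInt hOA _ hE)
            (evHom red (RingHom.fst F₁ F₂) Q hreg)
            (mkInt (M • (E1 + E2)) hE O (u : F) u.2 ⟨m, hu⟩) e := by
  obtain ⟨hZ₁0, hZ₂0⟩ := nonneg_snd_of_charts2 red E1 E2 hE2 P₁ Z₁ P₂ Z₂ hS2
  obtain ⟨M, hM, hS⟩ := diag_charts red E1 E2 P₁ Z₁ P₂ Z₂ hS2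
  have hE : 0 ≤ M • (E1 + E2) := Finsupp.le_def.mpr fun v => by
    rw [Finsupp.smul_apply, Finsupp.add_apply]
    exact nsmul_nonneg (add_nonneg (hE1 v) (hE2 v)) M
  have hMpos : (0 : ℤ) < (M : ℤ) := by exact_mod_cast hM
  have hd₁ : 0 < Divisor.degree (M • (P₁ + Z₁)) := by
    rw [degree_nsmul, map_add]
    exact mul_pos hMpos (add_pos_of_pos_of_nonneg hdegP₁ (degree_nonneg' hZ₁0))
  have hd₂ : 0 < Divisor.degree (M • (P₂ + Z₂)) := by
    rw [degree_nsmul, map_add]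
    exact mul_pos hMpos (add_pos_of_pos_of_nonneg hdegP₂ (degree_nonneg' hZ₂0))
  have hD₁ : ∀ i, (M • (P₁ + Z₁)) (e₁ i) = 0 := fun i => by
    rw [nsmul_apply_eq, Finsupp.add_apply, hP₁ i, hZ₁ i, add_zero, mul_zero]
  have hD₂ : ∀ i, (M • (P₂ + Z₂)) (e₂ i) = 0 := fun i => by
    rw [nsmul_apply_eq, Finsupp.add_apply, hP₂ i, hZ₂ i, add_zero, mul_zero]
  have hQD : (M • (P₁ + Z₁)) Q = 0 := by
    rw [nsmul_apply_eq, Finsupp.add_apply, hQP, hQZ, add_zero, mul_zero]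
  obtain ⟨m, ut, hm, hut, H⟩ := exists_hyp_fst h₁ h₂ hOA hval red π hπ hπker hconst hker he₂
    (M • (E1 + E2)) hE (fun N => hlat _) (M • (P₁ + Z₁)) (M • (P₂ + Z₂)) hD₁ hD₂ hd₁ hd₂ hS Q
    hQe hQD
  exact ⟨M, hE, exists_cong_fst h₁ red hE hS Q hQD, m, ut, hM, hm, hut, (hS m hm ut).2 hut, H⟩

/-- `exists_hyp_snd` for a two-parameter nodal datum (the conjuncts of `KerRed.NodalFibreFor`), on
the diagonal chart divisor `M • (E1 + E2)`; a lift `u` of `ut` exists, and EVERY lift works. -/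
theorem exists_hyp_snd_of_datum [Infinite k] (h₁ : IsFF1 k F₁ x₁) (h₂ : IsFF1 k F₂ x₂)
    (hOA : ∀ x : L, algebraMap L F x ∈ O ↔ x ∈ A)
    (hval : ∀ y : F, y ≠ 0 → ∃ c : L, c ≠ 0 ∧ algebraMap L F c * y ∈ O ∧
      ¬ Small A O (algebraMap L F c * y))
    (red : O →+* F₁ × F₂) (π : A →+* k) (hπ : Function.Surjective π)
    (hπker : ∀ a : A, π a = 0 ↔ A.valuation (a : L) < 1)
    (hconst : ∀ a : A, red ⟨algebraMap L F (a : L), (hOA _).2 a.2⟩ =
      algebraMap k (F₁ × F₂) (π a))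
    (hker : ∀ y : O, red y = 0 ↔ Small A O (y : F))
    {e₁ : ι → Place k F₁} {e₂ : ι → Place k F₂} (he₂ : Function.Injective e₂)
    (E1 E2 : Divisor L F) (hE1 : ∀ v, 0 ≤ E1 v) (hE2 : ∀ v, 0 ≤ E2 v)
    (hlat : ∀ B : Divisor L F, HasOrtho A O (riemannRochSpace B))
    (P₁ Z₁ : Divisor k F₁) (P₂ Z₂ : Divisor k F₂)
    (hP₁ : ∀ i, P₁ (e₁ i) = 0) (hZ₁ : ∀ i, Z₁ (e₁ i) = 0)
    (hP₂ : ∀ i, P₂ (e₂ i) = 0) (hZ₂ : ∀ i, Z₂ (e₂ i) = 0)
    (hdegP₁ : 0 < Divisor.degree P₁) (hdegP₂ : 0 < Divisor.degree P₂)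
    (hS2 : ∃ N₀ : ℕ, ∀ n₁ n₂ : ℕ, N₀ ≤ n₁ + n₂ → ∀ t : F₁ × F₂,
      (∃ y : O, (y : F) ∈ riemannRochSpace (n₁ • E1 + n₂ • E2) ∧ red y = t) ↔
        t ∈ gluedSpace e₁ e₂ (fun _ => (1 : k)) (n₁ • P₁ + n₂ • Z₁) (n₁ • P₂ + n₂ • Z₂))
    (Q : Place k F₂) (hQe : ∀ i, e₂ i ≠ Q) (hQP : P₂ Q = 0) (hQZ : Z₂ Q = 0) :
    ∃ (M : ℕ) (hE : 0 ≤ M • (E1 + E2))
      (hreg : ∀ y : chartInt (M • (E1 + E2)) hE O,
        ∃ c : k, Cong Q (RingHom.snd F₁ F₂ (red (intO (M • (E1 + E2)) hE O y))) c)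
      (m : ℕ) (ut : F₁ × F₂), 0 < M ∧ 0 < m ∧
      ut ∈ gluedSpace e₁ e₂ (fun _ => (1 : k)) (m • (M • (P₁ + Z₁))) (m • (M • (P₂ + Z₂))) ∧
      (∃ u : O, (u : F) ∈ riemannRochSpace (m • (M • (E1 + E2))) ∧ red u = ut) ∧
      ∀ (u : O) (hu : (u : F) ∈ riemannRochSpace (m • (M • (E1 + E2)))), red u = ut →
        ∃ e : chartInt (M • (E1 + E2)) hE O,
          Hyp π (chartInt (M • (E1 + E2)) hE O) (algebraMap_mem_chartInt hOA _ hE)
            (evHom red (RingHom.snd F₁ F₂) Q hreg)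
            (mkInt (M • (E1 + E2)) hE O (u : F) u.2 ⟨m, hu⟩) e := by
  obtain ⟨hZ₁0, hZ₂0⟩ := nonneg_snd_of_charts2 red E1 E2 hE2 P₁ Z₁ P₂ Z₂ hS2
  obtain ⟨M, hM, hS⟩ := diag_charts red E1 E2 P₁ Z₁ P₂ Z₂ hS2
  have hE : 0 ≤ M • (E1 + E2) := Finsupp.le_def.mpr fun v => by
    rw [Finsupp.smul_apply, Finsupp.add_apply]
    exact nsmul_nonneg (add_nonneg (hE1 v) (hE2 v)) M
  have hMpos : (0 : ℤ) < (M : ℤ) := by exact_mod_cast hM
  have hd₁ : 0 < Divisor.degree (M • (P₁ + Z₁)) := by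
    rw [degree_nsmul, map_add]
    exact mul_pos hMpos (add_pos_of_pos_of_nonneg hdegP₁ (degree_nonneg' hZ₁0))
  have hd₂ : 0 < Divisor.degree (M • (P₂ + Z₂)) := by
    rw [degree_nsmul, map_add]
    exact mul_pos hMpos (add_pos_of_pos_of_nonneg hdegP₂ (degree_nonneg' hZ₂0))
  have hD₁ : ∀ i, (M • (P₁ + Z₁)) (e₁ i) = 0 := fun i => by
    rw [nsmul_apply_eq, Finsupp.add_apply, hP₁ i, hZ₁ i, add_zero, mul_zero]
  have hD₂ : ∀ i, (M • (P₂ + Z₂)) (e₂ i) = 0 := fun i => by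
    rw [nsmul_apply_eq, Finsupp.add_apply, hP₂ i, hZ₂ i, add_zero, mul_zero]
  have hQD : (M • (P₂ + Z₂)) Q = 0 := by
    rw [nsmul_apply_eq, Finsupp.add_apply, hQP, hQZ, add_zero, mul_zero]
  obtain ⟨m, ut, hm, hut, H⟩ := exists_hyp_snd h₁ h₂ hOA hval red π hπ hπker hconst hker he₂
    (M • (E1 + E2)) hE (fun N => hlat _) (M • (P₁ + Z₁)) (M • (P₂ + Z₂)) hD₁ hD₂ hd₁ hd₂ hS Q
    hQe hQD
  exact ⟨M, hE, exists_cong_snd h₂ red hE hS Q hQD, m, ut, hM, hm, hut, (hS m hm ut).2 hut, H⟩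

end Nodal

end Fermat.Agent.Padic.S33.RC.PointLat
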