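/-
S33 / Route C (RC-5), the instance at the bad level: small local orders on the finite
inertia-stable subgroups of a subgroup `Kr` of `J₀(Mq)(ℚ̄)` from the geometric package `RCGeo`.

Setting (that of the `BAD` files): `A` a valuation subring of `ℚ̄` over the prime `q`,
`π : A → k` surjective, `h : BadSetup A π M q`, `W` an Atkin–Lehner involution,
`O = OPair h W = O_∞ ∩ O_0 ⊆ F = ℚ̄·F_{Mq}`, `redPair h W : O → κ × κ`.

* `pRed_bad` : the reduction data `OrthoFam.PRed A (OPair h W) (redPair h W) π`;
* `redL hπ h W D` : the reduction `red (L(D) ∩ O)` (a `k`-subspace of `κ × κ`; it is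
  `Lib.Red.CoordLat.redSub` of `L(D)`), `mem_redL`, `redL_eq_redSub`, `redL_mono`;
* `RCGeo hπ h W Kr` : the geometric package (what Route C has to produce);
* `smallOrder_bad` : a small local order on ONE finite inertia-stable subgroup `V` from divisors
  `E`, `B`, `D v` on the generic fibre;
* `smallOrders_of_rcGeo` : **`RCGeo hπ h W Kr → SmallOrders A (M * q) Kr`**.
-/
import Mathlib
import Fermat.Agent.Padic.S33.RC.OrthoAsmK
import Fermat.Agent.Padic.S33.RC.SmallOrder
import Fermat.Agent.BAD.LatFixedInst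
import Fermat.Agent.BAD.ChartNodesInst
import Fermat.Agent.BAD.BadU
import Fermat.Agent.Padic.GenPosGlue

set_option autoImplicit false

noncomputable section

namespace Fermat.Agent.Padic.S33.RC.SmallBad

open AlgebraicCurve ModularCurve Module
open Fermat.Agent.BAD.TwoVal Fermat.Agent.BAD.Ortho Fermat.Agent.Lib.FF
open Fermat.Agent.Padic Fermat.Agent.Padic.KMAdd Fermat.Agent.Padic.S33.RC
  Fermat.Agent.Padic.S33.RC.OrthoFam Fermat.Agent.Padic.S33.RC.SmallAsm

local notation "Qb" => AlgebraicClosure ℚ
local notation "GQ" => (AlgebraicClosure ℚ ≃ₐ[ℚ] AlgebraicClosure ℚ)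

variable {A : ValuationSubring Qb} {k : Type} [Field k] {π : A →+* k} {M q : ℕ} [NeZero M]
  [NeZero q]

/-- The reduction data of the pair `(A, O_∞ ∩ O_0)` at the bad level. -/
theorem pRed_bad (hπ : Function.Surjective π) (h : BadSetup A π M q)
    (W : laurentBaseChange Qb (modularFunctionFieldFull (M * q)) ≃ₐ[Qb]
      laurentBaseChange Qb (modularFunctionFieldFull (M * q))) :
    PRed A (OPair h W) (redPair h W) π where
  hπsurj := hπ
  hπ := h.pi_eq_zero_iff
  hOA := fun c => OPair_hOA h c
  hker := redPair_eq_zero_iff h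
  hredconst := fun c => Fermat.Agent.BAD.ChartNodesInst.redPair_const h c

/-- The reduction `red (L(D) ∩ O)` of a Riemann–Roch space of the generic fibre: a `k`-subspace
of `κ × κ`. -/
def redL (hπ : Function.Surjective π) (h : BadSetup A π M q)
    (W : laurentBaseChange Qb (modularFunctionFieldFull (M * q)) ≃ₐ[Qb]
      laurentBaseChange Qb (modularFunctionFieldFull (M * q)))
    (D : Divisor Qb (laurentBaseChange Qb (modularFunctionFieldFull (M * q)))) :
    Submodule k (↥(modularFunctionFieldFullC k M) × ↥(modularFunctionFieldFullC k M)) :=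
  Fermat.Agent.Lib.Red.CoordLat.redSub (fun x => OPair_hOA h x) (redPair h W) π hπ
    (fun a => Fermat.Agent.BAD.ChartNodesInst.redPair_const h a) (riemannRochSpace D)

theorem mem_redL {hπ : Function.Surjective π} {h : BadSetup A π M q}
    {W : laurentBaseChange Qb (modularFunctionFieldFull (M * q)) ≃ₐ[Qb]
      laurentBaseChange Qb (modularFunctionFieldFull (M * q))}
    {D : Divisor Qb (laurentBaseChange Qb (modularFunctionFieldFull (M * q)))}
    {t : ↥(modularFunctionFieldFullC k M) × ↥(modularFunctionFieldFullC k M)} :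
    t ∈ redL hπ h W D ↔ ∃ y : OPair h W,
      (y : laurentBaseChange Qb (modularFunctionFieldFull (M * q))) ∈ riemannRochSpace D ∧
        redPair h W y = t :=
  Iff.rfl

/-- `redL` is the reduction `PRed.redSub` of `L(D)`. -/
theorem redL_eq_redSub (hπ : Function.Surjective π) (h : BadSetup A π M q)
    (W : laurentBaseChange Qb (modularFunctionFieldFull (M * q)) ≃ₐ[Qb]
      laurentBaseChange Qb (modularFunctionFieldFull (M * q)))
    (D : Divisor Qb (laurentBaseChange Qb (modularFunctionFieldFull (M * q)))) :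
    redL hπ h W D = (pRed_bad hπ h W).redSub (riemannRochSpace D) :=
  Submodule.ext fun _ => Iff.rfl

theorem redL_mono {hπ : Function.Surjective π} {h : BadSetup A π M q}
    {W : laurentBaseChange Qb (modularFunctionFieldFull (M * q)) ≃ₐ[Qb]
      laurentBaseChange Qb (modularFunctionFieldFull (M * q))}
    {D D' : Divisor Qb (laurentBaseChange Qb (modularFunctionFieldFull (M * q)))}
    (hle : D ≤ D') : redL hπ h W D ≤ redL hπ h W D' := by
  rw [redL_eq_redSub, redL_eq_redSub]
  exact (pRed_bad hπ h W).redSub_mono (KMLemmas.L_mono hle)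

set_option synthInstance.maxHeartbeats 200000 in
/-- **The geometric package of Route C** for a subgroup `Kr` of `J₀(Mq)(ℚ̄)` (in the application
`Kr = kerRed h W`): every finite inertia-stable subgroup `V ≤ Kr` is parametrised by divisors
`D v` in the Khuri-Makdisi setting of an inertia-invariant divisor `E` of large degree and a
non-special divisor `B` of degree `g`, such that the special-fibre facts hold for the
reductions of `L(E)`, `L(E - B)`, `L(2E - B)`, all the `L(E - D v)` have the same reduction as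
`L(E - B)`, and `v ↦ D v` is inertia-equivariant and injective on the level of the spaces
`L(E - D v)`. -/
def RCGeo (hπ : Function.Surjective π) (h : BadSetup A π M q)
    (W : laurentBaseChange Qb (modularFunctionFieldFull (M * q)) ≃ₐ[Qb]
      laurentBaseChange Qb (modularFunctionFieldFull (M * q)))
    (Kr : AddSubgroup (JZero (M * q))) : Prop :=
  ∀ V : AddSubgroup (JZero (M * q)), Finite V → V ≤ Kr →
    (∀ σ ∈ A.inertiaSubgroupIn ℚ, ∀ v ∈ V, σ • v ∈ V) →
    ∃ (E B : Divisor Qb (laurentBaseChange Qb (modularFunctionFieldFull (M * q)))) (n : ℤ)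
      (D : V → Divisor Qb (laurentBaseChange Qb (modularFunctionFieldFull (M * q)))),
      5 * (genusFF Qb (laurentBaseChange Qb (modularFunctionFieldFull (M * q))) : ℤ) + 1 ≤ n ∧
      Divisor.degree E = n ∧
      Divisor.degree B = genusFF Qb (laurentBaseChange Qb (modularFunctionFieldFull (M * q))) ∧
      (∀ σ ∈ A.inertiaSubgroupIn ℚ,
        arithmeticGalois (modularFunctionFieldFull (M * q)) σ • E = E) ∧
      SpecFacts (redL hπ h W E) (redL hπ h W (E - B)) (redL hπ h W (2 • E - B))
        (2 * n - 3 * genusFF Qb (laurentBaseChange Qb (modularFunctionFieldFull (M * q))) + 1) ∧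
      (∀ v, 0 ≤ D v) ∧
      (∀ v w, KMTriple Qb (laurentBaseChange Qb (modularFunctionFieldFull (M * q))) B
        (D v) (D w) (D (v + w))) ∧
      (∀ v, redL hπ h W (E - D v) = redL hπ h W (E - B)) ∧
      (∀ σ ∈ A.inertiaSubgroupIn ℚ, ∀ v w : V,
        (w : JZero (M * q)) = σ • (v : JZero (M * q)) →
        D w = arithmeticGalois (modularFunctionFieldFull (M * q)) σ • D v) ∧
      ∀ v w, riemannRochSpace (E - D v) = riemannRochSpace (E - D w) → v = w

set_option maxHeartbeats 1000000 in
set_option synthInstance.maxHeartbeats 200000 in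
/-- **(RC-5) at the bad level, one subgroup.**  A small local order on a finite inertia-stable
subgroup `V` of `J₀(Mq)(ℚ̄)` from divisors `E`, `B`, `D v` (`v ∈ V`) on the generic fibre. -/
theorem smallOrder_bad [IsAlgClosed k] (hq : q.Prime) (hA : A.LiesOverPrime q)
    (hπ : Function.Surjective π) (h : BadSetup A π M q)
    {W : laurentBaseChange Qb (modularFunctionFieldFull (M * q)) ≃ₐ[Qb]
      laurentBaseChange Qb (modularFunctionFieldFull (M * q))} (hW : IsAL M q W)
    (V : AddSubgroup (JZero (M * q))) [Finite V]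
    (hV : ∀ σ ∈ A.inertiaSubgroupIn ℚ, ∀ v ∈ V, σ • v ∈ V)
    (E B : Divisor Qb (laurentBaseChange Qb (modularFunctionFieldFull (M * q))))
    (n : ℤ)
    (hn : 5 * (genusFF Qb (laurentBaseChange Qb (modularFunctionFieldFull (M * q))) : ℤ) + 1 ≤ n)
    (hE : Divisor.degree E = n)
    (hB : Divisor.degree B = genusFF Qb (laurentBaseChange Qb (modularFunctionFieldFull (M * q))))
    (hEfix : ∀ σ ∈ A.inertiaSubgroupIn ℚ,
      arithmeticGalois (modularFunctionFieldFull (M * q)) σ • E = E)
    (hfacts : SpecFacts (redL hπ h W E) (redL hπ h W (E - B)) (redL hπ h W (2 • E - B))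
      (2 * n - 3 * genusFF Qb (laurentBaseChange Qb (modularFunctionFieldFull (M * q))) + 1))
    (D : V → Divisor Qb (laurentBaseChange Qb (modularFunctionFieldFull (M * q))))
    (hDnn : ∀ v, 0 ≤ D v)
    (hD : ∀ v w, KMTriple Qb (laurentBaseChange Qb (modularFunctionFieldFull (M * q))) B
      (D v) (D w) (D (v + w)))
    (hred : ∀ v, redL hπ h W (E - D v) = redL hπ h W (E - B))
    (hDeq : ∀ σ ∈ A.inertiaSubgroupIn ℚ, ∀ v w : V,
      (w : JZero (M * q)) = σ • (v : JZero (M * q)) →
      ∀ f ∈ riemannRochSpace (E - D v),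
        arithmeticGalois (modularFunctionFieldFull (M * q)) σ • f ∈ riemannRochSpace (E - D w))
    (hsep : ∀ v w, riemannRochSpace (E - D v) = riemannRochSpace (E - D w) → v = w) :
    ∃ s : Set (V → Qb), s.Finite ∧
      (∀ f ∈ s, (∀ v, f v ∈ A) ∧ ∀ σ ∈ A.inertiaSubgroupIn ℚ, ∀ v w : V,
        (w : JZero (M * q)) = σ • (v : JZero (M * q)) → f w = σ (f v)) ∧
      (∀ v w : V, (∀ f ∈ s, f v = f w) → v = w) ∧
      (∀ f ∈ s, ∃ (n : ℕ) (g h : Fin n → Algebra.adjoin A s), ∀ v w : V,
        f (v + w) = ∑ i, (g i : V → Qb) v * (h i : V → Qb) w) ∧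
      ∀ f ∈ s, ∀ v : V, A.valuation (f v - f 0) < 1 := by
  classical
  obtain ⟨m, b, hfix, hli, hspan, hmem, hcoeff⟩ :=
    Fermat.Agent.BAD.LatFixedInst.exists_fixed_ortho_basis_rr hq hA h hπ hW E hEfix
  have hb : IsOrtho A (OPair h W) b := ⟨hli, hmem, hcoeff⟩
  have hlat : ∀ D' : Divisor Qb (laurentBaseChange Qb (modularFunctionFieldFull (M * q))),
      Fermat.Agent.Lib.Red.CoordLat.HasOrtho A (OPair h W) (riemannRochSpace D') :=
    Fermat.Agent.BAD.BadU.latAt hπ h W hW
  have hfacts' : SpecFacts ((pRed_bad hπ h W).redSub (riemannRochSpace E))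
      ((pRed_bad hπ h W).redSub (riemannRochSpace (E - B)))
      ((pRed_bad hπ h W).redSub (riemannRochSpace (2 • E - B)))
      (2 * n - 3 * genusFF Qb (laurentBaseChange Qb (modularFunctionFieldFull (M * q))) + 1) := by
    rw [← redL_eq_redSub, ← redL_eq_redSub, ← redL_eq_redSub]
    exact hfacts
  have hred' : ∀ v, (pRed_bad hπ h W).redSub (riemannRochSpace (E - D v)) =
      (pRed_bad hπ h W).redSub (riemannRochSpace (E - B)) := by
    intro v
    rw [← redL_eq_redSub, ← redL_eq_redSub]
    exact hred v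
  have heqv : ∀ σ ∈ A.inertiaSubgroupIn ℚ, ∀ v, ∀ w : Fin m → Qb,
      ∑ i, w i • b i ∈ riemannRochSpace (E - D v) →
      ∑ i, σ (w i) • b i ∈ riemannRochSpace (E - D (actI A V hV σ v)) := by
    intro σ hσ v w hw
    have h1 := hDeq σ hσ v (actI A V hV σ v) (coe_actI A V hV hσ v) _ hw
    rwa [Fermat.Agent.BAD.LatFixedInst.galois_sum hfix hσ w] at h1
  refine smallOrder_subgroup A V hV ?_
  exact exists_smallOrder_of_orthoK (actI A V hV) (isFF1_xL Qb (M * q)) (pRed_bad hπ h W)
    hlat E B n hn hE hB b hb hspan hfacts' D hDnn hD hred' heqv hsep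

set_option maxHeartbeats 1000000 in
set_option synthInstance.maxHeartbeats 200000 in
/-- **(RC-5).**  The geometric package gives small local orders on all finite inertia-stable
subgroups of `Kr`. -/
theorem smallOrders_of_rcGeo [IsAlgClosed k] (hq : q.Prime) (hA : A.LiesOverPrime q)
    (hπ : Function.Surjective π) (h : BadSetup A π M q)
    {W : laurentBaseChange Qb (modularFunctionFieldFull (M * q)) ≃ₐ[Qb]
      laurentBaseChange Qb (modularFunctionFieldFull (M * q))} (hW : IsAL M q W)
    (Kr : AddSubgroup (JZero (M * q))) (hgeo : RCGeo hπ h W Kr) :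
    SmallOrders A (M * q) Kr := by
  intro V hfin hVK hV
  obtain ⟨E, B, n, D, hn, hE, hB, hEfix, hfacts, hDnn, hD, hred, hDeq, hsep⟩ :=
    hgeo V hfin hVK hV
  refine smallOrder_bad hq hA hπ h hW V hV E B n hn hE hB hEfix hfacts D hDnn hD hred ?_ hsep
  intro σ hσ v w hvw f hf
  have h1 := GenPosGlue.smul_mem_rr (arithmeticGalois (modularFunctionFieldFull (M * q)) σ) hf
  rwa [smul_sub, hEfix σ hσ, ← hDeq σ hσ v w hvw] at h1

end Fermat.Agent.Padic.S33.RC.SmallBad
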