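/-
S33 / Route C, the middle seam (RCGeo), SECOND SEAT (helper60): small orders on the kernel of
reduction from the base points.

Setting of `BAD/KerRed`: `A` a valuation subring of `ℚ̄` over `q`, `h : BadSetup A (residue A) M q`,
`O = OPair h W ⊆ F = F_{Mq}`, `redPair h W : O → κ × κ`, a nodal datum
`(ι, e₁, e₂, P₁, Z₁, P₂, Z₂, E1, E2)` (the conjuncts of `KerRed.NodalFibreFor`).

* `pRed` : the reduction data `OrthoFam.PRed A (OPair h W) (redPair h W) π`;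
* `datum_nonneg` : `P_j, Z_j ≥ 0` (from `(1, 1) ∈ red Λ(n₁ E1 + n₂ E2)`);
* `smallOrders_of_datum` : **`RC.SmallOrders A (M * q) (kerRed h W)`** from the datum and the
  base points `T ↦ (T₁, T₂)` of RC-2 (the conclusion of `BAD.BasePts.exists_basePoints`):
  `E := m • (E1 + E2)`, `B := ∑_T Q`; `SpecFacts` by `SpecBad.exists_specFacts_red`, the
  inertia-fixed orthonormal basis of `L(E)` by `LatFixedInst.exists_fixed_ortho_basis_rr`, the
  point data (KD) for each finite `V ≤ kerRed` by `KerRed.exists_normalized_red` (at a chart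
  depending on `V`) and `KerDivKD.hKD_of_twisted`, assembled by
  `KDFormal.smallOrders_of_kd_fin`.
-/
import Mathlib
import Fermat.Agent.BAD.BasePtsAsm
import Fermat.Agent.BAD.KerRedTriv
import Fermat.Agent.BAD.LatFixedInst
import Fermat.Agent.BAD.NodalGood
import Fermat.Agent.Padic.S33.RC.KerDivKD
import Fermat.Agent.Padic.S33.RC.SpecBad
import Fermat.Agent.Padic.S33.RC.KDFormalFin

set_option autoImplicit false

namespace Fermat.Agent.Padic.S33.RC.SmallBadB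

open AlgebraicCurve ModularCurve Module Fermat.Agent.Lib.FF Fermat.Agent.Lib.Red.Deform
  Fermat.Agent.Lib.Red.CoordLat Fermat.Agent.BAD.NodalDiv Fermat.Agent.BAD.NodalRiemann
  Fermat.Agent.BAD.TwoVal Fermat.Agent.BAD.NodalAsm Fermat.Agent.BAD.BadU Fermat.Agent.BAD.KerRed
  Fermat.Agent.Padic.S33.RC.OrthoFam

local notation "Qb" => AlgebraicClosure ℚ

/-! ### generalities on divisors -/

section Gen

variable {K F : Type*} [Field K] [Field F] [Algebra K F]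

theorem nonneg_of_one_mem {D : Divisor K F} (h : (1 : F) ∈ riemannRochSpace D) : 0 ≤ D := by
  refine Finsupp.le_def.2 fun v => ?_
  rcases (mem_riemannRochSpace_iff.1 h) v with h0 | h1
  · exact absurd h0 one_ne_zero
  · rw [Place.ord_one] at h1
    simpa using h1

theorem nonneg_of_succ_nsmul_add {D D' : Divisor K F} (n : ℕ)
    (h : 0 ≤ (n + 1) • D + 0 • D') : 0 ≤ D := by
  refine Finsupp.le_def.2 fun v => ?_
  have h1 := Finsupp.le_def.1 h v
  simp only [Finsupp.coe_zero, Pi.zero_apply, Finsupp.smul_apply, zero_smul, add_zero,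
    nsmul_eq_mul] at h1 ⊢
  have h2 : (0 : ℤ) < ((n + 1 : ℕ) : ℤ) := by exact_mod_cast Nat.succ_pos n
  exact nonneg_of_mul_nonneg_right h1 h2

theorem nonneg_of_add_succ_nsmul {D D' : Divisor K F} (n : ℕ)
    (h : 0 ≤ 0 • D' + (n + 1) • D) : 0 ≤ D := by
  rw [add_comm] at h
  exact nonneg_of_succ_nsmul_add n h

end Gen

/-! ### the reduction data -/

section Data

variable {A : ValuationSubring Qb} {k : Type} [Field k] {π : A →+* k} {M q : ℕ} [NeZero M]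
  [NeZero q]

/-- The reduction data of the pair `(A, OPair h W)`. -/
theorem pRed (hπ : Function.Surjective π) (h : BadSetup A π M q)
    (W : laurentBaseChange Qb (modularFunctionFieldFull (M * q)) ≃ₐ[Qb]
      laurentBaseChange Qb (modularFunctionFieldFull (M * q))) :
    PRed A (OPair h W) (redPair h W) π :=
  ⟨hπ, h.pi_eq_zero_iff, fun c => OPair_hOA h c, redPair_eq_zero_iff h,
    fun a => (redPair_algebraMap h a _).trans rfl⟩

/-- In a nodal datum the divisors `P_j`, `Z_j` are effective. -/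
theorem datum_nonneg (h : BadSetup A π M q)
    (W : laurentBaseChange Qb (modularFunctionFieldFull (M * q)) ≃ₐ[Qb]
      laurentBaseChange Qb (modularFunctionFieldFull (M * q)))
    {E1 E2 : Divisor Qb (laurentBaseChange Qb (modularFunctionFieldFull (M * q)))}
    {ι : Type} (e₁ e₂ : ι → Place k (modularFunctionFieldFullC k M))
    (P₁ Z₁ P₂ Z₂ : Divisor k (modularFunctionFieldFullC k M))
    (hE1 : ∀ v, 0 ≤ E1 v) (hE2 : ∀ v, 0 ≤ E2 v)
    (hS2 : ∃ N₀ : ℕ, ∀ n₁ n₂ : ℕ, N₀ ≤ n₁ + n₂ →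
      ∀ t : ↥(modularFunctionFieldFullC k M) × ↥(modularFunctionFieldFullC k M),
        (∃ y : OPair h W,
            (y : laurentBaseChange Qb (modularFunctionFieldFull (M * q))) ∈
              riemannRochSpace (n₁ • E1 + n₂ • E2) ∧ redPair h W y = t) ↔
          t ∈ gluedSpace e₁ e₂ (fun _ => (1 : k))
            (n₁ • P₁ + n₂ • Z₁) (n₁ • P₂ + n₂ • Z₂)) :
    0 ≤ P₁ ∧ 0 ≤ Z₁ ∧ 0 ≤ P₂ ∧ 0 ≤ Z₂ := by
  obtain ⟨N₀, hN₀⟩ := hS2
  have key : ∀ n₁ n₂ : ℕ, N₀ ≤ n₁ + n₂ →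
      (1 : ↥(modularFunctionFieldFullC k M) × ↥(modularFunctionFieldFullC k M)) ∈
        gluedSpace e₁ e₂ (fun _ => (1 : k)) (n₁ • P₁ + n₂ • Z₁) (n₁ • P₂ + n₂ • Z₂) :=
    fun n₁ n₂ hn => (hN₀ n₁ n₂ hn 1).1 ⟨1, Fermat.Agent.BAD.KerRed.one_mem_L hE1 hE2 n₁ n₂, map_one _⟩
  have k1 := key (N₀ + 1) 0 (by omega)
  have k2 := key 0 (N₀ + 1) (by omega)
  exact ⟨nonneg_of_succ_nsmul_add N₀ (nonneg_of_one_mem k1.1),
    nonneg_of_add_succ_nsmul N₀ (nonneg_of_one_mem k2.1),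
    nonneg_of_succ_nsmul_add N₀ (nonneg_of_one_mem k1.2.1),
    nonneg_of_add_succ_nsmul N₀ (nonneg_of_one_mem k2.2.1)⟩

end Data

/-! ### the assembly -/

section Main

variable {A : ValuationSubring Qb} {M q : ℕ} [NeZero M] [NeZero q]

set_option synthInstance.maxHeartbeats 400000 in
set_option maxHeartbeats 1600000 in
/-- **Small orders on the kernel of reduction** from a nodal datum and the base points of
RC-2. -/
theorem smallOrders_of_datum (hq : q.Prime) (hA : A.LiesOverPrime q)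
    (h : BadSetup A (IsLocalRing.residue A) M q)
    (W : laurentBaseChange Qb (modularFunctionFieldFull (M * q)) ≃ₐ[Qb]
      laurentBaseChange Qb (modularFunctionFieldFull (M * q))) (hW : IsAL M q W)
    {E1 E2 : Divisor Qb (laurentBaseChange Qb (modularFunctionFieldFull (M * q)))}
    (hNF : NodalFibreFor h W E1 E2)
    {ι : Type} [Fintype ι] [Nonempty ι]
    (e₁ e₂ : ι → Place (IsLocalRing.ResidueField A)
      (modularFunctionFieldFullC (IsLocalRing.ResidueField A) M))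
    (P₁ Z₁ P₂ Z₂ : Divisor (IsLocalRing.ResidueField A)
      (modularFunctionFieldFullC (IsLocalRing.ResidueField A) M))
    (hinj₁ : Function.Injective e₁) (hinj₂ : Function.Injective e₂)
    (hP₁ : ∀ i, P₁ (e₁ i) = 0) (hZ₁ : ∀ i, Z₁ (e₁ i) = 0)
    (hP₂ : ∀ i, P₂ (e₂ i) = 0) (hZ₂ : ∀ i, Z₂ (e₂ i) = 0)
    (hdegP₁ : 0 < Divisor.degree P₁) (hdegP₂ : 0 < Divisor.degree P₂)
    (hE1 : ∀ v, 0 ≤ E1 v) (hE2 : ∀ v, 0 ≤ E2 v)
    (hdegE1 : 0 < Divisor.degree E1) (hdegE2 : 0 < Divisor.degree E2)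
    (hEI : ∀ σ ∈ A.inertiaSubgroupIn ℚ,
      arithmeticGalois (modularFunctionFieldFull (M * q)) σ • E1 = E1 ∧
      arithmeticGalois (modularFunctionFieldFull (M * q)) σ • E2 = E2)
    (hS2 : ∃ N₀ : ℕ, ∀ n₁ n₂ : ℕ, N₀ ≤ n₁ + n₂ →
      ∀ t : ↥(modularFunctionFieldFullC (IsLocalRing.ResidueField A) M) ×
          ↥(modularFunctionFieldFullC (IsLocalRing.ResidueField A) M),
        (∃ y : OPair h W,
            (y : laurentBaseChange Qb (modularFunctionFieldFull (M * q))) ∈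
              riemannRochSpace (n₁ • E1 + n₂ • E2) ∧ redPair h W y = t) ↔
          t ∈ gluedSpace e₁ e₂ (fun _ => (1 : IsLocalRing.ResidueField A))
            (n₁ • P₁ + n₂ • Z₁) (n₁ • P₂ + n₂ • Z₂))
    (T : Finset (Place Qb (laurentBaseChange Qb (modularFunctionFieldFull (M * q)))))
    (T₁ T₂ : Finset (Place (IsLocalRing.ResidueField A)
      (modularFunctionFieldFullC (IsLocalRing.ResidueField A) M)))
    (hTg : (T.card : ℤ) = genusFF Qb ↥(laurentBaseChange Qb (modularFunctionFieldFull (M * q))))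
    (hTT : T.card = T₁.card + T₂.card)
    (hTI : ∀ σ ∈ A.inertiaSubgroupIn ℚ,
      arithmeticGalois (modularFunctionFieldFull (M * q)) σ • RR.sumPl T = RR.sumPl T)
    (hT₁e : ∀ i, e₁ i ∉ T₁) (hT₂e : ∀ i, e₂ i ∉ T₂)
    (hns : gluedSpace e₁ e₂ (fun _ => (1 : IsLocalRing.ResidueField A)) (RR.sumPl T₁)
        (RR.sumPl T₂) = gluedSpace e₁ e₂ (fun _ => (1 : IsLocalRing.ResidueField A)) 0 0)
    (hRC2 : ∃ (c : ℤ) (N₀ : ℕ), ∀ n₁ n₂ : ℕ, N₀ ≤ n₁ + n₂ →
      c ≤ Divisor.degree (n₁ • P₁ + n₂ • Z₁) → c ≤ Divisor.degree (n₁ • P₂ + n₂ • Z₂) →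
      ∀ t : ↥(modularFunctionFieldFullC (IsLocalRing.ResidueField A) M) ×
          ↥(modularFunctionFieldFullC (IsLocalRing.ResidueField A) M),
        (∃ y : OPair h W,
            (y : laurentBaseChange Qb (modularFunctionFieldFull (M * q))) ∈
              riemannRochSpace (n₁ • E1 + n₂ • E2 - RR.sumPl T) ∧ redPair h W y = t) ↔
          t ∈ gluedSpace e₁ e₂ (fun _ => (1 : IsLocalRing.ResidueField A))
            (n₁ • P₁ + n₂ • Z₁ - RR.sumPl T₁) (n₁ • P₂ + n₂ • Z₂ - RR.sumPl T₂)) :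
    Fermat.Agent.Padic.S33.RC.SmallOrders A (M * q) (kerRed h W) := by
  classical
  have : IsAlgClosed (IsLocalRing.ResidueField A) := CharP.isAlgClosed_residueField A
  have hπ : Function.Surjective (IsLocalRing.residue A) := IsLocalRing.residue_surjective
  have hPR := pRed hπ h W
  have hF := isFF1_xL Qb (M * q)
  have hκ := isFF1_xk (IsLocalRing.ResidueField A) M
  have hLat : LatAt h W := latAt hπ h W hW
  obtain ⟨hP₁0, hZ₁0, hP₂0, hZ₂0⟩ := datum_nonneg h W e₁ e₂ P₁ Z₁ P₂ Z₂ hE1 hE2 hS2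
  obtain ⟨N₀, hN₀⟩ := hS2
  obtain ⟨c, N₁, hN₁⟩ := hRC2
  obtain ⟨c₁, hc₁⟩ := BasePoint.exists_NS hκ
  -- degrees
  have hdZ₁ : 0 ≤ Divisor.degree Z₁ :=
    Fermat.Agent.Lib.FF.GenPos.degree_nonneg hκ fun v => by
      simpa using Finsupp.le_def.1 hZ₁0 v
  have hdZ₂ : 0 ≤ Divisor.degree Z₂ :=
    Fermat.Agent.Lib.FF.GenPos.degree_nonneg hκ fun v => by
      simpa using Finsupp.le_def.1 hZ₂0 v
  have hdQ₁ : 1 ≤ Divisor.degree (P₁ + Z₁) := by rw [map_add]; linarith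
  have hdQ₂ : 1 ≤ Divisor.degree (P₂ + Z₂) := by rw [map_add]; linarith
  have hdegB : Divisor.degree (RR.sumPl T) =
      genusFF Qb ↥(laurentBaseChange Qb (modularFunctionFieldFull (M * q))) := by
    rw [RR.degree_sumPl hF.resK]
    exact hTg
  have hdB₁ : Divisor.degree (RR.sumPl T₁) = T₁.card := RR.degree_sumPl hκ.resK T₁
  have hdB₂ : Divisor.degree (RR.sumPl T₂) = T₂.card := RR.degree_sumPl hκ.resK T₂
  have hB₁e : ∀ i, RR.sumPl T₁ (e₁ i) = 0 := fun i => RR.sumPl_apply_of_notMem (hT₁e i)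
  have hB₂e : ∀ i, RR.sumPl T₂ (e₂ i) = 0 := fun i => RR.sumPl_apply_of_notMem (hT₂e i)
  have hQ₁e : ∀ (n : ℕ) (i : ι), (n • (P₁ + Z₁)) (e₁ i) = 0 := fun n i => by
    rw [Finsupp.smul_apply, Finsupp.add_apply, hP₁ i, hZ₁ i, add_zero, smul_zero]
  have hQ₂e : ∀ (n : ℕ) (i : ι), (n • (P₂ + Z₂)) (e₂ i) = 0 := fun n i => by
    rw [Finsupp.smul_apply, Finsupp.add_apply, hP₂ i, hZ₂ i, add_zero, smul_zero]
  -- the diagonal charts
  have hdeg₁ : ∀ n : ℕ, Divisor.degree (n • (P₁ + Z₁)) = n * Divisor.degree (P₁ + Z₁) :=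
    fun n => by rw [map_nsmul, nsmul_eq_mul]
  have hdeg₂ : ∀ n : ℕ, Divisor.degree (n • (P₂ + Z₂)) = n * Divisor.degree (P₂ + Z₂) :=
    fun n => by rw [map_nsmul, nsmul_eq_mul]
  have hle₁ : ∀ n : ℕ, (n : ℤ) ≤ Divisor.degree (n • (P₁ + Z₁)) := fun n => by
    rw [hdeg₁]
    have : (0 : ℤ) ≤ n := Int.natCast_nonneg n
    nlinarith
  have hle₂ : ∀ n : ℕ, (n : ℤ) ≤ Divisor.degree (n • (P₂ + Z₂)) := fun n => by
    rw [hdeg₂]
    have : (0 : ℤ) ≤ n := Int.natCast_nonneg n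
    nlinarith
  have hS : ∀ n : ℕ, N₀ ≤ n → ∀ t,
      (∃ y : OPair h W, (y : laurentBaseChange Qb (modularFunctionFieldFull (M * q))) ∈
          riemannRochSpace (n • (E1 + E2)) ∧ redPair h W y = t) ↔
        t ∈ gluedSpace e₁ e₂ (fun _ => (1 : IsLocalRing.ResidueField A))
          (n • (P₁ + Z₁)) (n • (P₂ + Z₂)) := by
    intro n hn t
    rw [smul_add n E1 E2, smul_add n P₁ Z₁, smul_add n P₂ Z₂]
    exact hN₀ n n (by omega) t
  have hRC : ∀ n : ℕ, N₁ ≤ n → c ≤ n → ∀ t,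
      (∃ y : OPair h W, (y : laurentBaseChange Qb (modularFunctionFieldFull (M * q))) ∈
          riemannRochSpace (n • (E1 + E2) - RR.sumPl T) ∧ redPair h W y = t) ↔
        t ∈ gluedSpace e₁ e₂ (fun _ => (1 : IsLocalRing.ResidueField A))
          (n • (P₁ + Z₁) - RR.sumPl T₁) (n • (P₂ + Z₂) - RR.sumPl T₂) := by
    intro n hn hcn t
    have h1 := hle₁ n
    have h2 := hle₂ n
    rw [smul_add n P₁ Z₁] at h1
    rw [smul_add n P₂ Z₂] at h2
    rw [smul_add n E1 E2, smul_add n P₁ Z₁, smul_add n P₂ Z₂]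
    exact hN₁ n n (by omega) (hcn.trans h1) (hcn.trans h2) t
  -- (S): the special facts
  obtain ⟨m₀, hm₀⟩ := SpecBad.exists_specFacts_red hPR hF hκ hκ e₁ e₂ hinj₁ hinj₂ hLat
    (E1 + E2) (P₁ + Z₁) (P₂ + Z₂)
    (fun i => by rw [Finsupp.add_apply, hP₁ i, hZ₁ i, add_zero])
    (fun i => by rw [Finsupp.add_apply, hP₂ i, hZ₂ i, add_zero])
    (by rw [map_add]; linarith) (by linarith) (by linarith)
    ⟨N₀, fun n hn => Submodule.ext fun t => hS n hn t⟩
    (RR.sumPl T) (RR.sumPl T₁) (RR.sumPl T₂) hB₁e hB₂e (RR.sumPl_nonneg T₁) (RR.sumPl_nonneg T₂)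
    hns.le
    (by rw [hdB₁, hdB₂, ← hTg, hTT]; push_cast; ring)
    ⟨max N₁ c.toNat, fun n hn => Submodule.ext fun t =>
      hRC n ((le_max_left _ _).trans hn) (Int.toNat_le.1 ((le_max_right _ _).trans hn)) t⟩
  -- the level `m`
  obtain ⟨m, hmm₀, hmN₁, hmc⟩ : ∃ m : ℕ, m₀ ≤ m ∧ N₁ ≤ m ∧ c ≤ m :=
    ⟨max m₀ (max N₁ c.toNat), le_max_left _ _, (le_max_left _ _).trans (le_max_right _ _),
      Int.toNat_le.1 ((le_max_right _ _).trans (le_max_right _ _))⟩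
  obtain ⟨hdegE, hfacts⟩ := hm₀ m hmm₀
  have hEI' : ∀ σ ∈ A.inertiaSubgroupIn ℚ,
      arithmeticGalois (modularFunctionFieldFull (M * q)) σ • (m • (E1 + E2)) =
        m • (E1 + E2) := by
    intro σ hσ
    rw [smul_comm, smul_add, (hEI σ hσ).1, (hEI σ hσ).2]
  -- the inertia-fixed orthonormal basis of `L(E)`
  obtain ⟨nb, b, hbfix, hbli, hbspan, hbmem, hbcoef⟩ :=
    Fermat.Agent.BAD.LatFixedInst.exists_fixed_ortho_basis_rr hq hA h hπ hW (m • (E1 + E2)) hEI'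
  refine KDFormal.smallOrders_of_kd_fin hF hPR hLat (m • (E1 + E2)) (RR.sumPl T)
    (Divisor.degree (m • (E1 + E2))) hdegE rfl hdegB hEI' hTI
    ⟨Fin nb, inferInstance, b, ⟨hbli, hbmem, hbcoef⟩, hbspan, fun σ hσ i => hbfix i σ hσ⟩
    hfacts (kerRed h W) ?_
  -- (KD) for a finite subgroup
  intro V hVfin hVK
  have := hVfin
  choose D' hD' Nv hNv using fun v : V => exists_normalized_red hπ h W hW hNF (hVK v.2)
  obtain ⟨Nmax, hNmax⟩ := (Set.finite_range Nv).bddAbove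
  have hNv' : ∀ v : V, Nv v ≤ Nmax := fun v => hNmax ⟨v, rfl⟩
  -- the chart `C = a • (E1 + E2)`
  obtain ⟨a, haNmax, haN₀, haN₁, hac, hab⟩ : ∃ a : ℕ, Nmax ≤ a ∧ N₀ ≤ a ∧ N₁ ≤ a ∧ c ≤ a ∧
      c₁ + Fintype.card ι + 1 + T₁.card + T₂.card ≤ (a : ℤ) :=
    ⟨max (max Nmax N₀) (max (max N₁ c.toNat)
        (c₁ + Fintype.card ι + 1 + T₁.card + T₂.card).toNat),
      (le_max_left _ _).trans (le_max_left _ _), (le_max_right _ _).trans (le_max_left _ _),
      ((le_max_left _ _).trans (le_max_left _ _)).trans (le_max_right _ _),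
      Int.toNat_le.1 (((le_max_right _ _).trans (le_max_left _ _)).trans (le_max_right _ _)),
      Int.toNat_le.1 ((le_max_right _ _).trans (le_max_right _ _))⟩
  have hT₁0 : (0 : ℤ) ≤ T₁.card := Int.natCast_nonneg _
  have hT₂0 : (0 : ℤ) ≤ T₂.card := Int.natCast_nonneg _
  have hg0 : (0 : ℤ) ≤ genusFF Qb ↥(laurentBaseChange Qb (modularFunctionFieldFull (M * q))) :=
    Int.natCast_nonneg _
  refine KerDivKD.hKD_of_twisted hPR hF hκ hκ hinj₁ hinj₂ hc₁ hc₁ hLat hdegB hB₁e hB₂e hns.le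
    (C := a • (E1 + E2)) (C₁ := a • (P₁ + Z₁)) (C₂ := a • (P₂ + Z₂)) (hQ₁e a) (hQ₂e a)
    ?_ ?_ ?_ ?_ (fun t ht => (hRC a haN₁ hac t).2 ht)
    (E := m • (E1 + E2)) (E₁ := m • (P₁ + Z₁)) (E₂ := m • (P₂ + Z₂)) (hQ₁e m) (hQ₂e m)
    ?_ (hRC m hmN₁ hmc) ?_ V ?_
  · rw [map_sub, hdB₁]
    have := hle₁ a
    linarith
  · rw [map_sub, hdB₂]
    have := hle₂ a
    linarith
  · have := hle₁ a
    linarith
  · have := hle₂ a
    linarith
  · rw [map_sub, hdegB]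
    linarith
  · intro y hy
    have h1 : (y : laurentBaseChange Qb (modularFunctionFieldFull (M * q))) ∈
        riemannRochSpace ((m + a) • (E1 + E2) - RR.sumPl T) := by
      rw [add_smul]
      exact hy
    have h2 := (hRC (m + a) (by omega) (by push_cast; linarith [Int.natCast_nonneg m]) _).1
      ⟨y, h1, rfl⟩
    rw [add_smul, add_smul] at h2
    exact h2
  · intro v hv
    refine ⟨(D' ⟨v, hv⟩ : Divisor Qb (laurentBaseChange Qb (modularFunctionFieldFull (M * q)))),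
      ⟨(D' ⟨v, hv⟩).2, hD' ⟨v, hv⟩⟩, 1, 1, one_mul 1, fun t => ?_⟩
    have h1 := (hNv ⟨v, hv⟩ a a (by have := hNv' ⟨v, hv⟩; omega) t).1
    have h2 := hS a haN₀ t
    rw [smul_add a E1 E2] at h2 ⊢
    rw [← add_assoc]
    simp only [one_mul]
    exact h1.trans h2

end Main

/-! ### from the lifts of smooth points -/

section Lift

variable {A : ValuationSubring Qb} {M q : ℕ} [NeZero M] [NeZero q]

/-- The body of `KerRed.NodalFibreFor` for a given datum `(ι, e₁, e₂, P₁, Z₁, P₂, Z₂)`. -/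
def DatumFor {k : Type} [Field k] {π : A →+* k} (h : BadSetup A π M q)
    (W : laurentBaseChange Qb (modularFunctionFieldFull (M * q)) ≃ₐ[Qb]
      laurentBaseChange Qb (modularFunctionFieldFull (M * q)))
    (E1 E2 : Divisor Qb (laurentBaseChange Qb (modularFunctionFieldFull (M * q))))
    {ι : Type} (e₁ e₂ : ι → Place k (modularFunctionFieldFullC k M))
    (P₁ Z₁ P₂ Z₂ : Divisor k (modularFunctionFieldFullC k M)) : Prop :=
  Function.Injective e₁ ∧ Function.Injective e₂ ∧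
    (∀ i, P₁ (e₁ i) = 0) ∧ (∀ i, Z₁ (e₁ i) = 0) ∧ (∀ i, P₂ (e₂ i) = 0) ∧ (∀ i, Z₂ (e₂ i) = 0) ∧
    (∀ v, P₁ v = 0 ∨ Z₁ v = 0) ∧ (∀ v, P₂ v = 0 ∨ Z₂ v = 0) ∧
    0 < Divisor.degree P₁ ∧ 0 < Divisor.degree P₂ ∧
    (∀ v, 0 ≤ E1 v) ∧ (∀ v, 0 ≤ E2 v) ∧ (∀ v, E1 v = 0 ∨ E2 v = 0) ∧
    0 < Divisor.degree E1 ∧ 0 < Divisor.degree E2 ∧
    (∀ σ ∈ A.inertiaSubgroupIn ℚ,
      arithmeticGalois (modularFunctionFieldFull (M * q)) σ • E1 = E1 ∧
      arithmeticGalois (modularFunctionFieldFull (M * q)) σ • E2 = E2) ∧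
    ∃ N₀ : ℕ, ∀ n₁ n₂ : ℕ, N₀ ≤ n₁ + n₂ →
      ∀ t : ↥(modularFunctionFieldFullC k M) × ↥(modularFunctionFieldFullC k M),
        (∃ y : OPair h W,
            (y : laurentBaseChange Qb (modularFunctionFieldFull (M * q))) ∈
              riemannRochSpace (n₁ • E1 + n₂ • E2) ∧ redPair h W y = t) ↔
          t ∈ gluedSpace e₁ e₂ (fun _ => (1 : k))
            (n₁ • P₁ + n₂ • Z₁) (n₁ • P₂ + n₂ • Z₂)

theorem nodalFibreFor_iff {k : Type} [Field k] {π : A →+* k} (h : BadSetup A π M q)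
    (W : laurentBaseChange Qb (modularFunctionFieldFull (M * q)) ≃ₐ[Qb]
      laurentBaseChange Qb (modularFunctionFieldFull (M * q)))
    (E1 E2 : Divisor Qb (laurentBaseChange Qb (modularFunctionFieldFull (M * q)))) :
    NodalFibreFor h W E1 E2 ↔ ∃ (ι : Type) (_ : Fintype ι) (_ : Nonempty ι)
      (e₁ e₂ : ι → Place k (modularFunctionFieldFullC k M))
      (P₁ Z₁ P₂ Z₂ : Divisor k (modularFunctionFieldFullC k M)),
      DatumFor h W E1 E2 e₁ e₂ P₁ Z₁ P₂ Z₂ :=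
  Iff.rfl

set_option synthInstance.maxHeartbeats 400000 in
set_option maxHeartbeats 1600000 in
/-- **Small orders on the kernel of reduction** from a nodal datum and the inertia-fixed lifts
of the smooth points of the two components (the hypotheses `hlift₁`, `hlift₂` of
`BAD.BasePts.exists_basePoints`, with empty exceptional sets). -/
theorem smallOrders_of_datum_lift (hq : q.Prime) (hA : A.LiesOverPrime q)
    (h : BadSetup A (IsLocalRing.residue A) M q)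
    (W : laurentBaseChange Qb (modularFunctionFieldFull (M * q)) ≃ₐ[Qb]
      laurentBaseChange Qb (modularFunctionFieldFull (M * q))) (hW : IsAL M q W)
    {E1 E2 : Divisor Qb (laurentBaseChange Qb (modularFunctionFieldFull (M * q)))}
    {ι : Type} [Fintype ι] [Nonempty ι]
    (e₁ e₂ : ι → Place (IsLocalRing.ResidueField A)
      (modularFunctionFieldFullC (IsLocalRing.ResidueField A) M))
    (P₁ Z₁ P₂ Z₂ : Divisor (IsLocalRing.ResidueField A)
      (modularFunctionFieldFullC (IsLocalRing.ResidueField A) M))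
    (hdat : DatumFor h W E1 E2 e₁ e₂ P₁ Z₁ P₂ Z₂)
    (hlift₁ : ∀ Qt : Place (IsLocalRing.ResidueField A)
        (modularFunctionFieldFullC (IsLocalRing.ResidueField A) M),
      (∀ i, e₁ i ≠ Qt) → P₁ Qt = 0 → Z₁ Qt = 0 →
      ∃ Q : Place Qb (laurentBaseChange Qb (modularFunctionFieldFull (M * q))),
        (∀ σ ∈ A.inertiaSubgroupIn ℚ,
          arithmeticGalois (modularFunctionFieldFull (M * q)) σ • Q = Q) ∧
        E1 Q = 0 ∧ E2 Q = 0 ∧ Fermat.Agent.BAD.BasePts.RedTo₁ h W E1 E2 Q Qt)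
    (hlift₂ : ∀ Qt : Place (IsLocalRing.ResidueField A)
        (modularFunctionFieldFullC (IsLocalRing.ResidueField A) M),
      (∀ i, e₂ i ≠ Qt) → P₂ Qt = 0 → Z₂ Qt = 0 →
      ∃ Q : Place Qb (laurentBaseChange Qb (modularFunctionFieldFull (M * q))),
        (∀ σ ∈ A.inertiaSubgroupIn ℚ,
          arithmeticGalois (modularFunctionFieldFull (M * q)) σ • Q = Q) ∧
        E1 Q = 0 ∧ E2 Q = 0 ∧ Fermat.Agent.BAD.BasePts.RedTo₂ h W E1 E2 Q Qt) :
    Fermat.Agent.Padic.S33.RC.SmallOrders A (M * q) (kerRed h W) := by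
  have : IsAlgClosed (IsLocalRing.ResidueField A) := CharP.isAlgClosed_residueField A
  have hπ : Function.Surjective (IsLocalRing.residue A) := IsLocalRing.residue_surjective
  have hNF : NodalFibreFor h W E1 E2 :=
    ⟨ι, inferInstance, inferInstance, e₁, e₂, P₁, Z₁, P₂, Z₂, hdat⟩
  obtain ⟨hinj₁, hinj₂, hP₁, hZ₁, hP₂, hZ₂, -, -, hdegP₁, hdegP₂, hE1, hE2, -, hdegE1, hdegE2,
    hEI, hS2⟩ := hdat
  obtain ⟨T, T₁, T₂, hTg, hTT, -, hTI, -, -, -, hT₁e, hT₂e, -, -, hns, hRC2⟩ :=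
    Fermat.Agent.BAD.BasePts.exists_basePoints hπ h W hW E1 E2 e₁ e₂ P₁ Z₁ P₂ Z₂ hinj₂ hP₁ hZ₁
      hP₂ hZ₂ hdegP₁ hdegP₂ hdegE1 hdegE2 hS2 ∅ ∅
      (fun Qt _ => hlift₁ Qt) (fun Qt _ => hlift₂ Qt)
  exact smallOrders_of_datum hq hA h W hW hNF e₁ e₂ P₁ Z₁ P₂ Z₂ hinj₁ hinj₂ hP₁ hZ₁ hP₂ hZ₂
    hdegP₁ hdegP₂ hE1 hE2 hdegE1 hdegE2 hEI hS2 T T₁ T₂ hTg hTT hTI hT₁e hT₂e hns hRC2

end Lift

end Fermat.Agent.Padic.S33.RC.SmallBadB
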