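/-
S33 / Route C, the middle seam, SECOND SEAT (helper60): S33 from the ONE remaining statement (H).

* `HLift` : **(H)** — for every bad setup over `A ∣ q`, every Atkin–Lehner involution and every
  nodal datum (`SmallBadB.DatumFor`, the body of `KerRed.NodalFibreFor`): every point of either
  component of the special fibre off the nodes and off `P_j`, `Z_j` is the reduction
  (`BasePts.RedTo₁`, `RedTo₂`) of an inertia-fixed place of the generic fibre off `E1`, `E2`
  — literally the hypotheses `hlift₁`, `hlift₂` of `BAD.BasePts.exists_basePoints` with empty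
  exceptional sets;
* `kerRedSmall_of_hLift : HLift → KerRedSmall`;
* `S33_of_hLift : HLift → (frozen statement S33)`.
-/
import Mathlib
import Fermat.Agent.Padic.S33.RC.SmallBadB
import Fermat.Agent.Padic.S33.AsmSmall

set_option autoImplicit false

open ModularCurve AlgebraicCurve

namespace Fermat.Agent.Padic.S33.RC.SmallBadB

open Fermat.Agent.BAD.TwoVal Fermat.Agent.BAD.BadU Fermat.Agent.BAD.KerRed
  Fermat.Agent.BAD.NodalRiemann

local notation "Qb" => AlgebraicClosure ℚ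

/-- **(H)**: inertia-fixed lifts of the smooth points of the special fibre, for every nodal
datum. -/
def HLift : Prop :=
  ∀ (A : ValuationSubring Qb) (M q : ℕ) [NeZero M] [NeZero q]
    (h : BadSetup A (IsLocalRing.residue A) M q), A.LiesOverPrime q →
    ∀ W : laurentBaseChange Qb (modularFunctionFieldFull (M * q)) ≃ₐ[Qb]
      laurentBaseChange Qb (modularFunctionFieldFull (M * q)), IsAL M q W →
    ∀ (E1 E2 : Divisor Qb (laurentBaseChange Qb (modularFunctionFieldFull (M * q))))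
      (ι : Type) [Fintype ι] [Nonempty ι]
      (e₁ e₂ : ι → Place (IsLocalRing.ResidueField A)
        (modularFunctionFieldFullC (IsLocalRing.ResidueField A) M))
      (P₁ Z₁ P₂ Z₂ : Divisor (IsLocalRing.ResidueField A)
        (modularFunctionFieldFullC (IsLocalRing.ResidueField A) M)),
      DatumFor h W E1 E2 e₁ e₂ P₁ Z₁ P₂ Z₂ →
      (∀ Qt : Place (IsLocalRing.ResidueField A)
          (modularFunctionFieldFullC (IsLocalRing.ResidueField A) M),
        (∀ i, e₁ i ≠ Qt) → P₁ Qt = 0 → Z₁ Qt = 0 →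
        ∃ Q : Place Qb (laurentBaseChange Qb (modularFunctionFieldFull (M * q))),
          (∀ σ ∈ A.inertiaSubgroupIn ℚ,
            arithmeticGalois (modularFunctionFieldFull (M * q)) σ • Q = Q) ∧
          E1 Q = 0 ∧ E2 Q = 0 ∧ Fermat.Agent.BAD.BasePts.RedTo₁ h W E1 E2 Q Qt) ∧
      (∀ Qt : Place (IsLocalRing.ResidueField A)
          (modularFunctionFieldFullC (IsLocalRing.ResidueField A) M),
        (∀ i, e₂ i ≠ Qt) → P₂ Qt = 0 → Z₂ Qt = 0 →
        ∃ Q : Place Qb (laurentBaseChange Qb (modularFunctionFieldFull (M * q))),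
          (∀ σ ∈ A.inertiaSubgroupIn ℚ,
            arithmeticGalois (modularFunctionFieldFull (M * q)) σ • Q = Q) ∧
          E1 Q = 0 ∧ E2 Q = 0 ∧ Fermat.Agent.BAD.BasePts.RedTo₂ h W E1 E2 Q Qt)

/-- **Small orders on the kernel of reduction at the good pairs, from (H).** -/
theorem kerRedSmall_of_hLift (hH : HLift) : Fermat.Agent.Padic.S33.KerRedSmall := by
  intro A M q _ _ h hA hq2 hg W hW
  have hq : q.Prime := h.hℓ
  have hgood : 5 ≤ q ∨ (q = 3 ∧ 2 ∣ M) ∨ (q = 2 ∧ 3 ∣ M) := by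
    rcases hg with h5 | h2
    · exact Or.inl h5
    · by_cases h5 : 5 ≤ q
      · exact Or.inl h5
      · refine Or.inr (Or.inl ⟨?_, h2⟩)
        have hlt : q < 5 := Nat.lt_of_not_ge h5
        have h2' := hq.two_le
        interval_cases q
        · exact absurd rfl hq2
        · rfl
        · exact absurd hq (by decide)
  obtain ⟨E1, E2, hNF⟩ := (nodalFibreAt_iff h W).1
    (Fermat.Agent.BAD.NodalGood.nodalFibreAt_of_good A M q h hA hgood W hW)
  obtain ⟨ι, _, _, e₁, e₂, P₁, Z₁, P₂, Z₂, hdat⟩ := hNF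
  obtain ⟨hl₁, hl₂⟩ := hH A M q h hA W hW E1 E2 ι e₁ e₂ P₁ Z₁ P₂ Z₂ hdat
  exact smallOrders_of_datum_lift hq hA h W hW e₁ e₂ P₁ Z₁ P₂ Z₂ hdat hl₁ hl₂

variable {p : ℕ} {N : ℕ} [NeZero N] {S : Finset ℕ}
  {𝒪 : Type} [CommRing 𝒪] [IsDomain 𝒪] [IsDiscreteValuationRing 𝒪]
  [IsAdicComplete (IsLocalRing.maximalIdeal 𝒪) 𝒪]
  {θ : CuspForm.heckeAlgebra N 2 (↑S : Set ℕ) →+* IsLocalRing.ResidueField 𝒪}
  {T : Type} [CommRing T] [IsLocalRing T] [IsNoetherianRing T]
  [IsAdicComplete (IsLocalRing.maximalIdeal T) T] [Algebra 𝒪 T] [IsLocalHom (algebraMap 𝒪 T)]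
  [Module.Finite 𝒪 T] [Module.Free 𝒪 T]

/-- **S33 from (H).** -/
theorem S33_of_hLift (hH : HLift)
    [Finite (IsLocalRing.ResidueField 𝒪)] [CharZero 𝒪]
    (hp : p.Prime) (hp2 : p ≠ 2) (hp𝒪 : (p : 𝒪) ∈ IsLocalRing.maximalIdeal 𝒪)
    (hN : p ∣ N ∧ ¬ p ^ 2 ∣ N)
    (hNS : ∀ q : ℕ, q.Prime → q ∣ N → q ∈ S)
    (H : CuspForm.HeckeGaloisRepDatum N (↑S : Set ℕ) 𝒪 θ T)
    (hres : (GaloisRepAdic.ofResidualGaloisRep H.ρ.residual).IsOrdinaryAt p) :
    H.ρ.IsOrdinaryAt p :=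
  Fermat.Agent.Padic.S33.S33_of_kerRedSmall (kerRedSmall_of_hLift hH) hp hp2 hp𝒪 hN hNS H hres

end Fermat.Agent.Padic.S33.RC.SmallBadB
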