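/-
S33 / Route C, row (S-inst), second seat: the special facts `RC.SpecFacts` for the reductions
of the lattices `Λ(E)`, `Λ(E - B)`, `Λ(2E - B)` at the pair `(A, O_∞ ∩ O_0)` of a bad prime of
`X₀(Mq)`, for the diagonal chart divisor `E = m • (E1 + E2)` and the base divisor
`B = ∑_{Q ∈ T} Q` of `BAD.BasePts.exists_basePoints`.

* `diag_red` : on the diagonal charts the reduction of `Λ(n • (E1 + E2))` is the glued space of
  `(n • (P₁ + Z₁), n • (P₂ + Z₂))`;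
* `diag_red_sub` : the same for `Λ(n • (E1 + E2) - B)` (RC-2 on the diagonal);
* `exists_specFacts_sumPl` : for all large `m`, `5 g + 1 ≤ deg (m • (E1 + E2))` and
  `SpecFacts (red Λ(E)) (red Λ(E - B)) (red Λ(2 • E - B)) (2 deg E - 3 g + 1)` for
  `E = m • (E1 + E2)` — the hypotheses `hn`, `hfacts` of `RC.KDFormal.smallOrders_of_kd`
  (with `n := deg E`), in the binder shape of `RC.KerDivInst.exists_kd_kerRed_sumPl`.
-/
import Mathlib
import Fermat.Agent.Padic.S33.RC.SpecBad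
import Fermat.Agent.Padic.S33.RC.KerDivInst

set_option autoImplicit false

noncomputable section

namespace Fermat.Agent.Padic.S33.RC.SpecBadInstB

open AlgebraicCurve Module ModularCurve
open Fermat.Agent.Lib.FF Fermat.Agent.BAD.NodalRiemann
  Fermat.Agent.Padic.S33.RC Fermat.Agent.Padic.S33.RC.OrthoFam Fermat.Agent.Lib.Red.CoordLat
  Fermat.Agent.Padic.GenPosAbs
  Fermat.Agent.BAD.TwoVal Fermat.Agent.BAD.NodalAsm Fermat.Agent.BAD.BadU
  Fermat.Agent.BAD.KerRed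

local notation "Qb" => AlgebraicClosure ℚ

variable {A : ValuationSubring Qb} {k : Type} [Field k] {π : A →+* k} {M q : ℕ} [NeZero M]
  [NeZero q]

/-- The datum on the diagonal charts: `red Λ(n • (E1 + E2)) = G(n • (P₁ + Z₁), n • (P₂ + Z₂))`
for all large `n`. -/
theorem diag_red (h : BadSetup A π M q)
    (W : laurentBaseChange Qb (modularFunctionFieldFull (M * q)) ≃ₐ[Qb]
      laurentBaseChange Qb (modularFunctionFieldFull (M * q)))
    {E1 E2 : Divisor Qb (laurentBaseChange Qb (modularFunctionFieldFull (M * q)))}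
    {ι : Type} (e₁ e₂ : ι → Place k (modularFunctionFieldFullC k M))
    (P₁ Z₁ P₂ Z₂ : Divisor k (modularFunctionFieldFullC k M))
    (hS2 : ∃ N₀ : ℕ, ∀ n₁ n₂ : ℕ, N₀ ≤ n₁ + n₂ →
      ∀ t : ↥(modularFunctionFieldFullC k M) × ↥(modularFunctionFieldFullC k M),
        (∃ y : OPair h W,
            (y : laurentBaseChange Qb (modularFunctionFieldFull (M * q))) ∈
              riemannRochSpace (n₁ • E1 + n₂ • E2) ∧ redPair h W y = t) ↔
          t ∈ gluedSpace e₁ e₂ (fun _ => (1 : k))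
            (n₁ • P₁ + n₂ • Z₁) (n₁ • P₂ + n₂ • Z₂))
    (hP : PRed A (OPair h W) (redPair h W) π) :
    ∃ N₀ : ℕ, ∀ n : ℕ, N₀ ≤ n → hP.redSub (riemannRochSpace (n • (E1 + E2)))
      = gluedSpace e₁ e₂ (fun _ => (1 : k)) (n • (P₁ + Z₁)) (n • (P₂ + Z₂)) := by
  obtain ⟨N₀, hN₀⟩ := hS2
  refine ⟨N₀, fun n hn => ?_⟩
  rw [nsmul_add, nsmul_add, nsmul_add]
  exact Submodule.ext fun t => hN₀ n n (hn.trans (Nat.le_add_right _ _)) t

/-- RC-2 on the diagonal charts: `red Λ(n • (E1 + E2) - B) = G(n • (P₁ + Z₁) - B₁,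
n • (P₂ + Z₂) - B₂)` for all large `n`. -/
theorem diag_red_sub (h : BadSetup A π M q)
    (W : laurentBaseChange Qb (modularFunctionFieldFull (M * q)) ≃ₐ[Qb]
      laurentBaseChange Qb (modularFunctionFieldFull (M * q)))
    {E1 E2 : Divisor Qb (laurentBaseChange Qb (modularFunctionFieldFull (M * q)))}
    {ι : Type} (e₁ e₂ : ι → Place k (modularFunctionFieldFullC k M))
    (P₁ Z₁ P₂ Z₂ : Divisor k (modularFunctionFieldFullC k M))
    (hdegP₁ : 0 < Divisor.degree P₁) (hdegP₂ : 0 < Divisor.degree P₂)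
    (hdegZ₁ : 0 ≤ Divisor.degree Z₁) (hdegZ₂ : 0 ≤ Divisor.degree Z₂)
    (B : Divisor Qb (laurentBaseChange Qb (modularFunctionFieldFull (M * q))))
    (B₁ B₂ : Divisor k (modularFunctionFieldFullC k M))
    (hRC2 : ∃ (c : ℤ) (N₀ : ℕ), ∀ n₁ n₂ : ℕ, N₀ ≤ n₁ + n₂ →
      c ≤ Divisor.degree (n₁ • P₁ + n₂ • Z₁) → c ≤ Divisor.degree (n₁ • P₂ + n₂ • Z₂) →
      ∀ t : ↥(modularFunctionFieldFullC k M) × ↥(modularFunctionFieldFullC k M),
        (∃ y : OPair h W,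
            (y : laurentBaseChange Qb (modularFunctionFieldFull (M * q))) ∈
              riemannRochSpace (n₁ • E1 + n₂ • E2 - B) ∧ redPair h W y = t) ↔
          t ∈ gluedSpace e₁ e₂ (fun _ => (1 : k))
            (n₁ • P₁ + n₂ • Z₁ - B₁) (n₁ • P₂ + n₂ • Z₂ - B₂))
    (hP : PRed A (OPair h W) (redPair h W) π) :
    ∃ N₁ : ℕ, ∀ n : ℕ, N₁ ≤ n → hP.redSub (riemannRochSpace (n • (E1 + E2) - B))
      = gluedSpace e₁ e₂ (fun _ => (1 : k)) (n • (P₁ + Z₁) - B₁) (n • (P₂ + Z₂) - B₂) := by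
  obtain ⟨c, N₀, hc⟩ := hRC2
  refine ⟨max N₀ c.toNat, fun n hn => ?_⟩
  have hnN : N₀ ≤ n + n := ((le_max_left _ _).trans hn).trans (Nat.le_add_right _ _)
  have hnc : c ≤ (n : ℤ) := by
    have h1 : c.toNat ≤ n := (le_max_right _ _).trans hn
    exact (Int.self_le_toNat c).trans (by exact_mod_cast h1)
  have hn0 : (0 : ℤ) ≤ n := Int.natCast_nonneg _
  have d1 : c ≤ Divisor.degree (n • P₁ + n • Z₁) := by
    rw [map_add, map_nsmul, map_nsmul, nsmul_eq_mul, nsmul_eq_mul]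
    nlinarith
  have d2 : c ≤ Divisor.degree (n • P₂ + n • Z₂) := by
    rw [map_add, map_nsmul, map_nsmul, nsmul_eq_mul, nsmul_eq_mul]
    nlinarith
  rw [nsmul_add, nsmul_add, nsmul_add]
  exact Submodule.ext fun t => hc n n hnN d1 d2 t

/-- **(S-inst).**  The special facts for the kernel-of-reduction setting of `J₀(Mq)` at `q`:
for every large `m`, the divisor `E = m • (E1 + E2)` has degree `≥ 5 g + 1` and
`SpecFacts (red Λ(E)) (red Λ(E - B)) (red Λ(2 • E - B)) (2 deg E - 3 g + 1)` with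
`B = ∑_{Q ∈ T} Q` — the hypotheses `hn`, `hfacts` of `RC.KDFormal.smallOrders_of_kd` at
`n := deg E`.  The hypotheses are the nodal datum and the conclusion of
`BAD.BasePts.exists_basePoints`, in the binder shape of
`RC.KerDivInst.exists_kd_kerRed_sumPl` (plus `hTsum : #T = #T₁ + #T₂`). -/
theorem exists_specFacts_sumPl [IsAlgClosed k] (hπ : Function.Surjective π)
    (h : BadSetup A π M q)
    (W : laurentBaseChange Qb (modularFunctionFieldFull (M * q)) ≃ₐ[Qb]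
      laurentBaseChange Qb (modularFunctionFieldFull (M * q))) (hW : IsAL M q W)
    {E1 E2 : Divisor Qb (laurentBaseChange Qb (modularFunctionFieldFull (M * q)))}
    (hNF : NodalFibreFor h W E1 E2)
    {ι : Type} [Fintype ι] [Nonempty ι]
    (e₁ e₂ : ι → Place k (modularFunctionFieldFullC k M))
    (P₁ Z₁ P₂ Z₂ : Divisor k (modularFunctionFieldFullC k M))
    (hinj₁ : Function.Injective e₁) (hinj₂ : Function.Injective e₂)
    (hP₁ : ∀ i, P₁ (e₁ i) = 0) (hZ₁ : ∀ i, Z₁ (e₁ i) = 0)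
    (hP₂ : ∀ i, P₂ (e₂ i) = 0) (hZ₂ : ∀ i, Z₂ (e₂ i) = 0)
    (hdegP₁ : 0 < Divisor.degree P₁) (hdegP₂ : 0 < Divisor.degree P₂)
    (hS2 : ∃ N₀ : ℕ, ∀ n₁ n₂ : ℕ, N₀ ≤ n₁ + n₂ →
      ∀ t : ↥(modularFunctionFieldFullC k M) × ↥(modularFunctionFieldFullC k M),
        (∃ y : OPair h W,
            (y : laurentBaseChange Qb (modularFunctionFieldFull (M * q))) ∈
              riemannRochSpace (n₁ • E1 + n₂ • E2) ∧ redPair h W y = t) ↔
          t ∈ gluedSpace e₁ e₂ (fun _ => (1 : k))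
            (n₁ • P₁ + n₂ • Z₁) (n₁ • P₂ + n₂ • Z₂))
    (T : Finset (Place Qb (laurentBaseChange Qb (modularFunctionFieldFull (M * q)))))
    (T₁ T₂ : Finset (Place k (modularFunctionFieldFullC k M)))
    (hTcard : (T.card : ℤ) =
      genusFF Qb ↥(laurentBaseChange Qb (modularFunctionFieldFull (M * q))))
    (hTsum : T.card = T₁.card + T₂.card)
    (hT₁ : ∀ i, e₁ i ∉ T₁) (hT₂ : ∀ i, e₂ i ∉ T₂)
    (hns : gluedSpace e₁ e₂ (fun _ => (1 : k)) (RR.sumPl T₁) (RR.sumPl T₂) =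
      gluedSpace e₁ e₂ (fun _ => (1 : k)) 0 0)
    (hRC2 : ∃ (c : ℤ) (N₀ : ℕ), ∀ n₁ n₂ : ℕ, N₀ ≤ n₁ + n₂ →
      c ≤ Divisor.degree (n₁ • P₁ + n₂ • Z₁) → c ≤ Divisor.degree (n₁ • P₂ + n₂ • Z₂) →
      ∀ t : ↥(modularFunctionFieldFullC k M) × ↥(modularFunctionFieldFullC k M),
        (∃ y : OPair h W,
            (y : laurentBaseChange Qb (modularFunctionFieldFull (M * q))) ∈
              riemannRochSpace (n₁ • E1 + n₂ • E2 - RR.sumPl T) ∧ redPair h W y = t) ↔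
          t ∈ gluedSpace e₁ e₂ (fun _ => (1 : k))
            (n₁ • P₁ + n₂ • Z₁ - RR.sumPl T₁) (n₁ • P₂ + n₂ • Z₂ - RR.sumPl T₂))
    (hP : PRed A (OPair h W) (redPair h W) π) :
    ∃ m₀ : ℕ, ∀ m : ℕ, m₀ ≤ m →
      5 * (genusFF Qb ↥(laurentBaseChange Qb (modularFunctionFieldFull (M * q))) : ℤ) + 1
          ≤ Divisor.degree (m • (E1 + E2)) ∧
      SpecFacts (hP.redSub (riemannRochSpace (m • (E1 + E2))))
        (hP.redSub (riemannRochSpace (m • (E1 + E2) - RR.sumPl T)))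
        (hP.redSub (riemannRochSpace (2 • (m • (E1 + E2)) - RR.sumPl T)))
        (2 * Divisor.degree (m • (E1 + E2))
          - 3 * genusFF Qb ↥(laurentBaseChange Qb (modularFunctionFieldFull (M * q))) + 1) := by
  have hNF' := hNF
  obtain ⟨_, _, _, _, _, _, _, _, _, -, -, -, -, -, -, -, -, -, -, hE1, hE2, -, hdegE1, hdegE2,
    -, -⟩ := hNF'
  obtain ⟨hP₁0, hZ₁0, hP₂0, hZ₂0⟩ :=
    KerDivInst.nonneg_of_datum h W hE1 hE2 e₁ e₂ P₁ Z₁ P₂ Z₂ hS2
  have hκ := isFF1_xk k M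
  have hdZ₁ : 0 ≤ Divisor.degree Z₁ := Fermat.Agent.Lib.FF.GenPos.degree_nonneg hκ hZ₁0
  have hdZ₂ : 0 ≤ Divisor.degree Z₂ := Fermat.Agent.Lib.FF.GenPos.degree_nonneg hκ hZ₂0
  have hLat : LatAt h W := latAt hπ h W hW
  have hdegB : Divisor.degree (RR.sumPl T₁) + Divisor.degree (RR.sumPl T₂) =
      genusFF Qb ↥(laurentBaseChange Qb (modularFunctionFieldFull (M * q))) := by
    rw [RR.degree_sumPl hκ.resK, RR.degree_sumPl hκ.resK, ← hTcard, hTsum]
    push_cast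
    ring
  exact SpecBad.exists_specFacts_red hP (isFF1_xL Qb (M * q)) hκ hκ e₁ e₂ hinj₁ hinj₂ hLat
    (E1 + E2) (P₁ + Z₁) (P₂ + Z₂)
    (fun i => by rw [Finsupp.add_apply, hP₁ i, hZ₁ i, add_zero])
    (fun i => by rw [Finsupp.add_apply, hP₂ i, hZ₂ i, add_zero])
    (by rw [map_add]; linarith) (by rw [map_add]; linarith) (by rw [map_add]; linarith)
    (diag_red h W e₁ e₂ P₁ Z₁ P₂ Z₂ hS2 hP)
    (RR.sumPl T) (RR.sumPl T₁) (RR.sumPl T₂)
    (fun i => RR.sumPl_apply_of_notMem (hT₁ i)) (fun i => RR.sumPl_apply_of_notMem (hT₂ i))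
    (RR.sumPl_nonneg T₁) (RR.sumPl_nonneg T₂) hns.le hdegB
    (diag_red_sub h W e₁ e₂ P₁ Z₁ P₂ Z₂ hdegP₁ hdegP₂ hdZ₁ hdZ₂ (RR.sumPl T) (RR.sumPl T₁)
      (RR.sumPl T₂) hRC2 hP)

end Fermat.Agent.Padic.S33.RC.SpecBadInstB
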